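import Fermat.Agent.RED.Interface2
import Fermat.Agent.S24.PlaceCases

/-!
# RED-EV, part 1 : API of `Ev`
-/

set_option autoImplicit false

namespace Fermat.Agent.RED

open AlgebraicCurve Polynomial IntermediateField

section Nonunits

variable {F : Type*} [Field F]

theorem EV_mem_nonunits_iff (O : ValuationSubring F) (z : F) :
    z ∈ O.nonunits ↔ z = 0 ∨ z⁻¹ ∉ O := by
  rw [ValuationSubring.mem_nonunits_iff]
  constructor
  · intro h
    by_cases hz : z = 0
    · exact Or.inl hz
    · refine Or.inr fun hinv => ?_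
      rw [← ValuationSubring.valuation_le_one_iff, map_inv₀] at hinv
      have h0 : O.valuation z ≠ 0 := (Valuation.ne_zero_iff _).2 hz
      have : 1 ≤ O.valuation z := (inv_le_one₀ (zero_lt_iff.2 h0)).1 hinv
      exact absurd h (not_lt.2 this)
  · rintro (rfl | h)
    · rw [map_zero]; exact zero_lt_one
    · rw [← ValuationSubring.valuation_le_one_iff, not_le, map_inv₀] at h
      by_cases h0 : O.valuation z = 0
      · rw [h0]; exact zero_lt_one
      · exact (one_lt_inv₀ (zero_lt_iff.2 h0)).1 h

theorem EV_nonunits_mem (O : ValuationSubring F) {z : F} (h : z ∈ O.nonunits) : z ∈ O := by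
  rw [ValuationSubring.mem_nonunits_iff] at h
  exact (ValuationSubring.valuation_le_one_iff _ _).1 h.le

theorem EV_nonunits_add (O : ValuationSubring F) {a b : F} (ha : a ∈ O.nonunits)
    (hb : b ∈ O.nonunits) : a + b ∈ O.nonunits := by
  rw [ValuationSubring.mem_nonunits_iff] at *
  exact Valuation.map_add_lt _ ha hb

theorem EV_nonunits_neg (O : ValuationSubring F) {a : F} (ha : a ∈ O.nonunits) :
    -a ∈ O.nonunits := by
  rw [ValuationSubring.mem_nonunits_iff] at *
  rwa [Valuation.map_neg]

theorem EV_nonunits_sub (O : ValuationSubring F) {a b : F} (ha : a ∈ O.nonunits)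
    (hb : b ∈ O.nonunits) : a - b ∈ O.nonunits := by
  rw [sub_eq_add_neg]
  exact EV_nonunits_add O ha (EV_nonunits_neg O hb)

theorem EV_nonunits_mul_mem (O : ValuationSubring F) {a b : F} (ha : a ∈ O.nonunits)
    (hb : b ∈ O) : a * b ∈ O.nonunits := by
  rw [ValuationSubring.mem_nonunits_iff] at *
  rw [← ValuationSubring.valuation_le_one_iff] at hb
  rw [map_mul]
  exact lt_of_le_of_lt (mul_le_of_le_one_right' hb) ha

theorem EV_mem_mul_nonunits (O : ValuationSubring F) {a b : F} (ha : a ∈ O)
    (hb : b ∈ O.nonunits) : a * b ∈ O.nonunits := by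
  rw [mul_comm]
  exact EV_nonunits_mul_mem O hb ha

theorem EV_zero_mem_nonunits (O : ValuationSubring F) : (0 : F) ∈ O.nonunits :=
  (EV_mem_nonunits_iff O 0).2 (Or.inl rfl)

end Nonunits

section Basic

variable {K F : Type*} [Field K] [Field F] [Algebra K F] {P : Place K F} {y y' : F} {c c' : K}

theorem EV_const_not_mem_nonunits (P : Place K F) {c : K} (hc : c ≠ 0) :
    algebraMap K F c ∉ P.toValuationSubring.nonunits := by
  rw [EV_mem_nonunits_iff, not_or, not_not]
  refine ⟨by simpa using hc, ?_⟩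
  rw [← map_inv₀]
  exact P.algebraMap_mem' _

theorem ev_mem (h : Ev P y c) : y ∈ P.toValuationSubring := by
  have := add_mem (EV_nonunits_mem _ h) (P.algebraMap_mem' c)
  rwa [sub_add_cancel] at this

theorem ev_unique (h : Ev P y c) (h' : Ev P y c') : c = c' := by
  by_contra hne
  have h1 := EV_nonunits_sub _ h' h
  have h2 : y - algebraMap K F c' - (y - algebraMap K F c) = algebraMap K F (c - c') := by
    rw [map_sub]; ring
  rw [h2] at h1
  exact EV_const_not_mem_nonunits P (sub_ne_zero.2 hne) h1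

theorem ev_const (P : Place K F) (c : K) : Ev P (algebraMap K F c) c := by
  unfold Ev
  rw [sub_self]
  exact EV_zero_mem_nonunits _

theorem ev_zero (P : Place K F) : Ev P 0 0 := by
  simpa using ev_const P 0

theorem ev_one (P : Place K F) : Ev P 1 1 := by
  simpa using ev_const P 1

theorem ev_add (h : Ev P y c) (h' : Ev P y' c') : Ev P (y + y') (c + c') := by
  have := EV_nonunits_add _ h h'
  unfold Ev
  convert this using 1
  rw [map_add]; ring

theorem ev_neg (h : Ev P y c) : Ev P (-y) (-c) := by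
  have := EV_nonunits_neg _ h
  unfold Ev
  convert this using 1
  rw [map_neg]; ring

theorem ev_sub (h : Ev P y c) (h' : Ev P y' c') : Ev P (y - y') (c - c') := by
  rw [sub_eq_add_neg, sub_eq_add_neg]
  exact ev_add h (ev_neg h')

theorem ev_mul (h : Ev P y c) (h' : Ev P y' c') : Ev P (y * y') (c * c') := by
  have := EV_nonunits_add _ (EV_nonunits_mul_mem _ h (ev_mem h'))
    (EV_mem_mul_nonunits _ (P.algebraMap_mem' c) h')
  unfold Ev
  convert this using 1
  rw [map_mul]; ring

theorem ev_pow (h : Ev P y c) (n : ℕ) : Ev P (y ^ n) (c ^ n) := by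
  induction n with
  | zero => simpa using ev_one P
  | succ n ih => rw [pow_succ, pow_succ]; exact ev_mul ih h

theorem ev_sum {ι : Type*} (s : Finset ι) (f : ι → F) (g : ι → K)
    (h : ∀ i ∈ s, Ev P (f i) (g i)) : Ev P (∑ i ∈ s, f i) (∑ i ∈ s, g i) := by
  classical
  induction s using Finset.induction_on with
  | empty => simpa using ev_zero P
  | insert a s ha ih =>
    rw [Finset.sum_insert ha, Finset.sum_insert ha]
    exact ev_add (h a (Finset.mem_insert_self a s))
      (ih fun i hi => h i (Finset.mem_insert_of_mem hi))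

theorem ev_prod {ι : Type*} (s : Finset ι) (f : ι → F) (g : ι → K)
    (h : ∀ i ∈ s, Ev P (f i) (g i)) : Ev P (∏ i ∈ s, f i) (∏ i ∈ s, g i) := by
  classical
  induction s using Finset.induction_on with
  | empty => simpa using ev_one P
  | insert a s ha ih =>
    rw [Finset.prod_insert ha, Finset.prod_insert ha]
    exact ev_mul (h a (Finset.mem_insert_self a s))
      (ih fun i hi => h i (Finset.mem_insert_of_mem hi))

theorem ev_zero_iff : Ev P y 0 ↔ y ∈ P.toValuationSubring.nonunits := by
  unfold Ev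
  rw [map_zero, sub_zero]

theorem EV_not_mem_nonunits (h : Ev P y c) (hc : c ≠ 0) : y ∉ P.toValuationSubring.nonunits := by
  intro hy
  exact hc (ev_unique h (ev_zero_iff.2 hy))

theorem EV_ne_zero (h : Ev P y c) (hc : c ≠ 0) : y ≠ 0 := by
  rintro rfl
  exact EV_not_mem_nonunits h hc (EV_zero_mem_nonunits _)

theorem EV_inv_mem (h : Ev P y c) (hc : c ≠ 0) : y⁻¹ ∈ P.toValuationSubring := by
  have := EV_not_mem_nonunits h hc
  rw [EV_mem_nonunits_iff, not_or, not_not] at this
  exact this.2

theorem ev_inv (h : Ev P y c) (hc : c ≠ 0) : Ev P y⁻¹ c⁻¹ := by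
  have hy0 := EV_ne_zero h hc
  have h1 := EV_nonunits_neg _ (EV_nonunits_mul_mem _ h
    (mul_mem (EV_inv_mem h hc) (P.algebraMap_mem' c⁻¹)))
  unfold Ev
  convert h1 using 1
  have hc' : algebraMap K F c ≠ 0 := by simpa using hc
  rw [map_inv₀]
  field_simp
  ring

theorem ev_div (h : Ev P y c) (h' : Ev P y' c') (hc : c' ≠ 0) : Ev P (y / y') (c / c') := by
  rw [div_eq_mul_inv, div_eq_mul_inv]
  exact ev_mul h (ev_inv h' hc)

theorem ev_zero_iff_ord (hy : y ≠ 0) : Ev P y 0 ↔ 0 < P.ord y := by
  rw [ev_zero_iff, ValuationSubring.mem_nonunits_iff_exists_mem_maximalIdeal]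
  constructor
  · rintro ⟨hmem, hmax⟩
    exact (S24.mem_maximalIdeal_iff_ord_pos P ⟨y, hmem⟩
      (fun h0 => hy (congrArg Subtype.val h0))).1 hmax
  · intro h
    have hmem := S24.mem_of_ord_nonneg P hy h.le
    exact ⟨hmem, (S24.mem_maximalIdeal_iff_ord_pos P ⟨y, hmem⟩
      (fun h0 => hy (congrArg Subtype.val h0))).2 h⟩

theorem ev_ord_eq_zero (h : Ev P y c) (hc : c ≠ 0) : P.ord y = 0 := by
  have hy0 := EV_ne_zero h hc
  have h1 := S24.ord_nonneg_of_mem P (ev_mem h)
  have h2 := S24.ord_nonneg_of_mem P (EV_inv_mem h hc)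
  rw [P.ord_inv] at h2
  omega

theorem ev_polyHom {A : ValuationSubring K} {x : F} (h : Ev P x c) (p : (↥A)[X]) :
    Ev P (polyHom A x p) (p.eval₂ A.subtype c) := by
  induction p using Polynomial.induction_on' with
  | add p q hp hq =>
    rw [map_add, eval₂_add]
    exact ev_add hp hq
  | monomial n a =>
    have e : polyHom A x (monomial n a) = algebraMap K F (a : K) * x ^ n := by
      simp [polyHom]
    rw [e, eval₂_monomial]
    exact ev_mul (ev_const P _) (ev_pow h n)

theorem ev_aeval {x : F} (h : Ev P x c) (p : K[X]) : Ev P (aeval x p) (p.eval c) := by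
  induction p using Polynomial.induction_on' with
  | add p q hp hq =>
    rw [map_add, eval_add]
    exact ev_add hp hq
  | monomial n a =>
    rw [aeval_monomial, eval_monomial]
    exact ev_mul (ev_const P _) (ev_pow h n)

theorem ev_eval_coeff (p : F[X]) (p' : K[X]) (hp : ∀ i, Ev P (p.coeff i) (p'.coeff i))
    (h : Ev P y c) : Ev P (p.eval y) (p'.eval c) := by
  rw [eval_eq_sum_range' (Nat.lt_succ_of_le (le_max_left p.natDegree p'.natDegree)),
    eval_eq_sum_range' (Nat.lt_succ_of_le (le_max_right p.natDegree p'.natDegree))]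
  exact ev_sum _ _ _ fun i _ => ev_mul (hp i) (ev_pow h i)

end Basic

section Exists

variable {K F : Type*} [Field K] [IsAlgClosed K] [Field F] [Algebra K F] {P : Place K F} {y : F}

theorem ev_exists (x : F) (hx : Transcendental K x) [FiniteDimensional K⟮x⟯ F]
    (hy : y ∈ P.toValuationSubring) : ∃ c, Ev P y c := by
  have hdeg : Module.finrank K P.ResidueField = 1 := S24.place_deg_eq_one x hx P
  have htop : (⊥ : Subalgebra K P.ResidueField) = ⊤ := Subalgebra.bot_eq_top_of_finrank_eq_one hdeg
  have hin : IsLocalRing.residue P.toValuationSubring ⟨y, hy⟩ ∈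
      (⊥ : Subalgebra K P.ResidueField) := by
    rw [htop]; exact Algebra.mem_top
  obtain ⟨c, hc⟩ := Algebra.mem_bot.1 hin
  refine ⟨c, ?_⟩
  unfold Ev
  rw [ValuationSubring.mem_nonunits_iff_exists_mem_maximalIdeal]
  refine ⟨sub_mem hy (P.algebraMap_mem' c), ?_⟩
  have : (⟨y - algebraMap K F c, sub_mem hy (P.algebraMap_mem' c)⟩ : P.toValuationSubring)
      = ⟨y, hy⟩ - algebraMap K P.toValuationSubring c := rfl
  rw [this, ← IsLocalRing.residue_eq_zero_iff, map_sub, ← hc, sub_eq_zero]
  rfl

theorem ev_or_inv (x : F) (hx : Transcendental K x) [FiniteDimensional K⟮x⟯ F] (P : Place K F)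
    (y : F) : (∃ c, Ev P y c) ∨ Ev P y⁻¹ 0 := by
  by_cases hy : y ∈ P.toValuationSubring
  · exact Or.inl (ev_exists x hx hy)
  · refine Or.inr (ev_zero_iff.2 ((EV_mem_nonunits_iff _ _).2 (Or.inr ?_)))
    rwa [inv_inv]

end Exists

section Smul

variable {K F : Type*} [Field K] [Field F] [Algebra K F] {P : Place K F} {y : F} {c : K}

open scoped Pointwise in
theorem EV_smul_mem_nonunits_iff (g : SemilinearAut K F) (O : ValuationSubring F) (z : F) :
    g • z ∈ (g • O).nonunits ↔ z ∈ O.nonunits := by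
  rw [EV_mem_nonunits_iff, EV_mem_nonunits_iff, smul_eq_zero_iff_eq, ← smul_inv'' g z,
    ValuationSubring.smul_mem_pointwise_smul_iff]

theorem ev_smul_iff (g : SemilinearAut K F) :
    Ev (g • P) (g • y) (SemilinearAut.baseAut g c) ↔ Ev P y c := by
  unfold Ev
  rw [← SemilinearAut.smul_algebraMap, ← smul_sub, SemilinearAut.smul_toValuationSubring,
    EV_smul_mem_nonunits_iff]

theorem ev_smul (g : SemilinearAut K F) (h : Ev P y c) : Ev (g • P) (g • y) (SemilinearAut.baseAut g c) :=
  (ev_smul_iff g).2 h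

end Smul

section Restrict

variable {K F F' : Type*} [Field K] [Field F] [Field F'] [Algebra K F] [Algebra K F'] [Algebra F F']
  [IsScalarTower K F F'] [Algebra.IsIntegral F F']

theorem ev_restrict (w : Place K F') {y : F} {c : K} :
    Ev (w.restrict F) y c ↔ Ev w (algebraMap F F' y) c := by
  unfold Ev
  rw [EV_mem_nonunits_iff, EV_mem_nonunits_iff, IsScalarTower.algebraMap_apply K F F', ← map_sub,
    map_eq_zero, ← map_inv₀]
  rfl

end Restrict

end Fermat.Agent.RED
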