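import Mathlib
import Fermat.Prelude.Def_ModularCurve_HeckeModule
import Fermat.Prelude.Def_ModularCurve_ReductionModL
import Fermat.Agent.S24.Defs

/-!
# RED (S37): shared definitions

`K` algebraically closed of characteristic zero, `A` a valuation subring of `K`, `F / K` a function
field.  A place `P` of `F / K` has residue field `K`; `Ev P y c` says "`y` is regular at `P` with
value `c`".  Two places have *the same reduction* if all test functions (functions integral over
`A[s]`, resp. over the local ring of `A[1/s]` at `(𝔪, 1/s)`, `s = j(q^N)`) take congruent values at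
them.
-/

set_option autoImplicit false

noncomputable section

namespace Fermat.Agent.RED

open AlgebraicCurve ModularCurve Polynomial

section Abstract

variable {K F : Type*} [Field K] [Field F] [Algebra K F]

/-- `y` is regular at `P` and takes the value `c` there. -/
def Ev (P : Place K F) (y : F) (c : K) : Prop :=
  y - algebraMap K F c ∈ P.toValuationSubring.nonunits

/-- `A[X] → F`, `X ↦ x`. -/
def polyHom (A : ValuationSubring K) (x : F) : (↥A)[X] →+* F :=
  Polynomial.eval₂RingHom ((algebraMap K F).comp A.subtype) x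

/-- The subring `A[x]` of `F`. -/
def polyRing (A : ValuationSubring K) (x : F) : Subring F := (polyHom A x).range

/-- The subring `{ r(x) / s(x) : s(0) ∈ Aˣ }` of `F`: the local ring of `A[x]` at `(𝔪, x)`. -/
def locRing (A : ValuationSubring K) (x : F) : Subring F :=
  Subring.closure ((polyRing A x : Set F) ∪
    {z | ∃ s : (↥A)[X], IsUnit (s.coeff 0) ∧ z = (polyHom A x s)⁻¹})

/-- `y` is integral over `A[x]`. -/
def IntOver (A : ValuationSubring K) (x y : F) : Prop := IsIntegral (polyRing A x) y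

/-- `y` is integral over the local ring of `A[x]` at `(𝔪, x)`. -/
def LocInt (A : ValuationSubring K) (x y : F) : Prop := IsIntegral (locRing A x) y

/-- `P` and `P'` lie in the affine chart `x ∈ A` and all functions integral over `A[x]` take
congruent values at `P` and `P'`. -/
def SameRedFin (A : ValuationSubring K) (x : F) (P P' : Place K F) : Prop :=
  (∃ c ∈ A, Ev P x c) ∧ (∃ c ∈ A, Ev P' x c) ∧
    ∀ y, IntOver A x y → ∀ c c', Ev P y c → Ev P' y c' → c - c' ∈ A.nonunits

/-- `P` and `P'` lie in the tube `x ∈ 𝔪` and all functions integral over the local ring of `A[x]`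
at `(𝔪, x)` take congruent values at `P` and `P'`. -/
def SameRedLoc (A : ValuationSubring K) (x : F) (P P' : Place K F) : Prop :=
  (∃ c ∈ A.nonunits, Ev P x c) ∧ (∃ c ∈ A.nonunits, Ev P' x c) ∧
    ∀ y, LocInt A x y → ∀ c c', Ev P y c → Ev P' y c' → c - c' ∈ A.nonunits

/-- Same reduction on the model glued from the chart `x` and the tube around `x = ∞`. -/
def SameRedX (A : ValuationSubring K) (x : F) (P P' : Place K F) : Prop :=
  SameRedFin A x P P' ∨ SameRedLoc A x⁻¹ P P'

/-- The group of divisors generated by the `P - P'`, `P` and `P'` with the same reduction. -/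
def ZRedX (A : ValuationSubring K) (x : F) : AddSubgroup (Divisor K F) :=
  AddSubgroup.closure {D | ∃ P P', SameRedX A x P P' ∧
    D = Finsupp.single P (1 : ℤ) - Finsupp.single P' (1 : ℤ)}

/-- `W` is "the Gauss valuation ring" of `F` with respect to `(A, x)`. -/
structure GaussChart (A : ValuationSubring K) (W : ValuationSubring F) (x : F) : Prop where
  const_mem : ∀ c : K, algebraMap K F c ∈ W ↔ c ∈ A
  scale : ∀ f : F, f ≠ 0 → ∃ c : K, c ≠ 0 ∧ algebraMap K F c * f ∈ W ∧
    (algebraMap K F c * f)⁻¹ ∈ W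
  x_mem : x ∈ W
  gauss : ∀ p : (↥A)[X], (∃ i, IsUnit (p.coeff i)) → (polyHom A x p)⁻¹ ∈ W
  int_of_mem : ∀ y ∈ W, IsIntegral (Algebra.adjoin K {x}) y → IntOver A x y

/-- A Gauss chart whose ring `BB` of functions integral over `A[x]` is free over `A[x]` and has
normal reduction (`BB / 𝔪 BB` is integrally closed in the residue field of `W`). -/
structure GoodChart (A : ValuationSubring K) (W : ValuationSubring F) (x : F) : Prop
    extends GaussChart A W x where
  free : ∃ (n : ℕ) (b : Fin n → F), (∀ i, IntOver A x (b i)) ∧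
    (∀ y, IntOver A x y → ∃ r : Fin n → (↥A)[X], y = ∑ i, polyHom A x (r i) * b i) ∧
    (∀ r : Fin n → (↥A)[X], ∑ i, polyHom A x (r i) * b i = 0 → r = 0)
  normal : ∀ y₀ ∈ W, (∃ G : (↥A)[X][X], G.Monic ∧ G.eval₂ (polyHom A x) y₀ ∈ W.nonunits) →
    ∃ y, IntOver A x y ∧ y - y₀ ∈ W.nonunits

/-- `V` dominates the Gauss valuation ring of `K(x)`. -/
def DominatesGauss (A : ValuationSubring K) (x : F) (V : ValuationSubring F) : Prop :=
  (∀ p : (↥A)[X], polyHom A x p ∈ V) ∧
  (∀ p : (↥A)[X], (∃ i, IsUnit (p.coeff i)) → (polyHom A x p)⁻¹ ∈ V) ∧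
  (∀ c ∈ A.nonunits, algebraMap K F c ∈ V.nonunits)

end Abstract

/-! ### The modular situation -/

/-- `ℚ̄`. -/
abbrev Qb : Type := AlgebraicClosure ℚ

/-- the absolute Galois group of `ℚ`. -/
abbrev GQ : Type := Qb ≃ₐ[ℚ] Qb

/-- function field of `X₀(N)` over `ℚ̄`. -/
abbrev FF (N : ℕ) : Type := ↥(modularFunctionFieldBar N)

/-- places of `X₀(N)` over `ℚ̄`. -/
abbrev Pl (N : ℕ) : Type := Place Qb (FF N)

/-- The coordinate `s = j(q^N) ∈ FF N` (the base of the S28 tower; junk value `j(q)` for `N = 0`).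
All "same reduction" notions on `X₀(N)` are taken with respect to this coordinate. -/
def sF (N : ℕ) : FF N :=
  if h : N = 0 then Fermat.Agent.S24.jF N
  else haveI : NeZero N := ⟨h⟩; Fermat.Agent.S24.jBar N N dvd_rfl

theorem sF_eq (N : ℕ) [NeZero N] : sF N = Fermat.Agent.S24.jBar N N dvd_rfl := by
  rw [sF, dif_neg (NeZero.ne N)]

theorem coe_sF (N : ℕ) [NeZero N] :
    ((sF N : FF N) : LaurentSeries Qb) = Fermat.Agent.S24.jBarSeries N := by
  rw [sF_eq]; rfl

/-- the semilinear automorphism of `FF N` attached to `σ ∈ G_ℚ` (action on `q`-coefficients). -/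
abbrev gal (N : ℕ) (σ : GQ) : SemilinearAut Qb (FF N) :=
  arithmeticGalois (modularFunctionFieldFull N) σ

/-- same reduction for places of `X₀(N)`. -/
abbrev SameRed (N : ℕ) (A : ValuationSubring Qb) (P P' : Pl N) : Prop := SameRedX A (sF N) P P'

/-- divisors of `X₀(N)` with trivial reduction. -/
abbrev ZRed (N : ℕ) (A : ValuationSubring Qb) : AddSubgroup (Divisor Qb (FF N)) := ZRedX A (sF N)

/-- reduction of the coefficients of an `A`-integral Laurent series. -/
abbrev red (A : ValuationSubring Qb) :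
    LaurentSeries ↥A →+* LaurentSeries (IsLocalRing.ResidueField ↥A) :=
  coeffMap (IsLocalRing.residue ↥A)

/-- an `A`-integral Laurent series, seen with coefficients in `ℚ̄`. -/
abbrev incl (A : ValuationSubring Qb) : LaurentSeries ↥A →+* LaurentSeries Qb :=
  coeffMap A.subtype

/-- `w(d) ≥ 0` for the Gauss (`q`-expansion) valuation, in ratio form. -/
def GaussInt {N : ℕ} (A : ValuationSubring Qb) (d : FF N) : Prop :=
  ∃ a b : LaurentSeries ↥A, red A b ≠ 0 ∧ incl A a = incl A b * (d : LaurentSeries Qb)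

/-- `w(d) > 0` for the Gauss (`q`-expansion) valuation, in ratio form. -/
def GaussSmall {N : ℕ} (A : ValuationSubring Qb) (d : FF N) : Prop :=
  ∃ a b : LaurentSeries ↥A, red A a = 0 ∧ red A b ≠ 0 ∧
    incl A a = incl A b * (d : LaurentSeries Qb)

/-! ### Top level statements -/

/-- (T2) inertia does not move the reduction of a place. -/
def Stmt_T2 (N : ℕ) (A : ValuationSubring Qb) : Prop :=
  ∀ σ ∈ A.inertiaSubgroupIn ℚ, ∀ P : Pl N, SameRed N A (gal N σ • P) P

/-- (T4) Eichler–Shimura congruence on places: `T_ℓ P ≈ σ P + ℓ σ⁻¹ P`. -/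
def Stmt_T4 (N ℓ : ℕ) [NeZero N] [NeZero ℓ] (A : ValuationSubring Qb) : Prop :=
  ∀ (hα : HeckeAlphaBarIntegral Qb N ℓ) (hβ : HeckeBetaBarIntegral Qb N ℓ)
    (_ : HasPrincipalDivisors Qb (FF (N * ℓ))),
    ∀ σ : GQ, A.IsFrobeniusAt σ ℓ → ∀ P : Pl N,
      heckeDivBar hα hβ (Finsupp.single P (1 : ℤ)) - Finsupp.single (gal N σ • P) (1 : ℤ)
        - Finsupp.single ((gal N σ)⁻¹ • P) (ℓ : ℤ) ∈ ZRed N A

/-- (T5a) a function whose divisor has trivial reduction has constant reduction. -/
def Stmt_ConstRed (N : ℕ) (A : ValuationSubring Qb) : Prop :=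
  ∀ (f : FF N), f ≠ 0 → ∀ D ∈ ZRed N A, (∀ P : Pl N, D P = P.ord f) →
    ∃ (c : Qb) (y₁ y₂ : LaurentSeries ↥A)
      (h₁ : incl A y₁ ∈ modularFunctionFieldBar N) (h₂ : incl A y₂ ∈ modularFunctionFieldBar N),
      c ≠ 0 ∧ red A y₁ = red A y₂ ∧ red A y₂ ≠ 0 ∧
        f = algebraMap Qb (FF N) c * ((⟨_, h₁⟩ : FF N) / ⟨_, h₂⟩)

/-- (T5) no prime-to-`ℓ` torsion in the classes of divisors with trivial reduction. -/
def Stmt_T5 (N ℓ : ℕ) (A : ValuationSubring Qb) : Prop :=
  ∀ D ∈ ZRed N A, ∀ m : ℕ, ¬ ℓ ∣ m → (m • D).IsPrincipal → D.IsPrincipal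

/-- (TH) the inputs making the prelude's Hecke operator the honest one. -/
def Stmt_TH (N ℓ : ℕ) [NeZero N] [NeZero ℓ] : Prop := HeckeInputsAlong Qb N ℓ

end Fermat.Agent.RED
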