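import Fermat.Agent.RED.EvBasic

/-!
# RED-EV, part 2 : API of `polyRing`, `locRing`, `IntOver`, `LocInt`, and `Stmt_EVINT`
-/

set_option autoImplicit false

namespace Fermat.Agent.RED

open AlgebraicCurve Polynomial IntermediateField

universe u

section Integral

variable {F : Type*} [Field F]

/-- integrality over a subring in terms of polynomials over the field. -/
theorem EV_isIntegral_iff (S : Subring F) (y : F) :
    IsIntegral S y ↔ ∃ p : F[X], p.Monic ∧ (∀ i, p.coeff i ∈ S) ∧ p.eval y = 0 := by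
  constructor
  · rintro ⟨p, hp, hpy⟩
    refine ⟨p.map S.subtype, hp.map _, fun i => ?_, ?_⟩
    · rw [coeff_map]
      exact (p.coeff i).2
    · rw [eval_map]
      exact hpy
  · rintro ⟨p, hp, hc, hpy⟩
    have hsub : (↑p.coeffs : Set F) ⊆ S := by
      intro z hz
      obtain ⟨n, -, rfl⟩ := Polynomial.mem_coeffs_iff.1 (Finset.mem_coe.1 hz)
      exact hc n
    refine ⟨p.toSubring S hsub, (monic_toSubring p S hsub).2 hp, ?_⟩
    have : eval₂ S.subtype y (p.toSubring S hsub) = 0 := by
      rw [← eval_map, map_toSubring]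
      exact hpy
    exact this

theorem EV_isIntegral_of_le {R S : Subring F} (h : R ≤ S) {y : F} (hy : IsIntegral R y) :
    IsIntegral S y := by
  rw [EV_isIntegral_iff] at hy ⊢
  obtain ⟨p, hp, hc, hpy⟩ := hy
  exact ⟨p, hp, fun i => h (hc i), hpy⟩

theorem EV_mem_of_isIntegral (O : ValuationSubring F) {S : Subring F} (h : S ≤ O.toSubring)
    {y : F} (hy : IsIntegral S y) : y ∈ O := by
  have h' : IsIntegral O y := EV_isIntegral_of_le h hy
  obtain ⟨z, hz⟩ := IsIntegrallyClosed.isIntegral_iff.1 h'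
  rw [← hz]
  exact z.2

theorem EV_isIntegral_of_mem {S : Subring F} {y : F} (h : y ∈ S) : IsIntegral S y :=
  isIntegral_algebraMap (R := S) (A := F) (x := ⟨y, h⟩)

end Integral

section Rings

variable {K F : Type*} [Field K] [Field F] [Algebra K F] {A : ValuationSubring K} {x : F}

theorem polyHom_C (A : ValuationSubring K) (x : F) (a : A) :
    polyHom A x (C a) = algebraMap K F (a : K) := by
  simp [polyHom]

theorem polyHom_X (A : ValuationSubring K) (x : F) : polyHom A x X = x := by
  simp [polyHom]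

theorem polyHom_mem_polyRing (p : (↥A)[X]) : polyHom A x p ∈ polyRing A x := ⟨p, rfl⟩

theorem polyRing_le_locRing : polyRing A x ≤ locRing A x :=
  fun _ hz => Subring.subset_closure (Or.inl hz)

theorem const_mem_polyRing {c : K} (hc : c ∈ A) : algebraMap K F c ∈ polyRing A x :=
  ⟨C ⟨c, hc⟩, polyHom_C A x ⟨c, hc⟩⟩

theorem self_mem_polyRing : x ∈ polyRing A x := ⟨X, polyHom_X A x⟩

theorem inv_mem_locRing {s : (↥A)[X]} (hs : IsUnit (s.coeff 0)) :
    (polyHom A x s)⁻¹ ∈ locRing A x :=
  Subring.subset_closure (Or.inr ⟨s, hs, rfl⟩)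

theorem locRing_exists_frac {z : F} (hz : z ∈ locRing A x) :
    ∃ r s : (↥A)[X], IsUnit (s.coeff 0) ∧ z = polyHom A x r * (polyHom A x s)⁻¹ := by
  unfold locRing at hz
  induction hz using Subring.closure_induction with
  | mem z hz =>
    rcases hz with ⟨r, rfl⟩ | ⟨s, hs, rfl⟩
    · exact ⟨r, 1, by simp, by simp⟩
    · exact ⟨1, s, hs, by simp⟩
  | zero => exact ⟨0, 1, by simp, by simp⟩
  | one => exact ⟨1, 1, by simp, by simp⟩
  | add a b _ _ ha hb =>
    obtain ⟨r, s, hs, rfl⟩ := ha
    obtain ⟨r', s', hs', rfl⟩ := hb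
    by_cases h0 : polyHom A x s = 0
    · exact ⟨r', s', hs', by rw [h0]; simp⟩
    by_cases h0' : polyHom A x s' = 0
    · exact ⟨r, s, hs, by rw [h0']; simp⟩
    refine ⟨r * s' + r' * s, s * s', by rw [mul_coeff_zero]; exact hs.mul hs', ?_⟩
    rw [map_add, map_mul, map_mul, map_mul]
    field_simp
  | neg a _ ha =>
    obtain ⟨r, s, hs, rfl⟩ := ha
    exact ⟨-r, s, hs, by rw [map_neg, neg_mul]⟩
  | mul a b _ _ ha hb =>
    obtain ⟨r, s, hs, rfl⟩ := ha
    obtain ⟨r', s', hs', rfl⟩ := hb
    refine ⟨r * r', s * s', by rw [mul_coeff_zero]; exact hs.mul hs', ?_⟩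
    rw [map_mul, map_mul, mul_inv]
    ring

/-! ### `IntOver` -/

theorem IntOver.add {y z : F} (hy : IntOver A x y) (hz : IntOver A x z) : IntOver A x (y + z) :=
  IsIntegral.add hy hz

theorem IntOver.sub {y z : F} (hy : IntOver A x y) (hz : IntOver A x z) : IntOver A x (y - z) :=
  IsIntegral.sub hy hz

theorem IntOver.mul {y z : F} (hy : IntOver A x y) (hz : IntOver A x z) : IntOver A x (y * z) :=
  IsIntegral.mul hy hz

theorem IntOver.neg {y : F} (hy : IntOver A x y) : IntOver A x (-y) := IsIntegral.neg hy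

theorem IntOver.pow {y : F} (hy : IntOver A x y) (n : ℕ) : IntOver A x (y ^ n) :=
  IsIntegral.pow hy n

theorem IntOver.sum {ι : Type*} (s : Finset ι) (f : ι → F) (h : ∀ i ∈ s, IntOver A x (f i)) :
    IntOver A x (∑ i ∈ s, f i) := IsIntegral.sum f h

theorem IntOver.prod {ι : Type*} (s : Finset ι) (f : ι → F) (h : ∀ i ∈ s, IntOver A x (f i)) :
    IntOver A x (∏ i ∈ s, f i) := IsIntegral.prod f h

theorem intOver_of_mem_polyRing {y : F} (h : y ∈ polyRing A x) : IntOver A x y :=
  EV_isIntegral_of_mem h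

theorem intOver_const {c : K} (hc : c ∈ A) : IntOver A x (algebraMap K F c) :=
  intOver_of_mem_polyRing (const_mem_polyRing hc)

theorem intOver_zero : IntOver A x 0 := isIntegral_zero

theorem intOver_one : IntOver A x 1 := isIntegral_one

theorem intOver_self : IntOver A x x := intOver_of_mem_polyRing self_mem_polyRing

theorem intOver_polyHom (p : (↥A)[X]) : IntOver A x (polyHom A x p) :=
  intOver_of_mem_polyRing (polyHom_mem_polyRing p)

theorem IntOver.locInt {y : F} (hy : IntOver A x y) : LocInt A x y :=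
  EV_isIntegral_of_le polyRing_le_locRing hy

/-! ### `LocInt` -/

theorem LocInt.add {y z : F} (hy : LocInt A x y) (hz : LocInt A x z) : LocInt A x (y + z) :=
  IsIntegral.add hy hz

theorem LocInt.sub {y z : F} (hy : LocInt A x y) (hz : LocInt A x z) : LocInt A x (y - z) :=
  IsIntegral.sub hy hz

theorem LocInt.mul {y z : F} (hy : LocInt A x y) (hz : LocInt A x z) : LocInt A x (y * z) :=
  IsIntegral.mul hy hz

theorem LocInt.neg {y : F} (hy : LocInt A x y) : LocInt A x (-y) := IsIntegral.neg hy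

theorem LocInt.pow {y : F} (hy : LocInt A x y) (n : ℕ) : LocInt A x (y ^ n) :=
  IsIntegral.pow hy n

theorem LocInt.sum {ι : Type*} (s : Finset ι) (f : ι → F) (h : ∀ i ∈ s, LocInt A x (f i)) :
    LocInt A x (∑ i ∈ s, f i) := IsIntegral.sum f h

theorem LocInt.prod {ι : Type*} (s : Finset ι) (f : ι → F) (h : ∀ i ∈ s, LocInt A x (f i)) :
    LocInt A x (∏ i ∈ s, f i) := IsIntegral.prod f h

theorem locInt_of_mem_locRing {y : F} (h : y ∈ locRing A x) : LocInt A x y :=
  EV_isIntegral_of_mem h

theorem locInt_const {c : K} (hc : c ∈ A) : LocInt A x (algebraMap K F c) :=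
  (intOver_const hc).locInt

theorem locInt_zero : LocInt A x 0 := isIntegral_zero

theorem locInt_one : LocInt A x 1 := isIntegral_one

theorem locInt_self : LocInt A x x := intOver_self.locInt

theorem locInt_polyHom (p : (↥A)[X]) : LocInt A x (polyHom A x p) := (intOver_polyHom p).locInt

/-- clearing denominators. -/
theorem LocInt.exists_mul_intOver {y : F} (hy : LocInt A x y) :
    ∃ s : (↥A)[X], IsUnit (s.coeff 0) ∧ IntOver A x (polyHom A x s * y) := by
  classical
  obtain ⟨p, hp, hc, hpy⟩ := (EV_isIntegral_iff _ _).1 hy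
  choose r s hs hrs using fun i => locRing_exists_frac (hc i)
  set n := p.natDegree with hn
  refine ⟨∏ i ∈ Finset.range n, s i, ?_, ?_⟩
  · rw [coeff_zero_eq_eval_zero, eval_prod]
    refine Finset.prod_induction _ IsUnit (fun _ _ => IsUnit.mul) isUnit_one fun i _ => ?_
    rw [← coeff_zero_eq_eval_zero]
    exact hs i
  set σ := polyHom A x (∏ i ∈ Finset.range n, s i) with hσ
  have hσmem : σ ∈ polyRing A x := polyHom_mem_polyRing _
  have hmul : ∀ i < n, σ * p.coeff i ∈ polyRing A x := by
    intro i hi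
    have hsplit : σ = polyHom A x (s i) * polyHom A x (∏ j ∈ (Finset.range n).erase i, s j) := by
      rw [hσ, ← map_mul, Finset.mul_prod_erase _ _ (Finset.mem_range.2 hi)]
    by_cases h0 : polyHom A x (s i) = 0
    · rw [hsplit, h0, zero_mul, zero_mul]
      exact zero_mem _
    · have e : σ * p.coeff i
          = polyHom A x (r i) * polyHom A x (∏ j ∈ (Finset.range n).erase i, s j) := by
        rw [hsplit, hrs i]
        field_simp
      rw [e]
      exact mul_mem (polyHom_mem_polyRing _) (polyHom_mem_polyRing _)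
  refine (EV_isIntegral_iff _ _).2 ⟨p.scaleRoots σ, (monic_scaleRoots_iff σ).2 hp, fun i => ?_, ?_⟩
  · rw [coeff_scaleRoots]
    rcases lt_trichotomy i n with hi | hi | hi
    · obtain ⟨m, hm⟩ : ∃ m, p.natDegree - i = m + 1 := ⟨n - i - 1, by omega⟩
      rw [hm, pow_succ]
      have e : p.coeff i * (σ ^ m * σ) = σ * p.coeff i * σ ^ m := by ring
      rw [e]
      exact mul_mem (hmul i hi) (pow_mem hσmem m)
    · rw [hi, hn, hp.coeff_natDegree, Nat.sub_self, pow_zero, mul_one]
      exact one_mem _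
    · rw [coeff_eq_zero_of_natDegree_lt hi, zero_mul]
      exact zero_mem _
  · have h := scaleRoots_eval₂_eq_zero (RingHom.id F) (p := p) (r := y) (s := σ)
      (by rw [eval₂_id]; exact hpy)
    rw [eval₂_id] at h
    exact h

end Rings

section Values

variable {K F : Type*} [Field K] [Field F] [Algebra K F] {A : ValuationSubring K}

theorem EV_eval₂_mem {c : K} (hc : c ∈ A) (p : (↥A)[X]) : p.eval₂ A.subtype c ∈ A := by
  have h := hom_eval₂ p (RingHom.id A) A.subtype ⟨c, hc⟩
  rw [RingHom.comp_id] at h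
  have h' : eval₂ A.subtype c p = A.subtype (eval₂ (RingHom.id ↥A) ⟨c, hc⟩ p) := h.symm
  rw [h']
  exact (eval₂ (RingHom.id ↥A) ⟨c, hc⟩ p).2

theorem EV_eval₂_unit {c : K} (hc : c ∈ A.nonunits) {s : (↥A)[X]} (hs : IsUnit (s.coeff 0)) :
    s.eval₂ A.subtype c ≠ 0 ∧ (s.eval₂ A.subtype c)⁻¹ ∈ A := by
  have hcA : c ∈ A := EV_nonunits_mem A hc
  have hnot : s.eval₂ A.subtype c ∉ A.nonunits := by
    intro hw
    have e : s.eval₂ A.subtype c = s.divX.eval₂ A.subtype c * c + ((s.coeff 0 : A) : K) := by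
      conv_lhs => rw [← divX_mul_X_add s]
      rw [eval₂_add, eval₂_mul, eval₂_X, eval₂_C]
      rfl
    have h1 : ((s.coeff 0 : A) : K) ∈ A.nonunits := by
      have := EV_nonunits_sub A hw (EV_mem_mul_nonunits A (EV_eval₂_mem hcA s.divX) hc)
      rwa [e, add_sub_cancel_left] at this
    rw [ValuationSubring.mem_nonunits_iff, (ValuationSubring.valuation_eq_one_iff A _).1 hs] at h1
    exact lt_irrefl _ h1
  rw [EV_mem_nonunits_iff, not_or, not_not] at hnot
  exact hnot

variable [IsAlgClosed K]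

/-- elements integral over a ring of functions regular at `P` with values in `A` are regular at `P`
with value in `A`. -/
theorem EV_value_mem (A : ValuationSubring K) (x : F) (hx : Transcendental K x)
    [FiniteDimensional K⟮x⟯ F] (P : Place K F) (S : Subring F)
    (hS : ∀ z ∈ S, ∃ a ∈ A, Ev P z a) {y : F} (hy : IsIntegral S y) : ∃ c' ∈ A, Ev P y c' := by
  classical
  have hyO : y ∈ P.toValuationSubring := by
    refine EV_mem_of_isIntegral _ (fun z hz => ?_) hy
    obtain ⟨a, -, ha⟩ := hS z hz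
    exact ev_mem ha
  obtain ⟨c', hc'⟩ := ev_exists x hx hyO
  refine ⟨c', ?_, hc'⟩
  obtain ⟨p, hp, hc, hpy⟩ := (EV_isIntegral_iff _ _).1 hy
  choose a haA ha using fun i => hS (p.coeff i) (hc i)
  set n := p.natDegree with hn
  set p' : K[X] := ∑ i ∈ Finset.range (n + 1), monomial i (a i) with hp'
  have hcoeff : ∀ i, p'.coeff i = if i < n + 1 then a i else 0 := by
    intro i
    rw [hp', finsetSum_coeff]
    simp only [coeff_monomial]
    rw [Finset.sum_ite_eq' (Finset.range (n + 1)) i]
    simp only [Finset.mem_range]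
  have hEv : ∀ i, Ev P (p.coeff i) (p'.coeff i) := by
    intro i
    rw [hcoeff]
    split_ifs with hi
    · exact ha i
    · rw [coeff_eq_zero_of_natDegree_lt (by omega)]
      exact ev_zero P
  have hmonic : p'.Monic := by
    refine monic_of_natDegree_le_of_coeff_eq_one n ?_ ?_
    · refine natDegree_sum_le_of_forall_le _ _ fun i hi => ?_
      exact (natDegree_monomial_le _).trans (Nat.lt_succ_iff.1 (Finset.mem_range.1 hi))
    · rw [hcoeff, if_pos (Nat.lt_succ_self n)]
      have h1 := ha n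
      rw [hn, hp.coeff_natDegree] at h1
      exact ev_unique h1 (ev_one P)
  have hroot : p'.eval c' = 0 := by
    have h1 := ev_eval_coeff p p' hEv hc'
    rw [hpy] at h1
    exact ev_unique h1 (ev_zero P)
  refine EV_mem_of_isIntegral A (le_refl A.toSubring)
    ((EV_isIntegral_iff _ _).2 ⟨p', hmonic, fun i => ?_, hroot⟩)
  rw [hcoeff]
  split_ifs
  · exact haA i
  · exact zero_mem _

end Values

/-- EVINT -/
theorem stmt_EVINT : Stmt_EVINT.{u} := by
  intro K F _ _ _ _ _ A x hx hfd P c hc
  refine ⟨fun hcA y hy => ?_, fun hcm y hy => ?_⟩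
  · refine EV_value_mem A x hx P (polyRing A x) ?_ hy
    rintro _ ⟨p, rfl⟩
    exact ⟨_, EV_eval₂_mem hcA p, ev_polyHom hc p⟩
  · refine EV_value_mem A x hx P (locRing A x) ?_ hy
    intro z hz
    obtain ⟨r, s, hs, rfl⟩ := locRing_exists_frac hz
    have hcA : c ∈ A := EV_nonunits_mem A hcm
    obtain ⟨h0, hinv⟩ := EV_eval₂_unit hcm hs
    exact ⟨_, mul_mem (EV_eval₂_mem hcA r) hinv, ev_mul (ev_polyHom hc r) (ev_inv (ev_polyHom hc s) h0)⟩

end Fermat.Agent.RED
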