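import Fermat.Agent.RED.Interface1

/-!
# RED (S37): statements of the second group of work packages (EVINT, KEY, LOCTRANS, GW, T2, T4)
-/

set_option autoImplicit false

noncomputable section

namespace Fermat.Agent.RED

open AlgebraicCurve ModularCurve Polynomial IntermediateField

universe u

/-! ### Abstract: evaluation of integral functions, KEY, LOCTRANS -/

/-- EVINT: functions integral over `A[x]` (resp. over the local ring at `(𝔪, x)`) are regular with
values in `A` at the places of the chart (resp. of the tube). -/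
def Stmt_EVINT : Prop :=
  ∀ (K F : Type u) [Field K] [IsAlgClosed K] [CharZero K] [Field F] [Algebra K F]
    (A : ValuationSubring K) (x : F), Transcendental K x → FiniteDimensional K⟮x⟯ F →
    ∀ (P : Place K F) (c : K), Ev P x c →
      (c ∈ A → ∀ y, IntOver A x y → ∃ c' ∈ A, Ev P y c') ∧
      (c ∈ A.nonunits → ∀ y, LocInt A x y → ∃ c' ∈ A, Ev P y c')

/-- KEY: an integral function which is small for the Gauss valuation has small values. -/
def Stmt_KEY : Prop :=
  ∀ (K F : Type u) [Field K] [IsAlgClosed K] [CharZero K] [Field F] [Algebra K F]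
    (A : ValuationSubring K) (W : ValuationSubring F) (x : F), Transcendental K x →
    FiniteDimensional K⟮x⟯ F → GaussChart A W x →
    ∀ (P : Place K F) (c₀ : K), Ev P x c₀ → ∀ d ∈ W.nonunits, ∀ c, Ev P d c →
      (c₀ ∈ A → IntOver A x d → c ∈ A.nonunits) ∧
      (c₀ ∈ A.nonunits → LocInt A x d → c ∈ A.nonunits)

/-- LOCTRANS: if `y₀` is integral over `A[x₀]` then the local ring of `A[1/x₀]` at `(𝔪, 1/x₀)` is
integral over the local ring of `A[1/y₀]` at `(𝔪, 1/y₀)`. -/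
def Stmt_LOCTRANS : Prop :=
  ∀ (K Ω : Type u) [Field K] [Field Ω] [Algebra K Ω] (A : ValuationSubring K) (x₀ y₀ : Ω),
    x₀ ≠ 0 → y₀ ≠ 0 → IntOver A x₀ y₀ → ∀ z, LocInt A x₀⁻¹ z → LocInt A y₀⁻¹ z

/-! ### Modular inputs -/

/-- GW: the Gauss valuation ring of `FF N` (`ℓ ∤ N`) and its two charts over the `s`-line,
`s = j(q^N)`. -/
def Stmt_GW (N : ℕ) (A : ValuationSubring Qb) : Prop :=
  ∃ W : ValuationSubring (FF N), (∀ d, d ∈ W ↔ GaussInt A d) ∧
    (∀ d, d ∈ W.nonunits ↔ GaussSmall A d) ∧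
    GaussChart A W (sF N) ∧ GaussChart A W (sF N)⁻¹

def Stmt_GW_all : Prop :=
  ∀ (N ℓ : ℕ) [NeZero N], ℓ.Prime → ¬ ℓ ∣ N → ∀ A : ValuationSubring Qb, A.LiesOverPrime ℓ →
    Stmt_GW N A

def Stmt_T2_all : Prop :=
  ∀ (N ℓ : ℕ) [NeZero N], ℓ.Prime → ¬ ℓ ∣ N → ∀ A : ValuationSubring Qb, A.LiesOverPrime ℓ →
    Stmt_T2 N A

def Stmt_T4_all : Prop :=
  ∀ (N ℓ : ℕ) [NeZero N] [NeZero ℓ], ℓ.Prime → ¬ ℓ ∣ N → ∀ A : ValuationSubring Qb,
    A.LiesOverPrime ℓ → Stmt_T4 N ℓ A

end Fermat.Agent.RED
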