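/-
RED-KEY: an integral function which is small for the Gauss valuation has small values.
-/
import Fermat.Agent.RED.Interface2

set_option autoImplicit false

noncomputable section

namespace Fermat.Agent.RED

open AlgebraicCurve Polynomial IntermediateField

universe u

section Val

variable {L : Type*} [Field L] (V : ValuationSubring L)

theorem KEY_nonunits_add {a b : L} (ha : a ∈ V.nonunits) (hb : b ∈ V.nonunits) :
    a + b ∈ V.nonunits := by
  rw [ValuationSubring.mem_nonunits_iff] at *
  exact Valuation.map_add_lt _ ha hb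

theorem KEY_nonunits_sub {a b : L} (ha : a ∈ V.nonunits) (hb : b ∈ V.nonunits) :
    a - b ∈ V.nonunits := by
  rw [ValuationSubring.mem_nonunits_iff] at *
  exact Valuation.map_sub_lt _ ha hb

theorem KEY_mul_nonunits {a b : L} (ha : a ∈ V) (hb : b ∈ V.nonunits) : a * b ∈ V.nonunits := by
  rw [ValuationSubring.mem_nonunits_iff] at *
  rw [map_mul]
  exact lt_of_le_of_lt (mul_le_of_le_one_left' ((V.valuation_le_one_iff _).2 ha)) hb

theorem KEY_nonunits_mem {a : L} (ha : a ∈ V.nonunits) : a ∈ V := V.nonunits_subset ha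

theorem KEY_zero_mem_nonunits : (0 : L) ∈ V.nonunits := by
  rw [ValuationSubring.mem_nonunits_iff_or]
  exact Or.inl rfl

end Val

section Ev

variable {K F : Type*} [Field K] [Field F] [Algebra K F]

theorem KEY_const_zero (P : Place K F) {c : K}
    (h : algebraMap K F c ∈ P.toValuationSubring.nonunits) : c = 0 := by
  by_contra hc
  rw [ValuationSubring.mem_nonunits_iff_or] at h
  rcases h with h | h
  · exact hc ((map_eq_zero _).1 h)
  · apply h
    rw [← map_inv₀]
    exact P.algebraMap_mem' _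

theorem KEY_ev_unique {P : Place K F} {y : F} {c c' : K} (h : Ev P y c) (h' : Ev P y c') :
    c = c' := by
  have h1 := KEY_nonunits_sub _ h' h
  have h2 : y - algebraMap K F c' - (y - algebraMap K F c) = algebraMap K F (c - c') := by
    rw [map_sub]; ring
  rw [h2] at h1
  exact sub_eq_zero.1 (KEY_const_zero P h1)

theorem KEY_ev_const (P : Place K F) (c : K) : Ev P (algebraMap K F c) c := by
  unfold Ev
  rw [sub_self]
  exact KEY_zero_mem_nonunits _

theorem KEY_ev_mem {P : Place K F} {y : F} {c : K} (h : Ev P y c) :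
    y ∈ P.toValuationSubring := by
  have h1 := add_mem (KEY_nonunits_mem _ h) (P.algebraMap_mem' c)
  rwa [sub_add_cancel] at h1

theorem KEY_ev_add {P : Place K F} {y y' : F} {c c' : K} (h : Ev P y c) (h' : Ev P y' c') :
    Ev P (y + y') (c + c') := by
  have h1 := KEY_nonunits_add _ h h'
  unfold Ev
  have h2 : y + y' - algebraMap K F (c + c') = y - algebraMap K F c + (y' - algebraMap K F c') := by
    rw [map_add]; ring
  rwa [h2]

theorem KEY_ev_mul {P : Place K F} {y y' : F} {c c' : K} (h : Ev P y c) (h' : Ev P y' c') :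
    Ev P (y * y') (c * c') := by
  have h1 := KEY_nonunits_add _ (KEY_mul_nonunits _ (KEY_ev_mem h') h)
    (KEY_mul_nonunits _ (P.algebraMap_mem' c) h')
  unfold Ev
  have h2 : y * y' - algebraMap K F (c * c') =
      y' * (y - algebraMap K F c) + algebraMap K F c * (y' - algebraMap K F c') := by
    rw [map_mul]; ring
  rwa [h2]

theorem KEY_ev_pow {P : Place K F} {y : F} {c : K} (h : Ev P y c) (n : ℕ) :
    Ev P (y ^ n) (c ^ n) := by
  induction n with
  | zero => simpa using KEY_ev_const P (1 : K)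
  | succ n ih =>
    rw [pow_succ, pow_succ]
    exact KEY_ev_mul ih h

theorem KEY_ev_poly {P : Place K F} (A : ValuationSubring K) {x : F} {c₀ : K} (h : Ev P x c₀)
    (s : (↥A)[X]) : Ev P (polyHom A x s) (s.eval₂ A.subtype c₀) := by
  induction s using Polynomial.induction_on' with
  | add p q hp hq =>
    rw [map_add, eval₂_add]
    exact KEY_ev_add hp hq
  | monomial n a =>
    have h1 : polyHom A x (monomial n a) = algebraMap K F (a : K) * x ^ n := by
      simp [polyHom, eval₂_monomial]
    rw [h1, eval₂_monomial]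
    exact KEY_ev_mul (KEY_ev_const P _) (KEY_ev_pow h n)

end Ev

section Rings

variable {K F : Type*} [Field K] [Field F] [Algebra K F]

theorem KEY_polyHom_mem_adjoin (A : ValuationSubring K) (x : F) (p : (↥A)[X]) :
    polyHom A x p ∈ Algebra.adjoin K {x} := by
  have h1 : polyHom A x p = aeval x (p.map A.subtype) := by
    rw [aeval_def, eval₂_map]
    rfl
  rw [h1]
  exact aeval_mem_adjoin_singleton K x

theorem KEY_isIntegral_adjoin {A : ValuationSubring K} {x y : F} (h : IntOver A x y) :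
    IsIntegral (Algebra.adjoin K {x}) y := by
  let φ : polyRing A x →+* Algebra.adjoin K {x} :=
    RingHom.codRestrict (polyRing A x).subtype (Algebra.adjoin K {x}) (by
      rintro ⟨_, p, rfl⟩
      exact KEY_polyHom_mem_adjoin A x p)
  exact IsIntegral.map_of_comp_eq φ (RingHom.id F) (by ext; rfl) h

theorem KEY_polyHom_mem_polyRing (A : ValuationSubring K) (x : F) (p : (↥A)[X]) :
    polyHom A x p ∈ polyRing A x := ⟨p, rfl⟩

/-- every element of the local ring has a denominator. -/
theorem KEY_exists_den (A : ValuationSubring K) (x : F) (z : F) (hz : z ∈ locRing A x) :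
    ∃ s : (↥A)[X], IsUnit (s.coeff 0) ∧ polyHom A x s * z ∈ polyRing A x := by
  unfold locRing at hz
  induction hz using Subring.closure_induction with
  | mem z hz =>
    rcases hz with hz | ⟨s, hs, rfl⟩
    · exact ⟨1, by simp, by simpa using hz⟩
    · refine ⟨s, hs, ?_⟩
      by_cases h0 : polyHom A x s = 0
      · rw [h0, zero_mul]; exact zero_mem _
      · rw [mul_inv_cancel₀ h0]; exact one_mem _
  | zero => exact ⟨1, by simp, by simp [zero_mem]⟩
  | one => exact ⟨1, by simp, by simp [one_mem]⟩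
  | add a b _ _ ha hb =>
    obtain ⟨s, hs, hsa⟩ := ha
    obtain ⟨t, ht, htb⟩ := hb
    refine ⟨s * t, by rw [mul_coeff_zero]; exact hs.mul ht, ?_⟩
    have e : polyHom A x (s * t) * (a + b) =
        polyHom A x t * (polyHom A x s * a) + polyHom A x s * (polyHom A x t * b) := by
      rw [map_mul]; ring
    rw [e]
    exact add_mem (mul_mem (KEY_polyHom_mem_polyRing A x t) hsa)
      (mul_mem (KEY_polyHom_mem_polyRing A x s) htb)
  | neg a _ ha =>
    obtain ⟨s, hs, hsa⟩ := ha
    exact ⟨s, hs, by rw [mul_neg]; exact neg_mem hsa⟩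
  | mul a b _ _ ha hb =>
    obtain ⟨s, hs, hsa⟩ := ha
    obtain ⟨t, ht, htb⟩ := hb
    refine ⟨s * t, by rw [mul_coeff_zero]; exact hs.mul ht, ?_⟩
    have e : polyHom A x (s * t) * (a * b) = (polyHom A x s * a) * (polyHom A x t * b) := by
      rw [map_mul]; ring
    rw [e]
    exact mul_mem hsa htb

/-- common denominators. -/
theorem KEY_exists_common_den (A : ValuationSubring K) (x : F) (T : Finset F)
    (hT : ∀ z ∈ T, z ∈ locRing A x) :
    ∃ s : (↥A)[X], IsUnit (s.coeff 0) ∧ ∀ z ∈ T, polyHom A x s * z ∈ polyRing A x := by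
  classical
  induction T using Finset.induction_on with
  | empty => exact ⟨1, by simp, by simp⟩
  | insert a T _ ih =>
    obtain ⟨s, hs, hsT⟩ := ih (fun z hz => hT z (Finset.mem_insert_of_mem hz))
    obtain ⟨t, ht, hta⟩ := KEY_exists_den A x a (hT a (Finset.mem_insert_self _ _))
    refine ⟨s * t, by rw [mul_coeff_zero]; exact hs.mul ht, ?_⟩
    intro z hz
    rw [map_mul]
    rcases Finset.mem_insert.1 hz with rfl | hz
    · rw [mul_assoc]
      exact mul_mem (KEY_polyHom_mem_polyRing A x s) hta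
    · rw [mul_comm (polyHom A x s), mul_assoc]
      exact mul_mem (KEY_polyHom_mem_polyRing A x t) (hsT z hz)

/-- clearing denominators in an integral equation. -/
theorem KEY_exists_mul_intOver {A : ValuationSubring K} {x d : F} (h : LocInt A x d) :
    ∃ s : (↥A)[X], IsUnit (s.coeff 0) ∧ IntOver A x (polyHom A x s * d) := by
  classical
  obtain ⟨p, hp, hpd⟩ := h
  set pF : F[X] := p.map (algebraMap (locRing A x) F) with hpF
  have hpFm : pF.Monic := hp.map _
  have hpF0 : pF.eval d = 0 := by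
    rw [hpF, eval_map]
    exact hpd
  have hcoeff : ∀ i, pF.coeff i ∈ locRing A x := by
    intro i
    rw [hpF, coeff_map]
    exact (p.coeff i).2
  obtain ⟨s, hs, hsT⟩ := KEY_exists_common_den A x ((Finset.range pF.natDegree).image pF.coeff)
    (by
      intro z hz
      obtain ⟨i, -, rfl⟩ := Finset.mem_image.1 hz
      exact hcoeff i)
  refine ⟨s, hs, ?_⟩
  set S : F := polyHom A x s with hS
  set qF : F[X] := scaleRoots pF S with hqF
  have hqm : qF.Monic := (monic_scaleRoots_iff S).2 hpFm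
  have hq0 : qF.eval (S * d) = 0 := by
    have := scaleRoots_eval₂_eq_zero (RingHom.id F) (p := pF) (r := d) (s := S)
      (by rw [eval₂_id]; exact hpF0)
    rw [eval₂_id] at this
    exact this
  have hqc : (↑qF.coeffs : Set F) ⊆ polyRing A x := by
    intro z hz
    obtain ⟨i, -, rfl⟩ := (mem_coeffs_iff).1 (Finset.mem_coe.1 hz)
    rw [hqF, coeff_scaleRoots]
    rcases lt_trichotomy i pF.natDegree with hi | hi | hi
    · obtain ⟨m, hm⟩ : ∃ m, pF.natDegree - i = m + 1 := ⟨pF.natDegree - i - 1, by omega⟩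
      rw [hm, pow_succ']
      have e : pF.coeff i * (S * S ^ m) = (S * pF.coeff i) * S ^ m := by ring
      rw [e]
      exact mul_mem (hsT _ (Finset.mem_image.2 ⟨i, Finset.mem_range.2 hi, rfl⟩))
        (pow_mem (KEY_polyHom_mem_polyRing A x s) m)
    · rw [hi, hpFm.coeff_natDegree]
      simp [one_mem]
    · rw [coeff_eq_zero_of_natDegree_lt hi, zero_mul]
      exact zero_mem _
  refine ⟨qF.toSubring (polyRing A x) hqc, (monic_toSubring qF _ hqc).2 hqm, ?_⟩
  have e : eval₂ (algebraMap (polyRing A x) F) (S * d) (qF.toSubring (polyRing A x) hqc) =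
      ((qF.toSubring (polyRing A x) hqc).map (polyRing A x).subtype).eval (S * d) := by
    rw [eval_map]
    rfl
  rw [e, map_toSubring]
  exact hq0

end Rings

section Main

variable {K F : Type u} [Field K] [IsAlgClosed K] [CharZero K] [Field F] [Algebra K F]

omit [IsAlgClosed K] [CharZero K] in
theorem KEY_polyHom_mem_W {A : ValuationSubring K} {W : ValuationSubring F} {x : F}
    (hW : GaussChart A W x) (s : (↥A)[X]) : polyHom A x s ∈ W := by
  induction s using Polynomial.induction_on' with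
  | add p q hp hq =>
    rw [map_add]
    exact add_mem hp hq
  | monomial n a =>
    have h1 : polyHom A x (monomial n a) = algebraMap K F (a : K) * x ^ n := by
      simp [polyHom, eval₂_monomial]
    rw [h1]
    exact mul_mem ((hW.const_mem _).2 a.2) (pow_mem hW.x_mem n)

theorem KEY_fin (hE : Stmt_EVINT.{u}) (A : ValuationSubring K) (W : ValuationSubring F) (x : F)
    (hx : Transcendental K x) (hfd : FiniteDimensional K⟮x⟯ F) (hW : GaussChart A W x)
    (P : Place K F) (c₀ : K) (hc₀ : Ev P x c₀) (d : F) (hd : d ∈ W.nonunits) (c : K)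
    (hc : Ev P d c) (hc₀A : c₀ ∈ A) (hint : IntOver A x d) : c ∈ A.nonunits := by
  rcases eq_or_ne d 0 with rfl | hd0
  · have := KEY_ev_unique hc (by simpa using KEY_ev_const P (0 : K))
    rw [this]
    exact KEY_zero_mem_nonunits _
  obtain ⟨c₁, hc₁, h1, h2⟩ := hW.scale d hd0
  have hc₁F : algebraMap K F c₁ ≠ 0 := (_root_.map_ne_zero _).2 hc₁
  -- `c₁⁻¹ ∈ 𝔪_W`
  have h3 : algebraMap K F c₁⁻¹ ∈ W.nonunits := by
    have e : algebraMap K F c₁⁻¹ = (algebraMap K F c₁ * d)⁻¹ * d := by
      rw [map_inv₀]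
      field_simp
    rw [e]
    exact KEY_mul_nonunits _ h2 hd
  have h4 : c₁⁻¹ ∈ A.nonunits := by
    rw [ValuationSubring.mem_nonunits_iff_or, inv_inv]
    right
    intro hA
    have h5 : algebraMap K F c₁ ∈ W := (hW.const_mem _).2 hA
    rw [ValuationSubring.mem_nonunits_iff_or] at h3
    rcases h3 with h3 | h3
    · exact inv_ne_zero hc₁ ((map_eq_zero _).1 h3)
    · apply h3
      rw [map_inv₀, inv_inv]
      exact h5
  -- `d' = c₁ d` is integral over `A[x]`
  have h6 : IsIntegral (Algebra.adjoin K {x}) (algebraMap K F c₁ * d) := by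
    refine IsIntegral.mul ?_ (KEY_isIntegral_adjoin hint)
    have : algebraMap K F c₁ = algebraMap (Algebra.adjoin K {x}) F
        (algebraMap K (Algebra.adjoin K {x}) c₁) := rfl
    rw [this]
    exact isIntegral_algebraMap
  have h7 : IntOver A x (algebraMap K F c₁ * d) := hW.int_of_mem _ h1 h6
  obtain ⟨c', hc'A, hc'⟩ := (hE K F A x hx hfd P c₀ hc₀).1 hc₀A _ h7
  have h8 : c' = c₁ * c := KEY_ev_unique hc' (KEY_ev_mul (KEY_ev_const P c₁) hc)
  have h9 : c = c' * c₁⁻¹ := by
    rw [h8]
    field_simp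
  rw [h9]
  exact KEY_mul_nonunits _ hc'A h4

omit [IsAlgClosed K] [CharZero K] in
theorem KEY_eval_unit (A : ValuationSubring K) {c₀ : K} (hc₀ : c₀ ∈ A.nonunits) (s : (↥A)[X])
    (hs : IsUnit (s.coeff 0)) : ∃ u : (↥A)ˣ, s.eval₂ A.subtype c₀ = ((u : A) : K) := by
  let c : A := ⟨c₀, KEY_nonunits_mem _ hc₀⟩
  have hcm : c ∈ IsLocalRing.maximalIdeal A := ValuationSubring.coe_mem_nonunits_iff.1 hc₀
  have h1 : s.eval₂ A.subtype c₀ = ((s.eval c : A) : K) := by
    have := Polynomial.hom_eval₂ s (RingHom.id A) A.subtype c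
    rw [RingHom.comp_id] at this
    rw [eval₂_id] at this
    exact this.symm
  have h2 : IsUnit (s.eval c) := by
    by_contra hnu
    have h3 : s.eval c ∈ IsLocalRing.maximalIdeal A := (IsLocalRing.mem_maximalIdeal _).2 hnu
    have h4 : c - 0 ∣ s.eval c - s.eval 0 := sub_dvd_eval_sub c 0 s
    rw [sub_zero] at h4
    have h5 : s.eval c - s.eval 0 ∈ IsLocalRing.maximalIdeal A :=
      Ideal.mem_of_dvd _ h4 hcm
    have h6 : s.eval 0 ∈ IsLocalRing.maximalIdeal A := by
      have := sub_mem h3 h5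
      rwa [sub_sub_cancel] at this
    rw [← coeff_zero_eq_eval_zero] at h6
    exact (IsLocalRing.mem_maximalIdeal _).1 h6 hs
  obtain ⟨u, hu⟩ := h2
  exact ⟨u, by rw [h1, ← hu]⟩

end Main

theorem stmt_KEY (hE : Stmt_EVINT.{u}) : Stmt_KEY.{u} := by
  intro K F _ _ _ _ _ A W x hx hfd hW P c₀ hc₀ d hd c hc
  refine ⟨fun hc₀A hint => KEY_fin hE A W x hx hfd hW P c₀ hc₀ d hd c hc hc₀A hint, ?_⟩
  intro hc₀m hloc
  obtain ⟨s, hs, hsd⟩ := KEY_exists_mul_intOver hloc
  have h1 : polyHom A x s * d ∈ W.nonunits := KEY_mul_nonunits _ (KEY_polyHom_mem_W hW s) hd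
  have h2 : Ev P (polyHom A x s * d) (s.eval₂ A.subtype c₀ * c) :=
    KEY_ev_mul (KEY_ev_poly A hc₀ s) hc
  have h3 := KEY_fin hE A W x hx hfd hW P c₀ hc₀ _ h1 _ h2 (KEY_nonunits_mem _ hc₀m) hsd
  obtain ⟨u, hu⟩ := KEY_eval_unit A hc₀m s hs
  have hmul : (((u⁻¹ : (↥A)ˣ) : A) : K) * ((u : A) : K) = 1 := by
    have h7 : ((u⁻¹ : (↥A)ˣ) : A) * (u : A) = 1 := u.inv_mul
    have h8 := congrArg (A.subtype) h7
    rw [map_mul, map_one] at h8
    exact h8
  have h6 : c = (((u⁻¹ : (↥A)ˣ) : A) : K) * (s.eval₂ A.subtype c₀ * c) := by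
    rw [hu, ← mul_assoc, hmul, one_mul]
  rw [h6]
  exact KEY_mul_nonunits _ (((u⁻¹ : (↥A)ˣ) : A)).2 h3

end Fermat.Agent.RED

end
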