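import Fermat.Agent.RED.Interface4
import Fermat.Agent.RED.Ev
import Fermat.Agent.RED.Key
import Fermat.Agent.INJ.All

/-!
# RED-R0 : every place of the chart reduces to a point of the special fibre (`Stmt_R0`)
-/

set_option autoImplicit false

noncomputable section

namespace Fermat.Agent.RED

open AlgebraicCurve Polynomial IntermediateField Fermat.Agent.INJ

section

variable {K F k Fb : Type} [Field K] [Field F] [Algebra K F] [Field k] [Field Fb] [Algebra k Fb]

theorem R0_ra_add {D : RedData K F k Fb} {a b : K} (ha : a ∈ D.A) (hb : b ∈ D.A) :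
    D.ra (a + b) = D.ra a + D.ra b := by
  rw [RedData.ra_of_mem ha, RedData.ra_of_mem hb, RedData.ra_of_mem (add_mem ha hb), ← map_add]
  rfl

theorem R0_ra_mul {D : RedData K F k Fb} {a b : K} (ha : a ∈ D.A) (hb : b ∈ D.A) :
    D.ra (a * b) = D.ra a * D.ra b := by
  rw [RedData.ra_of_mem ha, RedData.ra_of_mem hb, RedData.ra_of_mem (mul_mem ha hb), ← map_mul]
  rfl

theorem R0_ra_sub {D : RedData K F k Fb} {a b : K} (ha : a ∈ D.A) (hb : b ∈ D.A) :
    D.ra (a - b) = D.ra a - D.ra b := by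
  rw [RedData.ra_of_mem ha, RedData.ra_of_mem hb, RedData.ra_of_mem (sub_mem ha hb), ← map_sub]
  rfl

/-- the reduction `A → k` kills the maximal ideal. -/
theorem R0_ra_eq_zero {D : RedData K F k Fb} {c : K} (hc : c ∈ D.A.nonunits) : D.ra c = 0 := by
  have hcA : c ∈ D.A := EV_nonunits_mem _ hc
  rcases (EV_mem_nonunits_iff _ _).1 hc with rfl | hinv
  · rw [RedData.ra_of_mem D.A.zero_mem]; exact map_zero D.rA
  · by_contra h0
    apply hinv
    have h1 : D.rd (algebraMap K F c) ≠ 0 := by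
      rw [RedData.rd_algebraMap hcA]
      exact (_root_.map_ne_zero _).2 h0
    have h2 := RedData.inv_mem_of_rd_ne_zero h1
    rw [← map_inv₀] at h2
    exact (D.mem_iff _).1 h2

/-- an element of `O` with reduction `0` is a non-unit. -/
theorem R0_mem_nonunits {D : RedData K F k Fb} {y : F} (hy : y ∈ D.O) (h : D.rd y = 0) :
    y ∈ D.O.nonunits := by
  rw [EV_mem_nonunits_iff]
  by_cases h0 : y = 0
  · exact Or.inl h0
  · exact Or.inr fun hinv => RedData.rd_ne_zero_of_inv_mem h0 hy hinv h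

theorem R0_isInt_algebraMap (x : F) (a : K) : IsInt K x (algebraMap K F a) := by
  unfold IsInt
  rw [IsScalarTower.algebraMap_apply K (Algebra.adjoin K {x}) F]
  exact isIntegral_algebraMap

/-- `a` is the reduction of the value at `P` of a lift of `yb` to `BB`. -/
def R0_Rel (D : RedData K F k Fb) (x : F) (P : Place K F) (yb : Fb) (a : k) : Prop :=
  ∃ y ∈ D.O, IsInt K x y ∧ D.rd y = yb ∧ ∃ c ∈ D.A, Ev P y c ∧ D.ra c = a

end

theorem stmt_R0 (hGC : Stmt_GC) : Stmt_R0 := by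
  classical
  intro K F k Fb _ _ _ _ _ _ _ _ D x hC hBr P hP
  obtain ⟨c₀, hc₀A, hev⟩ := hP
  have hT : Transcendental K x := (stmt_Gauss K F k Fb D x hC.t_mem hC.trans).2.2.2.1
  have hfin : FiniteDimensional K⟮x⟯ F := hC.fin
  have hG : GaussChart D.A D.O x := hGC K F k Fb D x hC
  have hval : ∀ y ∈ D.O, IsInt K x y → ∃ c ∈ D.A, Ev P y c := fun y hy hyI =>
    (stmt_EVINT.{0} K F D.A x hT hfin P c₀ hev).1 hc₀A y (hG.int_of_mem y hy hyI)
  have hkey : ∀ d ∈ D.O, IsInt K x d → D.rd d = 0 → ∀ c, Ev P d c → D.ra c = 0 := by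
    intro d hd hdI hrd c hc
    exact R0_ra_eq_zero ((stmt_KEY.{0} stmt_EVINT K F D.A D.O x hT hfin hG P c₀ hev d
      (R0_mem_nonunits hd hrd) c hc).1 hc₀A (hG.int_of_mem d hd hdI))
  have huniq : ∀ yb a a', R0_Rel D x P yb a → R0_Rel D x P yb a' → a = a' := by
    rintro yb a a' ⟨y, hy, hyI, hry, c, hcA, hc, rfl⟩ ⟨y', hy', hyI', hry', c', hcA', hc', rfl⟩
    have h1 := hkey (y - y') (sub_mem hy hy') (IsIntegral.sub hyI hyI')
      (by rw [RedData.rd_sub hy hy', hry, hry', sub_self]) (c - c') (ev_sub hc hc')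
    rw [R0_ra_sub hcA hcA'] at h1
    exact sub_eq_zero.1 h1
  have hex : ∀ yb, IsInt k (D.rd x) yb → ∃ a, R0_Rel D x P yb a := by
    intro yb hyb
    obtain ⟨y, hy, hyI, hry⟩ := all_Normal K F k Fb D x hC hBr yb hyb
    obtain ⟨c, hcA, hc⟩ := hval y hy hyI
    exact ⟨_, y, hy, hyI, hry, c, hcA, hc, rfl⟩
  let ρ : Fb → k := fun yb => if h : ∃ a, R0_Rel D x P yb a then h.choose else 0
  have hρ : ∀ yb a, R0_Rel D x P yb a → ρ yb = a := by
    intro yb a h
    have h' : ∃ a, R0_Rel D x P yb a := ⟨a, h⟩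
    have h1 : ρ yb = h'.choose := dif_pos h'
    rw [h1]
    exact huniq yb _ _ h'.choose_spec h
  refine ⟨ρ, ⟨?_, ?_, ?_⟩, ⟨c₀, hc₀A, hev⟩, ?_⟩
  · intro yb zb hyb hzb
    obtain ⟨a, ha⟩ := hex yb hyb
    obtain ⟨b, hb⟩ := hex zb hzb
    rw [hρ yb a ha, hρ zb b hb]
    apply hρ
    obtain ⟨y, hy, hyI, hry, c, hcA, hc, rfl⟩ := ha
    obtain ⟨y', hy', hyI', hry', c', hcA', hc', rfl⟩ := hb
    exact ⟨y + y', add_mem hy hy', IsIntegral.add hyI hyI', by rw [RedData.rd_add hy hy', hry, hry'],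
      c + c', add_mem hcA hcA', ev_add hc hc', R0_ra_add hcA hcA'⟩
  · intro yb zb hyb hzb
    obtain ⟨a, ha⟩ := hex yb hyb
    obtain ⟨b, hb⟩ := hex zb hzb
    rw [hρ yb a ha, hρ zb b hb]
    apply hρ
    obtain ⟨y, hy, hyI, hry, c, hcA, hc, rfl⟩ := ha
    obtain ⟨y', hy', hyI', hry', c', hcA', hc', rfl⟩ := hb
    exact ⟨y * y', mul_mem hy hy', IsIntegral.mul hyI hyI', by rw [RedData.rd_mul hy hy', hry, hry'],
      c * c', mul_mem hcA hcA', ev_mul hc hc', R0_ra_mul hcA hcA'⟩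
  · intro cb
    obtain ⟨a, haA, ha⟩ := RedData.exists_ra_eq (D := D) cb
    apply hρ
    exact ⟨algebraMap K F a, RedData.algebraMap_mem haA, R0_isInt_algebraMap x a,
      by rw [RedData.rd_algebraMap haA, ha], a, haA, ev_const P a, ha⟩
  · intro y hy hyI c hc
    obtain ⟨c', hcA', hc'⟩ := hval y hy hyI
    have hcc : c = c' := ev_unique hc hc'
    subst hcc
    exact (hρ (D.rd y) (D.ra c) ⟨y, hy, hyI, rfl, c, hcA', hc, rfl⟩).symm

end Fermat.Agent.RED
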