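import Fermat.Agent.RED.Interface3
import Fermat.Agent.RED.Ev
import Fermat.Agent.INJ.All

/-!
# RED-GC : a good coordinate in the sense of INJ gives a Gauss chart (`Stmt_GC`)
-/

set_option autoImplicit false

noncomputable section

namespace Fermat.Agent.RED

open AlgebraicCurve ModularCurve Polynomial IntermediateField

section

variable {K F k Fb : Type} [Field K] [Field F] [Algebra K F] [Field k] [Field Fb] [Algebra k Fb]

theorem GC_polyHom_eq (A : ValuationSubring K) (x : F) (p : (↥A)[X]) :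
    polyHom A x p = aeval x (p.map A.subtype) := by
  rw [polyHom, coe_eval₂RingHom, aeval_def, eval₂_map]

theorem GC_gauss (D : INJ.RedData K F k Fb) (x : F) (hC : INJ.Chart D x) (p : (↥D.A)[X])
    (hp : ∃ i, IsUnit (p.coeff i)) : (polyHom D.A x p)⁻¹ ∈ D.O := by
  obtain ⟨i, hi⟩ := hp
  have h1 : p.map D.rA ≠ 0 := by
    intro h0
    have h2 : D.rA (p.coeff i) = 0 := by rw [← coeff_map, h0, coeff_zero]
    exact (hi.map D.rA).ne_zero h2
  rw [GC_polyHom_eq]
  exact INJ.RedData.inv_mem_of_rd_ne_zero (INJ.P1_rd_ne_zero hC.t_mem hC.trans p h1)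

theorem GC_int [IsAlgClosed K] [CharZero K] (D : INJ.RedData K F k Fb) (x : F)
    (hC : INJ.Chart D x) (y : F) (hy : y ∈ D.O) (hyi : IsIntegral (Algebra.adjoin K {x}) y) :
    IntOver D.A x y := by
  obtain ⟨b, hb, hspan, hli⟩ := INJ.all_BBasis K F k Fb D x hC
  set N : Submodule (polyRing D.A x) F := Submodule.span (polyRing D.A x) (Set.range b) with hN
  -- `BB ⊆ N`
  have hBN : ∀ z ∈ D.O, INJ.IsInt K x z → z ∈ N := by
    intro z hz hzi
    obtain ⟨P, hP⟩ := (INJ.P8_mem_span_iff x b z).1 (hspan z hzi)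
    obtain ⟨Q, hQ, -⟩ := INJ.P8_coord INJ.stmt_Gauss INJ.all_Ortho D x hC.t_mem hC.trans b
      (fun i => (hb i).1) hli P (hP ▸ hz)
    rw [hP]
    refine Submodule.sum_mem _ fun i _ => ?_
    have h1 : aeval x (P i) * b i
        = (⟨polyHom D.A x (Q i), polyHom_mem_polyRing _⟩ : polyRing D.A x) • b i := by
      rw [← hQ i, ← GC_polyHom_eq]; rfl
    rw [h1]
    exact Submodule.smul_mem _ _ (Submodule.subset_span ⟨i, rfl⟩)
  -- `N ⊆ BB`
  have hNB : ∀ z ∈ N, z ∈ D.O ∧ INJ.IsInt K x z := by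
    intro z hz
    induction hz using Submodule.span_induction with
    | mem z hz => obtain ⟨i, rfl⟩ := hz; exact hb i
    | zero => exact ⟨D.O.zero_mem, isIntegral_zero⟩
    | add u v _ _ hu hv => exact ⟨add_mem hu.1 hv.1, hu.2.add hv.2⟩
    | smul r u _ hu =>
      obtain ⟨p, hp⟩ := r.2
      have hr : (r : F) = aeval x (p.map D.A.subtype) := by rw [← hp, GC_polyHom_eq]
      have h1 : r • u = (r : F) * u := rfl
      rw [h1, hr]
      exact ⟨mul_mem (INJ.P1_red hC.t_mem p).1 hu.1, (INJ.P8_isInt_aeval x _).mul hu.2⟩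
  refine isIntegral_of_smul_mem_submodule N ?_ (Submodule.fg_span (Set.finite_range b)) y ?_
  · intro h0
    have h1 : (1 : F) ∈ N := hBN 1 D.O.one_mem isIntegral_one
    rw [h0, Submodule.mem_bot] at h1
    exact one_ne_zero h1
  · intro n hn
    obtain ⟨h1, h2⟩ := hNB n hn
    exact hBN _ (mul_mem hy h1) (hyi.mul h2)

end

/-- GC: a good coordinate in the sense of INJ gives a Gauss chart. -/
theorem stmt_GC : Stmt_GC := by
  intro K F k Fb _ _ _ _ _ _ _ _ D x hC
  refine ⟨D.mem_iff, fun f hf => ?_, hC.t_mem, GC_gauss D x hC, GC_int D x hC⟩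
  obtain ⟨a, ha, h1, h2⟩ := D.unram f hf
  exact ⟨a, ha, by rwa [mul_comm], by rwa [mul_comm]⟩

end Fermat.Agent.RED
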