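import Fermat.Agent.RED.Interface3

/-!
# RED (S37): the pieces of REDA
("if `div f` has trivial reduction then `f` has constant reduction"), in the language of
`INJ.RedData`.  Notation: `BB = {y ∈ D.O, IsInt K x y}`, `Bt` = integral closure of `k[x̄]` in `Fb`
(`= rd BB` by INJ P4 + P7).
-/

set_option autoImplicit false

noncomputable section

namespace Fermat.Agent.RED

open AlgebraicCurve Polynomial IntermediateField Fermat.Agent.INJ

/-- a `k`-point of the affine curve `Spec Bt`, `Bt` = integral closure of `k[tb]` in `Fb`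
(as a total function `Fb → k`, junk outside `Bt`). -/
structure IsPt (k : Type) {Fb : Type} [Field k] [Field Fb] [Algebra k Fb] (tb : Fb) (ρ : Fb → k) :
    Prop where
  add : ∀ y z, IsInt k tb y → IsInt k tb z → ρ (y + z) = ρ y + ρ z
  mul : ∀ y z, IsInt k tb y → IsInt k tb z → ρ (y * z) = ρ y * ρ z
  const : ∀ c : k, ρ (algebraMap k Fb c) = c

section

variable {K F k Fb : Type} [Field K] [Field F] [Algebra K F] [Field k] [Field Fb] [Algebra k Fb]

/-- the place `P` lies in the chart `x ∈ A` and reduces to the point `ρ`. -/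
def Over (D : RedData K F k Fb) (x : F) (P : Place K F) (ρ : Fb → k) : Prop :=
  (∃ c ∈ D.A, Ev P x c) ∧ ∀ y ∈ D.O, IsInt K x y → ∀ c, Ev P y c → D.ra c = ρ (D.rd y)

open Classical in
/-- the degree of the part of a divisor lying over the point `ρ`. -/
def cnt (D : RedData K F k Fb) (x : F) (ρ : Fb → k) : Divisor K F →+ ℤ :=
  Finsupp.liftAddHom fun P => if Over D x P ρ then AddMonoidHom.id ℤ else 0

end

/-- R0: every place of the chart reduces to a point. -/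
def Stmt_R0 : Prop :=
  ∀ (K F k Fb : Type) [Field K] [Field F] [Algebra K F] [Field k] [Field Fb] [Algebra k Fb]
    [IsAlgClosed K] [CharZero K] (D : RedData K F k Fb) (x : F), Chart D x → Branch D x →
    ∀ P : Place K F, (∃ c ∈ D.A, Ev P x c) → ∃ ρ, IsPt k (D.rd x) ρ ∧ Over D x P ρ

/-- R1 (TAU): a local parameter at a point of the (normal) special fibre. -/
def Stmt_R1 : Prop :=
  ∀ (k Fb : Type) [Field k] [IsAlgClosed k] [Field Fb] [Algebra k Fb] (tb : Fb),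
    Transcendental k tb → FiniteDimensional k⟮tb⟯ Fb → Algebra.IsSeparable k⟮tb⟯ Fb →
    ∀ ρ, IsPt k tb ρ → ∃ τ, IsInt k tb τ ∧ τ ≠ 0 ∧ ρ τ = 0 ∧
      ∀ m : ℕ, 0 < m → ∀ y, IsInt k tb y → ρ y = 0 →
        ∃ a b, IsInt k tb a ∧ IsInt k tb b ∧
          y = τ * a + (tb - algebraMap k Fb (ρ tb)) ^ m * b

/-- R2 (FACT): splitting off the roots in a residue disc. -/
def Stmt_R2 : Prop :=
  ∀ (K : Type) [Field K] [IsAlgClosed K] (A : ValuationSubring K) (h : (↥A)[X]) (c : ↥A),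
    (∃ i, IsUnit (h.coeff i)) →
    ∃ h₁ h₂ : (↥A)[X], h = h₁ * h₂ ∧ h₁.Monic ∧
      (∀ i, (h₁ - (X - C c) ^ h₁.natDegree).coeff i ∈ IsLocalRing.maximalIdeal ↥A) ∧
      (∀ r : ↥A, r - c ∈ IsLocalRing.maximalIdeal ↥A → IsUnit (h₂.eval r))

/-- R3a (NORMBB): an element of `BB` with nonzero reduction divides (in `BB`) a polynomial in `x`
with nonzero reduction. -/
def Stmt_R3a : Prop :=
  ∀ (K F k Fb : Type) [Field K] [Field F] [Algebra K F] [Field k] [Field Fb] [Algebra k Fb]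
    [IsAlgClosed K] [CharZero K] (D : RedData K F k Fb) (x : F), Chart D x →
    ∀ τ ∈ D.O, IsInt K x τ → D.rd τ ≠ 0 →
      ∃ (h : (↥D.A)[X]) (z : F), h.map D.rA ≠ 0 ∧ z ∈ D.O ∧ IsInt K x z ∧
        polyHom D.A x h = τ * z

/-- R3b (generation): `BB = A + τ BB + h₁(x) BB` (Nakayama). -/
def Stmt_R3b : Prop :=
  ∀ (K F k Fb : Type) [Field K] [Field F] [Algebra K F] [Field k] [Field Fb] [Algebra k Fb]
    [IsAlgClosed K] [CharZero K] (D : RedData K F k Fb) (x : F), Chart D x → Branch D x →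
    ∀ ρ, IsPt k (D.rd x) ρ → ∀ τ ∈ D.O, IsInt K x τ →
    ∀ (h₁ : (↥D.A)[X]), h₁.Monic →
      (∀ y, IsInt k (D.rd x) y → ρ y = 0 → ∃ a b, IsInt k (D.rd x) a ∧ IsInt k (D.rd x) b ∧
          y = D.rd τ * a + aeval (D.rd x) (h₁.map D.rA) * b) →
      ∀ y ∈ D.O, IsInt K x y → ∃ (a : K) (u v : F), a ∈ D.A ∧ u ∈ D.O ∧ IsInt K x u ∧ v ∈ D.O ∧
        IsInt K x v ∧ y = algebraMap K F a + τ * u + polyHom D.A x h₁ * v

/-- R3c (UNIF + SEP): uniformisers in `BB`; places of the chart are separated by `BB`. -/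
def Stmt_R3c : Prop :=
  ∀ (K F k Fb : Type) [Field K] [Field F] [Algebra K F] [Field k] [Field Fb] [Algebra k Fb]
    [IsAlgClosed K] [CharZero K] (D : RedData K F k Fb) (x : F), Chart D x →
    ∀ (P : Place K F) (c₀ : K), Ev P x c₀ →
      (∃ y ∈ D.O, IsInt K x y ∧ P.ord y = 1) ∧
      ∀ (P' : Place K F),
        (∀ y ∈ D.O, IsInt K x y → ∀ c, Ev P y c → Ev P' y c) → P' = P

/-- R3 (Claim L): lifts of the local parameter are local parameters in the whole residue tube. -/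
def Stmt_R3 : Prop :=
  ∀ (K F k Fb : Type) [Field K] [Field F] [Algebra K F] [Field k] [Field Fb] [Algebra k Fb]
    [IsAlgClosed K] [CharZero K] (D : RedData K F k Fb) (x : F), Chart D x → Branch D x →
    ∀ ρ, IsPt k (D.rd x) ρ →
    ∃ τ₀ : F, τ₀ ∈ D.O ∧ IsInt K x τ₀ ∧ D.rd τ₀ ≠ 0 ∧ ρ (D.rd τ₀) = 0 ∧
      ∀ (P : Place K F) (c : K), Over D x P ρ → Ev P τ₀ c →
        P.ord (τ₀ - algebraMap K F c) = 1 ∧
        ∀ P' : Place K F, Over D x P' ρ → Ev P' (τ₀ - algebraMap K F c) 0 → P' = P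

/-- R4 (UL): a function of `O` without poles in the tube of `ρ` has a denominator in `BB` which does
not vanish at `ρ`. -/
def Stmt_R4 : Prop :=
  ∀ (K F k Fb : Type) [Field K] [Field F] [Algebra K F] [Field k] [Field Fb] [Algebra k Fb]
    [IsAlgClosed K] [CharZero K] (D : RedData K F k Fb) (x : F), Chart D x →
    ∀ ρ, IsPt k (D.rd x) ρ → ∀ g ∈ D.O, g ≠ 0 → (∀ P, Over D x P ρ → 0 ≤ P.ord g) →
      ∃ b, b ∈ D.O ∧ IsInt K x b ∧ ρ (D.rd b) ≠ 0 ∧ IsInt K x (b * g)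

/-- R5 (BAL): a divisor with trivial reduction has degree `0` over every point. -/
def Stmt_R5 : Prop :=
  ∀ (K F k Fb : Type) [Field K] [Field F] [Algebra K F] [Field k] [Field Fb] [Algebra k Fb]
    [IsAlgClosed K] [CharZero K] (D : RedData K F k Fb) (t : F), Chart D t → Chart D t⁻¹ →
    ∀ E ∈ ZRedX D.A t,
      (∀ ρ, IsPt k (D.rd t) ρ → cnt D t ρ E = 0) ∧
      (∀ ρ, IsPt k (D.rd t⁻¹) ρ → ρ (D.rd t⁻¹) = 0 → cnt D t⁻¹ ρ E = 0)

/-- R6: local conclusion: the reduction of `f` is regular at `ρ`. -/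
def Stmt_R6 : Prop :=
  ∀ (K F k Fb : Type) [Field K] [Field F] [Algebra K F] [Field k] [Field Fb] [Algebra k Fb]
    [IsAlgClosed K] [CharZero K] (D : RedData K F k Fb) (x : F), Chart D x → Branch D x →
    ∀ f : F, D.rd f ≠ 0 → ∀ E : Divisor K F, (∀ P, E P = P.ord f) →
    ∀ ρ, IsPt k (D.rd x) ρ → cnt D x ρ E = 0 →
      ∃ a b : Fb, IsInt k (D.rd x) a ∧ IsInt k (D.rd x) b ∧ ρ b ≠ 0 ∧ b * D.rd f = a

/-- R7: regular at all points ⟹ integral. -/
def Stmt_R7 : Prop :=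
  ∀ (k Fb : Type) [Field k] [IsAlgClosed k] [Field Fb] [Algebra k Fb] (tb : Fb),
    Transcendental k tb →
    ∀ φ : Fb, (∀ ρ, IsPt k tb ρ → ∃ a b, IsInt k tb a ∧ IsInt k tb b ∧ ρ b ≠ 0 ∧ b * φ = a) →
      IsInt k tb φ

end Fermat.Agent.RED
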