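import Fermat.Agent.RED.Interface3
import Fermat.Agent.INJ.Inst.Tower

/-!
# RED (S37), task RED-DEGLE (helper2): `[FF (N ℓ) : β (FF N)] ≤ ℓ + 1`.

The S28 tower step (WP8) gives: `Kf ℚ (N ℓ)` is spanned over `ℚ(j(q^(N ℓ)))` by the
`j ^ i * V_ℓ (b y)`, `i < ℓ + 1`; this is base changed to `ℚ̄` by `INJ.Inst.Tower.mem_SQ_of_mem_bar`.
As `ℚ̄(j(q^(N ℓ)))` and the `V_ℓ (b y)` lie in `β (FF N)`, the powers `1, j, …, j ^ ℓ` span
`FF (N ℓ)` over `β (FF N)`.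
-/

set_option autoImplicit false
set_option linter.style.haveILetI false

noncomputable section

namespace Fermat.Agent.RED

open AlgebraicCurve ModularCurve Polynomial IntermediateField
open Fermat.Agent.S28

theorem DEGLE_cZ_mem_bar {M : ℕ} (hM : 0 < M) {x : LaurentSeries ℤ} (hx : x ∈ ZJ M) :
    cZ Qb x ∈ modularFunctionFieldBar M := by
  rw [INJ.Inst.Tower.cZ_eq_coeffEmb]
  exact coeffEmb_mem_laurentBaseChange Qb (tower_cZ_mem_Kf ℚ hM hx)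

/-- spanning of level `N ℓ` over `ℚ̄(j(q^(N ℓ)))` by the next layer of the tower. -/
theorem DEGLE_span (N ℓ : ℕ) (hN : 0 < N) (hℓ : ℓ.Prime) :
    ∃ (ι : Type) (_ : Fintype ι) (b : ι → LaurentSeries ℤ), (∀ i, b i ∈ ZJ N) ∧
      ∀ x ∈ modularFunctionFieldBar (N * ℓ),
        x ∈ Submodule.span (Ej Qb (N * ℓ)) (Set.range fun i => cZ Qb (nextFam ℓ N b i)) := by
  obtain ⟨ι, hι, b, hb1, hb2, -⟩ :=
    INJ.Inst.Tower.towerDataK Qb N hN (Nat.cast_ne_zero.mpr hN.ne')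
  refine ⟨ι, hι, b, hb1, fun x hx => ?_⟩
  have h := wp8 wp5 ℓ N hℓ hN (fun r hr _ => FN7.hasModPoly ℚ hr) ι (fun i => cZ ℚ (b i)) hb2
  have he : (fun x => cZ ℚ (nextFam ℓ N b x)) = nextFam ℓ N (fun i => cZ ℚ (b i)) :=
    funext fun x => tower_coeffMap_nextFam _ ℓ N b x
  rw [← he] at h
  exact INJ.Inst.Tower.mem_SQ_of_mem_bar (nextFam ℓ N b) h (Nat.mul_pos hN hℓ.pos)
    (tower_nextFam_mem_ZJ hℓ.ne_zero hN hb1) hx

theorem DEGLE_jBarSeries_eq (d : ℕ) [NeZero d] : S24.jBarSeries d = jd Qb d := by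
  rw [S24.jBarSeries, coeffEmb, coeffMap_qExpand, ← jqModC_rat, coeffMap_jqModC, S28.jd, S28.Vq_eq]

/-- `ℚ̄(j(q^(N ℓ)))` lies in `β (FF N)`. -/
theorem DEGLE_Ej_mem (N ℓ : ℕ) [NeZero N] [NeZero ℓ] {r : LaurentSeries Qb}
    (hr : r ∈ Ej Qb (N * ℓ)) :
    ∃ u : FF N, ((heckeBetaBar Qb N ℓ u : FF (N * ℓ)) : LaurentSeries Qb) = r := by
  let φ : FF N →ₐ[Qb] LaurentSeries Qb :=
    (modularFunctionFieldBar (N * ℓ)).val.comp (heckeBetaBar Qb N ℓ)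
  have hle : Ej Qb (N * ℓ) ≤ φ.fieldRange := by
    rw [Ej, adjoin_simple_le_iff]
    refine ⟨sF N, ?_⟩
    show qExpand Qb ℓ (sF N : LaurentSeries Qb) = jd Qb (N * ℓ)
    rw [coe_sF, DEGLE_jBarSeries_eq, jd, jd, ← Vq_eq,
      tower_Vq_Vq Qb (NeZero.ne ℓ) (NeZero.ne N), mul_comm]
  exact hle hr

/-- `1, j, …, j ^ ℓ` span `FF (N ℓ)` over `β (FF N)`. -/
theorem DEGLE_top_le (N ℓ : ℕ) [NeZero N] [NeZero ℓ] (hℓ : ℓ.Prime) (hℓN : ¬ ℓ ∣ N) :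
    letI := algebraAlong (heckeBetaBar Qb N ℓ)
    (⊤ : Submodule (FF N) (FF (N * ℓ))) ≤
      Submodule.span (FF N) (Set.range fun i : Fin (ℓ + 1) => S24.jF (N * ℓ) ^ (i : ℕ)) := by
  letI := algebraAlong (heckeBetaBar Qb N ℓ)
  have hN : 0 < N := Nat.pos_of_ne_zero (NeZero.ne N)
  obtain ⟨ι, hι, b, hb1, hb2⟩ := DEGLE_span N ℓ hN hℓ
  have hsd : stepDeg ℓ N = ℓ + 1 := by rw [stepDeg, if_neg hℓN]
  have key : ∀ x : LaurentSeries Qb,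
      x ∈ Submodule.span (Ej Qb (N * ℓ)) (Set.range fun i => cZ Qb (nextFam ℓ N b i)) →
      ∃ z : FF (N * ℓ), z ∈ Submodule.span (FF N)
        (Set.range fun i : Fin (ℓ + 1) => S24.jF (N * ℓ) ^ (i : ℕ)) ∧
        (z : LaurentSeries Qb) = x := by
    intro x hx
    induction hx using Submodule.span_induction with
    | mem x hx =>
      obtain ⟨⟨i, y⟩, rfl⟩ := hx
      refine ⟨(⟨cZ Qb (b y), DEGLE_cZ_mem_bar hN (hb1 y)⟩ : FF N) •
        S24.jF (N * ℓ) ^ (i : ℕ), Submodule.smul_mem _ _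
          (Submodule.subset_span ⟨⟨i, hsd ▸ i.2⟩, rfl⟩), ?_⟩
      show qExpand Qb ℓ (cZ Qb (b y)) * (S24.jBarSeries 1) ^ (i : ℕ) =
        cZ Qb (nextFam ℓ N b (i, y))
      rw [tower_coeffMap_nextFam, nextFam, DEGLE_jBarSeries_eq, jd, Vq_eq, Vq_eq,
        qExpand_one_apply, mul_comm]
    | zero => exact ⟨0, Submodule.zero_mem _, rfl⟩
    | add x y _ _ hx hy =>
      obtain ⟨z, hz, rfl⟩ := hx
      obtain ⟨w, hw, rfl⟩ := hy
      exact ⟨z + w, Submodule.add_mem _ hz hw, rfl⟩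
    | smul r x _ hx =>
      obtain ⟨z, hz, rfl⟩ := hx
      obtain ⟨u, hu⟩ := DEGLE_Ej_mem N ℓ r.2
      refine ⟨u • z, Submodule.smul_mem _ _ hz, ?_⟩
      show ((heckeBetaBar Qb N ℓ u : FF (N * ℓ)) : LaurentSeries Qb) * (z : LaurentSeries Qb) = _
      rw [hu]
      rfl
  intro x _
  obtain ⟨z, hz, hzx⟩ := key x (hb2 x x.2)
  rwa [Subtype.ext hzx] at hz

theorem stmt_DEGle : Stmt_DEGle := by
  intro N ℓ _ _ hℓ hℓN
  letI := algebraAlong (heckeBetaBar Qb N ℓ)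
  have htop : Submodule.span (FF N)
      (Set.range fun i : Fin (ℓ + 1) => S24.jF (N * ℓ) ^ (i : ℕ)) = ⊤ :=
    top_le_iff.mp (DEGLE_top_le N ℓ hℓ hℓN)
  refine ⟨?_, ?_⟩
  · show Module.Finite (FF N) (FF (N * ℓ))
    exact Module.finite_def.mpr
      ⟨(Set.finite_range _).toFinset, by rw [Set.Finite.coe_toFinset, htop]⟩
  · show Module.finrank (FF N) (FF (N * ℓ)) ≤ ℓ + 1
    have h := finrank_range_le_card (R := FF N)
      (fun i : Fin (ℓ + 1) => S24.jF (N * ℓ) ^ (i : ℕ))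
    rw [Set.finrank, htop, finrank_top, Fintype.card_fin] at h
    exact h

end Fermat.Agent.RED
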