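import Fermat.Agent.RED.Interface3
import Fermat.Agent.RED.Ev
import Fermat.Agent.INJ.Inst.Basic
import Fermat.Agent.INJ.Inst.Gauss
import Fermat.Agent.INJ.P13

/-!
# RED-AUX : the auxiliary level `N * M`, `M ∈ {2, 3}`, with the Hauptmodul coordinate (helper23)
-/

set_option autoImplicit false

namespace Fermat.Agent.RED

open AlgebraicCurve ModularCurve Polynomial

/-! ### abstract algebra -/

section Abstract

variable {F : Type*} [Field F]

/-- `T ^ n = ∑ c_i T ^ i` with `c_i ∈ S` implies that `T` is integral over `S`. -/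
theorem AUX_integral_of_pow_eq (S : Subring F) (T : F) (n : ℕ) (c : Fin n → F)
    (hc : ∀ i, c i ∈ S) (h : T ^ n = ∑ i, c i * T ^ (i : ℕ)) : IsIntegral S T := by
  refine ⟨X ^ n - ∑ i : Fin n, C (⟨c i, hc i⟩ : S) * X ^ (i : ℕ),
    monic_X_pow_sub (degree_sum_fin_lt _), ?_⟩
  rw [eval₂_sub, eval₂_pow, eval₂_X, eval₂_finsetSum, h, sub_eq_zero]
  refine Finset.sum_congr rfl fun i _ => ?_
  rw [eval₂_mul, eval₂_C, eval₂_pow, eval₂_X]
  rfl

variable {K : Type*} [Field K] [Algebra K F] (A : ValuationSubring K)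

theorem AUX_natCast_mem (S : Subring F) (n : ℕ) : (n : F) ∈ S := natCast_mem S n

theorem AUX_int2 {J t : F} (h : J * (t - 64) ^ 2 = (t + 192) ^ 3) : IntOver A J t := by
  have hJ : J ∈ polyRing A J := self_mem_polyRing
  have hn : ∀ n : ℕ, (n : F) ∈ polyRing A J := fun n => natCast_mem _ n
  refine AUX_integral_of_pow_eq _ t 3
    ![(4096 : ℕ) * J - (7077888 : ℕ), -(110592 : ℕ) - (128 : ℕ) * J, J - (576 : ℕ)] ?_ ?_
  · intro i
    fin_cases i
    · exact sub_mem (mul_mem (hn _) hJ) (hn _)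
    · exact sub_mem (neg_mem (hn _)) (mul_mem (hn _) hJ)
    · exact sub_mem hJ (hn _)
  · simp only [Fin.sum_univ_three, Matrix.cons_val_zero, Matrix.cons_val_one, Matrix.cons_val_two,
      Matrix.head_cons, Matrix.tail_cons, Fin.val_zero, Fin.val_one, Fin.val_two]
    push_cast
    linear_combination -h

theorem AUX_int3 {J t : F} (h : J * (t - 27) ^ 3 = t * (t + 216) ^ 3) : IntOver A J t := by
  have hJ : J ∈ polyRing A J := self_mem_polyRing
  have hn : ∀ n : ℕ, (n : F) ∈ polyRing A J := fun n => natCast_mem _ n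
  refine AUX_integral_of_pow_eq _ t 4
    ![-(19683 : ℕ) * J, (2187 : ℕ) * J - (10077696 : ℕ), -(81 : ℕ) * J - (139968 : ℕ),
      J - (648 : ℕ)] ?_ ?_
  · intro i
    fin_cases i
    · exact mul_mem (neg_mem (hn _)) hJ
    · exact sub_mem (mul_mem (hn _) hJ) (hn _)
    · exact sub_mem (mul_mem (neg_mem (hn _)) hJ) (hn _)
    · exact sub_mem hJ (hn _)
  · simp only [Fin.sum_univ_four, Matrix.cons_val_zero, Matrix.cons_val_one, Matrix.cons_val_two,
      Matrix.cons_val_three, Matrix.head_cons, Matrix.tail_cons, Fin.val_zero, Fin.val_one,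
      Fin.val_two]
    push_cast
    simp
    linear_combination -h

variable [CharZero F]

theorem AUX_loc2 {J t : F} (h : J * (t - 64) ^ 2 = (t + 192) ^ 3) (ht : t ≠ 0) (hJ0 : J ≠ 0)
    (hJ : J ≠ 1728) (hu : IsUnit ((4096 : ℕ) : A)) : LocInt A J⁻¹ t⁻¹ := by
  have hJ' : J⁻¹ ∈ locRing A J⁻¹ := polyRing_le_locRing self_mem_polyRing
  have hn : ∀ n : ℕ, (n : F) ∈ locRing A J⁻¹ := fun n => natCast_mem _ n
  set u : F := (4096 : ℕ) - (7077888 : ℕ) * J⁻¹ with hudef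
  have hu0 : u ≠ 0 := by
    intro h0
    apply hJ
    have h1 : u * J = 0 := by rw [h0, zero_mul]
    rw [hudef, sub_mul, mul_assoc, inv_mul_cancel₀ hJ0] at h1
    push_cast at h1
    have h2 : (4096 : F) * (J - 1728) = 0 := by linear_combination h1
    rcases mul_eq_zero.mp h2 with h3 | h3
    · norm_num at h3
    · exact sub_eq_zero.mp h3
  have hui : u⁻¹ ∈ locRing A J⁻¹ := by
    have h1 := inv_mem_locRing (A := A) (x := J⁻¹)
      (s := ((4096 : ℕ) : (↥A)[X]) - ((7077888 : ℕ) : (↥A)[X]) * X) (by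
        simpa using hu)
    rwa [map_sub, map_mul, map_natCast, map_natCast, polyHom_X] at h1
  refine AUX_integral_of_pow_eq _ t⁻¹ 3
    ![u⁻¹ * J⁻¹, u⁻¹ * ((576 : ℕ) * J⁻¹ - 1), u⁻¹ * ((128 : ℕ) + (110592 : ℕ) * J⁻¹)] ?_ ?_
  · intro i
    fin_cases i
    · exact mul_mem hui hJ'
    · exact mul_mem hui (sub_mem (mul_mem (hn _) hJ') (one_mem _))
    · exact mul_mem hui (add_mem (hn _) (mul_mem (hn _) hJ'))
  · simp only [Fin.sum_univ_three, Matrix.cons_val_zero, Matrix.cons_val_one, Matrix.cons_val_two,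
      Matrix.head_cons, Matrix.tail_cons, Fin.val_zero, Fin.val_one, Fin.val_two]
    have key : u * t⁻¹ ^ 3 = J⁻¹ + ((576 : ℕ) * J⁻¹ - 1) * t⁻¹
        + ((128 : ℕ) + (110592 : ℕ) * J⁻¹) * t⁻¹ ^ 2 := by
      rw [hudef]
      push_cast
      field_simp
      linear_combination h
    have : t⁻¹ ^ 3 = u⁻¹ * (u * t⁻¹ ^ 3) := by rw [← mul_assoc, inv_mul_cancel₀ hu0, one_mul]
    rw [this, key]
    ring

theorem AUX_loc3 {J t : F} (h : J * (t - 27) ^ 3 = t * (t + 216) ^ 3) (ht : t ≠ 0) (hJ0 : J ≠ 0)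
    (hu : IsUnit ((19683 : ℕ) : A)) : LocInt A J⁻¹ t⁻¹ := by
  have hJ' : J⁻¹ ∈ locRing A J⁻¹ := polyRing_le_locRing self_mem_polyRing
  have hn : ∀ n : ℕ, (n : F) ∈ locRing A J⁻¹ := fun n => natCast_mem _ n
  set u : F := ((19683 : ℕ) : F) with hudef
  have hu0 : u ≠ 0 := by rw [hudef]; norm_num
  have hui : u⁻¹ ∈ locRing A J⁻¹ := by
    have h1 := inv_mem_locRing (A := A) (x := J⁻¹) (s := ((19683 : ℕ) : (↥A)[X])) (by
        simpa using hu)
    rwa [map_natCast] at h1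
  refine AUX_integral_of_pow_eq _ t⁻¹ 4
    ![-(u⁻¹ * J⁻¹), u⁻¹ * (1 - (648 : ℕ) * J⁻¹), u⁻¹ * (-(81 : ℕ) - (139968 : ℕ) * J⁻¹),
      u⁻¹ * ((2187 : ℕ) - (10077696 : ℕ) * J⁻¹)] ?_ ?_
  · intro i
    fin_cases i
    · exact neg_mem (mul_mem hui hJ')
    · exact mul_mem hui (sub_mem (one_mem _) (mul_mem (hn _) hJ'))
    · exact mul_mem hui (sub_mem (neg_mem (hn _)) (mul_mem (hn _) hJ'))
    · exact mul_mem hui (sub_mem (hn _) (mul_mem (hn _) hJ'))
  · have key : u * t⁻¹ ^ 4 = -J⁻¹ + (1 - (648 : ℕ) * J⁻¹) * t⁻¹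
        + (-(81 : ℕ) - (139968 : ℕ) * J⁻¹) * t⁻¹ ^ 2
        + ((2187 : ℕ) - (10077696 : ℕ) * J⁻¹) * t⁻¹ ^ 3 := by
      rw [hudef]
      push_cast
      field_simp
      linear_combination -h
    have : t⁻¹ ^ 4 = u⁻¹ * (u * t⁻¹ ^ 4) := by rw [← mul_assoc, inv_mul_cancel₀ hu0, one_mul]
    rw [this, key]
    simp only [Fin.sum_univ_four, Matrix.cons_val_zero, Matrix.cons_val_one, Matrix.cons_val_two,
      Matrix.cons_val_three, Matrix.head_cons, Matrix.tail_cons, Fin.val_zero, Fin.val_one,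
      Fin.val_two]
    simp
    ring

end Abstract

/-- a natural number prime to the residue characteristic is a unit of `A`. -/
theorem AUX_isUnit_natCast {K : Type*} [Field K] (A : ValuationSubring K) {ℓ : ℕ}
    (hA : A.LiesOverPrime ℓ) {n : ℕ} (hn : Nat.Coprime n ℓ) : IsUnit ((n : ℕ) : A) := by
  have hℓ : ((ℓ : ℕ) : A) ∈ IsLocalRing.maximalIdeal A := by
    have h1 : (((ℓ : ℕ) : A) : K) ∈ A.nonunits := by
      have : (ℓ : K) ∈ A.nonunits := hA
      simpa using this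
    rwa [ValuationSubring.coe_mem_nonunits_iff] at h1
  have hcop : IsCoprime (n : ℤ) (ℓ : ℤ) := Nat.isCoprime_iff_coprime.mpr hn
  obtain ⟨a, b, hab⟩ := hcop
  have h1 : (a : A) * (n : A) + (b : A) * (ℓ : A) = 1 := by
    exact_mod_cast congrArg (Int.cast : ℤ → A) hab
  by_contra hne
  have h2 : ((n : ℕ) : A) ∈ IsLocalRing.maximalIdeal A := (IsLocalRing.mem_maximalIdeal _).mpr hne
  have h3 : (1 : A) ∈ IsLocalRing.maximalIdeal A := by
    rw [← h1]
    exact Ideal.add_mem _ (Ideal.mul_mem_left _ _ h2) (Ideal.mul_mem_left _ _ hℓ)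
  exact (Ideal.ne_top_iff_one _).mp (IsLocalRing.maximalIdeal.isMaximal A).ne_top h3

/-! ### the modular situation -/

section Modular

open Fermat.Agent.INJ.Inst Fermat.Agent.KL.Haupt

theorem AUX_jBarSeries (N : ℕ) [NeZero N] : S24.jBarSeries N = S28.jd Qb N := by
  rw [S24.jBarSeries, coeffEmb, coeffMap_qExpand, ← jqModC_rat, coeffMap_jqModC, S28.jd, S28.Vq_eq]

theorem AUX_tS (M N : ℕ) (hM : 0 < M) : tS M (N * M) Qb = S28.Vq Qb N (xq M Qb) := by
  rw [tS, Nat.mul_div_cancel _ hM]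

theorem AUX_rel2 (N : ℕ) :
    S28.jd Qb N * (tS 2 (N * 2) Qb - 64) ^ 2 = (tS 2 (N * 2) Qb + 192) ^ 3 := by
  have h := congrArg (S28.Vq Qb N) (rel2_j Qb)
  rw [map_mul, map_pow, map_sub, map_pow, map_add, map_ofNat, map_ofNat] at h
  rw [AUX_tS 2 N (by norm_num), S28.jd]
  simpa [xq] using h

theorem AUX_rel3 (N : ℕ) :
    S28.jd Qb N * (tS 3 (N * 3) Qb - 27) ^ 3 = tS 3 (N * 3) Qb * (tS 3 (N * 3) Qb + 216) ^ 3 := by
  have h := congrArg (S28.Vq Qb N) (rel3_j Qb)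
  rw [map_mul, map_pow, map_sub, map_mul, map_pow, map_add, map_ofNat, map_ofNat] at h
  rw [AUX_tS 3 N (by norm_num), S28.jd]
  simpa [xq] using h

/-- the image of `j(q^N)` at the level `N * r`. -/
theorem AUX_coe_J (N r : ℕ) [NeZero N] [NeZero r] :
    ((heckeAlphaBar Qb N r (sF N) : FF (N * r)) : LaurentSeries Qb) = S28.jd Qb N := by
  rw [coe_heckeAlphaBar, coe_sF, AUX_jBarSeries]

theorem AUX_J_ne_natCast (N r : ℕ) [NeZero N] [NeZero r] (c : ℕ) :
    (heckeAlphaBar Qb N r (sF N) : FF (N * r)) ≠ (c : FF (N * r)) := by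
  intro h
  have h1 := congrArg (fun x : FF (N * r) => (x : LaurentSeries Qb).coeff (-(N : ℤ))) h
  simp only [AUX_coe_J, coeff_jd Qb (NeZero.ne N)] at h1
  have h2 : (((c : FF (N * r)) : LaurentSeries Qb)) = HahnSeries.C (c : Qb) := by
    rw [map_natCast]
    rfl
  rw [h2, HahnSeries.C_apply, HahnSeries.coeff_single_of_ne] at h1
  · exact one_ne_zero h1
  · have := Nat.pos_of_ne_zero (NeZero.ne N)
    omega

theorem stmt_AUX_all (hCT : INJ.Inst.Stmt_ChartT) (hBT : INJ.Inst.Stmt_BranchT) :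
    Stmt_AUX_all := by
  intro N ℓ _ hℓ hℓN A hA
  have : Fact ℓ.Prime := ⟨hℓ⟩
  -- the general construction
  have main : ∀ M : ℕ, (M = 2 ∨ M = 3) → M ≠ ℓ →
      (∀ (_ : NeZero M) (t : FF (N * M)), (t : LaurentSeries Qb) = tS M (N * M) Qb →
        IntOver A (heckeAlphaBar Qb N M (sF N)) t ∧
          LocInt A (heckeAlphaBar Qb N M (sF N))⁻¹ t⁻¹) → Stmt_AUX N A := by
    intro M hM hMℓ hint
    have hM0 : M ≠ 0 := by rcases hM with rfl | rfl <;> norm_num
    have hMp : M.Prime := by rcases hM with rfl | rfl <;> norm_num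
    have hMne : NeZero M := ⟨hM0⟩
    have hNM0 : N * M ≠ 0 := mul_ne_zero (NeZero.ne N) hM0
    have : NeZero (N * M) := ⟨hNM0⟩
    have hℓNM : ¬ ℓ ∣ N * M := by
      intro h
      rcases (Nat.Prime.dvd_mul hℓ).mp h with h | h
      · exact hℓN h
      · exact hMℓ ((Nat.prime_dvd_prime_iff_eq hℓ hMp).mp h).symm
    obtain ⟨L, D, hD⟩ := stmt_ExGauss (N * M) ℓ A hA
    let t : FF (N * M) := ⟨tS M (N * M) Qb, tS_mem_bar hM hNM0 (dvd_mul_left M N)⟩
    have hC : INJ.Chart D t := hCT M (N * M) ℓ hM (dvd_mul_left M N) hℓNM A hA L D hD t rfl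
    obtain ⟨hB, hB'⟩ := hBT M (N * M) ℓ hM (dvd_mul_left M N) hℓNM A hA L D hD t rfl
    obtain ⟨h1, h2⟩ := hint hMne t rfl
    exact ⟨M, hMne, t, L, D, hD, hC, INJ.stmt_ChartInv _ _ _ _ D t hC, hB, hB', h1, h2⟩
  have ht0 : ∀ (M : ℕ) [NeZero M] (t : FF (N * M)), (M = 2 ∨ M = 3) →
      (t : LaurentSeries Qb) = tS M (N * M) Qb → t ≠ 0 := by
    intro M _ t hM ht h0
    have h1 := coeff_tS Qb (M := M) (N := N * M) (mul_ne_zero (NeZero.ne N) (NeZero.ne M))
      (dvd_mul_left M N)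
    rw [← ht, h0] at h1
    exact zero_ne_one h1
  by_cases h2 : ℓ = 2
  · -- `M = 3`
    refine main 3 (Or.inr rfl) (by omega) fun _ t ht => ?_
    have hrel : (heckeAlphaBar Qb N 3 (sF N) : FF (N * 3)) * (t - 27) ^ 3 = t * (t + 216) ^ 3 := by
      apply Subtype.ext
      have := AUX_rel3 N
      rw [← ht, ← AUX_coe_J N 3] at this
      exact this
    refine ⟨AUX_int3 A hrel, AUX_loc3 A hrel (ht0 3 t (Or.inr rfl) ht) ?_ ?_⟩
    · simpa using AUX_J_ne_natCast N 3 0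
    · exact AUX_isUnit_natCast A hA (by rw [h2]; norm_num)
  · -- `M = 2`
    refine main 2 (Or.inl rfl) (fun h => h2 h.symm) fun _ t ht => ?_
    have hrel : (heckeAlphaBar Qb N 2 (sF N) : FF (N * 2)) * (t - 64) ^ 2 = (t + 192) ^ 3 := by
      apply Subtype.ext
      have := AUX_rel2 N
      rw [← ht, ← AUX_coe_J N 2] at this
      exact this
    refine ⟨AUX_int2 A hrel, AUX_loc2 A hrel (ht0 2 t (Or.inl rfl) ht) ?_ ?_ ?_⟩
    · simpa using AUX_J_ne_natCast N 2 0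
    · simpa using AUX_J_ne_natCast N 2 1728
    · refine AUX_isUnit_natCast A hA ?_
      have : Nat.Coprime 2 ℓ := (Nat.coprime_primes Nat.prime_two hℓ).mpr (fun h => h2 h.symm)
      exact Nat.Coprime.pow_left 12 this

end Modular

end Fermat.Agent.RED
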