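import Fermat.Agent.RED.Interface3
import Fermat.Agent.ES.Mid.HF2
import Fermat.Agent.ES.Mid.HF3
import Fermat.Agent.S28.BaseChange
import Fermat.Agent.S28.Tower

/-!
# RED / CONG : the formal congruence `u(q^(ℓ²)) ∏_ζ u(ζ q) ≡ ((σ⁻¹u)^ℓ · σu)(q^ℓ)` (helper54)
-/

set_option autoImplicit false

noncomputable section

namespace Fermat.Agent.RED

open ModularCurve Fermat.Agent.ES.Mid Fermat.Agent.ES.Mid.HF3

/-- twisting an `A`-integral series by an `ℓ`-th root of unity: does not change the reduction. -/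
theorem CONG_tw (ℓ : ℕ) (hℓ : ℓ.Prime) (A : ValuationSubring Qb) (hl : A.LiesOverPrime ℓ)
    (ρ : Qb → LaurentSeries Qb →+* LaurentSeries Qb) (hρ : ∀ c, c ≠ 0 → S28.IsScale c (ρ c))
    (ζ : Qb) (hζ1 : ζ ^ ℓ = 1) (c : LaurentSeries ↥A) :
    ∃ c' : LaurentSeries ↥A, incl A c' = ρ ζ (incl A c) ∧ red A c' = red A c := by
  have : Fact ℓ.Prime := ⟨hℓ⟩
  have := charP_residue A ℓ hl
  have hζ0 : ζ ≠ 0 := by
    rintro rfl
    rw [zero_pow hℓ.ne_zero] at hζ1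
    exact zero_ne_one hζ1
  have hζ2 : ζ⁻¹ ^ ℓ = 1 := by rw [inv_pow, hζ1, inv_one]
  let zA : (↥A)ˣ := ⟨⟨ζ, mem_of_pow_eq_one A ℓ hℓ.pos hζ1⟩, ⟨ζ⁻¹, mem_of_pow_eq_one A ℓ hℓ.pos hζ2⟩,
    Subtype.ext (mul_inv_cancel₀ hζ0), Subtype.ext (inv_mul_cancel₀ hζ0)⟩
  have hzr : Units.map (IsLocalRing.residue A : A →* IsLocalRing.ResidueField A) zA = 1 := by
    apply Units.ext
    show IsLocalRing.residue A (zA : A) = 1
    apply frobenius_inj (IsLocalRing.ResidueField A) ℓ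
    rw [frobenius_def, frobenius_def, one_pow, ← map_pow]
    have : (zA : A) ^ ℓ = 1 := Subtype.ext hζ1
    rw [this, map_one]
  have hzs : Units.map (A.subtype : A →* Qb) zA = Units.mk0 ζ hζ0 := Units.ext rfl
  refine ⟨tw zA c, ?_, ?_⟩
  · ext n
    rw [hρ ζ hζ0, coeffMap_coeff, coeffMap_coeff, tw_coeff, map_mul]
    congr 1
    have h1 : A.subtype ((zA ^ n : (↥A)ˣ) : ↥A)
        = ((Units.map (A.subtype : A →* Qb) zA ^ n : Qbˣ) : Qb) := by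
      rw [← map_zpow]; rfl
    rw [h1, hzs, Units.val_zpow_eq_zpow_val, Units.val_mk0]
  · ext n
    rw [coeffMap_coeff, coeffMap_coeff, tw_coeff, map_mul]
    have h1 : IsLocalRing.residue A ((zA ^ n : (↥A)ˣ) : ↥A)
        = ((Units.map (IsLocalRing.residue A : A →* IsLocalRing.ResidueField A) zA ^ n :
            (IsLocalRing.ResidueField A)ˣ) : IsLocalRing.ResidueField A) := by
      rw [← map_zpow]; rfl
    rw [h1, hzr, one_zpow, Units.val_one, one_mul]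

theorem CONG_prod_aux (ℓ : ℕ) (hℓ : ℓ.Prime) (A : ValuationSubring Qb) (hl : A.LiesOverPrime ℓ)
    (ρ : Qb → LaurentSeries Qb →+* LaurentSeries Qb) (hρ : ∀ c, c ≠ 0 → S28.IsScale c (ρ c))
    (c : LaurentSeries ↥A) (S : Finset Qb) (hS : ∀ ζ ∈ S, ζ ^ ℓ = 1) :
    ∃ P : LaurentSeries ↥A, incl A P = ∏ ζ ∈ S, ρ ζ (incl A c) ∧ red A P = red A c ^ S.card := by
  classical
  induction S using Finset.induction_on with
  | empty => exact ⟨1, by simp, by simp⟩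
  | insert ζ S hζS ih =>
    obtain ⟨P, hP1, hP2⟩ := ih (fun z hz => hS z (Finset.mem_insert_of_mem hz))
    obtain ⟨c', hc1, hc2⟩ := CONG_tw ℓ hℓ A hl ρ hρ ζ (hS ζ (Finset.mem_insert_self _ _)) c
    refine ⟨c' * P, ?_, ?_⟩
    · rw [map_mul, hc1, hP1, Finset.prod_insert hζS]
    · rw [map_mul, hc2, hP2, Finset.card_insert_of_notMem hζS, pow_succ']

theorem CONG_card (ℓ : ℕ) (hℓ : ℓ.Prime) : (Polynomial.nthRootsFinset ℓ (1 : Qb)).card = ℓ := by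
  have : NeZero ℓ := ⟨hℓ.ne_zero⟩
  have : NeZero (ℓ : Qb) := ⟨by exact_mod_cast hℓ.ne_zero⟩
  obtain ⟨ζ, hζ⟩ := HasEnoughRootsOfUnity.exists_primitiveRoot Qb ℓ
  exact hζ.card_nthRootsFinset

theorem CONG_prod (ℓ : ℕ) (hℓ : ℓ.Prime) (A : ValuationSubring Qb) (hl : A.LiesOverPrime ℓ)
    (ρ : Qb → LaurentSeries Qb →+* LaurentSeries Qb) (hρ : ∀ c, c ≠ 0 → S28.IsScale c (ρ c))
    (c : LaurentSeries ↥A) :
    ∃ P : LaurentSeries ↥A,
      incl A P = ∏ ζ ∈ Polynomial.nthRootsFinset ℓ (1 : Qb), ρ ζ (incl A c) ∧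
      red A P = red A c ^ ℓ := by
  obtain ⟨P, h1, h2⟩ := CONG_prod_aux ℓ hℓ A hl ρ hρ c (Polynomial.nthRootsFinset ℓ (1 : Qb))
    (fun ζ hζ => (Polynomial.mem_nthRootsFinset hℓ.pos 1).mp hζ)
  exact ⟨P, h1, by rw [h2, CONG_card ℓ hℓ]⟩

/-- the first norm form on `A`-integral series. -/
theorem CONG_N1 (ℓ : ℕ) (hℓ : ℓ.Prime) (A : ValuationSubring Qb) (hl : A.LiesOverPrime ℓ)
    (ρ : Qb → LaurentSeries Qb →+* LaurentSeries Qb) (hρ : ∀ c, c ≠ 0 → S28.IsScale c (ρ c))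
    (c : LaurentSeries ↥A) :
    ∃ P : LaurentSeries ↥A,
      incl A P = S28.Vq Qb (ℓ ^ 2) (incl A c) *
        ∏ ζ ∈ Polynomial.nthRootsFinset ℓ (1 : Qb), ρ ζ (incl A c) ∧
      red A P = S28.Vq _ (ℓ ^ 2) (red A c) * red A c ^ ℓ := by
  obtain ⟨P, h1, h2⟩ := CONG_prod ℓ hℓ A hl ρ hρ c
  refine ⟨S28.Vq _ (ℓ ^ 2) c * P, ?_, ?_⟩
  · rw [map_mul, h1, S28.tower_coeffMap_Vq]
  · rw [map_mul, h2, S28.tower_coeffMap_Vq]

/-- the second norm form on `A`-integral series. -/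
theorem CONG_N2 (ℓ : ℕ) (hℓ : ℓ.Prime) (A : ValuationSubring Qb) (hl : A.LiesOverPrime ℓ)
    (σ : GQ) (hfr : A.IsFrobeniusAt σ ℓ) (c : LaurentSeries ↥A) :
    ∃ P : LaurentSeries ↥A,
      incl A P = S28.Vq Qb ℓ (coeffMap (σ.symm : Qb →+* Qb) (incl A c) ^ ℓ *
        coeffMap (σ : Qb →+* Qb) (incl A c)) ∧
      red A P = S28.Vq _ (ℓ ^ 2) (red A c) * red A c ^ ℓ := by
  have : Fact ℓ.Prime := ⟨hℓ⟩
  have : NeZero ℓ := ⟨hℓ.ne_zero⟩
  have := charP_residue A ℓ hl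
  have hσ := hfr.mem_decompositionSubgroup
  have hσ' : σ.symm ∈ A.decompositionSubgroup ℚ := inv_mem hσ
  set s := sA A σ hσ with hs
  set t := sA A σ.symm hσ' with ht
  have hst : s.comp t = RingHom.id _ := by
    ext x
    show σ (σ.symm x) = x
    exact σ.apply_symm_apply _
  have hr : ∀ x : LaurentSeries A, red A (coeffMap s x)
      = coeffMap (frobenius (IsLocalRing.ResidueField A) ℓ) (red A x) := by
    intro x
    rw [coeffMap_coeffMap, coeffMap_coeffMap, hs, residue_comp_sA A σ ℓ hfr]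
  have hchar := fun x => (HF2.hf_char (IsLocalRing.ResidueField A) ℓ x).1
  have hrt : red A (coeffMap t c) ^ ℓ = S28.Vq _ ℓ (red A c) := by
    rw [hchar, ← hr, coeffMap_coeffMap s t, hst, S28.Vq_eq]
    congr 2
  refine ⟨S28.Vq _ ℓ (coeffMap t c ^ ℓ * coeffMap s c), ?_, ?_⟩
  · rw [S28.tower_coeffMap_Vq, map_mul, map_pow, coeffMap_coeffMap, coeffMap_coeffMap, hs, ht,
      subtype_comp_sA, subtype_comp_sA, ← coeffMap_coeffMap, ← coeffMap_coeffMap]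
  · rw [S28.tower_coeffMap_Vq, map_mul, map_pow, hrt, hr, map_mul,
      S28.BC.Vq_Vq ℓ ℓ hℓ.ne_zero hℓ.ne_zero, ← pow_two, hchar (red A c),
      S28.Vq_eq (IsLocalRing.ResidueField ↥A) ℓ]

theorem stmt_CONG : Stmt_CONG := by
  intro ℓ hℓ A hl σ hfr ρ hρ u a b hb hab
  obtain ⟨a1, ha1, ha1'⟩ := CONG_N1 ℓ hℓ A hl ρ hρ a
  obtain ⟨b1, hb1, hb1'⟩ := CONG_N1 ℓ hℓ A hl ρ hρ b
  obtain ⟨a2, ha2, ha2'⟩ := CONG_N2 ℓ hℓ A hl σ hfr a
  obtain ⟨b2, hb2, hb2'⟩ := CONG_N2 ℓ hℓ A hl σ hfr b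
  refine ⟨a1 * b2 - a2 * b1, b1 * b2, ?_, ?_, ?_⟩
  · rw [map_sub, map_mul, map_mul, ha1', hb2', ha2', hb1', sub_self]
  · rw [map_mul, hb1', hb2']
    have h1 : S28.Vq _ (ℓ ^ 2) (red A b) ≠ 0 := by
      intro h
      exact hb ((map_eq_zero_iff _ (S28.BC.Vq_injective _)).mp h)
    exact mul_ne_zero (mul_ne_zero h1 (pow_ne_zero _ hb)) (mul_ne_zero h1 (pow_ne_zero _ hb))
  · rw [map_sub, map_mul, map_mul, map_mul, ha1, hb2, ha2, hb1, hab]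
    simp only [map_mul, map_pow, Finset.prod_mul_distrib, mul_pow]
    ring

end Fermat.Agent.RED
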