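import Fermat.Agent.RED.Interface3

/-!
# RED-CONSTRED : `Stmt_ConstRed_all` from AUX, LD, REDA, NORM, TH
-/

set_option autoImplicit false
set_option synthInstance.maxHeartbeats 400000

noncomputable section

namespace Fermat.Agent.RED

open AlgebraicCurve ModularCurve Polynomial IntermediateField

theorem CONSTRED_coe_algebraMap (N : ℕ) (c : Qb) :
    ((algebraMap Qb (FF N) c : FF N) : LaurentSeries Qb) = HahnSeries.C c := by
  change algebraMap Qb (LaurentSeries Qb) c = _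
  rw [algebraMap_laurentSeries_eq_single, HahnSeries.C_apply]

theorem CONSTRED_pullback_ord (N r : ℕ) [NeZero N] [NeZero r]
    (hι : (heckeAlphaBar Qb N r).toRingHom.IsIntegral)
    (hP : HasPrincipalDivisors Qb (FF (N * r))) (f : FF N) (E : Divisor Qb (FF N))
    (hE : ∀ P : Pl N, E P = P.ord f) (w : Pl (N * r)) :
    Divisor.pullbackAlong (heckeAlphaBar Qb N r) hι E w = w.ord (heckeAlphaBar Qb N r f) := by
  let _ := algebraAlong (heckeAlphaBar Qb N r)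
  have := isScalarTower_along (heckeAlphaBar Qb N r)
  have := isIntegral_along (heckeAlphaBar Qb N r) hι
  exact Divisor.pullback_apply_eq_ord hE w

/-- the computation with the Gauss reduction datum. -/
theorem CONSTRED_core (M : ℕ) (A : ValuationSubring Qb)
    (L : IntermediateField (INJ.Inst.kA A) (LaurentSeries (INJ.Inst.kA A)))
    (D : INJ.RedData Qb (FF M) (INJ.Inst.kA A) L) (hG : INJ.Inst.IsGauss M A L D)
    (μ : Qb) (a b : LaurentSeries ↥A) (ha' : incl A a ∈ modularFunctionFieldBar M)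
    (hb' : incl A b ∈ modularFunctionFieldBar M) (g : FF M) (hrd : D.rd g = 1)
    (hra : red A a ≠ 0)
    (key : algebraMap Qb (FF M) μ * (⟨_, ha'⟩ : FF M) = (⟨_, hb'⟩ : FF M) * g) :
    ∃ hμ : μ ∈ A, HahnSeries.C (IsLocalRing.residue ↥A ⟨μ, hμ⟩) * red A a = red A b := by
  have hDA : D.A = A := hG.hA
  obtain ⟨haO, hard⟩ := hG.rd a ha'
  obtain ⟨hbO, hbrd⟩ := hG.rd b hb'
  obtain ⟨a1, ha1⟩ : ∃ a1 : FF M, a1 = ⟨_, ha'⟩ := ⟨_, rfl⟩
  obtain ⟨b1, hb1⟩ : ∃ b1 : FF M, b1 = ⟨_, hb'⟩ := ⟨_, rfl⟩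
  rw [← ha1] at haO hard key
  rw [← hb1] at hbO hbrd key
  have hgO : g ∈ D.O := INJ.RedData.mem_of_rd_ne_zero (by rw [hrd]; exact one_ne_zero)
  have hra1 : D.rd a1 ≠ 0 := by
    intro h
    rw [h] at hard
    exact hra hard.symm
  have ha10 : a1 ≠ 0 := by
    rintro rfl
    exact hra1 INJ.RedData.rd_zero
  have hμO : algebraMap Qb (FF M) μ ∈ D.O := by
    have : algebraMap Qb (FF M) μ = (b1 * g) / a1 := (eq_div_iff ha10).2 key
    rw [this]
    exact INJ.RedData.div_mem (mul_mem hbO hgO) hra1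
  have hμD : μ ∈ D.A := (D.mem_iff μ).1 hμO
  have hμA : μ ∈ A := hDA ▸ hμD
  have hrdeq : D.rd (algebraMap Qb (FF M) μ) * D.rd a1 = D.rd b1 := by
    rw [← INJ.RedData.rd_mul hμO haO, key, INJ.RedData.rd_mul hbO hgO, hrd, mul_one]
  rw [INJ.RedData.rd_algebraMap hμD, hG.ra μ hμA] at hrdeq
  have hrdeq' := congrArg (fun x : L => (x : LaurentSeries (INJ.Inst.kA A))) hrdeq
  refine ⟨hμA, ?_⟩
  rw [← hard, ← hbrd]
  refine Eq.trans ?_ hrdeq'
  change _ = ((algebraMap (INJ.Inst.kA A) L (IsLocalRing.residue ↥A ⟨μ, hμA⟩) : L) :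
    LaurentSeries (INJ.Inst.kA A)) * ((D.rd a1 : L) : LaurentSeries (INJ.Inst.kA A))
  congr 1
  change _ = algebraMap (INJ.Inst.kA A) (LaurentSeries (INJ.Inst.kA A)) _
  rw [algebraMap_laurentSeries_eq_single, HahnSeries.C_apply]

/-- the geometric part: a constant `c` with `rd (c f') = 1` at an auxiliary level. -/
theorem CONSTRED_aux (hAUX : Stmt_AUX_all) (hLD : Stmt_LD) (hR : Stmt_REDA)
    (hTH : ∀ (N r : ℕ) [NeZero N] [NeZero r], Stmt_TH N r)
    (N ℓ : ℕ) [NeZero N] (hℓ : ℓ.Prime) (hℓN : ¬ ℓ ∣ N) (A : ValuationSubring Qb)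
    (hA : A.LiesOverPrime ℓ) (f : FF N) (hf : f ≠ 0) (E : Divisor Qb (FF N)) (hE : E ∈ ZRed N A)
    (hEf : ∀ P : Pl N, E P = P.ord f) :
    ∃ (r : ℕ) (_ : NeZero r)
      (L : IntermediateField (INJ.Inst.kA A) (LaurentSeries (INJ.Inst.kA A)))
      (D : INJ.RedData Qb (FF (N * r)) (INJ.Inst.kA A) L) (c : Qb),
      INJ.Inst.IsGauss (N * r) A L D ∧ c ≠ 0 ∧
        D.rd (algebraMap Qb (FF (N * r)) c * heckeAlphaBar Qb N r f) = 1 := by
  obtain ⟨r, hr, t, L, D, hG, hC1, hC2, hB1, hB2, hI1, hI2⟩ := hAUX N ℓ hℓ hℓN A hA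
  obtain ⟨hα, hβ, hP, hfin, hFI, hNF⟩ := hTH N r
  have hDA : D.A = A := hG.hA
  have hE' : Divisor.pullbackAlong (heckeAlphaBar Qb N r) hα E ∈ ZRedX D.A t := by
    rw [hDA]; exact hLD N r A t hI1 hI2 hα hP E hE
  have hf' : heckeAlphaBar Qb N r f ≠ 0 := by
    intro h; exact hf ((heckeAlphaBar Qb N r).toRingHom.injective (by simpa using h))
  obtain ⟨c, hc, hrd⟩ := hR Qb (FF (N * r)) (INJ.Inst.kA A) L D t hC1 hC2 hB1 hB2
    (heckeAlphaBar Qb N r f) hf' _ hE' (CONSTRED_pullback_ord N r hα hP f E hEf)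
  exact ⟨r, hr, L, D, c, hG, hc, hrd⟩

theorem stmt_ConstRed_all (hAUX : Stmt_AUX_all) (hLD : Stmt_LD) (hR : Stmt_REDA) (hN : Stmt_NORM)
    (hTH : ∀ (N r : ℕ) [NeZero N] [NeZero r], Stmt_TH N r) : Stmt_ConstRed_all := by
  intro N ℓ _ hℓ hℓN A hA f hf E hE hEf
  obtain ⟨r, hr, L, D, c, hG, hc, hrd⟩ :=
    CONSTRED_aux hAUX hLD hR hTH N ℓ hℓ hℓN A hA f hf E hE hEf
  have hcf : algebraMap Qb (FF N) c * f ≠ 0 :=
    mul_ne_zero (by simpa using hc) hf
  obtain ⟨μ, a, b, hμ, ha, hb, hra, hrb, hab⟩ := hN N ℓ hℓ hℓN A hA _ hcf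
  -- `a`, `b` at level `N * r`
  have ha' : incl A a ∈ modularFunctionFieldBar (N * r) := by
    have := (heckeAlphaBar Qb N r ⟨_, ha⟩).2
    rwa [coe_heckeAlphaBar] at this
  have hb' : incl A b ∈ modularFunctionFieldBar (N * r) := by
    have := (heckeAlphaBar Qb N r ⟨_, hb⟩).2
    rwa [coe_heckeAlphaBar] at this
  have hab' : HahnSeries.C μ * incl A a = incl A b * (HahnSeries.C c * (f : LaurentSeries Qb)) := by
    rw [hab, ← CONSTRED_coe_algebraMap N c]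
    rfl
  have key : algebraMap Qb (FF (N * r)) μ * (⟨_, ha'⟩ : FF (N * r)) = (⟨_, hb'⟩ : FF (N * r)) *
      (algebraMap Qb (FF (N * r)) c * heckeAlphaBar Qb N r f) := by
    apply Subtype.ext
    change ((algebraMap Qb (FF (N * r)) μ : FF (N * r)) : LaurentSeries Qb) * incl A a =
      incl A b * (((algebraMap Qb (FF (N * r)) c : FF (N * r)) : LaurentSeries Qb) *
        ((heckeAlphaBar Qb N r f : FF (N * r)) : LaurentSeries Qb))
    rw [CONSTRED_coe_algebraMap, CONSTRED_coe_algebraMap, coe_heckeAlphaBar, hab']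
  obtain ⟨hμA, hred⟩ := CONSTRED_core (N * r) A L D hG μ a b ha' hb' _ hrd hra key
  have hy1 : incl A (HahnSeries.C (⟨μ, hμA⟩ : ↥A) * a) = HahnSeries.C μ * incl A a := by
    rw [map_mul, HahnSeries.C_apply, coeffMap_single, HahnSeries.C_apply]
    rfl
  have h₁ : incl A (HahnSeries.C (⟨μ, hμA⟩ : ↥A) * a) ∈ modularFunctionFieldBar N := by
    rw [hy1, ← CONSTRED_coe_algebraMap N μ]
    exact mul_mem (algebraMap Qb (FF N) μ).2 ha
  have hb0 : (⟨_, hb⟩ : FF N) ≠ 0 := by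
    intro h
    have h0 : incl A b = 0 := congrArg Subtype.val h
    apply hrb
    have hb00 : b = 0 := by
      ext n
      have := congrArg (fun x => HahnSeries.coeff x n) h0
      simpa [coeffMap_coeff] using this
    rw [hb00, map_zero]
  refine ⟨c⁻¹, HahnSeries.C (⟨μ, hμA⟩ : ↥A) * a, b, h₁, hb, inv_ne_zero hc, ?_, hrb, ?_⟩
  · rw [map_mul, ← hred, HahnSeries.C_apply, coeffMap_single, HahnSeries.C_apply]
  · have h2 : (⟨_, h₁⟩ : FF N) = (⟨_, hb⟩ : FF N) * (algebraMap Qb (FF N) c * f) := by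
      apply Subtype.ext
      change incl A (HahnSeries.C (⟨μ, hμA⟩ : ↥A) * a) = incl A b *
        (((algebraMap Qb (FF N) c : FF N) : LaurentSeries Qb) * (f : LaurentSeries Qb))
      rw [hy1, hab', CONSTRED_coe_algebraMap]
    rw [h2, mul_div_cancel_left₀ _ hb0, ← mul_assoc, ← map_mul, inv_mul_cancel₀ hc, map_one,
      one_mul]

end Fermat.Agent.RED
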