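import Fermat.Agent.RED.Interface3
import Fermat.Agent.RED.Ev

/-!
# RED-COORD : `TUBE'` and `COORD` (change of coordinate for `SameRedX`)

`Stmt_TUBE` is false as typed for `y = 0`; we prove the variant `Stmt_TUBE'` with `y ≠ 0`.
-/

set_option autoImplicit false

noncomputable section

namespace Fermat.Agent.RED

open AlgebraicCurve ModularCurve Polynomial IntermediateField

universe u

section Trans

variable {F : Type*} [Field F]

/-- transitivity of integrality for subrings of a field. -/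
theorem COORD_isIntegral_trans {R S : Subring F} (h : ∀ z ∈ S, IsIntegral R z) {y : F}
    (hy : IsIntegral S y) : IsIntegral R y := by
  let φ : S →+* integralClosure R F :=
    S.subtype.codRestrict (integralClosure R F) (fun z => h z.1 z.2)
  have h1 : IsIntegral (integralClosure R F) y :=
    IsIntegral.map_of_comp_eq φ (RingHom.id F) rfl hy
  exact isIntegral_trans y h1

/-- scaling the roots of a monic polynomial. -/
theorem COORD_scale {S : Subring F} {σ y : F} (hσ : σ ∈ S) (p : F[X]) (hp : p.Monic)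
    (hpy : p.eval y = 0) (hmul : ∀ i < p.natDegree, σ * p.coeff i ∈ S) :
    IsIntegral S (σ * y) := by
  refine (EV_isIntegral_iff _ _).2 ⟨p.scaleRoots σ, (monic_scaleRoots_iff σ).2 hp, fun i => ?_, ?_⟩
  · rw [coeff_scaleRoots]
    rcases lt_trichotomy i p.natDegree with hi | hi | hi
    · obtain ⟨m, hm⟩ : ∃ m, p.natDegree - i = m + 1 := ⟨p.natDegree - i - 1, by omega⟩
      rw [hm, pow_succ]
      have e : p.coeff i * (σ ^ m * σ) = σ * p.coeff i * σ ^ m := by ring
      rw [e]
      exact mul_mem (hmul i hi) (pow_mem hσ m)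
    · rw [hi, hp.coeff_natDegree, Nat.sub_self, pow_zero, mul_one]
      exact one_mem _
    · rw [coeff_eq_zero_of_natDegree_lt hi, zero_mul]
      exact zero_mem _
  · have h := scaleRoots_eval₂_eq_zero (RingHom.id F) (p := p) (r := y) (s := σ)
      (by rw [eval₂_id]; exact hpy)
    rw [eval₂_id] at h
    exact h

end Trans

section Rings

variable {K F : Type*} [Field K] [Field F] [Algebra K F] {A : ValuationSubring K}

theorem COORD_polyHom_monomial (A : ValuationSubring K) (x : F) (n : ℕ) (a : A) :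
    polyHom A x (monomial n a) = algebraMap K F (a : K) * x ^ n := by
  simp [polyHom]

theorem COORD_polyHom_integral {R : Subring F} {t : F} (hA : ∀ c ∈ A, IsIntegral R (algebraMap K F c))
    (ht : IsIntegral R t) (p : (↥A)[X]) : IsIntegral R (polyHom A t p) := by
  induction p using Polynomial.induction_on' with
  | add p q hp hq =>
    rw [map_add]
    exact hp.add hq
  | monomial n a =>
    rw [COORD_polyHom_monomial]
    exact (hA a a.2).mul (ht.pow n)

theorem IntOver.trans {x t y : F} (ht : IntOver A x t) (hy : IntOver A t y) : IntOver A x y := by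
  refine COORD_isIntegral_trans ?_ hy
  rintro _ ⟨p, rfl⟩
  exact COORD_polyHom_integral (fun c hc => intOver_const hc) ht p

theorem LocInt.trans_int {x t y : F} (ht : LocInt A x t) (hy : IntOver A t y) : LocInt A x y := by
  refine COORD_isIntegral_trans ?_ hy
  rintro _ ⟨p, rfl⟩
  exact COORD_polyHom_integral (fun c hc => locInt_const hc) ht p

/-- elements of `A[t]` become elements of `A[t⁻¹]` after multiplication by a high power of
`t⁻¹`. -/
theorem COORD_clear_poly {t : F} (ht : t ≠ 0) (p : (↥A)[X]) :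
    ∃ m₀ : ℕ, ∀ m, m₀ ≤ m → t⁻¹ ^ m * polyHom A t p ∈ polyRing A t⁻¹ := by
  induction p using Polynomial.induction_on' with
  | add p q hp hq =>
    obtain ⟨m₁, h₁⟩ := hp
    obtain ⟨m₂, h₂⟩ := hq
    refine ⟨max m₁ m₂, fun m hm => ?_⟩
    rw [map_add, mul_add]
    exact add_mem (h₁ m (le_trans (le_max_left _ _) hm)) (h₂ m (le_trans (le_max_right _ _) hm))
  | monomial n a =>
    refine ⟨n, fun m hm => ?_⟩
    obtain ⟨j, rfl⟩ := Nat.exists_eq_add_of_le hm
    have e : t⁻¹ ^ (n + j) * polyHom A t (monomial n a) = algebraMap K F (a : K) * t⁻¹ ^ j := by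
      rw [COORD_polyHom_monomial, pow_add, inv_pow, inv_pow]
      field_simp
    rw [e]
    exact mul_mem (const_mem_polyRing a.2) (pow_mem self_mem_polyRing j)

/-- clearing the pole: `y` integral over `A[t]` ⟹ `t⁻¹ ^ m * y` integral over `A[t⁻¹]`. -/
theorem COORD_clear {t y : F} (ht : t ≠ 0) (hy : IntOver A t y) :
    ∃ m : ℕ, IntOver A t⁻¹ (t⁻¹ ^ m * y) := by
  classical
  obtain ⟨p, hp, hc, hpy⟩ := (EV_isIntegral_iff _ _).1 hy
  have h1 : ∀ i, ∃ m₀ : ℕ, ∀ m, m₀ ≤ m → t⁻¹ ^ m * p.coeff i ∈ polyRing A t⁻¹ := by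
    intro i
    obtain ⟨r, hr⟩ := hc i
    rw [← hr]
    exact COORD_clear_poly ht r
  choose m₀ hm₀ using h1
  refine ⟨(Finset.range p.natDegree).sup m₀, ?_⟩
  refine COORD_scale (pow_mem self_mem_polyRing _) p hp hpy fun i hi => ?_
  exact hm₀ i _ (Finset.le_sup (f := m₀) (Finset.mem_range.2 hi))

end Rings

section Values

variable {K F : Type*} [Field K] [IsAlgClosed K] [Field F] [Algebra K F] {A : ValuationSubring K}

/-- values of functions integral over `A[t]`, `t` any function (the auxiliary coordinate `x` is only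
used for the existence of values). -/
theorem COORD_intOver_value (x : F) (hx : Transcendental K x) [FiniteDimensional K⟮x⟯ F]
    {P : Place K F} {t y : F} {c : K} (hc : Ev P t c) (hcA : c ∈ A) (hy : IntOver A t y) :
    ∃ c' ∈ A, Ev P y c' := by
  refine EV_value_mem A x hx P (polyRing A t) ?_ hy
  rintro _ ⟨p, rfl⟩
  exact ⟨_, EV_eval₂_mem hcA p, ev_polyHom hc p⟩

theorem COORD_locInt_value (x : F) (hx : Transcendental K x) [FiniteDimensional K⟮x⟯ F]
    {P : Place K F} {t y : F} {c : K} (hc : Ev P t c) (hcm : c ∈ A.nonunits) (hy : LocInt A t y) :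
    ∃ c' ∈ A, Ev P y c' := by
  refine EV_value_mem A x hx P (locRing A t) ?_ hy
  intro z hz
  obtain ⟨r, s, hs, rfl⟩ := locRing_exists_frac hz
  have hcA : c ∈ A := EV_nonunits_mem A hcm
  obtain ⟨h0, hinv⟩ := EV_eval₂_unit hcm hs
  exact ⟨_, mul_mem (EV_eval₂_mem hcA r) hinv, ev_mul (ev_polyHom hc r) (ev_inv (ev_polyHom hc s) h0)⟩

end Values

/-- the arithmetic step: `σ e ≡ σ' e'`, `σ ≡ σ'`, `σ` a unit, `e' ∈ A` ⟹ `e ≡ e'`. -/
theorem COORD_cancel {K : Type*} [Field K] (A : ValuationSubring K) {σ σ' e e' : K}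
    (h1 : σ * e - σ' * e' ∈ A.nonunits) (h2 : σ - σ' ∈ A.nonunits) (h0 : σ ≠ 0) (hinv : σ⁻¹ ∈ A)
    (he' : e' ∈ A) : e - e' ∈ A.nonunits := by
  have h3 := EV_nonunits_sub A h1 (EV_nonunits_mul_mem A h2 he')
  have h4 := EV_mem_mul_nonunits A hinv h3
  have e1 : σ⁻¹ * (σ * e - σ' * e' - (σ - σ') * e') = e - e' := by
    field_simp
    ring
  rwa [e1] at h4

/-- TUBE': if `y ≠ 0` is integral over `A[x]` and `y(P)` is "large" then `x(P)` is "large". -/
def Stmt_TUBE' : Prop :=
  ∀ (K F : Type u) [Field K] [IsAlgClosed K] [CharZero K] [Field F] [Algebra K F]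
    (A : ValuationSubring K) (x y : F), Transcendental K x → FiniteDimensional K⟮x⟯ F →
    IntOver A x y → y ≠ 0 → ∀ (P : Place K F) (c : K), c ∈ A.nonunits → Ev P y⁻¹ c →
      ∃ c' ∈ A.nonunits, Ev P x⁻¹ c'

theorem stmt_TUBE' : Stmt_TUBE'.{u} := by
  intro K F _ _ _ _ _ A x y hx hfd hy hy0 P c hc hEv
  rcases ev_or_inv x hx P x with ⟨c₁, hc₁⟩ | h
  · by_cases hA : c₁ ∈ A
    · exfalso
      obtain ⟨c₂, hc₂A, hc₂⟩ := COORD_intOver_value x hx hc₁ hA hy
      have h1 := ev_mul hc₂ hEv
      rw [mul_inv_cancel₀ hy0] at h1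
      have h2 : c₂ * c = 1 := ev_unique h1 (ev_one P)
      have h3 := EV_mem_mul_nonunits A hc₂A hc
      rw [h2, EV_mem_nonunits_iff] at h3
      rcases h3 with h3 | h3
      · exact one_ne_zero h3
      · exact h3 (by rw [inv_one]; exact one_mem _)
    · have h0 : c₁ ≠ 0 := by
        rintro rfl
        exact hA (zero_mem _)
      refine ⟨c₁⁻¹, (EV_mem_nonunits_iff A _).2 (Or.inr ?_), ev_inv hc₁ h0⟩
      rwa [inv_inv]
  · exact ⟨0, EV_zero_mem_nonunits A, h⟩

theorem stmt_COORD : Stmt_COORD.{u} := by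
  intro K F _ _ _ _ _ A x t hx hfd ht hT P P' hred
  rcases hred with ⟨⟨c, hcA, hc⟩, ⟨c', hc'A, hc'⟩, H⟩ | ⟨⟨c, hcm, hc⟩, ⟨c', hc'm, hc'⟩, H⟩
  · -- the affine chart
    exact Or.inl ⟨COORD_intOver_value x hx hc hcA ht, COORD_intOver_value x hx hc' hc'A ht,
      fun y hy => H y (ht.trans hy)⟩
  · -- the tube around `x = ∞`
    obtain ⟨a, haA, ha⟩ := COORD_locInt_value x hx hc hcm hT
    obtain ⟨a', ha'A, ha'⟩ := COORD_locInt_value x hx hc' hc'm hT
    have haa' : a - a' ∈ A.nonunits := H _ hT a a' ha ha'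
    by_cases ham : a ∈ A.nonunits
    · have ha'm : a' ∈ A.nonunits := by
        have := EV_nonunits_sub A ham haa'
        rwa [sub_sub_cancel] at this
      refine Or.inr ⟨⟨a, ham, ha⟩, ⟨a', ha'm, ha'⟩, fun y hy e e' he he' => ?_⟩
      obtain ⟨s, hs, hy₀⟩ := hy.exists_mul_intOver
      have h1 := H _ (hT.trans_int hy₀) _ _ (ev_mul (ev_polyHom ha s) he)
        (ev_mul (ev_polyHom ha' s) he')
      have h2 := H _ (hT.trans_int (intOver_polyHom s)) _ _ (ev_polyHom ha s) (ev_polyHom ha' s)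
      obtain ⟨h0, hinv⟩ := EV_eval₂_unit ham hs
      obtain ⟨e'', he''A, he''⟩ := COORD_locInt_value x hx ha' ha'm hy
      have he'A : e' ∈ A := by
        rw [ev_unique he' he'']; exact he''A
      exact COORD_cancel A h1 h2 h0 hinv he'A
    · have ha'm : a' ∉ A.nonunits := by
        intro h
        apply ham
        have := EV_nonunits_add A haa' h
        rwa [sub_add_cancel] at this
      rw [EV_mem_nonunits_iff, not_or, not_not] at ham ha'm
      obtain ⟨ha0, hainv⟩ := ham
      obtain ⟨ha'0, ha'inv⟩ := ha'm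
      have hT0 : t⁻¹ ≠ 0 := EV_ne_zero ha ha0
      have ht0 : t ≠ 0 := by
        rintro rfl
        exact hT0 inv_zero
      have hta : Ev P t a⁻¹ := by
        have := ev_inv ha ha0
        rwa [inv_inv] at this
      have hta' : Ev P' t a'⁻¹ := by
        have := ev_inv ha' ha'0
        rwa [inv_inv] at this
      refine Or.inl ⟨⟨a⁻¹, hainv, hta⟩, ⟨a'⁻¹, ha'inv, hta'⟩, fun y hy e e' he he' => ?_⟩
      obtain ⟨m, hm⟩ := COORD_clear ht0 hy
      have h1 := H _ (hT.trans_int hm) _ _ (ev_mul (ev_pow ha m) he) (ev_mul (ev_pow ha' m) he')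
      have h2 := H _ (hT.pow m) _ _ (ev_pow ha m) (ev_pow ha' m)
      obtain ⟨e'', he''A, he''⟩ := COORD_intOver_value x hx hta' ha'inv hy
      have he'A : e' ∈ A := by
        rw [ev_unique he' he'']; exact he''A
      refine COORD_cancel A h1 h2 (pow_ne_zero m ha0) ?_ he'A
      rw [← inv_pow]
      exact pow_mem hainv m

end Fermat.Agent.RED

end

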