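import Fermat.Agent.RED.Interface1
import Fermat.Agent.S27.R0

/-!
# RED-G1G5 : `HasPrincipalDivisors`, all degrees are one
-/

set_option autoImplicit false

namespace Fermat.Agent.RED

open AlgebraicCurve IntermediateField

universe u

theorem stmt_G1 : Stmt_G1.{u} := by
  intro K F _ _ _ _ _ x hx hfd
  exact Fermat.Agent.S27.R0.hasPrincipalDivisors ⟨x, hx, hfd⟩

/-- a finite extension of a function field is a function field -/
theorem G1G5_isFF (K F F' : Type u) [Field K] [Field F] [Field F'] [Algebra K F]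
    [Algebra K F'] [Algebra F F'] [IsScalarTower K F F'] (x : F) (hx : Transcendental K x)
    (hfd : FiniteDimensional K⟮x⟯ F) (hfin : Module.Finite F F') :
    Fermat.Agent.S27.IsFF K F' := by
  refine ⟨algebraMap F F' x, ?_, ?_⟩
  · exact (transcendental_algebraMap_iff (algebraMap F F').injective).mpr hx
  · let φ : F →ₐ[K] F' := IsScalarTower.toAlgHom K F F'
    have hmap : (K⟮x⟯).map φ = K⟮algebraMap F F' x⟯ := by
      rw [IntermediateField.adjoin_map, Set.image_singleton]
      rfl
    let g : K⟮x⟯ →+* K⟮algebraMap F F' x⟯ :=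
      { toFun := fun y => ⟨φ y, by rw [← hmap]; exact ⟨y, y.2, rfl⟩⟩
        map_one' := Subtype.ext (map_one φ)
        map_mul' := fun a b => Subtype.ext (map_mul φ (a : F) (b : F))
        map_zero' := Subtype.ext (map_zero φ)
        map_add' := fun a b => Subtype.ext (map_add φ (a : F) (b : F)) }
    let _ : Algebra K⟮x⟯ K⟮algebraMap F F' x⟯ := g.toAlgebra
    have : IsScalarTower K⟮x⟯ K⟮algebraMap F F' x⟯ F' :=
      IsScalarTower.of_algebraMap_eq (fun _ => rfl)
    have : Module.Finite K⟮x⟯ F' := Module.Finite.trans F F'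
    exact Module.Finite.of_restrictScalars_finite K⟮x⟯ K⟮algebraMap F F' x⟯ F'

theorem stmt_G5 : Stmt_G5.{u} := by
  intro K F F' _ _ _ _ _ _ _ _ _ _ x hx hfd hfin
  have h1 : ∀ v : Place K F, v.deg = 1 := Fermat.Agent.S27.R0.deg_eq_one ⟨x, hx, hfd⟩
  have h2 : ∀ w : Place K F', w.deg = 1 :=
    Fermat.Agent.S27.R0.deg_eq_one (G1G5_isFF K F F' x hx hfd hfin)
  refine ⟨h1, h2, fun w => ?_⟩
  have h3 := w.deg_restrict_mul_inertiaDeg (F := F)
  rw [h1, h2, one_mul] at h3
  exact h3

end Fermat.Agent.RED
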