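import Fermat.Agent.RED.Interface1
import Fermat.Agent.S27.CH1

/-!
# RED / G2, G3 : the fundamental identity and the norm formula from G4 (characteristic polynomial
at a place), G5 (degrees one) and G1 (principal divisors)
-/

set_option autoImplicit false

noncomputable section

namespace Fermat.Agent.RED

open AlgebraicCurve Polynomial IntermediateField
open Fermat.Agent.S27 (IsFF RegularAt VanishesAt evalAt)

universe u

section Basic

variable {K F : Type*} [Field K] [Field F] [Algebra K F]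

theorem G2G3_ev_iff {P : Place K F} {y : F} {c : K} :
    Ev P y c ↔ VanishesAt P (y - algebraMap K F c) := by
  rw [Ev, ValuationSubring.mem_nonunits_iff_exists_mem_maximalIdeal,
    Fermat.Agent.S27.vanishesAt_iff_mem_maximalIdeal]

theorem G2G3_ord_neg (P : Place K F) (f : F) : P.ord (-f) = P.ord f := by
  rcases eq_or_ne f 0 with rfl | hf
  · simp
  have h1 : P.ord (-1 : F) = 0 := by
    have := Fermat.Agent.S24.ord_algebraMap P (-1 : K)
    simpa using this
  rw [← neg_one_mul, P.ord_mul (neg_ne_zero.mpr one_ne_zero) hf, h1, zero_add]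

theorem G2G3_ord_prod (P : Place K F) {ι : Type*} (s : Finset ι) (f : ι → F)
    (hf : ∀ i ∈ s, f i ≠ 0) : P.ord (∏ i ∈ s, f i) = ∑ i ∈ s, P.ord (f i) := by
  classical
  induction s using Finset.induction_on with
  | empty => simp
  | insert a s ha ih =>
    rw [Finset.prod_insert ha, Finset.sum_insert ha,
      P.ord_mul (hf a (Finset.mem_insert_self a s))
        (Finset.prod_ne_zero_iff.mpr fun i hi => hf i (Finset.mem_insert_of_mem hi)),
      ih fun i hi => hf i (Finset.mem_insert_of_mem hi)]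

theorem G2G3_transcendental_of_ord_ne_zero [IsAlgClosed K] [CharZero K] (P : Place K F) {t : F}
    (ht : P.ord t ≠ 0) : Transcendental K t := by
  rcases Fermat.Agent.S27.R0.const_or_transcendental (K := K) t with ⟨a, rfl⟩ | h
  · exact absurd (Fermat.Agent.S24.ord_algebraMap P a) ht
  · exact h

end Basic

section Tower

variable {K F F' : Type*} [Field K] [Field F] [Field F'] [Algebra K F] [Algebra K F']
  [Algebra F F'] [IsScalarTower K F F']

theorem G2G3_transcendental_algebraMap {x : F} (hx : Transcendental K x) :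
    Transcendental K (algebraMap F F' x) := by
  intro h
  exact hx ((isAlgebraic_algebraMap_iff (algebraMap F F').injective).mp h)

theorem G2G3_finiteDimensional_tower (x : F) [FiniteDimensional K⟮x⟯ F] [Module.Finite F F'] :
    FiniteDimensional K⟮algebraMap F F' x⟯ F' := by
  have hmap : K⟮x⟯.map (IsScalarTower.toAlgHom K F F') = K⟮algebraMap F F' x⟯ := by
    rw [IntermediateField.adjoin_map, Set.image_singleton]
    rfl
  let e₀ := IntermediateField.equivMap K⟮x⟯ (IsScalarTower.toAlgHom K F F')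
  let e₁ : K⟮x⟯ ≃+* K⟮algebraMap F F' x⟯ :=
    e₀.toRingEquiv.trans (IntermediateField.equivOfEq hmap).toRingEquiv
  have : Module.Finite K⟮x⟯ F' := Module.Finite.trans F F'
  exact Module.Finite.of_equiv_equiv e₁ (RingEquiv.refl F') (by ext a; rfl)

theorem G2G3_norm_inv [Module.Finite F F'] (z : F') :
    Algebra.norm F z⁻¹ = (Algebra.norm F z)⁻¹ := by
  rcases eq_or_ne z 0 with rfl | hz
  · simp [Algebra.norm_zero]
  · refine eq_inv_of_mul_eq_one_left ?_
    rw [← map_mul, inv_mul_cancel₀ hz, map_one]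

theorem G2G3_norm_zpow [Module.Finite F F'] (z : F') (k : ℤ) :
    Algebra.norm F (z ^ k) = Algebra.norm F z ^ k := by
  cases k with
  | ofNat n => simp
  | negSucc n => rw [zpow_negSucc, zpow_negSucc, G2G3_norm_inv, map_pow]

theorem G2G3_isFF_tower (h : IsFF K F) [Module.Finite F F'] : IsFF K F' := by
  obtain ⟨x, hx, hfd⟩ := h
  exact ⟨algebraMap F F' x, G2G3_transcendental_algebraMap hx, G2G3_finiteDimensional_tower x⟩

end Tower

section Main

variable {K F F' : Type u} [Field K] [IsAlgClosed K] [CharZero K] [Field F] [Field F']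
  [Algebra K F] [Algebra K F'] [Algebra F F'] [IsScalarTower K F F'] [Algebra.IsIntegral F F']
  [HasPrincipalDivisors K F'] [Module.Finite F F']

theorem G2G3_sum_ram (h4 : Stmt_G4.{u}) (x : F) (hx : Transcendental K x)
    (hfd : FiniteDimensional K⟮x⟯ F) (v : Place K F) :
    ∑ w ∈ v.fiber F', w.ramificationIndex F = Module.finrank F F' := by
  have h := h4 K F F' x hx hfd v 0 (fun _ => 0) (fun w _ => by
    rw [G2G3_ev_iff]; simp) (∑ w ∈ v.fiber F', w.ramificationIndex F)
  rw [map_zero, LinearMap.charpoly_zero] at h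
  simp only [map_zero, sub_zero, Finset.prod_pow_eq_pow_sum, coeff_X_pow, if_true] at h
  by_contra hne
  rw [if_neg hne, G2G3_ev_iff, zero_sub, map_one] at h
  have h1 := Fermat.Agent.S27.vanishesAt_neg h
  rw [neg_neg] at h1
  exact Fermat.Agent.S27.not_vanishesAt_one v h1

omit [IsAlgClosed K] [CharZero K] in
theorem G2G3_ev_const_mul {P : Place K F} {y : F} {c : K} (a : K) (h : Ev P y c) :
    Ev P (algebraMap K F a * y) (a * c) := by
  rw [G2G3_ev_iff] at h ⊢
  have := Fermat.Agent.S27.vanishesAt_mul_left (Fermat.Agent.S27.regularAt_algebraMap P a) h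
  rwa [mul_sub, ← map_mul] at this

/-- the value of the norm at `v` is the product of the values above `v`. -/
theorem G2G3_ev_norm (h4 : Stmt_G4.{u}) (x : F) (hx : Transcendental K x)
    (hfd : FiniteDimensional K⟮x⟯ F) (v : Place K F) (f : F')
    (hreg : ∀ w ∈ v.fiber F', RegularAt w f) :
    Ev v (Algebra.norm F f) (∏ w ∈ v.fiber F', evalAt w f ^ w.ramificationIndex F) := by
  have hF' : IsFF K F' := G2G3_isFF_tower ⟨x, hx, hfd⟩
  have h := h4 K F F' x hx hfd v f (fun w => evalAt w f) (fun w hw => by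
    rw [G2G3_ev_iff]
    exact Fermat.Agent.S27.evalAt_spec hF' (hreg w hw)) 0
  have h1 := G2G3_ev_const_mul ((-1) ^ Module.finrank F F') h
  have e1 : algebraMap K F ((-1) ^ Module.finrank F F')
      * (LinearMap.charpoly (Algebra.lmul F F' f)).coeff 0 = Algebra.norm F f := by
    rw [Algebra.norm_apply, LinearMap.det_eq_sign_charpoly_coeff]
    simp
  have e2 : (-1) ^ Module.finrank F F'
      * (∏ w ∈ v.fiber F', (X - C (evalAt w f)) ^ w.ramificationIndex F).coeff 0
      = ∏ w ∈ v.fiber F', evalAt w f ^ w.ramificationIndex F := by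
    rw [coeff_zero_eq_eval_zero, eval_prod]
    simp only [eval_pow, eval_sub, eval_X, eval_C, zero_sub]
    have : ∀ w : Place K F', (-evalAt w f) ^ w.ramificationIndex F
        = (-1) ^ w.ramificationIndex F * evalAt w f ^ w.ramificationIndex F := fun w => neg_pow _ _
    simp only [this]
    rw [Finset.prod_mul_distrib, Finset.prod_pow_eq_pow_sum, G2G3_sum_ram h4 x hx hfd v,
      ← mul_assoc, ← pow_add, ← two_mul, pow_mul]
    simp
  rwa [e1, e2] at h1

theorem G2G3_ord_norm_eq_zero (h4 : Stmt_G4.{u}) (x : F) (hx : Transcendental K x)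
    (hfd : FiniteDimensional K⟮x⟯ F) (v : Place K F) (f : F') (hf : f ≠ 0)
    (h0 : ∀ w ∈ v.fiber F', w.ord f = 0) : v.ord (Algebra.norm F f) = 0 := by
  have hF : IsFF K F := ⟨x, hx, hfd⟩
  have hF' : IsFF K F' := G2G3_isFF_tower hF
  have h := G2G3_ev_norm h4 x hx hfd v f fun w hw =>
    Fermat.Agent.S27.regularAt_of_ord_nonneg (h0 w hw).ge
  rw [G2G3_ev_iff] at h
  rw [Fermat.Agent.S27.ord_eq_zero_iff hF (Algebra.norm_ne_zero_iff.mpr hf)]
  refine ⟨Fermat.Agent.S27.HasValueAt.regularAt ⟨_, h⟩, ?_⟩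
  rw [Fermat.Agent.S27.evalAt_unique v _ _ h]
  exact Finset.prod_ne_zero_iff.mpr fun w hw =>
    pow_ne_zero _ ((Fermat.Agent.S27.ord_eq_zero_iff hF' hf).mp (h0 w hw)).2

theorem G2G3_ord_norm_pos (h4 : Stmt_G4.{u}) (x : F) (hx : Transcendental K x)
    (hfd : FiniteDimensional K⟮x⟯ F) (v : Place K F) (f : F') (hf : f ≠ 0)
    (h0 : ∀ w ∈ v.fiber F', 0 ≤ w.ord f) (w₀ : Place K F') (hw₀ : w₀ ∈ v.fiber F')
    (hpos : 0 < w₀.ord f) : 0 < v.ord (Algebra.norm F f) := by
  have h := G2G3_ev_norm h4 x hx hfd v f fun w hw =>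
    Fermat.Agent.S27.regularAt_of_ord_nonneg (h0 w hw)
  have hz : ∏ w ∈ v.fiber F', evalAt w f ^ w.ramificationIndex F = 0 := by
    refine Finset.prod_eq_zero hw₀ ?_
    rw [Fermat.Agent.S27.evalAt_eq_zero_of_vanishesAt (Fermat.Agent.S27.vanishesAt_of_ord_pos hpos)]
    exact zero_pow (w₀.ramificationIndex_pos (F := F)).ne'
  rw [hz, G2G3_ev_iff, map_zero, sub_zero] at h
  exact h.ord_pos (Algebra.norm_ne_zero_iff.mpr hf)

/-- weak approximation above `v`. -/
theorem G2G3_exists_unif (x : F) (hx : Transcendental K x) (hfd : FiniteDimensional K⟮x⟯ F)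
    (v : Place K F) :
    ∃ π : Place K F' → F', ∀ w ∈ v.fiber F', w.ord (π w) = 1 ∧
      ∀ w' ∈ v.fiber F', w' ≠ w → w'.ord (π w) = 0 := by
  obtain ⟨t, ht⟩ := Fermat.Agent.S24.exists_ord_eq_one v
  have htr : Transcendental K t := G2G3_transcendental_of_ord_ne_zero v (by rw [ht]; exact one_ne_zero)
  have := Fermat.Agent.S24.finiteDimensional_adjoin_simple_of_transcendental x hx t htr
  have := G2G3_finiteDimensional_tower (K := K) (F' := F') t
  obtain ⟨y, b, -, hinj, hord⟩ := Fermat.Agent.S27.CH1.exists_y (K := K) (F := F')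
    (G2G3_transcendental_algebraMap (F' := F') htr)
  have hz : ∀ w ∈ v.fiber F', w ∈ Fermat.Agent.S24.zeroPlaces (K := K) (algebraMap F F' t) := by
    intro w hw
    show 0 < w.ord (algebraMap F F' t)
    rw [w.ord_restrict t, Place.mem_fiber.mp hw, ht, mul_one]
    exact_mod_cast w.ramificationIndex_pos (F := F)
  refine ⟨fun w => y - algebraMap K F' (b w), fun w hw => ⟨hord w (hz w hw), fun w' hw' h => ?_⟩⟩
  have hb : b w' - b w ≠ 0 := sub_ne_zero.mpr fun hbb => h (hinj (hz w' hw') (hz w hw) hbb)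
  have h1 := hord w' (hz w' hw')
  have e : y - algebraMap K F' (b w)
      = algebraMap K F' (b w' - b w) + (y - algebraMap K F' (b w')) := by
    rw [map_sub]; ring
  show w'.ord (y - algebraMap K F' (b w)) = 0
  rw [e, Fermat.Agent.S24.ord_add_eq_of_lt w'
    ((map_ne_zero (algebraMap K F')).mpr hb)
    (by intro h0; rw [h0] at h1; simp at h1)
    (by rw [Fermat.Agent.S24.ord_algebraMap, h1]; exact one_pos),
    Fermat.Agent.S24.ord_algebraMap]

/-- `ord_v N(f) = ∑_{w ∣ v} ord_w f`. -/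
theorem G2G3_ord_norm (h4 : Stmt_G4.{u}) (x : F) (hx : Transcendental K x)
    (hfd : FiniteDimensional K⟮x⟯ F) (v : Place K F) (f : F') (hf : f ≠ 0) :
    v.ord (Algebra.norm F f) = ∑ w ∈ v.fiber F', w.ord f := by
  obtain ⟨π, hπ⟩ := G2G3_exists_unif (F' := F') x hx hfd v
  have hπ0 : ∀ w ∈ v.fiber F', π w ≠ 0 := by
    intro w hw h0
    have := (hπ w hw).1
    rw [h0] at this
    simp at this
  -- the general formula
  have key : ∀ g : F', g ≠ 0 → v.ord (Algebra.norm F g)
      = ∑ w ∈ v.fiber F', w.ord g * v.ord (Algebra.norm F (π w)) := by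
    intro g hg
    set P : F' := ∏ w ∈ v.fiber F', π w ^ w.ord g with hP
    have hP0 : P ≠ 0 := Finset.prod_ne_zero_iff.mpr fun w hw => zpow_ne_zero _ (hπ0 w hw)
    have hordP : ∀ w' ∈ v.fiber F', w'.ord P = w'.ord g := by
      intro w' hw'
      rw [hP, G2G3_ord_prod w' _ _ fun w hw => zpow_ne_zero _ (hπ0 w hw),
        Finset.sum_eq_single_of_mem w' hw']
      · rw [w'.ord_zpow, (hπ w' hw').1, mul_one]
      · intro w hw hne
        rw [w'.ord_zpow, (hπ w hw).2 w' hw' hne.symm, mul_zero]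
    have hε : v.ord (Algebra.norm F (g * P⁻¹)) = 0 := by
      refine G2G3_ord_norm_eq_zero h4 x hx hfd v _ (mul_ne_zero hg (inv_ne_zero hP0)) ?_
      intro w hw
      rw [w.ord_mul hg (inv_ne_zero hP0), w.ord_inv, hordP w hw, add_neg_cancel]
    have e : g = g * P⁻¹ * P := by rw [inv_mul_cancel_right₀ hP0]
    have hN : ∀ z : F', z ≠ 0 → Algebra.norm F z ≠ 0 := fun z hz => Algebra.norm_ne_zero_iff.mpr hz
    conv_lhs => rw [e]
    rw [map_mul, v.ord_mul (hN _ (mul_ne_zero hg (inv_ne_zero hP0))) (hN _ hP0), hε, zero_add, hP,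
      map_prod, G2G3_ord_prod v _ _ fun w hw => hN _ (zpow_ne_zero _ (hπ0 w hw))]
    refine Finset.sum_congr rfl fun w _ => ?_
    rw [G2G3_norm_zpow, v.ord_zpow]
  -- the weights are all one
  have hpos : ∀ w ∈ v.fiber F', 1 ≤ v.ord (Algebra.norm F (π w)) := by
    intro w hw
    refine G2G3_ord_norm_pos h4 x hx hfd v _ (hπ0 w hw) ?_ w hw (by rw [(hπ w hw).1]; exact one_pos)
    intro w' hw'
    by_cases h : w' = w
    · rw [h, (hπ w hw).1]; exact zero_le_one
    · rw [(hπ w hw).2 w' hw' h]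
  obtain ⟨t, ht⟩ := Fermat.Agent.S24.exists_ord_eq_one v
  have ht0 : t ≠ 0 := by
    rintro rfl
    simp at ht
  have h1 := key (algebraMap F F' t) (by simpa using ht0)
  rw [Algebra.norm_algebraMap, ← zpow_natCast, v.ord_zpow, ht, mul_one,
    ← G2G3_sum_ram h4 x hx hfd v] at h1
  have h2 : ∑ w ∈ v.fiber F', (w.ramificationIndex F : ℤ)
      * (v.ord (Algebra.norm F (π w)) - 1) = 0 := by
    simp only [mul_sub, mul_one, Finset.sum_sub_distrib]
    rw [sub_eq_zero]
    push_cast at h1
    rw [h1]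
    refine Finset.sum_congr rfl fun w hw => ?_
    rw [w.ord_restrict t, Place.mem_fiber.mp hw, ht, mul_one]
  have h3 := (Finset.sum_eq_zero_iff_of_nonneg fun w hw =>
    mul_nonneg (Int.natCast_nonneg _) (sub_nonneg.mpr (hpos w hw))).mp h2
  rw [key f hf]
  refine Finset.sum_congr rfl fun w hw => ?_
  have h4' := h3 w hw
  have he : (w.ramificationIndex F : ℤ) ≠ 0 := by
    exact_mod_cast (w.ramificationIndex_pos (F := F)).ne'
  have h5 : v.ord (Algebra.norm F (π w)) = 1 := by
    rcases mul_eq_zero.mp h4' with h | h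
    · exact absurd h he
    · omega
  rw [h5, mul_one]

end Main

/-- **G2** the fundamental identity. -/
theorem stmt_G2 (h4 : Stmt_G4.{u}) (h5 : Stmt_G5.{u}) : Stmt_G2.{u} := by
  intro K F F' _ _ _ _ _ _ _ _ _ _ _ x hx hfd hfin
  obtain ⟨hv, hw, -⟩ := h5 K F F' x hx hfd hfin
  refine ⟨fun v => ?_⟩
  rw [hv v, ← G2G3_sum_ram h4 x hx hfd v]
  push_cast
  rw [mul_one]
  exact Finset.sum_congr rfl fun w _ => by rw [hw w]; simp

/-- **G3** the norm formula. -/
theorem stmt_G3 (h1 : Stmt_G1.{u}) (h4 : Stmt_G4.{u}) (h5 : Stmt_G5.{u}) : Stmt_G3.{u} := by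
  intro K F F' _ _ _ _ _ _ _ _ _ _ hfin x hx hfd
  obtain ⟨-, -, hi⟩ := h5 K F F' x hx hfd hfin
  have : HasPrincipalDivisors K F' := h1 K F' (algebraMap F F' x)
    (G2G3_transcendental_algebraMap hx) (G2G3_finiteDimensional_tower x)
  intro f hf D hD v
  classical
  rw [Divisor.pushforward_apply, G2G3_ord_norm h4 x hx hfd v f hf, ← Finset.sum_filter]
  have hsub : D.support.filter (fun w => w.restrict F = v) ⊆ v.fiber F' := by
    intro w hw
    exact Place.mem_fiber.mpr (Finset.mem_filter.mp hw).2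
  rw [← Finset.sum_subset hsub]
  · exact Finset.sum_congr rfl fun w _ => by rw [hi w, hD w]; simp
  · intro w hw hnot
    rw [← hD w]
    by_contra h0
    exact hnot (Finset.mem_filter.mpr ⟨Finsupp.mem_support_iff.mpr h0, Place.mem_fiber.mp hw⟩)

end Fermat.Agent.RED
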