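import Fermat.Agent.RED.G4Interface
import Fermat.Agent.S27.RD
import Fermat.Agent.S27.R0
import Fermat.Agent.S27.RA
import Fermat.Agent.S27.RB
import Fermat.Agent.S27.RC

/-!
# RED-G4 : weak approximation from Riemann's theorem; adapted families exist
-/

set_option autoImplicit false

noncomputable section

namespace Fermat.Agent.RED

open AlgebraicCurve Polynomial IntermediateField

universe u

/-- value at `z ∈ T` of the divisor used in the approximation lemma. -/
theorem G4AP_apply {K F : Type u} [Field K] [Field F] [Algebra K F] (T : Finset (Place K F))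
    (m : Place K F → ℤ) (w₀ : Place K F) (hw₀ : w₀ ∉ T) (N : ℤ) (z : Place K F) (hz : z ∈ T) :
    ((-∑ w' ∈ T, Finsupp.single w' (m w') + Finsupp.single w₀ N : Divisor K F)) z = -m z := by
  classical
  have hne : w₀ ≠ z := fun h => hw₀ (h ▸ hz)
  rw [Finsupp.add_apply, Finsupp.neg_apply, Finsupp.finsetSum_apply,
    Finsupp.single_eq_of_ne' hne, add_zero]
  congr 1
  simp only [Finsupp.single_apply]
  rw [Finset.sum_ite_eq' T z, if_pos hz]

theorem stmt_G4_APPROX : Stmt_G4_APPROX.{u} := by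
  classical
  intro K F _ _ _ _ _ x hx hfd T m w hw
  have hFF : S27.IsFF K F := ⟨x, hx, hfd⟩
  obtain ⟨hPD, hdeg, hinf, -, -⟩ := S27.r0 K F hFF
  obtain ⟨hH1fin, hRR, ⟨c, hc⟩, -⟩ := S27.rd S27.r0 (S27.ra S27.r0) (S27.rb S27.r0)
    (S27.rc S27.r0 (S27.ra S27.r0)) K F hFF
  obtain ⟨hLfin, -, -, -⟩ := S27.ra S27.r0 K F hFF
  obtain ⟨w₀, hw₀⟩ := Infinite.exists_notMem_finset T
  set D₀ : Divisor K F := -∑ w' ∈ T, Finsupp.single w' (m w') with hD₀
  set N : ℤ := c + 1 - Divisor.degree D₀ with hN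
  set D : Divisor K F := D₀ + Finsupp.single w₀ N with hD
  have hdD : Divisor.degree D = c + 1 := by
    rw [hD, map_add, Divisor.degree_single, hdeg w₀, hN]
    push_cast
    ring
  have hdD' : Divisor.degree (D - Finsupp.single w 1) = c := by
    rw [map_sub, hdD, Divisor.degree_single, hdeg w]
    push_cast
    ring
  have hs : Subsingleton (H1 D) := hc D (by rw [hdD]; omega)
  have hs' : Subsingleton (H1 (D - Finsupp.single w 1)) := hc _ (by rw [hdD'])
  have h1 := hRR D
  have h2 := hRR (D - Finsupp.single w 1)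
  rw [Module.finrank_zero_of_subsingleton (M := H1 D), hdD] at h1
  rw [Module.finrank_zero_of_subsingleton (M := H1 (D - Finsupp.single w 1)), hdD'] at h2
  have hle : riemannRochSpace (D - Finsupp.single w 1) ≤ riemannRochSpace D := by
    apply S27.RC.rrSpace_mono
    rw [Finsupp.le_def]
    intro z
    rw [Finsupp.sub_apply]
    have : 0 ≤ (Finsupp.single w (1 : ℤ)) z := by
      rw [Finsupp.single_apply]; split_ifs <;> norm_num
    omega
  have hlt : riemannRochSpace (D - Finsupp.single w 1) < riemannRochSpace D := by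
    refine lt_of_le_of_ne hle fun heq => ?_
    rw [heq] at h2
    omega
  obtain ⟨f, hfD, hfD'⟩ := SetLike.exists_of_lt hlt
  have hf0 : f ≠ 0 := by
    rintro rfl
    exact hfD' (Submodule.zero_mem _)
  rw [mem_riemannRochSpace_iff] at hfD hfD'
  have hfD2 : ∀ z : Place K F, -D z ≤ z.ord f := fun z => (hfD z).resolve_left hf0
  push Not at hfD'
  obtain ⟨z, -, hz⟩ := hfD'
  have hzw : z = w := by
    by_contra hne
    rw [Finsupp.sub_apply, Finsupp.single_eq_of_ne' (Ne.symm hne), sub_zero] at hz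
    exact absurd (hfD2 z) (not_le.mpr hz)
  subst hzw
  rw [Finsupp.sub_apply, Finsupp.single_eq_same] at hz
  have hDT : ∀ z' ∈ T, D z' = -m z' := fun z' hz' => G4AP_apply T m w₀ hw₀ N z' hz'
  refine ⟨f, hf0, ?_, fun w' hw' => ?_⟩
  · have h3 := hfD2 z
    rw [hDT z hw] at h3 hz
    omega
  · have h3 := hfD2 w'
    rw [hDT w' hw'] at h3
    omega

theorem stmt_G4_EX (h : Stmt_G4_APPROX.{u}) : Stmt_G4_EX.{u} := by
  classical
  intro K F F' _ _ _ _ _ _ _ _ _ _ _ x' hx' hfd v
  have key : ∀ α : G4Idx F' v, ∃ f : F', f ≠ 0 ∧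
      (α.1 : Place K F').ord f = ((α.2 : ℕ) : ℤ) ∧
      ∀ w' : ↥(v.fiber F'), w' ≠ α.1 →
        (((w' : Place K F').ramificationIndex F : ℕ) : ℤ) ≤ (w' : Place K F').ord f := by
    intro α
    obtain ⟨f, hf0, hf1, hf2⟩ := h K F' x' hx' hfd (v.fiber F')
      (fun z => if z = (α.1 : Place K F') then ((α.2 : ℕ) : ℤ) else ((z.ramificationIndex F : ℕ) : ℤ))
      (α.1 : Place K F') α.1.2
    refine ⟨f, hf0, ?_, fun w' hw' => ?_⟩
    · rw [hf1, if_pos rfl]
    · have := hf2 (w' : Place K F') w'.2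
      rwa [if_neg (fun he => hw' (Subtype.ext he))] at this
  choose b hb0 hb1 hb2 using key
  exact ⟨b, hb0, hb1, hb2⟩

end Fermat.Agent.RED

end
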