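import Fermat.Agent.RED.G4Interface

/-!
# RED-G4-FF : a finite extension of a function field is a function field (degree formula)
-/

set_option autoImplicit false

noncomputable section

namespace Fermat.Agent.RED

open AlgebraicCurve Polynomial IntermediateField

universe u

theorem stmt_G4_FF : Stmt_G4_FF.{u} := by
  intro K F F' _ _ _ _ _ _ _ _ x hx hfd
  have htr : Transcendental K (algebraMap F F' x) :=
    (transcendental_algebraMap_iff (algebraMap F F').injective).mpr hx
  refine ⟨htr, ?_⟩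
  let φ : F →ₐ[K] F' := IsScalarTower.toAlgHom K F F'
  have hmap : (K⟮x⟯).map φ = K⟮algebraMap F F' x⟯ := by
    rw [IntermediateField.adjoin_map, Set.image_singleton]
    rfl
  let e : K⟮x⟯ ≃ₐ[K] K⟮algebraMap F F' x⟯ :=
    (IntermediateField.equivMap K⟮x⟯ φ).trans (IntermediateField.equivOfEq hmap)
  have he : ∀ a : K⟮x⟯, ((e a : K⟮algebraMap F F' x⟯) : F') = algebraMap F F' (a : F) := fun a => rfl
  have : Module.Finite K⟮x⟯ F' := Module.Finite.trans F F'
  have hc : (algebraMap K⟮algebraMap F F' x⟯ F').comp (e : K⟮x⟯ ≃+* K⟮algebraMap F F' x⟯).toRingHom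
      = (RingEquiv.refl F').toRingHom.comp (algebraMap K⟮x⟯ F') := by
    ext a
    exact he a
  refine ⟨Module.Finite.of_equiv_equiv (e : K⟮x⟯ ≃+* K⟮algebraMap F F' x⟯) (RingEquiv.refl F') hc,
    ?_⟩
  rw [← Algebra.finrank_eq_of_equiv_equiv (e : K⟮x⟯ ≃+* K⟮algebraMap F F' x⟯) (RingEquiv.refl F') hc]
  exact (Module.finrank_mul_finrank K⟮x⟯ F F').symm

end Fermat.Agent.RED

end
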