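import Fermat.Agent.RED.G4Interface
import Fermat.Agent.S24.FundId
import Fermat.Agent.S24.PlaceCases
import Fermat.Agent.S24.RiemannHurwitz

/-!
# RED-G4-FI (helper25): the fundamental identity `∑ e = n` from the inequality `∑ e ≤ n`
-/

set_option autoImplicit false

noncomputable section

namespace Fermat.Agent.RED

open AlgebraicCurve Polynomial IntermediateField

universe u

section

variable {K F F' : Type u} [Field K] [IsAlgClosed K] [CharZero K] [Field F] [Field F']
  [Algebra K F] [Algebra K F'] [Algebra F F'] [IsScalarTower K F F'] [Algebra.IsIntegral F F']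
  [HasPrincipalDivisors K F'] [Module.Finite F F']

theorem G4FI_core (hFF : Stmt_G4_FF.{u}) (t : F) (ht : Transcendental K t)
    (hfd : FiniteDimensional K⟮t⟯ F)
    (hle : ∀ v : Place K F, ∑ w ∈ v.fiber F', w.ramificationIndex F ≤ Module.finrank F F')
    (v : Place K F) (hv : 0 < v.ord t) :
    ∑ w ∈ v.fiber F', w.ramificationIndex F = Module.finrank F F' := by
  classical
  obtain ⟨ht', hfd', hdeg⟩ := hFF K F F' t ht hfd
  have hZ := S24.sum_ord_zeroPlaces (K := K) t ht
  have hZ' := S24.sum_ord_zeroPlaces (K := K) (algebraMap F F' t) ht'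
  set Z := (S24.zeroPlaces_finite (K := K) t ht).toFinset with hZdef
  set Z' := (S24.zeroPlaces_finite (K := K) (algebraMap F F' t) ht').toFinset with hZ'def
  have hmemZ : ∀ v' : Place K F, v' ∈ Z ↔ 0 < v'.ord t := fun v' => by
    rw [hZdef, Set.Finite.mem_toFinset]; rfl
  have hmemZ' : ∀ w : Place K F', w ∈ Z' ↔ 0 < w.ord (algebraMap F F' t) := fun w => by
    rw [hZ'def, Set.Finite.mem_toFinset]; rfl
  have hepos : ∀ w : Place K F', (0 : ℤ) < (w.ramificationIndex F : ℤ) := fun w => by
    exact_mod_cast w.ramificationIndex_pos (F := F)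
  have hiff : ∀ w : Place K F', w ∈ Z' ↔ w.restrict F ∈ Z := fun w => by
    rw [hmemZ, hmemZ', w.ord_restrict t]
    exact ⟨fun h => (pos_iff_pos_of_mul_pos h).1 (hepos w), fun h => mul_pos (hepos w) h⟩
  have h1 := Finset.sum_fiberwise_of_maps_to (s := Z') (t := Z) (g := fun w => w.restrict F)
    (fun w hw => (hiff w).1 hw) (fun w => w.ord (algebraMap F F' t))
  have h2 : ∀ v' ∈ Z, ∑ w ∈ Z' with w.restrict F = v', w.ord (algebraMap F F' t)
      = v'.ord t * ((∑ w ∈ v'.fiber F', w.ramificationIndex F : ℕ) : ℤ) := by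
    intro v' hv'
    have hfil : (Z'.filter fun w => w.restrict F = v') = v'.fiber F' := by
      ext w
      rw [Finset.mem_filter, Place.mem_fiber]
      constructor
      · exact fun h => h.2
      · intro h
        exact ⟨(hiff w).2 (h ▸ hv'), h⟩
    rw [hfil, Nat.cast_sum, Finset.mul_sum]
    refine Finset.sum_congr rfl fun w hw => ?_
    rw [w.ord_restrict t, Place.mem_fiber.1 hw, mul_comm]
  rw [Finset.sum_congr rfl h2, hZ', hdeg] at h1
  have h3 : ∑ v' ∈ Z, v'.ord t *
      ((Module.finrank F F' : ℤ) - ((∑ w ∈ v'.fiber F', w.ramificationIndex F : ℕ) : ℤ)) = 0 := by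
    simp only [mul_sub]
    rw [Finset.sum_sub_distrib, ← Finset.sum_mul, hZ, h1]
    push_cast
    ring
  have h4 := (Finset.sum_eq_zero_iff_of_nonneg (fun v' hv' => by
    have h5 : ((∑ w ∈ v'.fiber F', w.ramificationIndex F : ℕ) : ℤ) ≤ (Module.finrank F F' : ℤ) := by
      exact_mod_cast hle v'
    exact mul_nonneg ((hmemZ v').1 hv').le (sub_nonneg.2 h5))).1 h3 v ((hmemZ v).2 hv)
  have h6 := (mul_eq_zero.1 h4).resolve_left hv.ne'
  have h7 : ((∑ w ∈ v.fiber F', w.ramificationIndex F : ℕ) : ℤ) = (Module.finrank F F' : ℤ) :=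
    (sub_eq_zero.1 h6).symm
  exact_mod_cast h7

end

theorem stmt_G4_FI (hFF : Stmt_G4_FF.{u}) : Stmt_G4_FI.{u} := by
  intro K F F' _ _ _ _ _ _ _ _ _ _ _ _ x hx hfd hle v
  rcases S24.place_cases x hx v with ⟨h, -⟩ | ⟨-, c, h, -⟩
  · exact G4FI_core hFF x⁻¹ (S24.placeCases_transcendental_inv hx)
      (S24.placeCases_finiteDimensional_adjoin_inv (K := K) x) hle v h
  · have ht : Transcendental K (x - algebraMap K F c) := by
      intro h'
      apply hx
      have := h'.add (isAlgebraic_algebraMap (A := F) c)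
      rwa [sub_add_cancel] at this
    have hfd' : FiniteDimensional K⟮x - algebraMap K F c⟯ F := by
      rw [S24.rh_adjoin_sub_algebraMap_eq]
      exact hfd
    exact G4FI_core hFF _ ht hfd' hle v h

end Fermat.Agent.RED
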