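import Fermat.Agent.RED.G4Interface
import Fermat.Agent.S24.ExistsIndex

set_option autoImplicit false

noncomputable section

namespace Fermat.Agent.RED

open AlgebraicCurve Polynomial IntermediateField

universe u

/-- sums of elements of order `≥ N`. -/
theorem G4KEYb_sum_ge {K F : Type u} [Field K] [Field F] [Algebra K F] (w : Place K F) (N : ℤ)
    {ι : Type u} (s : Finset ι) (f : ι → F) (h : ∀ i ∈ s, f i = 0 ∨ N ≤ w.ord (f i)) :
    ∑ i ∈ s, f i = 0 ∨ N ≤ w.ord (∑ i ∈ s, f i) := by
  have key : ∀ g : F, (g = 0 ∨ N ≤ w.ord g) ↔ w.adicValuation g ≤ WithZero.exp (-N) := by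
    intro g
    rw [w.adicValuation_le_exp_iff, neg_neg]
  rw [key]
  exact Valuation.map_sum_le _ fun i hi => (key _).1 (h i hi)

theorem stmt_G4_KEYb : Stmt_G4_KEY.{u} := by
  classical
  intro K F F' _ _ _ _ _ _ _ _ _ v b hb c hc w m hm hy
  have hord : ∀ f : F, (w : Place K F').ord (algebraMap F F' f)
      = ((w : Place K F').ramificationIndex F : ℤ) * v.ord f := by
    intro f
    rw [Place.ord_restrict, Place.mem_fiber.mp w.2]
  set e : ℕ := (w : Place K F').ramificationIndex F with he
  suffices H : ∀ (n : ℕ) (hn : n < e), n < m → S27.VanishesAt v (c ⟨w, ⟨n, hn⟩⟩) from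
    fun j hj => H j j.2 hj
  intro n
  induction n using Nat.strong_induction_on with
  | _ n ih =>
    intro hn hnm
    by_contra hnv
    set α₀ : G4Idx F' v := ⟨w, ⟨n, hn⟩⟩ with hα₀
    have hc0 : c α₀ ≠ 0 := fun h => hnv (Or.inl h)
    have hcord : v.ord (c α₀) = 0 := by
      have h1 := (hc α₀).ord_nonneg
      have h2 : ¬ 0 < v.ord (c α₀) := fun h => hnv (Or.inr h)
      omega
    have ht0 : c α₀ • b α₀ ≠ 0 := smul_ne_zero hc0 (hb.ne_zero α₀)
    have htord : (w : Place K F').ord (c α₀ • b α₀) = n := by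
      rw [Algebra.smul_def, Place.ord_mul _ (by simpa using hc0) (hb.ne_zero α₀), hord, hcord,
        mul_zero, zero_add]
      exact hb.ord_self α₀
    have hrest : ∑ α ∈ Finset.univ.erase α₀, c α • b α = 0 ∨
        ((n : ℤ) + 1) ≤ (w : Place K F').ord (∑ α ∈ Finset.univ.erase α₀, c α • b α) := by
      refine G4KEYb_sum_ge _ _ _ _ fun α hα => ?_
      have hne : α ≠ α₀ := (Finset.mem_erase.mp hα).1
      rcases eq_or_ne (c α) 0 with h0 | h0
      · left; rw [h0, zero_smul]
      right
      rw [Algebra.smul_def, Place.ord_mul _ (by simpa using h0) (hb.ne_zero α), hord]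
      have hcα := (hc α).ord_nonneg
      have hepos : (0 : ℤ) ≤ (e : ℤ) := Int.natCast_nonneg _
      have hmul : (0 : ℤ) ≤ (e : ℤ) * v.ord (c α) := mul_nonneg hepos hcα
      by_cases hw : α.1 = w
      · obtain ⟨w', j⟩ := α
        obtain rfl : w' = w := hw
        have hself : (w' : Place K F').ord (b ⟨w', j⟩) = ((j : ℕ) : ℤ) := hb.ord_self ⟨w', j⟩
        rw [hself]
        rcases lt_trichotomy (j : ℕ) n with hlt | heq | hgt
        · have hv := ih j hlt j.2 (hlt.trans hnm)
          have hpos : 0 < v.ord (c ⟨w', j⟩) := hv.ord_pos h0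
          have : (e : ℤ) * 1 ≤ (e : ℤ) * v.ord (c ⟨w', j⟩) :=
            mul_le_mul_of_nonneg_left (by omega) hepos
          have hne' : (n : ℤ) < e := by exact_mod_cast hn
          have hj0 : (0 : ℤ) ≤ ((j : ℕ) : ℤ) := Int.natCast_nonneg _
          omega
        · exfalso
          apply hne
          rw [hα₀]
          congr 1
          exact Fin.ext heq
        · have : (n : ℤ) < ((j : ℕ) : ℤ) := by exact_mod_cast hgt
          omega
      · have h1 := hb.ord_other α w (fun h => hw h.symm)
        have hne' : (n : ℤ) < e := by exact_mod_cast hn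
        omega
    have hsplit : ∑ α, c α • b α = c α₀ • b α₀ + ∑ α ∈ Finset.univ.erase α₀, c α • b α :=
      (Finset.add_sum_erase _ _ (Finset.mem_univ α₀)).symm
    have hfinal : ∑ α, c α • b α ≠ 0 ∧ (w : Place K F').ord (∑ α, c α • b α) = n := by
      rw [hsplit]
      rcases hrest with h0 | h1
      · rw [h0, add_zero]
        exact ⟨ht0, htord⟩
      · rcases eq_or_ne (∑ α ∈ Finset.univ.erase α₀, c α • b α) 0 with h0 | h0
        · rw [h0, add_zero]
          exact ⟨ht0, htord⟩
        · have := (S24.isVal_ord (w : Place K F')).map_add_of_lt ht0 h0 (by rw [htord]; omega)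
          exact ⟨this.1, this.2.trans htord⟩
    rcases hy with h0 | h1
    · exact hfinal.1 h0
    · rw [hfinal.2] at h1
      have : (n : ℤ) < m := by exact_mod_cast hnm
      omega

end Fermat.Agent.RED
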