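import Fermat.Agent.RED.G4Interface
import Fermat.Agent.S24.PlaceBasic

/-!
# RED-G4 / LIN : linear independence and integrality of coordinates from KEY
-/

set_option autoImplicit false

noncomputable section

namespace Fermat.Agent.RED

open AlgebraicCurve Polynomial IntermediateField

universe u

/-- scaling lemma. -/
theorem G4LIN_scale {K F : Type u} [Field K] [Field F] [Algebra K F] (v : Place K F)
    {ι : Type u} [Fintype ι] (c : ι → F) (hc : ∃ α, c α ≠ 0) :
    ∃ (lam : F) (α₀ : ι), lam ≠ 0 ∧ c α₀ ≠ 0 ∧ v.ord lam = - v.ord (c α₀) ∧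
      (∀ α, c α ≠ 0 → v.ord (c α₀) ≤ v.ord (c α)) ∧
      (∀ α, S27.RegularAt v (lam * c α)) ∧ ¬ S27.VanishesAt v (lam * c α₀) := by
  classical
  obtain ⟨α₁, h1⟩ := hc
  obtain ⟨α₀, hα₀, hmin⟩ := Finset.exists_min_image (Finset.univ.filter (fun α => c α ≠ 0))
    (fun α => v.ord (c α)) ⟨α₁, by simp [h1]⟩
  have h0 : c α₀ ≠ 0 := (Finset.mem_filter.1 hα₀).2
  obtain ⟨π, hπ⟩ := S24.exists_ord_eq_one v
  have hπ0 : π ≠ 0 := by
    rintro rfl
    rw [v.ord_zero] at hπ
    exact zero_ne_one hπ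
  refine ⟨π ^ (-(v.ord (c α₀))), α₀, zpow_ne_zero _ hπ0, h0, by rw [v.ord_zpow, hπ, mul_one],
    fun α hα => hmin α (by simp [hα]), ?_, ?_⟩
  · intro α
    by_cases hα : c α = 0
    · rw [hα, mul_zero]; exact S27.regularAt_zero v
    · apply S27.regularAt_of_ord_nonneg
      rw [v.ord_mul (zpow_ne_zero _ hπ0) hα, v.ord_zpow, hπ, mul_one]
      have := hmin α (by simp [hα])
      linarith
  · intro h
    have := h.ord_pos (mul_ne_zero (zpow_ne_zero _ hπ0) h0)
    rw [v.ord_mul (zpow_ne_zero _ hπ0) h0, v.ord_zpow, hπ, mul_one] at this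
    linarith

theorem stmt_G4_LIN (h : Stmt_G4_KEY.{u}) : Stmt_G4_LIN.{u} := by
  intro K F F' _ _ _ _ _ _ _ _ _ v b hb
  have hsum : ∀ (lam : F) (c : G4Idx F' v → F),
      ∑ α, (lam * c α) • b α = lam • ∑ α, c α • b α := by
    intro lam c
    rw [Finset.smul_sum]
    exact Finset.sum_congr rfl fun α _ => mul_smul _ _ _
  constructor
  · rw [Fintype.linearIndependent_iff]
    intro c hc
    by_contra hcon
    have hex : ∃ α, c α ≠ 0 := by
      by_contra h'
      exact hcon fun α => by_contra fun hα => h' ⟨α, hα⟩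
    obtain ⟨lam, α₀, _, _, _, _, hreg, hnv⟩ := G4LIN_scale v c hex
    apply hnv
    have h0 : ∑ α, (lam * c α) • b α = 0 := by rw [hsum, hc, smul_zero]
    exact h K F F' v b hb (fun α => lam * c α) hreg α₀.1 _ le_rfl (Or.inl h0) α₀.2 α₀.2.2
  · intro c hy
    by_contra hcon
    obtain ⟨α₁, hα₁⟩ : ∃ α₁, ¬ S27.RegularAt v (c α₁) := by
      by_contra h'
      exact hcon fun α => by_contra fun hα => h' ⟨α, hα⟩
    have hα₁0 : c α₁ ≠ 0 := by
      intro h0
      apply hα₁
      rw [h0]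
      exact S27.regularAt_zero v
    have hneg : v.ord (c α₁) < 0 := S27.not_regularAt_iff.1 hα₁
    obtain ⟨lam, α₀, hlam0, _, hlam, hmin, hreg, hnv⟩ := G4LIN_scale v c ⟨α₁, hα₁0⟩
    have hlam1 : 1 ≤ v.ord lam := by
      have := hmin α₁ hα₁0
      omega
    apply hnv
    refine h K F F' v b hb (fun α => lam * c α) hreg α₀.1 _ le_rfl ?_ α₀.2 α₀.2.2
    by_cases hy0 : ∑ α, c α • b α = 0
    · left
      rw [hsum, hy0, smul_zero]
    · right
      have hw : (α₀.1 : Place K F').restrict F = v := Place.mem_fiber.1 α₀.1.2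
      have hyw : 0 ≤ (α₀.1 : Place K F').ord (∑ α, c α • b α) := (hy _ α₀.1.2).ord_nonneg
      have hl0 : algebraMap F F' lam ≠ 0 := (_root_.map_ne_zero _).2 hlam0
      rw [hsum, Algebra.smul_def, Place.ord_mul _ hl0 hy0, Place.ord_restrict, hw]
      have he : (0 : ℤ) ≤ (((α₀.1 : Place K F').ramificationIndex F : ℕ) : ℤ) :=
        Int.natCast_nonneg _
      nlinarith

end Fermat.Agent.RED

end
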