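import Fermat.Agent.RED.G4Interface

/-!
# RED-G4, package MAT : characteristic polynomial of a block-triangular matrix
-/

set_option autoImplicit false

namespace Fermat.Agent.RED

open Polynomial

universe u

/-- a matrix which is lower triangular for the order pulled back along an injective map to
`ℕ ×ₗ ℕ` has the product of the `X - M α α` as characteristic polynomial. -/
theorem G4MAT_aux {k : Type*} [CommRing k] {n : Type*} [Fintype n] [DecidableEq n]
    (f : n → ℕ ×ₗ ℕ) (hf : Function.Injective f) (M : Matrix n n k)
    (h : ∀ α β, f α < f β → M α β = 0) : M.charpoly = ∏ α, (X - C (M α α)) := by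
  letI : LinearOrder n := LinearOrder.lift' f hf
  have h1 : (M.transpose).IsUpperTriangular := by
    intro i j hij
    exact h j i hij
  have h2 := Matrix.charpoly_of_isUpperTriangular M.transpose h1
  rw [← Matrix.charpoly_transpose]
  exact h2

theorem stmt_G4_MAT : Stmt_G4_MAT.{u} := by
  intro k _ ι _ _ e d M hd ho ht
  have hf : Function.Injective (fun α : (Σ i : ι, Fin (e i)) =>
      (toLex (((Fintype.equivFin ι α.1 : Fin _) : ℕ), (α.2 : ℕ)) : ℕ ×ₗ ℕ)) := by
    rintro ⟨i, a⟩ ⟨j, b⟩ hab
    have h1 := toLex.injective hab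
    simp only [Prod.mk.injEq] at h1
    obtain ⟨h2, h3⟩ := h1
    have h4 : i = j := (Fintype.equivFin ι).injective (Fin.ext h2)
    subst h4
    have h5 : a = b := Fin.ext h3
    rw [h5]
  rw [G4MAT_aux _ hf M]
  · rw [Fintype.prod_sigma]
    refine Finset.prod_congr rfl fun i _ => ?_
    simp only [hd]
    rw [Finset.prod_const, Finset.card_univ, Fintype.card_fin]
  · rintro ⟨i, a⟩ ⟨j, b⟩ hab
    by_cases hij : i = j
    · subst hij
      refine ht i a b ?_
      rw [Prod.Lex.toLex_lt_toLex] at hab
      rcases hab with hab | ⟨-, hab⟩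
      · exact absurd hab (lt_irrefl _)
      · exact hab
    · exact ho _ _ hij

end Fermat.Agent.RED
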