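import Fermat.Agent.RED.G4Core
import Fermat.Agent.RED.G4FF
import Fermat.Agent.RED.G4Approx
import Fermat.Agent.RED.G4KeyB
import Fermat.Agent.RED.G4Lin
import Fermat.Agent.RED.G4FI
import Fermat.Agent.RED.G4Mat

/-!
# RED-G4 : `Stmt_G4`, unconditional
-/

set_option autoImplicit false

namespace Fermat.Agent.RED

universe u

/-- G4: the characteristic polynomial of `u ∈ F'` over `F`, evaluated at a place `v` of `F` above
which `u` is regular, is `∏_{w ∣ v} (T - u(w)) ^ e(w ∣ v)`. -/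
theorem stmt_G4 : Stmt_G4.{u} :=
  stmt_G4_of stmt_G4_FF (stmt_G4_EX stmt_G4_APPROX) stmt_G4_KEYb (stmt_G4_LIN stmt_G4_KEYb)
    (stmt_G4_FI stmt_G4_FF) stmt_G4_MAT

/-- BONUS: the fundamental identity `∑ e = n`, unconditional. -/
theorem stmt_G4_sum_ramificationIndex (K F F' : Type u) [Field K] [IsAlgClosed K] [CharZero K]
    [Field F] [Field F'] [Algebra K F] [Algebra K F'] [Algebra F F'] [IsScalarTower K F F']
    [Algebra.IsIntegral F F'] [AlgebraicCurve.HasPrincipalDivisors K F'] [Module.Finite F F']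
    (x : F) (hx : Transcendental K x) (hfd : FiniteDimensional (IntermediateField.adjoin K {x}) F)
    (v : AlgebraicCurve.Place K F) :
    ∑ w ∈ v.fiber F', w.ramificationIndex F = Module.finrank F F' := by
  obtain ⟨hx', hfd', -⟩ := stmt_G4_FF K F F' x hx hfd
  refine stmt_G4_FI stmt_G4_FF K F F' x hx hfd (fun v => ?_) v
  obtain ⟨b, hb⟩ := stmt_G4_EX stmt_G4_APPROX K F F' _ hx' hfd' v
  rw [← G4_card_idx]
  exact (stmt_G4_LIN stmt_G4_KEYb K F F' v b hb).1.fintype_card_le_finrank

end Fermat.Agent.RED
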