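import Fermat.Agent.RED.Interface3
import Fermat.Agent.RED.Ev

/-!
# RED-G4N : the norm form of `Stmt_G4`
-/

set_option autoImplicit false

noncomputable section

namespace Fermat.Agent.RED

open AlgebraicCurve ModularCurve Polynomial IntermediateField

universe u

theorem G4N_coeff_zero {ι K : Type*} [Field K] (s : Finset ι) (a : ι → K) (e : ι → ℕ) :
    (∏ w ∈ s, (X - C (a w)) ^ (e w)).coeff 0 = (-1) ^ (∑ w ∈ s, e w) * ∏ w ∈ s, a w ^ (e w) := by
  rw [coeff_zero_eq_eval_zero, eval_prod, ← Finset.prod_pow_eq_pow_sum, ← Finset.prod_mul_distrib]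
  refine Finset.prod_congr rfl fun w _ => ?_
  rw [eval_pow, eval_sub, eval_X, eval_C, zero_sub, ← mul_pow, neg_one_mul]

theorem G4N_prod_X {ι K : Type*} [Field K] (s : Finset ι) (e : ι → ℕ) :
    (∏ w ∈ s, (X - C (0 : K)) ^ (e w)) = X ^ (∑ w ∈ s, e w) := by
  rw [← Finset.prod_pow_eq_pow_sum]
  refine Finset.prod_congr rfl fun w _ => ?_
  rw [C_0, sub_zero]

theorem stmt_G4N (h4 : Stmt_G4.{u}) : Stmt_G4N.{u} := by
  intro K F F' _ _ _ _ _ _ _ _ _ _ _ _ x hx hfd v u val hval
  -- the sum of the ramification indices is the degree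
  have hE : ∑ w ∈ v.fiber F', w.ramificationIndex F = Module.finrank F F' := by
    have h0 := h4 K F F' x hx hfd v 0 (fun _ => 0) (fun w _ => ev_zero w) (Module.finrank F F')
    rw [map_zero, LinearMap.charpoly_zero, G4N_prod_X, coeff_X_pow, coeff_X_pow, if_pos rfl] at h0
    have h1 := ev_unique h0 (ev_one v)
    by_contra hne
    rw [if_neg (fun h => hne h.symm)] at h1
    exact zero_ne_one h1
  have h0 := h4 K F F' x hx hfd v u val hval 0
  rw [G4N_coeff_zero, hE] at h0
  have h1 : Algebra.norm F u =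
      (-1) ^ Module.finrank F F' * (LinearMap.charpoly (Algebra.lmul F F' u)).coeff 0 := by
    rw [Algebra.norm_apply, LinearMap.det_eq_sign_charpoly_coeff]
  rw [h1]
  have h2 := ev_mul (ev_pow (ev_neg (ev_one v)) (Module.finrank F F')) h0
  rw [← mul_assoc, ← mul_pow, neg_one_mul, neg_neg, one_pow, one_mul] at h2
  exact h2

end Fermat.Agent.RED
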