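import Fermat.Agent.RED.Interface3
import Fermat.Agent.INJ.Inst.Gauss
import Fermat.Agent.INJ.Inst.SepAdapter
import Fermat.Agent.INJ.P13
import Fermat.Agent.INJ.P16

/-!
# RED-GW : the Gauss valuation ring of `FF N` and its two charts over the `s`-line.
-/

set_option autoImplicit false
set_option synthInstance.maxHeartbeats 400000
set_option maxHeartbeats 1000000

noncomputable section

namespace Fermat.Agent.RED

open AlgebraicCurve ModularCurve Polynomial

/-- the series of `sF N` is `j(q^N)`. -/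
theorem GW_sF_coe (N : ℕ) [NeZero N] : ((sF N : FF N) : LaurentSeries Qb) = S28.jd Qb N := by
  rw [coe_sF, S24.jBarSeries, S28.jd, S28.Vq_eq, coeffEmb, coeffMap_qExpand, ← jqModC_rat,
    coeffMap_jqModC]

/-- nonunits of the valuation ring of a reduction datum. -/
theorem GW_mem_nonunits_iff {K F k Fb : Type*} [Field K] [Field F] [Algebra K F] [Field k]
    [Field Fb] [Algebra k Fb] (D : INJ.RedData K F k Fb) (d : F) :
    d ∈ D.O.nonunits ↔ d ∈ D.O ∧ D.rd d = 0 := by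
  rw [ValuationSubring.mem_nonunits_iff_exists_mem_maximalIdeal]
  constructor
  · rintro ⟨hd, hm⟩
    refine ⟨hd, ?_⟩
    by_contra h
    have hinv := INJ.RedData.inv_mem_of_rd_ne_zero h
    have hd0 : d ≠ 0 := by
      rintro rfl
      exact h INJ.RedData.rd_zero
    apply (IsLocalRing.mem_maximalIdeal _).1 hm
    exact IsUnit.of_mul_eq_one (⟨d⁻¹, hinv⟩ : D.O) (Subtype.ext (mul_inv_cancel₀ hd0))
  · rintro ⟨hd, h0⟩
    refine ⟨hd, (IsLocalRing.mem_maximalIdeal _).2 ?_⟩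
    intro hu
    obtain ⟨u, hu⟩ := hu
    have h1 : d * ((u⁻¹ : (D.O)ˣ) : D.O).1 = 1 := by
      have h2 : (u : D.O) * ((u⁻¹ : (D.O)ˣ) : D.O) = 1 := u.mul_inv
      rw [hu] at h2
      exact congrArg Subtype.val h2
    have h3 : D.rd d * D.rd ((u⁻¹ : (D.O)ˣ) : D.O).1 = 1 := by
      rw [← INJ.RedData.rd_mul hd ((u⁻¹ : (D.O)ˣ) : D.O).2, h1, INJ.RedData.rd_one]
    rw [h0, zero_mul] at h3
    exact zero_ne_one h3

/-- RED-GW (only `GC` and `ChartS` are needed). -/
theorem GW_of (hGC : Stmt_GC) (hCS : INJ.Inst.Stmt_ChartS) : Stmt_GW_all := by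
  intro N ℓ _ hℓ hℓN A hA
  have : Fact ℓ.Prime := ⟨hℓ⟩
  obtain ⟨L, D, hG, h1, h2⟩ := INJ.Inst.exists_gauss_strong N A
  have hc1 : INJ.Chart D (sF N) := hCS N ℓ hℓN A hA L D hG (sF N) (GW_sF_coe N)
  have hc2 : INJ.Chart D (sF N)⁻¹ := INJ.stmt_ChartInv _ _ _ _ D _ hc1
  have hg1 := hGC _ _ _ _ D _ hc1
  have hg2 := hGC _ _ _ _ D _ hc2
  rw [hG.hA] at hg1 hg2
  refine ⟨D.O, ?_, ?_, hg1, hg2⟩
  · intro d
    constructor
    · intro hd
      obtain ⟨f, g, hg, hfg⟩ := h2 d hd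
      exact ⟨f, g, hg, by rw [← hfg, mul_comm]⟩
    · rintro ⟨a, b, hb, hab⟩
      exact (h1 d a b hb (by rw [hab, mul_comm])).1
  · intro d
    rw [GW_mem_nonunits_iff]
    constructor
    · rintro ⟨hd, h0⟩
      obtain ⟨f, g, hg, hfg⟩ := h2 d hd
      refine ⟨f, g, ?_, hg, by rw [← hfg, mul_comm]⟩
      have h3 := (h1 d f g hg hfg).2
      rw [h0] at h3
      have h4 : coeffMap (IsLocalRing.residue A) f / coeffMap (IsLocalRing.residue A) g = 0 :=
        h3.symm
      rcases div_eq_zero_iff.1 h4 with h5 | h5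
      · exact h5
      · exact absurd h5 hg
    · rintro ⟨a, b, ha, hb, hab⟩
      obtain ⟨h3, h4⟩ := h1 d a b hb (by rw [hab, mul_comm])
      refine ⟨h3, ?_⟩
      have ha' : coeffMap (IsLocalRing.residue A) a = 0 := ha
      rw [ha', zero_div] at h4
      exact Subtype.ext h4

/-- RED-GW, with the signature of the task. -/
theorem stmt_GW_all (hGC : Stmt_GC) (_hN : Stmt_NORM) (hCS : INJ.Inst.Stmt_ChartS) :
    Stmt_GW_all := GW_of hGC hCS

/-- RED-GW, depending on `GC` only. -/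
theorem stmt_GW_all' (hGC : Stmt_GC) : Stmt_GW_all :=
  GW_of hGC (INJ.Inst.stmt_ChartS_of_SepL INJ.stmt_SepL)

end Fermat.Agent.RED

end

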