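import Fermat.Agent.RED.Interface2
import Fermat.Agent.S24.DegreeBound
import Fermat.Agent.S24.DegPrincipalCore

/-!
# RED (S37), task RED-THof (helper35): `HeckeInputsAlong` from G1, G2, G3.
-/

set_option autoImplicit false
set_option linter.style.haveILetI false

noncomputable section

namespace Fermat.Agent.RED

open AlgebraicCurve ModularCurve Polynomial IntermediateField
open Fermat.Agent.S24 (jF)

/-- a morphism of function fields in one variable is finite. -/
theorem THof_finiteAlong {K F F' : Type} [Field K] [Field F] [Field F'] [Algebra K F]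
    [Algebra K F'] (φ : F →ₐ[K] F') (x : F) (hx : Transcendental K x) (y : F')
    (hy : Transcendental K y) (hfd : FiniteDimensional K⟮y⟯ F') : FiniteAlong K φ := by
  have hφx : Transcendental K (φ x) := by
    intro h
    exact hx ((isAlgebraic_algHom_iff φ φ.injective).mp h)
  have hfd2 : FiniteDimensional K⟮φ x⟯ F' :=
    Fermat.Agent.S24.finiteDimensional_adjoin_simple_of_transcendental y hy (φ x) hφx
  have hle : K⟮φ x⟯ ≤ φ.fieldRange := by
    rw [adjoin_simple_le_iff]
    exact ⟨x, rfl⟩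
  obtain ⟨S, hS⟩ := (Module.finite_def.mp hfd2)
  letI := algebraAlong φ
  show Module.Finite F F'
  refine Module.finite_def.mpr ⟨S, ?_⟩
  rw [eq_top_iff]
  intro z _
  have hz : z ∈ Submodule.span K⟮φ x⟯ (S : Set F') := by rw [hS]; trivial
  induction hz using Submodule.span_induction with
  | mem w hw => exact Submodule.subset_span hw
  | zero => exact Submodule.zero_mem _
  | add a b _ _ ha hb => exact Submodule.add_mem _ (ha trivial) (hb trivial)
  | smul c w _ hw =>
    obtain ⟨d, hd⟩ := hle c.2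
    have : c • w = d • w := by
      show (c : F') * w = φ d * w
      rw [← hd]
      rfl
    rw [this]
    exact Submodule.smul_mem _ _ (hw trivial)

theorem THof_isIntegral {K F F' : Type} [Field K] [Field F] [Field F'] [Algebra K F]
    [Algebra K F'] (φ : F →ₐ[K] F') (h : FiniteAlong K φ) : φ.toRingHom.IsIntegral :=
  RingHom.IsIntegral.of_finite h

theorem stmt_TH_of : Stmt_TH_of := by
  intro hG1 hG2 hG3 N ℓ _ _
  have hj : Transcendental Qb (jF N) := Fermat.Agent.S24.DegBd.transcendental_jF N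
  have hfd : FiniteDimensional Qb⟮jF N⟯ (FF N) := (Fermat.Agent.S24.finrank_FF_le N).1
  have hj' : Transcendental Qb (jF (N * ℓ)) := Fermat.Agent.S24.DegBd.transcendental_jF (N * ℓ)
  have hfd' : FiniteDimensional Qb⟮jF (N * ℓ)⟯ (FF (N * ℓ)) :=
    (Fermat.Agent.S24.finrank_FF_le (N * ℓ)).1
  have hfinα : FiniteAlong Qb (heckeAlphaBar Qb N ℓ) :=
    THof_finiteAlong (heckeAlphaBar Qb N ℓ) (jF N) hj (jF (N * ℓ)) hj' hfd'
  have hfinβ : FiniteAlong Qb (heckeBetaBar Qb N ℓ) :=
    THof_finiteAlong (heckeBetaBar Qb N ℓ) (jF N) hj (jF (N * ℓ)) hj' hfd'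
  have hα : HeckeAlphaBarIntegral Qb N ℓ := THof_isIntegral _ hfinα
  have hβ : HeckeBetaBarIntegral Qb N ℓ := THof_isIntegral _ hfinβ
  haveI hP : HasPrincipalDivisors Qb (FF (N * ℓ)) := hG1 Qb (FF (N * ℓ)) (jF (N * ℓ)) hj' hfd'
  refine heckeInputsAlong_intro hα hβ ?_ hfinα ?_
  · letI := algebraAlong (heckeBetaBar Qb N ℓ)
    haveI := isScalarTower_along (heckeBetaBar Qb N ℓ)
    haveI := isIntegral_along (heckeBetaBar Qb N ℓ) hβ
    exact hG2 Qb (FF N) (FF (N * ℓ)) (jF N) hj hfd hfinβ
  · letI := algebraAlong (heckeAlphaBar Qb N ℓ)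
    haveI := isScalarTower_along (heckeAlphaBar Qb N ℓ)
    haveI := isIntegral_along (heckeAlphaBar Qb N ℓ) hα
    haveI : Module.Finite (FF N) (FF (N * ℓ)) := hfinα
    exact hG3 Qb (FF N) (FF (N * ℓ)) (jF N) hj hfd

end Fermat.Agent.RED
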