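import Fermat.Agent.RED.Interface3
import Fermat.Agent.RED.THof
import Fermat.Agent.INJ.Inst.Basic

/-!
# RED (S37), task RED-LD (helper77): `Stmt_LD` from `Stmt_LDA` and `Stmt_COORD`.
-/

set_option autoImplicit false
set_option linter.style.haveILetI false

noncomputable section

namespace Fermat.Agent.RED

open AlgebraicCurve ModularCurve Polynomial IntermediateField
open Fermat.Agent.S24 (jF)

/-- `s = j(q^N)` is transcendental over `ℚ̄`. -/
theorem LD_transcendental_sF (N : ℕ) [NeZero N] : Transcendental Qb (sF N) := by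
  intro h
  have h1 := h.algHom (modularFunctionFieldBar N).val
  change IsAlgebraic Qb ((sF N : FF N) : LaurentSeries Qb) at h1
  have h2 : S24.jBarSeries N = S28.jd Qb N := by
    rw [S24.jBarSeries, coeffEmb, coeffMap_qExpand, ← jqModC_rat, coeffMap_jqModC, S28.jd,
      S28.Vq_eq]
  rw [coe_sF, h2] at h1
  exact INJ.Inst.transcendental_jd (k := Qb) (NeZero.ne N) h1

/-- monotonicity of `ZRedX` in the relation "same reduction". -/
theorem LD_ZRedX_le {K F : Type} [Field K] [Field F] [Algebra K F] (A : ValuationSubring K)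
    (x t : F) (h : ∀ P P' : Place K F, SameRedX A x P P' → SameRedX A t P P') :
    ZRedX A x ≤ ZRedX A t := by
  refine AddSubgroup.closure_mono ?_
  rintro D ⟨P, P', hPP, rfl⟩
  exact ⟨P, P', h P P' hPP, rfl⟩

theorem stmt_LD (hA : Stmt_LDA.{0}) (hC : Stmt_COORD.{0}) : Stmt_LD := by
  intro N r _ _ A t ht ht' hι hP D hD
  have hj : Transcendental Qb (jF N) := Fermat.Agent.S24.DegBd.transcendental_jF N
  have hfd : FiniteDimensional Qb⟮jF N⟯ (FF N) := (Fermat.Agent.S24.finrank_FF_le N).1
  have hj' : Transcendental Qb (jF (N * r)) := Fermat.Agent.S24.DegBd.transcendental_jF (N * r)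
  have hfd' : FiniteDimensional Qb⟮jF (N * r)⟯ (FF (N * r)) :=
    (Fermat.Agent.S24.finrank_FF_le (N * r)).1
  have hfin : FiniteAlong Qb (heckeAlphaBar Qb N r) :=
    THof_finiteAlong (heckeAlphaBar Qb N r) (jF N) hj (jF (N * r)) hj' hfd'
  have hs : Transcendental Qb (sF N) := LD_transcendental_sF N
  have hsfd : FiniteDimensional Qb⟮sF N⟯ (FF N) :=
    Fermat.Agent.S24.finiteDimensional_adjoin_simple_of_transcendental (jF N) hj (sF N) hs
  have hs' : Transcendental Qb (heckeAlphaBar Qb N r (sF N)) := by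
    intro h
    exact hs ((isAlgebraic_algHom_iff (heckeAlphaBar Qb N r) (heckeAlphaBar Qb N r).injective).mp h)
  have hsfd' : FiniteDimensional Qb⟮heckeAlphaBar Qb N r (sF N)⟯ (FF (N * r)) :=
    Fermat.Agent.S24.finiteDimensional_adjoin_simple_of_transcendental (jF (N * r)) hj' _ hs'
  have hle : ZRedX A (heckeAlphaBar Qb N r (sF N)) ≤ ZRedX A t :=
    LD_ZRedX_le A _ t (hC Qb (FF (N * r)) A _ t hs' hsfd' ht ht')
  apply hle
  letI := algebraAlong (heckeAlphaBar Qb N r)
  haveI := isScalarTower_along (heckeAlphaBar Qb N r)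
  haveI := isIntegral_along (heckeAlphaBar Qb N r) hι
  haveI : Module.Finite (FF N) (FF (N * r)) := hfin
  exact hA Qb (FF N) (FF (N * r)) A (sF N) hs hsfd D hD

end Fermat.Agent.RED
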