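import Fermat.Agent.RED.Interface3
import Fermat.Agent.RED.Ev

/-!
# RED-LDA : pull-back along a finite extension preserves "trivial reduction"
-/

set_option autoImplicit false

noncomputable section

namespace Fermat.Agent.RED

open AlgebraicCurve ModularCurve Polynomial IntermediateField

universe u

section Alg

variable {F F' : Type*} [Field F] [Field F'] [Algebra F F']

/-- integrality over a subring of `F'` contained in the image of a subring `S` of `F`. -/
theorem LDA_isIntegral_of_image (S : Subring F) (S' : Subring F')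
    (h : ∀ z ∈ S', ∃ y ∈ S, algebraMap F F' y = z) {u : F'} (hu : IsIntegral S' u) :
    IsIntegral S u := by
  have hle : S' ≤ S.map (algebraMap F F') := fun z hz => by
    obtain ⟨y, hy, rfl⟩ := h z hz
    exact Subring.mem_map.2 ⟨y, hy, rfl⟩
  obtain ⟨p, hp, hpu⟩ := EV_isIntegral_of_le hle hu
  let g : S →+* S.map (algebraMap F F') :=
    (algebraMap F F').restrict S (S.map (algebraMap F F')) (fun x hx => Subring.mem_map.2 ⟨x, hx, rfl⟩)
  have hg : Function.Surjective g := by
    rintro ⟨_, y, hy, rfl⟩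
    exact ⟨⟨y, hy⟩, rfl⟩
  obtain ⟨q, hq, -, hqm⟩ := Polynomial.lifts_and_natDegree_eq_and_monic
    ((Polynomial.mem_lifts p).2 (Polynomial.map_surjective g hg p)) hp
  refine ⟨q, hqm, ?_⟩
  rw [← hq, eval₂_map] at hpu
  exact hpu

theorem LDA_norm_isIntegral (S : Subring F) (S' : Subring F')
    (h : ∀ z ∈ S', ∃ y ∈ S, algebraMap F F' y = z) {u : F'} (hu : IsIntegral S' u) :
    IsIntegral S (Algebra.norm F u) :=
  Algebra.isIntegral_norm F (LDA_isIntegral_of_image S S' h hu)

end Alg

section Rings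

variable {K F F' : Type*} [Field K] [Field F] [Field F'] [Algebra K F] [Algebra K F']
  [Algebra F F'] [IsScalarTower K F F']

theorem LDA_polyHom_map (A : ValuationSubring K) (x : F) (p : (↥A)[X]) :
    polyHom A (algebraMap F F' x) p = algebraMap F F' (polyHom A x p) := by
  unfold polyHom
  simp only [coe_eval₂RingHom]
  rw [Polynomial.hom_eval₂]
  congr 1
  ext a
  simp [IsScalarTower.algebraMap_apply K F F']

theorem LDA_norm_intOver {A : ValuationSubring K} {x : F} {u : F'}
    (hu : IntOver A (algebraMap F F' x) u) : IntOver A x (Algebra.norm F u) :=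
  LDA_norm_isIntegral _ _ (by
    rintro _ ⟨p, rfl⟩
    exact ⟨_, polyHom_mem_polyRing p, (LDA_polyHom_map A x p).symm⟩) hu

theorem LDA_norm_locInt {A : ValuationSubring K} {x : F} {u : F'}
    (hu : LocInt A (algebraMap F F' x) u) : LocInt A x (Algebra.norm F u) :=
  LDA_norm_isIntegral _ _ (by
    intro z hz
    obtain ⟨r, s, hs, rfl⟩ := locRing_exists_frac hz
    refine ⟨polyHom A x r * (polyHom A x s)⁻¹,
      mul_mem (polyRing_le_locRing (polyHom_mem_polyRing r)) (inv_mem_locRing hs), ?_⟩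
    rw [map_mul, map_inv₀, LDA_polyHom_map, LDA_polyHom_map]) hu

/-- a finite extension of a function field is finite over the same coordinate. -/
theorem LDA_finiteDimensional (x : F) (hfd : FiniteDimensional K⟮x⟯ F)
    (hfin : Module.Finite F F') : FiniteDimensional K⟮algebraMap F F' x⟯ F' := by
  let φ : F →ₐ[K] F' := IsScalarTower.toAlgHom K F F'
  have hmap : (K⟮x⟯).map φ = K⟮algebraMap F F' x⟯ := by
    rw [IntermediateField.adjoin_map, Set.image_singleton]
    rfl
  let g : K⟮x⟯ →+* K⟮algebraMap F F' x⟯ :=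
    { toFun := fun y => ⟨φ y, by rw [← hmap]; exact ⟨y, y.2, rfl⟩⟩
      map_one' := Subtype.ext (map_one φ)
      map_mul' := fun a b => Subtype.ext (map_mul φ (a : F) (b : F))
      map_zero' := Subtype.ext (map_zero φ)
      map_add' := fun a b => Subtype.ext (map_add φ (a : F) (b : F)) }
  let _ : Algebra K⟮x⟯ K⟮algebraMap F F' x⟯ := g.toAlgebra
  have : IsScalarTower K⟮x⟯ K⟮algebraMap F F' x⟯ F' :=
    IsScalarTower.of_algebraMap_eq (fun _ => rfl)
  have : Module.Finite K⟮x⟯ F' := Module.Finite.trans F F'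
  exact Module.Finite.of_restrictScalars_finite K⟮x⟯ K⟮algebraMap F F' x⟯ F'

end Rings

section Index

variable {K F F' : Type*} [Field K] [Field F] [Field F'] [Algebra K F] [Algebra K F']
  [Algebra F F'] [IsScalarTower K F F'] [Algebra.IsIntegral F F'] [HasPrincipalDivisors K F']

variable (F') in
/-- the places above `v`, counted with multiplicity. -/
abbrev LDA_Idx (v : Place K F) : Type _ :=
  Σ w : {w : Place K F' // w ∈ v.fiber F'}, Fin (w.1.ramificationIndex F)

theorem LDA_sum_idx (v : Place K F) :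
    ∑ j : LDA_Idx F' v, Finsupp.single j.1.1 (1 : ℤ)
      = Divisor.pullback F' (Finsupp.single v 1) := by
  rw [Divisor.pullback_single, Fintype.sum_sigma, ← Finset.sum_coe_sort (v.fiber F')]
  refine Finset.sum_congr rfl fun w _ => ?_
  show ∑ _y : Fin (w.1.ramificationIndex F), Finsupp.single w.1 (1 : ℤ) = _
  rw [Finset.sum_const, Finset.card_univ, Fintype.card_fin, one_mul, Finsupp.smul_single,
    nsmul_eq_mul, mul_one]

theorem LDA_prod_idx (v : Place K F) (val : Place K F' → K) :
    ∏ j : LDA_Idx F' v, val j.1.1 = ∏ w ∈ v.fiber F', val w ^ (w.ramificationIndex F) := by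
  rw [Fintype.prod_sigma, ← Finset.prod_coe_sort (v.fiber F')]
  refine Finset.prod_congr rfl fun w _ => ?_
  show ∏ _y : Fin (w.1.ramificationIndex F), val w.1 = _
  rw [Finset.prod_const, Finset.card_univ, Fintype.card_fin]

end Index

section Core

variable {K F F' : Type u} [Field K] [IsAlgClosed K] [CharZero K] [Field F] [Field F']
  [Algebra K F] [Algebra K F'] [Algebra F F'] [IsScalarTower K F F'] [Algebra.IsIntegral F F']
  [HasPrincipalDivisors K F'] [Module.Finite F F']

/-- the value of the norm in terms of a family of values indexed by `LDA_Idx`. -/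
theorem LDA_ev_norm (h4 : Stmt_G4N.{u}) (x : F) (hx : Transcendental K x)
    (hfd : FiniteDimensional K⟮x⟯ F) (v : Place K F) (u : F') (val : LDA_Idx F' v → K)
    (hval : ∀ j, Ev j.1.1 u (val j)) : Ev v (Algebra.norm F u) (∏ j, val j) := by
  classical
  let valw : Place K F' → K := fun w =>
    if h : w ∈ v.fiber F' then val ⟨⟨w, h⟩, ⟨0, w.ramificationIndex_pos (F := F)⟩⟩ else 0
  have hvalw : ∀ w ∈ v.fiber F', Ev w u (valw w) := by
    intro w hw
    simp only [valw, dif_pos hw]
    exact hval ⟨⟨w, hw⟩, ⟨0, w.ramificationIndex_pos (F := F)⟩⟩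
  have heq : ∀ j : LDA_Idx F' v, val j = valw j.1.1 :=
    fun j => ev_unique (hval j) (hvalw j.1.1 j.1.2)
  have h := h4 K F F' x hx hfd v u valw hvalw
  rw [← LDA_prod_idx] at h
  rw [Finset.prod_congr rfl fun j _ => heq j]
  exact h

end Core

section Transport

variable {K F : Type u} [Field K] [IsAlgClosed K] [CharZero K] [Field F] [Algebra K F]

theorem LDA_match_fin (hf : Stmt_MATCHN_fin.{u}) (A : ValuationSubring K) (x : F)
    (hx : Transcendental K x) (hfd : FiniteDimensional K⟮x⟯ F) {J J' : Type*} [Fintype J]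
    [Fintype J'] (P : J → Place K F) (P' : J' → Place K F)
    (h1 : ∀ i, ∃ c ∈ A, Ev (P i) x c) (h2 : ∀ i, ∃ c ∈ A, Ev (P' i) x c)
    (h3 : ∀ u, IntOver A x u → ∀ (val : J → K) (val' : J' → K), (∀ i, Ev (P i) u (val i)) →
      (∀ i, Ev (P' i) u (val' i)) → ∏ i, val i - ∏ i, val' i ∈ A.nonunits) :
    ∑ i, Finsupp.single (P i) (1 : ℤ) - ∑ i, Finsupp.single (P' i) (1 : ℤ) ∈ ZRedX A x := by
  classical
  let e := Fintype.equivFin J
  let e' := Fintype.equivFin J'
  have key := hf K F A x hx hfd (Fin (Fintype.card J)) (Fin (Fintype.card J'))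
    (fun i => P (e.symm i)) (fun i => P' (e'.symm i)) (fun i => h1 _) (fun i => h2 _)
    (fun u hu val val' hv hv' => by
      have := h3 u hu (fun j => val (e j)) (fun j => val' (e' j))
        (fun i => by simpa using hv (e i)) (fun i => by simpa using hv' (e' i))
      rwa [Equiv.prod_comp e val, Equiv.prod_comp e' val'] at this)
  rwa [Equiv.sum_comp e.symm (fun j => Finsupp.single (P j) (1 : ℤ)),
    Equiv.sum_comp e'.symm (fun j => Finsupp.single (P' j) (1 : ℤ))] at key

theorem LDA_match_loc (hl : Stmt_MATCHN_loc.{u}) (A : ValuationSubring K) (x : F)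
    (hx : Transcendental K x) (hfd : FiniteDimensional K⟮x⟯ F) {J J' : Type*} [Fintype J]
    [Fintype J'] (P : J → Place K F) (P' : J' → Place K F)
    (h1 : ∀ i, ∃ c ∈ A.nonunits, Ev (P i) x⁻¹ c) (h2 : ∀ i, ∃ c ∈ A.nonunits, Ev (P' i) x⁻¹ c)
    (h3 : ∀ u, LocInt A x⁻¹ u → ∀ (val : J → K) (val' : J' → K), (∀ i, Ev (P i) u (val i)) →
      (∀ i, Ev (P' i) u (val' i)) → ∏ i, val i - ∏ i, val' i ∈ A.nonunits) :
    ∑ i, Finsupp.single (P i) (1 : ℤ) - ∑ i, Finsupp.single (P' i) (1 : ℤ) ∈ ZRedX A x := by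
  classical
  let e := Fintype.equivFin J
  let e' := Fintype.equivFin J'
  have key := hl K F A x hx hfd (Fin (Fintype.card J)) (Fin (Fintype.card J'))
    (fun i => P (e.symm i)) (fun i => P' (e'.symm i)) (fun i => h1 _) (fun i => h2 _)
    (fun u hu val val' hv hv' => by
      have := h3 u hu (fun j => val (e j)) (fun j => val' (e' j))
        (fun i => by simpa using hv (e i)) (fun i => by simpa using hv' (e' i))
      rwa [Equiv.prod_comp e val, Equiv.prod_comp e' val'] at this)
  rwa [Equiv.sum_comp e.symm (fun j => Finsupp.single (P j) (1 : ℤ)),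
    Equiv.sum_comp e'.symm (fun j => Finsupp.single (P' j) (1 : ℤ))] at key

end Transport

/-- LDA -/
theorem stmt_LDA (h4 : Stmt_G4N.{u}) (hf : Stmt_MATCHN_fin.{u}) (hl : Stmt_MATCHN_loc.{u}) :
    Stmt_LDA.{u} := by
  intro K F F' _ _ _ _ _ _ _ _ _ _ _ _ A x hx hfd
  have hx' : Transcendental K (algebraMap F F' x) :=
    (transcendental_algebraMap_iff (algebraMap F F').injective).mpr hx
  have hfd' : FiniteDimensional K⟮algebraMap F F' x⟯ F' :=
    LDA_finiteDimensional x hfd inferInstance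
  suffices h : ZRedX A x ≤ (ZRedX A (algebraMap F F' x)).comap (Divisor.pullback F') from
    fun D hD => h hD
  unfold ZRedX
  rw [AddSubgroup.closure_le]
  rintro _ ⟨P, P', hPP', rfl⟩
  show Divisor.pullback F' _ ∈ ZRedX A (algebraMap F F' x)
  rw [map_sub, ← LDA_sum_idx, ← LDA_sum_idx]
  have hres : ∀ (v : Place K F) (j : LDA_Idx F' v), j.1.1.restrict F = v :=
    fun v j => Place.mem_fiber.1 j.1.2
  rcases hPP' with ⟨⟨c, hc, hPc⟩, ⟨c', hc', hPc'⟩, hsame⟩ | ⟨⟨c, hc, hPc⟩, ⟨c', hc', hPc'⟩, hsame⟩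
  · refine LDA_match_fin hf A _ hx' hfd' (fun j : LDA_Idx F' P => j.1.1)
      (fun j : LDA_Idx F' P' => j.1.1) (fun j => ⟨c, hc, ?_⟩) (fun j => ⟨c', hc', ?_⟩) ?_
    · rw [← ev_restrict, hres]; exact hPc
    · rw [← ev_restrict, hres]; exact hPc'
    · intro u hu val val' hv hv'
      exact hsame _ (LDA_norm_intOver hu) _ _ (LDA_ev_norm h4 x hx hfd P u val hv)
        (LDA_ev_norm h4 x hx hfd P' u val' hv')
  · refine LDA_match_loc hl A _ hx' hfd' (fun j : LDA_Idx F' P => j.1.1)
      (fun j : LDA_Idx F' P' => j.1.1) (fun j => ⟨c, hc, ?_⟩) (fun j => ⟨c', hc', ?_⟩) ?_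
    · rw [← map_inv₀, ← ev_restrict, hres]; exact hPc
    · rw [← map_inv₀, ← ev_restrict, hres]; exact hPc'
    · intro u hu val val' hv hv'
      rw [← map_inv₀] at hu
      exact hsame _ (LDA_norm_locInt hu) _ _ (LDA_ev_norm h4 x hx hfd P u val hv)
        (LDA_ev_norm h4 x hx hfd P' u val' hv')

end Fermat.Agent.RED

end
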