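import Fermat.Agent.RED.Interface2

/-! RED-MATCH: `Stmt_MATCH_fin`, `Stmt_MATCH_loc` (separating test function). -/

set_option autoImplicit false

noncomputable section

namespace Fermat.Agent.RED

open AlgebraicCurve Polynomial

universe u

/-! ### abstract lemmas -/

/-- separating element. -/
theorem MATCH_sep {k F ι : Type*} [Field k] [Infinite k] [CommRing F] [Finite ι]
    (Tp : F → Prop) (hT0 : Tp 0) (hTadd : ∀ a b, Tp a → Tp b → Tp (a + b))
    (hTmul : ∀ a b, Tp a → Tp b → Tp (a * b)) (e : ι → F → k)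
    (hadd : ∀ i a b, Tp a → Tp b → e i (a + b) = e i a + e i b)
    (hmul : ∀ i a b, Tp a → Tp b → e i (a * b) = e i a * e i b)
    (hconst : ∀ c : k, ∃ t, Tp t ∧ ∀ i, e i t = c) :
    ∃ u, Tp u ∧ ∀ i j, e i u = e j u → ∀ t, Tp t → e i t = e j t := by
  classical
  have := Fintype.ofFinite ι
  have key : ∀ S : Finset (ι × ι), ∃ u, Tp u ∧ ∀ p ∈ S, e p.1 u = e p.2 u →
      ∀ t, Tp t → e p.1 t = e p.2 t := by
    intro S
    induction S using Finset.induction_on with
    | empty => exact ⟨0, hT0, by simp⟩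
    | insert p₀ S _ ih =>
      obtain ⟨u, hu, hS⟩ := ih
      by_cases h0 : ∀ t, Tp t → e p₀.1 t = e p₀.2 t
      · refine ⟨u, hu, fun p hp => ?_⟩
        rcases Finset.mem_insert.mp hp with rfl | hp
        · exact fun _ => h0
        · exact hS p hp
      · push Not at h0
        obtain ⟨y, hy, hy0⟩ := h0
        set B : Finset k := (insert p₀ S).image
          (fun p => -(e p.1 u - e p.2 u) / (e p.1 y - e p.2 y)) with hB
        obtain ⟨c, hc⟩ := Infinite.exists_notMem_finset B
        obtain ⟨t, ht, htc⟩ := hconst c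
        refine ⟨u + t * y, hTadd _ _ hu (hTmul _ _ ht hy), fun p hp heq => ?_⟩
        rw [hadd _ _ _ hu (hTmul _ _ ht hy), hadd _ _ _ hu (hTmul _ _ ht hy),
          hmul _ _ _ ht hy, hmul _ _ _ ht hy, htc, htc] at heq
        by_cases hyp : e p.1 y = e p.2 y
        · rw [hyp] at heq
          have hup : e p.1 u = e p.2 u := add_right_cancel heq
          rcases Finset.mem_insert.mp hp with rfl | hp
          · exact absurd hyp hy0
          · exact hS p hp hup
        · exfalso
          apply hc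
          rw [hB, Finset.mem_image]
          refine ⟨p, hp, ?_⟩
          have hne : e p.1 y - e p.2 y ≠ 0 := sub_ne_zero.mpr hyp
          rw [div_eq_iff hne]
          linear_combination -heq
  obtain ⟨u, hu, h⟩ := key Finset.univ
  exact ⟨u, hu, fun i j hij => h (i, j) (Finset.mem_univ _) hij⟩

/-- two families with the same "characteristic polynomial" differ by a permutation. -/
theorem MATCH_perm {k : Type*} [Field k] {n : ℕ} (f g : Fin n → k)
    (h : ∏ i, (X - C (f i)) = ∏ i, (X - C (g i))) :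
    ∃ π : Equiv.Perm (Fin n), ∀ i, f i = g (π i) := by
  classical
  have hroots : ∀ f : Fin n → k, (∏ i, (X - C (f i))).roots = Multiset.map f Finset.univ.val := by
    intro f
    have h1 : ∏ i, (X - C (f i)) = ((Multiset.map f Finset.univ.val).map fun a => X - C a).prod := by
      rw [Multiset.map_map]
      rfl
    rw [h1, roots_multiset_prod_X_sub_C]
  have hm : Multiset.map f Finset.univ.val = Multiset.map g Finset.univ.val := by
    rw [← hroots f, ← hroots g, h]
  have hcard : ∀ c : k, Fintype.card {i // f i = c} = Fintype.card {i // g i = c} := by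
    intro c
    have h2 := congrArg (Multiset.count c) hm
    rw [Multiset.count_map, Multiset.count_map] at h2
    rw [Fintype.card_subtype, Fintype.card_subtype]
    simpa [Finset.card, eq_comm] using h2
  refine ⟨Equiv.ofFiberEquiv (f := f) (g := g) fun c => Fintype.equivOfCardEq (hcard c),
    fun i => ?_⟩
  exact (Equiv.ofFiberEquiv_map _ i).symm

/-! ### nonunits, `Ev` -/

section EvAPI

variable {K F : Type*} [Field K] [Field F] [Algebra K F]

theorem MATCH_nonunits_add (V : ValuationSubring F) {a b : F} (ha : a ∈ V.nonunits)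
    (hb : b ∈ V.nonunits) : a + b ∈ V.nonunits := by
  rw [ValuationSubring.mem_nonunits_iff] at *
  exact lt_of_le_of_lt (V.valuation.map_add a b) (max_lt ha hb)

theorem MATCH_nonunits_neg (V : ValuationSubring F) {a : F} (ha : a ∈ V.nonunits) :
    -a ∈ V.nonunits := by
  rw [ValuationSubring.mem_nonunits_iff] at *
  rwa [Valuation.map_neg]

theorem MATCH_nonunits_sub (V : ValuationSubring F) {a b : F} (ha : a ∈ V.nonunits)
    (hb : b ∈ V.nonunits) : a - b ∈ V.nonunits := by
  rw [sub_eq_add_neg]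
  exact MATCH_nonunits_add V ha (MATCH_nonunits_neg V hb)

theorem MATCH_nonunits_mul (V : ValuationSubring F) {a b : F} (ha : a ∈ V.nonunits)
    (hb : b ∈ V) : a * b ∈ V.nonunits := by
  obtain ⟨ha', hm⟩ := ValuationSubring.mem_nonunits_iff_exists_mem_maximalIdeal.mp ha
  exact ValuationSubring.mem_nonunits_iff_exists_mem_maximalIdeal.mpr
    ⟨V.mul_mem _ _ ha' hb, Ideal.mul_mem_right (⟨b, hb⟩ : V) _ hm⟩

theorem MATCH_zero_mem_nonunits (V : ValuationSubring F) : (0 : F) ∈ V.nonunits := by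
  rw [ValuationSubring.mem_nonunits_iff, map_zero]
  exact zero_lt_one

theorem MATCH_ev_mem {P : Place K F} {y : F} {c : K} (h : Ev P y c) :
    y ∈ P.toValuationSubring := by
  have h1 : y - algebraMap K F c ∈ P.toValuationSubring := ValuationSubring.nonunits_subset h
  have := P.toValuationSubring.add_mem _ _ h1 (P.algebraMap_mem' c)
  simpa using this

theorem MATCH_ev_const (P : Place K F) (c : K) : Ev P (algebraMap K F c) c := by
  unfold Ev
  rw [sub_self]
  exact MATCH_zero_mem_nonunits _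

theorem MATCH_ev_add {P : Place K F} {y y' : F} {c c' : K} (h : Ev P y c) (h' : Ev P y' c') :
    Ev P (y + y') (c + c') := by
  unfold Ev at *
  have : y + y' - algebraMap K F (c + c') = (y - algebraMap K F c) + (y' - algebraMap K F c') := by
    rw [map_add]; ring
  rw [this]
  exact MATCH_nonunits_add _ h h'

theorem MATCH_ev_mul {P : Place K F} {y y' : F} {c c' : K} (h : Ev P y c) (h' : Ev P y' c') :
    Ev P (y * y') (c * c') := by
  have hy' := MATCH_ev_mem h'
  unfold Ev at *
  have : y * y' - algebraMap K F (c * c') =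
      (y - algebraMap K F c) * y' + (y' - algebraMap K F c') * algebraMap K F c := by
    rw [map_mul]; ring
  rw [this]
  exact MATCH_nonunits_add _ (MATCH_nonunits_mul _ h hy')
    (MATCH_nonunits_mul _ h' (P.algebraMap_mem' c))

theorem MATCH_ev_unique {P : Place K F} {y : F} {c c' : K} (h : Ev P y c) (h' : Ev P y c') :
    c = c' := by
  by_contra hne
  have h1 : algebraMap K F (c' - c) ∈ P.toValuationSubring.nonunits := by
    have := MATCH_nonunits_sub _ h h'
    have h2 : y - algebraMap K F c - (y - algebraMap K F c') = algebraMap K F (c' - c) := by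
      rw [map_sub]; ring
    rwa [h2] at this
  have hc : c' - c ≠ 0 := sub_ne_zero.mpr (Ne.symm hne)
  have h3 := MATCH_nonunits_mul _ h1 (P.algebraMap_mem' (c' - c)⁻¹)
  rw [← map_mul, mul_inv_cancel₀ hc, map_one, ValuationSubring.mem_nonunits_iff, map_one] at h3
  exact lt_irrefl _ h3

end EvAPI

/-! ### the residue field -/

section Residue

variable {K : Type*} [Field K] [IsAlgClosed K]

theorem MATCH_isAlgClosed_residue (A : ValuationSubring K) :
    IsAlgClosed (IsLocalRing.ResidueField A) := by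
  refine IsAlgClosed.of_exists_root _ fun p hp hirr => ?_
  have hl : p ∈ lifts (IsLocalRing.residue A) := by
    obtain ⟨q, hq⟩ := Polynomial.map_surjective _ IsLocalRing.residue_surjective p
    exact ⟨q, hq⟩
  obtain ⟨q, hq, hdeg, hqm⟩ := lifts_and_natDegree_eq_and_monic hl hp
  have hdeg0 : (q.map A.subtype).degree ≠ 0 := by
    rw [degree_map_eq_of_injective A.subtype_injective, degree_eq_natDegree hqm.ne_zero, hdeg]
    have := hirr.natDegree_pos
    exact_mod_cast this.ne'
  obtain ⟨r, hr⟩ := IsAlgClosed.exists_root (q.map A.subtype) hdeg0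
  have hint : IsIntegral A r := ⟨q, hqm, by rw [← eval_map]; exact hr⟩
  obtain ⟨y, hy⟩ := IsIntegrallyClosed.algebraMap_eq_of_integral hint
  refine ⟨IsLocalRing.residue A y, ?_⟩
  have h0 : q.eval y = 0 := by
    apply A.subtype_injective
    rw [map_zero, ← Polynomial.eval₂_at_apply, ← eval_map]
    have : A.subtype y = r := hy
    rw [this]
    exact hr
  rw [← hq, eval_map, Polynomial.eval₂_at_apply, h0, map_zero]

end Residue

/-! ### the common argument -/

section Common

variable {K F : Type*} [Field K] [Field F] [Algebra K F]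

open Classical in
/-- the value of `y` at `P`, reduced mod `𝔪`. -/
def MATCH_res (A : ValuationSubring K) (P : Place K F) (y : F) : IsLocalRing.ResidueField A :=
  if h : ∃ c : A, Ev P y (c : K) then IsLocalRing.residue A h.choose else 0

theorem MATCH_res_eq {A : ValuationSubring K} {P : Place K F} {y : F} {c : K} (hc : c ∈ A)
    (h : Ev P y c) : MATCH_res A P y = IsLocalRing.residue A ⟨c, hc⟩ := by
  have hex : ∃ c : A, Ev P y (c : K) := ⟨⟨c, hc⟩, h⟩
  rw [MATCH_res, dif_pos hex]
  congr 1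
  exact Subtype.ext (MATCH_ev_unique hex.choose_spec h)

theorem MATCH_sub_mem_nonunits {A : ValuationSubring K} {c c' : K} (hc : c ∈ A) (hc' : c' ∈ A) :
    c - c' ∈ A.nonunits ↔
      IsLocalRing.residue A ⟨c, hc⟩ = IsLocalRing.residue A ⟨c', hc'⟩ := by
  rw [← sub_eq_zero, ← map_sub, IsLocalRing.residue_eq_zero_iff,
    ← ValuationSubring.coe_mem_nonunits_iff]
  rfl

theorem MATCH_common [IsAlgClosed K] (A : ValuationSubring K) (Tp : F → Prop)
    (hTadd : ∀ a b, Tp a → Tp b → Tp (a + b)) (hTmul : ∀ a b, Tp a → Tp b → Tp (a * b))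
    (hTconst : ∀ c ∈ A, Tp (algebraMap K F c)) (n : ℕ) (P P' : Fin n → Place K F)
    (hP : ∀ i y, Tp y → ∃ c ∈ A, Ev (P i) y c) (hP' : ∀ i y, Tp y → ∃ c ∈ A, Ev (P' i) y c)
    (hpoly : ∀ u, Tp u → ∀ val val' : Fin n → K, (∀ i, Ev (P i) u (val i)) →
      (∀ i, Ev (P' i) u (val' i)) → ∀ m : ℕ,
        (∏ i, (X - C (val i))).coeff m - (∏ i, (X - C (val' i))).coeff m ∈ A.nonunits) :
    ∃ π : Equiv.Perm (Fin n), ∀ i y, Tp y → ∀ c c', Ev (P i) y c → Ev (P' (π i)) y c' →
      c - c' ∈ A.nonunits := by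
  have := MATCH_isAlgClosed_residue A
  set Q : Fin n ⊕ Fin n → Place K F := Sum.elim P P' with hQdef
  have hQ : ∀ s y, Tp y → ∃ c ∈ A, Ev (Q s) y c := by
    rintro (i | i) y hy
    · exact hP i y hy
    · exact hP' i y hy
  have hT0 : Tp 0 := by simpa using hTconst 0 A.zero_mem
  obtain ⟨u, hu, hsep⟩ := MATCH_sep Tp hT0 hTadd hTmul (fun s y => MATCH_res A (Q s) y)
    (by
      intro s a b ha hb
      obtain ⟨c, hc, hca⟩ := hQ s a ha
      obtain ⟨c', hc', hcb⟩ := hQ s b hb
      show MATCH_res A (Q s) (a + b) = MATCH_res A (Q s) a + MATCH_res A (Q s) b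
      rw [MATCH_res_eq hc hca, MATCH_res_eq hc' hcb,
        MATCH_res_eq (A.add_mem _ _ hc hc') (MATCH_ev_add hca hcb), ← map_add]
      rfl)
    (by
      intro s a b ha hb
      obtain ⟨c, hc, hca⟩ := hQ s a ha
      obtain ⟨c', hc', hcb⟩ := hQ s b hb
      show MATCH_res A (Q s) (a * b) = MATCH_res A (Q s) a * MATCH_res A (Q s) b
      rw [MATCH_res_eq hc hca, MATCH_res_eq hc' hcb,
        MATCH_res_eq (A.mul_mem _ _ hc hc') (MATCH_ev_mul hca hcb), ← map_mul]
      rfl)
    (by
      intro c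
      obtain ⟨a, rfl⟩ := IsLocalRing.residue_surjective c
      refine ⟨algebraMap K F a, hTconst _ a.2, fun s => ?_⟩
      show MATCH_res A (Q s) (algebraMap K F a) = _
      rw [MATCH_res_eq a.2 (MATCH_ev_const _ _)])
  choose val hvalA hval using fun i => hP i u hu
  choose val' hvalA' hval' using fun i => hP' i u hu
  have hco := hpoly u hu val val' hval hval'
  set pA : (↥A)[X] := ∏ i, (X - C (⟨val i, hvalA i⟩ : A)) with hpA
  set pA' : (↥A)[X] := ∏ i, (X - C (⟨val' i, hvalA' i⟩ : A)) with hpA'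
  have hmapK : pA.map A.subtype = ∏ i, (X - C (val i)) := by
    rw [hpA, Polynomial.map_prod]
    refine Finset.prod_congr rfl fun i _ => ?_
    rw [Polynomial.map_sub, map_X, map_C]
    rfl
  have hmapK' : pA'.map A.subtype = ∏ i, (X - C (val' i)) := by
    rw [hpA', Polynomial.map_prod]
    refine Finset.prod_congr rfl fun i _ => ?_
    rw [Polynomial.map_sub, map_X, map_C]
    rfl
  have hmapk : pA.map (IsLocalRing.residue A) =
      ∏ i, (X - C (IsLocalRing.residue A ⟨val i, hvalA i⟩)) := by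
    rw [hpA, Polynomial.map_prod]
    refine Finset.prod_congr rfl fun i _ => ?_
    rw [Polynomial.map_sub, map_X, map_C]
  have hmapk' : pA'.map (IsLocalRing.residue A) =
      ∏ i, (X - C (IsLocalRing.residue A ⟨val' i, hvalA' i⟩)) := by
    rw [hpA', Polynomial.map_prod]
    refine Finset.prod_congr rfl fun i _ => ?_
    rw [Polynomial.map_sub, map_X, map_C]
  have hkeq : pA.map (IsLocalRing.residue A) = pA'.map (IsLocalRing.residue A) := by
    ext m
    rw [coeff_map, coeff_map]
    have h1 := hco m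
    rw [← hmapK, ← hmapK', coeff_map, coeff_map] at h1
    exact (MATCH_sub_mem_nonunits (pA.coeff m).2 (pA'.coeff m).2).mp h1
  rw [hmapk, hmapk'] at hkeq
  obtain ⟨π, hπ⟩ := MATCH_perm _ _ hkeq
  refine ⟨π, fun i y hy c c' hc hc' => ?_⟩
  have h1 : MATCH_res A (Q (Sum.inl i)) u = MATCH_res A (Q (Sum.inr (π i))) u := by
    have e1 : MATCH_res A (Q (Sum.inl i)) u = IsLocalRing.residue A ⟨val i, hvalA i⟩ :=
      MATCH_res_eq (hvalA i) (hval i)
    have e2 : MATCH_res A (Q (Sum.inr (π i))) u =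
        IsLocalRing.residue A ⟨val' (π i), hvalA' (π i)⟩ :=
      MATCH_res_eq (hvalA' (π i)) (hval' (π i))
    rw [e1, e2]
    exact hπ i
  have h2 := hsep _ _ h1 y hy
  obtain ⟨c₁, hc₁, hE₁⟩ := hP i y hy
  obtain ⟨c₂, hc₂, hE₂⟩ := hP' (π i) y hy
  obtain rfl := MATCH_ev_unique hc hE₁
  obtain rfl := MATCH_ev_unique hc' hE₂
  rw [MATCH_sub_mem_nonunits hc₁ hc₂]
  have e1 : MATCH_res A (Q (Sum.inl i)) y = IsLocalRing.residue A ⟨c, hc₁⟩ := MATCH_res_eq hc₁ hc
  have e2 : MATCH_res A (Q (Sum.inr (π i))) y = IsLocalRing.residue A ⟨c', hc₂⟩ :=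
    MATCH_res_eq hc₂ hc'
  rw [← e1, ← e2]
  exact h2

theorem MATCH_const_mem_polyRing (A : ValuationSubring K) (x : F) {c : K} (hc : c ∈ A) :
    algebraMap K F c ∈ polyRing A x :=
  ⟨C (⟨c, hc⟩ : A), by simp [polyHom]⟩

theorem MATCH_isIntegral_of_mem {R : Subring F} {z : F} (hz : z ∈ R) : IsIntegral R z :=
  isIntegral_algebraMap (x := (⟨z, hz⟩ : R))

end Common

theorem stmt_MATCH_fin (hE : Stmt_EVINT.{u}) : Stmt_MATCH_fin.{u} := by
  intro K F _ _ _ _ _ A x htr hfin n P P' hc hc' hpoly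
  obtain ⟨π, hπ⟩ := MATCH_common A (IntOver A x) (fun a b ha hb => IsIntegral.add ha hb)
    (fun a b ha hb => IsIntegral.mul ha hb)
    (fun c hcA => MATCH_isIntegral_of_mem (MATCH_const_mem_polyRing A x hcA)) n P P'
    (fun i y hy => by
      obtain ⟨c₀, hc₀, hE₀⟩ := hc i
      exact (hE K F A x htr hfin (P i) c₀ hE₀).1 hc₀ y hy)
    (fun i y hy => by
      obtain ⟨c₀, hc₀, hE₀⟩ := hc' i
      exact (hE K F A x htr hfin (P' i) c₀ hE₀).1 hc₀ y hy)
    hpoly
  exact ⟨π, fun i => ⟨hc i, hc' (π i), fun y hy c c' => hπ i y hy c c'⟩⟩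

theorem stmt_MATCH_loc (hE : Stmt_EVINT.{u}) : Stmt_MATCH_loc.{u} := by
  intro K F _ _ _ _ _ A x htr hfin n P P' hc hc' hpoly
  obtain ⟨π, hπ⟩ := MATCH_common A (LocInt A x) (fun a b ha hb => IsIntegral.add ha hb)
    (fun a b ha hb => IsIntegral.mul ha hb)
    (fun c hcA => MATCH_isIntegral_of_mem
      (Subring.subset_closure (Or.inl (MATCH_const_mem_polyRing A x hcA)))) n P P'
    (fun i y hy => by
      obtain ⟨c₀, hc₀, hE₀⟩ := hc i
      exact (hE K F A x htr hfin (P i) c₀ hE₀).2 hc₀ y hy)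
    (fun i y hy => by
      obtain ⟨c₀, hc₀, hE₀⟩ := hc' i
      exact (hE K F A x htr hfin (P' i) c₀ hE₀).2 hc₀ y hy)
    hpoly
  exact ⟨π, fun i => ⟨hc i, hc' (π i), fun y hy c c' => hπ i y hy c c'⟩⟩

end Fermat.Agent.RED
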