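import Fermat.Agent.RED.Interface3
import Fermat.Agent.RED.Match
import Fermat.Agent.RED.Ev

/-! RED-MATCHN: `Stmt_MATCHN_fin`, `Stmt_MATCHN_loc` (product form of MATCH). -/

set_option autoImplicit false

noncomputable section

namespace Fermat.Agent.RED

open AlgebraicCurve Polynomial IntermediateField

universe u

section MatchNCommon

variable {K F : Type*} [Field K] [Field F] [Algebra K F]

/-- `∏ (c - val i) ≡ ∏ (c - val' i)` for all `c ∈ A` implies the coefficientwise congruence of the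
polynomials `∏ (X - val i)`, `∏ (X - val' i)`. -/
theorem MATCHN_coeff [IsAlgClosed K] (A : ValuationSubring K) {n : ℕ} (val val' : Fin n → K)
    (hv : ∀ i, val i ∈ A) (hv' : ∀ i, val' i ∈ A)
    (h : ∀ c ∈ A, ∏ i, (c - val i) - ∏ i, (c - val' i) ∈ A.nonunits) (m : ℕ) :
    (∏ i, (X - C (val i))).coeff m - (∏ i, (X - C (val' i))).coeff m ∈ A.nonunits := by
  have := MATCH_isAlgClosed_residue A
  have hinf : Infinite (IsLocalRing.ResidueField A) := IsAlgClosed.instInfinite
  set pA : (↥A)[X] := ∏ i, (X - C (⟨val i, hv i⟩ : A)) with hpA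
  set pA' : (↥A)[X] := ∏ i, (X - C (⟨val' i, hv' i⟩ : A)) with hpA'
  have hmapK : pA.map A.subtype = ∏ i, (X - C (val i)) := by
    rw [hpA, Polynomial.map_prod]
    refine Finset.prod_congr rfl fun i _ => ?_
    rw [Polynomial.map_sub, map_X, map_C]
    rfl
  have hmapK' : pA'.map A.subtype = ∏ i, (X - C (val' i)) := by
    rw [hpA', Polynomial.map_prod]
    refine Finset.prod_congr rfl fun i _ => ?_
    rw [Polynomial.map_sub, map_X, map_C]
    rfl
  have hkeq : pA.map (IsLocalRing.residue A) = pA'.map (IsLocalRing.residue A) := by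
    apply Polynomial.funext
    intro r
    obtain ⟨c, rfl⟩ := IsLocalRing.residue_surjective r
    rw [eval_map, eval_map, Polynomial.eval₂_at_apply, Polynomial.eval₂_at_apply]
    have h1 := h c c.2
    have e1 : ((pA.eval c : A) : K) = ∏ i, ((c : K) - val i) := by
      rw [hpA, eval_prod]
      simp
    have e2 : ((pA'.eval c : A) : K) = ∏ i, ((c : K) - val' i) := by
      rw [hpA', eval_prod]
      simp
    rw [← e1, ← e2] at h1
    exact (MATCH_sub_mem_nonunits (pA.eval c).2 (pA'.eval c).2).mp h1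
  rw [← hmapK, ← hmapK', coeff_map, coeff_map]
  refine (MATCH_sub_mem_nonunits (pA.coeff m).2 (pA'.coeff m).2).mpr ?_
  have := congrArg (fun p => p.coeff m) hkeq
  simpa only [coeff_map] using this

/-- `c ^ n ≡ c ^ n'` for all `c ∈ A` implies `n = n'`. -/
theorem MATCHN_card [IsAlgClosed K] (A : ValuationSubring K) (n n' : ℕ)
    (h : ∀ c ∈ A, c ^ n - c ^ n' ∈ A.nonunits) : n = n' := by
  have := MATCH_isAlgClosed_residue A
  have hinf : Infinite (IsLocalRing.ResidueField A) := IsAlgClosed.instInfinite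
  have hX : (X ^ n : (IsLocalRing.ResidueField A)[X]) = X ^ n' := by
    apply Polynomial.funext
    intro r
    obtain ⟨c, rfl⟩ := IsLocalRing.residue_surjective r
    rw [eval_pow, eval_pow, eval_X, ← map_pow, ← map_pow]
    exact (MATCH_sub_mem_nonunits (c ^ n).2 (c ^ n').2).mp (h c c.2)
  have := congrArg natDegree hX
  simpa using this

theorem MATCHN_common [IsAlgClosed K] (A : ValuationSubring K) (Tp : F → Prop)
    (hTadd : ∀ a b, Tp a → Tp b → Tp (a + b)) (hTmul : ∀ a b, Tp a → Tp b → Tp (a * b))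
    (hTconst : ∀ c ∈ A, Tp (algebraMap K F c)) (ι ι' : Type) [Fintype ι] [Fintype ι']
    (P : ι → Place K F) (P' : ι' → Place K F)
    (hP : ∀ i y, Tp y → ∃ c ∈ A, Ev (P i) y c) (hP' : ∀ i y, Tp y → ∃ c ∈ A, Ev (P' i) y c)
    (hprod : ∀ u, Tp u → ∀ (val : ι → K) (val' : ι' → K), (∀ i, Ev (P i) u (val i)) →
      (∀ i, Ev (P' i) u (val' i)) → ∏ i, val i - ∏ i, val' i ∈ A.nonunits) :
    ∃ e : ι ≃ ι', ∀ i y, Tp y → ∀ c c', Ev (P i) y c → Ev (P' (e i)) y c' →
      c - c' ∈ A.nonunits := by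
  have hcard : Fintype.card ι = Fintype.card ι' := by
    apply MATCHN_card A
    intro c hc
    have := hprod (algebraMap K F c) (hTconst c hc) (fun _ => c) (fun _ => c)
      (fun i => ev_const _ c) (fun i => ev_const _ c)
    simpa using this
  let e1 : ι ≃ Fin (Fintype.card ι) := Fintype.equivFin ι
  let e2 : ι' ≃ Fin (Fintype.card ι) := (Fintype.equivFin ι').trans (finCongr hcard.symm)
  obtain ⟨π, hπ⟩ := MATCH_common A Tp hTadd hTmul hTconst (Fintype.card ι)
    (fun i => P (e1.symm i)) (fun i => P' (e2.symm i)) (fun i => hP _) (fun i => hP' _)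
    (by
      intro u hu val val' hval hval' m
      have hv : ∀ i, val i ∈ A := fun i => by
        obtain ⟨c, hc, hE⟩ := hP (e1.symm i) u hu
        rw [ev_unique (hval i) hE]
        exact hc
      have hv' : ∀ i, val' i ∈ A := fun i => by
        obtain ⟨c, hc, hE⟩ := hP' (e2.symm i) u hu
        rw [ev_unique (hval' i) hE]
        exact hc
      refine MATCHN_coeff A val val' hv hv' (fun c hc => ?_) m
      have hT : Tp (algebraMap K F c + algebraMap K F (-1) * u) :=
        hTadd _ _ (hTconst c hc) (hTmul _ _ (hTconst _ (A.neg_mem _ A.one_mem)) hu)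
      have := hprod _ hT (fun i => c + (-1) * val (e1 i)) (fun i => c + (-1) * val' (e2 i))
        (fun i => ev_add (ev_const _ c) (ev_mul (ev_const _ _) (by
          have := hval (e1 i)
          rwa [Equiv.symm_apply_apply] at this)))
        (fun i => ev_add (ev_const _ c) (ev_mul (ev_const _ _) (by
          have := hval' (e2 i)
          rwa [Equiv.symm_apply_apply] at this)))
      rw [Equiv.prod_comp e1 (fun j => c + (-1) * val j),
        Equiv.prod_comp e2 (fun j => c + (-1) * val' j)] at this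
      simpa [sub_eq_add_neg] using this)
  refine ⟨e1.trans (π.trans e2.symm), fun i y hy c c' hc hc' => ?_⟩
  refine hπ (e1 i) y hy c c' ?_ hc'
  rwa [Equiv.symm_apply_apply]

/-- the divisor identity. -/
theorem MATCHN_sum (A : ValuationSubring K) (x : F) (ι ι' : Type) [Fintype ι] [Fintype ι']
    (P : ι → Place K F) (P' : ι' → Place K F) (e : ι ≃ ι')
    (h : ∀ i, SameRedX A x (P i) (P' (e i))) :
    ∑ i, Finsupp.single (P i) (1 : ℤ) - ∑ i, Finsupp.single (P' i) (1 : ℤ) ∈ ZRedX A x := by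
  rw [← Equiv.sum_comp e (fun i => Finsupp.single (P' i) (1 : ℤ)), ← Finset.sum_sub_distrib]
  exact AddSubgroup.sum_mem _ fun i _ => AddSubgroup.subset_closure ⟨P i, P' (e i), h i, rfl⟩

end MatchNCommon

theorem stmt_MATCHN_fin : Stmt_MATCHN_fin.{u} := by
  intro K F _ _ _ _ _ A x htr hfin ι ι' _ _ P P' hc hc' hprod
  obtain ⟨e, he⟩ := MATCHN_common A (IntOver A x) (fun a b ha hb => IsIntegral.add ha hb)
    (fun a b ha hb => IsIntegral.mul ha hb) (fun c hcA => intOver_const hcA) ι ι' P P'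
    (fun i y hy => by
      obtain ⟨c₀, hc₀, hE₀⟩ := hc i
      exact (stmt_EVINT K F A x htr hfin (P i) c₀ hE₀).1 hc₀ y hy)
    (fun i y hy => by
      obtain ⟨c₀, hc₀, hE₀⟩ := hc' i
      exact (stmt_EVINT K F A x htr hfin (P' i) c₀ hE₀).1 hc₀ y hy)
    hprod
  exact MATCHN_sum A x ι ι' P P' e fun i =>
    Or.inl ⟨hc i, hc' (e i), fun y hy c c' => he i y hy c c'⟩

theorem stmt_MATCHN_loc : Stmt_MATCHN_loc.{u} := by
  intro K F _ _ _ _ _ A x htr hfin ι ι' _ _ P P' hc hc' hprod
  have htr' : Transcendental K x⁻¹ := S24.placeCases_transcendental_inv htr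
  have hfin' : FiniteDimensional K⟮x⁻¹⟯ F := S24.placeCases_finiteDimensional_adjoin_inv x
  obtain ⟨e, he⟩ := MATCHN_common A (LocInt A x⁻¹) (fun a b ha hb => IsIntegral.add ha hb)
    (fun a b ha hb => IsIntegral.mul ha hb) (fun c hcA => locInt_const hcA) ι ι' P P'
    (fun i y hy => by
      obtain ⟨c₀, hc₀, hE₀⟩ := hc i
      exact (stmt_EVINT K F A x⁻¹ htr' hfin' (P i) c₀ hE₀).2 hc₀ y hy)
    (fun i y hy => by
      obtain ⟨c₀, hc₀, hE₀⟩ := hc' i
      exact (stmt_EVINT K F A x⁻¹ htr' hfin' (P' i) c₀ hE₀).2 hc₀ y hy)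
    hprod
  exact MATCHN_sum A x ι ι' P P' e fun i =>
    Or.inr ⟨hc i, hc' (e i), fun y hy c c' => he i y hy c c'⟩

end Fermat.Agent.RED
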