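import Fermat.Agent.RED.Interface4
import Fermat.Agent.S24.FundId

/-!
# RED-R1 (helper25): a local parameter at a point of the normal special fibre
-/

set_option autoImplicit false

noncomputable section

namespace Fermat.Agent.RED

open AlgebraicCurve Polynomial IntermediateField Fermat.Agent.INJ

/-- In a Dedekind domain: an ideal `n ∋ θ ≠ 0` is `(τ, θ ^ m)` for all `m > 0`, `τ` independent
of `m`. -/
theorem R1_dedekind {R : Type*} [CommRing R] [IsDedekindDomain R] (n : Ideal R) (θ : R)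
    (hθ : θ ∈ n) (hθ0 : θ ≠ 0) :
    ∃ τ ∈ n, ∀ m : ℕ, 0 < m → n = Ideal.span {τ, θ ^ m} := by
  have h1 : Ideal.span {θ ^ 2} ≤ n := by
    rw [Ideal.span_singleton_le_iff_mem]
    exact n.pow_mem_of_mem hθ 2 (by norm_num)
  have h2 : Ideal.span {θ ^ 2} ≠ 0 := by
    rw [Ne, Ideal.zero_eq_bot, Ideal.span_singleton_eq_bot]
    exact pow_ne_zero 2 hθ0
  obtain ⟨τ, hτ⟩ := IsDedekindDomain.exists_sup_span_eq h1 h2
  have hτn : τ ∈ n := by
    rw [← hτ]
    exact Ideal.mem_sup_right (Ideal.mem_span_singleton_self τ)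
  refine ⟨τ, hτn, fun m hm => ?_⟩
  -- `θ = a θ² + b τ`
  have h3 : θ ∈ Ideal.span {θ ^ 2} ⊔ Ideal.span {τ} := hτ ▸ hθ
  obtain ⟨x, hx, y, hy, hxy⟩ := Submodule.mem_sup.1 h3
  obtain ⟨a, rfl⟩ := Ideal.mem_span_singleton'.1 hx
  obtain ⟨b, rfl⟩ := Ideal.mem_span_singleton'.1 hy
  -- `θ ∈ (τ, θ ^ j)` for all `j ≥ 1`
  have h4 : ∀ j : ℕ, θ ∈ Ideal.span {τ, θ ^ (j + 1)} := by
    intro j
    induction j with
    | zero =>
      rw [zero_add, pow_one]
      exact Ideal.subset_span (by simp)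
    | succ j ih =>
      obtain ⟨c, d, hcd⟩ := Ideal.mem_span_pair.1 ih
      refine Ideal.mem_span_pair.2 ⟨b + a * θ * c, a * d, ?_⟩
      calc (b + a * θ * c) * τ + a * d * θ ^ (j + 1 + 1)
          = a * θ * (c * τ + d * θ ^ (j + 1)) + b * τ := by ring
        _ = a * θ ^ 2 + b * τ := by rw [hcd]; ring
        _ = θ := hxy
  obtain ⟨j, rfl⟩ : ∃ j, m = j + 1 := ⟨m - 1, by omega⟩
  apply le_antisymm
  · rw [← hτ, sup_le_iff, Ideal.span_singleton_le_iff_mem, Ideal.span_singleton_le_iff_mem]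
    exact ⟨Ideal.pow_mem_of_mem _ (h4 j) 2 (by norm_num), Ideal.subset_span (by simp)⟩
  · rw [Ideal.span_le]
    rintro z (rfl | rfl)
    · exact hτn
    · exact n.pow_mem_of_mem hθ _ (Nat.succ_pos j)

section

open scoped IntermediateField.algebraAdjoinAdjoin

theorem R1_isDedekindDomain {k Fb : Type*} [Field k] [Field Fb] [Algebra k Fb] {tb : Fb}
    (ht : Transcendental k tb) [FiniteDimensional k⟮tb⟯ Fb] [Algebra.IsSeparable k⟮tb⟯ Fb] :
    IsDedekindDomain (S24.intRing k tb) := by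
  have := S24.polyRing_isPrincipalIdealRing ht
  exact integralClosure.isDedekindDomain (S24.polyRing k tb) k⟮tb⟯ Fb

end

theorem stmt_R1 : Stmt_R1 := by
  intro k Fb _ _ _ _ tb ht hfd hsep ρ hρ
  have hD : IsDedekindDomain (S24.intRing k tb) := R1_isDedekindDomain ht
  have hconst : ∀ c : k, IsInt k tb (algebraMap k Fb c) := fun c => by
    have : algebraMap k Fb c = algebraMap (Algebra.adjoin k {tb}) Fb
      (algebraMap k (Algebra.adjoin k {tb}) c) := rfl
    rw [this]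
    exact isIntegral_algebraMap
  have htb : IsInt k tb tb := by
    have : tb = algebraMap (Algebra.adjoin k {tb}) Fb
      ⟨tb, Algebra.self_mem_adjoin_singleton k tb⟩ := rfl
    rw [this]
    exact isIntegral_algebraMap
  have hρ0 : ρ 0 = 0 := by
    have := hρ.const 0
    rwa [map_zero] at this
  let n : Ideal (S24.intRing k tb) :=
    { carrier := {y | ρ (y : Fb) = 0}
      add_mem' := by
        intro y z hy hz
        show ρ ((y : Fb) + (z : Fb)) = 0
        rw [hρ.add _ _ y.2 z.2, hy, hz, add_zero]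
      zero_mem' := hρ0
      smul_mem' := by
        intro c y hy
        show ρ ((c : Fb) * (y : Fb)) = 0
        rw [hρ.mul _ _ c.2 y.2, hy, mul_zero] }
  have hmem : ∀ y : S24.intRing k tb, y ∈ n ↔ ρ (y : Fb) = 0 := fun _ => Iff.rfl
  have hθint : IsInt k tb (tb - algebraMap k Fb (ρ tb)) := htb.sub (hconst _)
  let θ : S24.intRing k tb := ⟨tb - algebraMap k Fb (ρ tb), hθint⟩
  have hθn : θ ∈ n := by
    rw [hmem]
    have h1 := hρ.add _ _ hθint (hconst (ρ tb))
    rw [sub_add_cancel, hρ.const] at h1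
    show ρ (tb - algebraMap k Fb (ρ tb)) = 0
    exact (add_eq_right.1 h1.symm)
  have hθ0 : θ ≠ 0 := by
    intro h
    have h1 : tb - algebraMap k Fb (ρ tb) = 0 := congrArg Subtype.val h
    exact ht (sub_eq_zero.1 h1 ▸ isAlgebraic_algebraMap _)
  obtain ⟨τ, hτn, hτ⟩ := R1_dedekind n θ hθn hθ0
  have hone : (1 : S24.intRing k tb) ∉ n := by
    rw [hmem]
    have := hρ.const 1
    rw [map_one] at this
    show ρ 1 ≠ 0
    rw [this]
    exact one_ne_zero
  refine ⟨(τ : Fb), τ.2, ?_, hτn, fun m hm y hy hy0 => ?_⟩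
  · intro h0
    have hτ0 : τ = 0 := Subtype.ext h0
    -- then `n = (θ)` and `n = (θ²)`, so `θ` is a unit
    have h1 := hτ 2 (by norm_num)
    rw [hτ0] at h1
    have h2 : θ ∈ Ideal.span {(0 : S24.intRing k tb), θ ^ 2} := h1 ▸ hθn
    obtain ⟨a, b, hab⟩ := Ideal.mem_span_pair.1 h2
    have h3 : θ * (b * θ) = θ * 1 := by
      rw [mul_one]
      calc θ * (b * θ) = a * 0 + b * θ ^ 2 := by ring
        _ = θ := hab
    have h4 : b * θ = 1 := mul_left_cancel₀ hθ0 h3
    exact hone (h4 ▸ n.mul_mem_left b hθn)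
  · have h1 : (⟨y, hy⟩ : S24.intRing k tb) ∈ Ideal.span {τ, θ ^ m} := by
      rw [← hτ m hm, hmem]
      exact hy0
    obtain ⟨a, b, hab⟩ := Ideal.mem_span_pair.1 h1
    refine ⟨(a : Fb), (b : Fb), a.2, b.2, ?_⟩
    have h2 := congrArg (Subtype.val) hab
    have h3 : (a : Fb) * (τ : Fb) + (b : Fb) * (tb - algebraMap k Fb (ρ tb)) ^ m = y := h2
    rw [← h3]
    ring

end Fermat.Agent.RED
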