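import Fermat.Agent.RED.Interface4

/-!
# RED-R2 : splitting off the roots in a residue disc
-/

set_option autoImplicit false

noncomputable section

namespace Fermat.Agent.RED

open Polynomial

section

variable {K : Type} [Field K] [IsAlgClosed K] (A : ValuationSubring K) (c : ↥A)

theorem R2_aux (n : ℕ) : ∀ H : K[X], H ≠ 0 → H.natDegree = n →
    ∃ (a : K) (h₁ G : (↥A)[X]), a ≠ 0 ∧ H = C a * (h₁ * G).map A.subtype ∧ h₁.Monic ∧
      h₁.map (IsLocalRing.residue ↥A) = (X - C (IsLocalRing.residue ↥A c)) ^ h₁.natDegree ∧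
      ∀ r : ↥A, r - c ∈ IsLocalRing.maximalIdeal ↥A → IsUnit (G.eval r) := by
  induction n with
  | zero =>
    intro H hH hdeg
    rw [natDegree_eq_zero] at hdeg
    obtain ⟨a, rfl⟩ := hdeg
    refine ⟨a, 1, 1, fun h => hH (by rw [h, map_zero]), by simp, monic_one, by simp, ?_⟩
    intro r _
    simp
  | succ n ih =>
    intro H hH hdeg
    have hd : H.degree ≠ 0 := by
      intro h0
      have h1 : H.natDegree = 0 := natDegree_eq_of_degree_eq_some h0
      omega
    obtain ⟨r, hr⟩ := IsAlgClosed.exists_root H hd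
    obtain ⟨H', rfl⟩ := dvd_iff_isRoot.2 hr
    have hH' : H' ≠ 0 := right_ne_zero_of_mul hH
    have hdeg' : H'.natDegree = n := by
      rw [natDegree_mul (X_sub_C_ne_zero r) hH', natDegree_X_sub_C] at hdeg
      omega
    obtain ⟨a, h₁, G, ha, hHe, hm, hred, hu⟩ := ih H' hH' hdeg'
    by_cases hrA : r ∈ A
    · by_cases hrc : (⟨r, hrA⟩ : ↥A) - c ∈ IsLocalRing.maximalIdeal ↥A
      · refine ⟨a, (X - C ⟨r, hrA⟩) * h₁, G, ha, ?_, (monic_X_sub_C _).mul hm, ?_, hu⟩
        · rw [hHe]
          simp only [Polynomial.map_mul, Polynomial.map_sub, map_X, map_C]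
          simp only [ValuationSubring.subtype_apply]
          ring
        · rw [(monic_X_sub_C _).natDegree_mul hm, natDegree_X_sub_C, Polynomial.map_mul, hred,
            Polynomial.map_sub, map_X, map_C, pow_add, pow_one]
          have : IsLocalRing.residue ↥A ⟨r, hrA⟩ = IsLocalRing.residue ↥A c := by
            rw [← sub_eq_zero, ← map_sub, IsLocalRing.residue_eq_zero_iff]
            exact hrc
          rw [this]
      · refine ⟨a, h₁, (X - C ⟨r, hrA⟩) * G, ha, ?_, hm, hred, ?_⟩
        · rw [hHe]
          simp only [Polynomial.map_mul, Polynomial.map_sub, map_X, map_C]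
          simp only [ValuationSubring.subtype_apply]
          ring
        · intro r₀ hr₀
          rw [eval_mul]
          refine IsUnit.mul ?_ (hu r₀ hr₀)
          rw [eval_sub, eval_X, eval_C, ← IsLocalRing.notMem_maximalIdeal]
          intro hmem
          apply hrc
          have := Ideal.sub_mem _ hr₀ hmem
          convert this using 1
          ring
    · have hr0 : r ≠ 0 := fun h => hrA (h ▸ A.zero_mem)
      have hinv : r⁻¹ ∈ A := (A.mem_or_inv_mem r).resolve_left hrA
      have hs : (⟨r⁻¹, hinv⟩ : ↥A) ∈ IsLocalRing.maximalIdeal ↥A := by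
        rw [IsLocalRing.mem_maximalIdeal, mem_nonunits_iff]
        intro hunit
        obtain ⟨t, ht⟩ := hunit.exists_right_inv
        have ht' : r⁻¹ * (t : K) = 1 := congrArg Subtype.val ht
        apply hrA
        have : r = (t : K) := by
          field_simp at ht'
          exact ht'.symm
        rw [this]
        exact t.2
      refine ⟨a * (-r), h₁, (1 - C ⟨r⁻¹, hinv⟩ * X) * G, mul_ne_zero ha (neg_ne_zero.2 hr0), ?_,
        hm, hred, ?_⟩
      · rw [hHe]
        simp only [Polynomial.map_mul, Polynomial.map_sub, map_X, map_C, Polynomial.map_one]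
        simp only [ValuationSubring.subtype_apply]
        have : (X - C r : K[X]) = C (-r) * (1 - C r⁻¹ * X) := by
          rw [mul_sub, mul_one, ← mul_assoc, ← C_mul, neg_mul, mul_inv_cancel₀ hr0]
          simp
          ring
        rw [this, C_mul]
        ring
      · intro r₀ hr₀
        rw [eval_mul]
        refine IsUnit.mul ?_ (hu r₀ hr₀)
        rw [eval_sub, eval_one, eval_mul, eval_X, eval_C, ← IsLocalRing.notMem_maximalIdeal]
        intro hmem
        have h1 : (1 : ↥A) ∈ IsLocalRing.maximalIdeal ↥A := by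
          have := Ideal.add_mem _ hmem (Ideal.mul_mem_right r₀ _ hs)
          convert this using 1
          ring
        exact (Ideal.ne_top_iff_one _).1 (IsLocalRing.maximalIdeal.isMaximal ↥A).ne_top h1

end

theorem stmt_R2 : Stmt_R2 := by
  intro K _ _ A h c ⟨i, hi⟩
  have hinj : Function.Injective A.subtype := Subtype.val_injective
  have hH : h.map A.subtype ≠ 0 := by
    rw [Ne, Polynomial.map_eq_zero_iff hinj]
    rintro rfl
    simp at hi
  obtain ⟨a, h₁, G, ha, hHe, hm, hred, hu⟩ := R2_aux A c _ (h.map A.subtype) hH rfl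
  -- `h₁ * G` has a unit coefficient
  have hne : (h₁ * G).map (IsLocalRing.residue ↥A) ≠ 0 := by
    rw [Polynomial.map_mul]
    refine mul_ne_zero ((hm.map _).ne_zero) ?_
    intro h0
    have h1 := hu c (by rw [sub_self]; exact Ideal.zero_mem _)
    have h2 : IsLocalRing.residue ↥A (G.eval c) = 0 := by
      rw [← eval₂_at_apply, ← eval_map, h0, eval_zero]
    rw [IsLocalRing.residue_eq_zero_iff] at h2
    exact (IsLocalRing.notMem_maximalIdeal.2 h1) h2
  obtain ⟨j, hj⟩ : ∃ j, IsUnit ((h₁ * G).coeff j) := by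
    by_contra hcon
    rw [not_exists] at hcon
    apply hne
    ext j
    rw [coeff_map, coeff_zero, IsLocalRing.residue_eq_zero_iff]
    exact hcon j
  have hco : ∀ m, ((h.coeff m : ↥A) : K) = a * (((h₁ * G).coeff m : ↥A) : K) := by
    intro m
    have := congrArg (fun p => p.coeff m) hHe
    rw [coeff_map, coeff_C_mul, coeff_map] at this
    exact this
  -- `a ∈ A`
  obtain ⟨t, ht⟩ := hj.exists_right_inv
  have haA : a ∈ A := by
    have ht' : (((h₁ * G).coeff j : ↥A) : K) * (t : K) = 1 := congrArg Subtype.val ht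
    have : a = ((h.coeff j * t : ↥A) : K) := by
      push_cast
      rw [hco j, mul_assoc, ht', mul_one]
    rw [this]
    exact (h.coeff j * t).2
  have haU : IsUnit (⟨a, haA⟩ : ↥A) := by
    have : h.coeff i = ⟨a, haA⟩ * (h₁ * G).coeff i := Subtype.ext (hco i)
    rw [this] at hi
    exact isUnit_of_mul_isUnit_left hi
  refine ⟨h₁, C ⟨a, haA⟩ * G, ?_, hm, ?_, ?_⟩
  · apply Polynomial.map_injective _ hinj
    rw [hHe]
    simp only [Polynomial.map_mul, map_C]
    simp only [ValuationSubring.subtype_apply]
    ring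
  · intro m
    rw [← IsLocalRing.residue_eq_zero_iff, ← coeff_map, Polynomial.map_sub, hred]
    simp
  · intro r hr
    rw [eval_mul, eval_C]
    exact haU.mul (hu r hr)

end Fermat.Agent.RED
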