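import Fermat.Agent.RED.Interface4
import Fermat.Agent.RED.Ev
import Fermat.Agent.INJ.All
import Fermat.Agent.INJ.P17

/-!
# RED (S37) : R3 (Claim L) from R1, R2, R3a, R3b, R3c, GC
-/

set_option autoImplicit false

noncomputable section

namespace Fermat.Agent.RED

open AlgebraicCurve Polynomial IntermediateField Fermat.Agent.INJ

section

variable {K F k Fb : Type} [Field K] [Field F] [Algebra K F] [Field k] [Field Fb] [Algebra k Fb]

theorem R3_isAlgClosed [IsAlgClosed K] (D : RedData K F k Fb) : IsAlgClosed k := by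
  refine IsAlgClosed.of_exists_root _ fun p hp hirr => ?_
  have hl : p ∈ lifts D.rA := by
    obtain ⟨q, hq⟩ := Polynomial.map_surjective _ D.rA_surj p
    exact ⟨q, hq⟩
  obtain ⟨q, hq, hdeg, hqm⟩ := lifts_and_natDegree_eq_and_monic hl hp
  have hdeg0 : (q.map D.A.subtype).degree ≠ 0 := by
    rw [degree_map_eq_of_injective D.A.subtype_injective, degree_eq_natDegree hqm.ne_zero, hdeg]
    have := hirr.natDegree_pos
    exact_mod_cast this.ne'
  obtain ⟨r, hr⟩ := IsAlgClosed.exists_root (q.map D.A.subtype) hdeg0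
  have hint : IsIntegral D.A r := ⟨q, hqm, by rw [← eval_map]; exact hr⟩
  obtain ⟨y, hy⟩ := IsIntegrallyClosed.algebraMap_eq_of_integral hint
  refine ⟨D.rA y, ?_⟩
  have h0 : q.eval y = 0 := by
    apply D.A.subtype_injective
    rw [map_zero, ← Polynomial.eval₂_at_apply, ← eval_map]
    have : D.A.subtype y = r := hy
    rw [this]
    exact hr
  rw [← hq, eval_map, Polynomial.eval₂_at_apply, h0, map_zero]

theorem R3_mem_max_iff (D : RedData K F k Fb) (a : D.A) :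
    a ∈ IsLocalRing.maximalIdeal D.A ↔ D.rA a = 0 := by
  have hker : (RingHom.ker D.rA).IsMaximal := RingHom.ker_isMaximal_of_surjective D.rA D.rA_surj
  rw [← IsLocalRing.eq_maximalIdeal hker]
  exact RingHom.mem_ker

theorem R3_isUnit_iff (D : RedData K F k Fb) (a : D.A) : IsUnit a ↔ D.rA a ≠ 0 := by
  rw [← not_iff_not, not_not, ← R3_mem_max_iff, IsLocalRing.mem_maximalIdeal, mem_nonunits_iff]

theorem R3_isInt_self (x : F) : IsInt K x x :=
  isIntegral_algebraMap (R := Algebra.adjoin K {x}) (A := F)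
    (x := ⟨x, Algebra.subset_adjoin rfl⟩)

theorem R3_ev_poly (A : ValuationSubring K) {P : Place K F} {x : F} (c : A) (h : Ev P x (c : K))
    (p : (↥A)[X]) : Ev P (polyHom A x p) ((p.eval c : A) : K) := by
  have h1 := ev_polyHom h p
  have h2 : p.eval₂ A.subtype (c : K) = ((p.eval c : A) : K) :=
    Polynomial.eval₂_at_apply A.subtype c
  rwa [h2] at h1

theorem R3_val [IsAlgClosed K] [CharZero K] (hGC : Stmt_GC) (D : RedData K F k Fb) (x : F)
    (hC : Chart D x) (P : Place K F) {cP : K} (hcP : cP ∈ D.A) (hP : Ev P x cP) {y : F}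
    (hy : y ∈ D.O) (hyI : IsInt K x y) : ∃ c ∈ D.A, Ev P y c := by
  have hG := hGC K F k Fb D x hC
  have hint : IntOver D.A x y := hG.int_of_mem y hy hyI
  have hx : Transcendental K x := (stmt_Gauss K F k Fb D x hC.t_mem hC.trans).2.2.2.1
  have := hC.fin
  refine EV_value_mem D.A x hx P (polyRing D.A x) ?_ hint
  rintro _ ⟨p, rfl⟩
  exact ⟨_, EV_eval₂_mem hcP p, ev_polyHom hP p⟩

end

theorem stmt_R3 (hGC : Stmt_GC) (h1 : Stmt_R1) (h2 : Stmt_R2) (ha : Stmt_R3a) (hb : Stmt_R3b)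
    (hc : Stmt_R3c) : Stmt_R3 := by
  intro K F k Fb _ _ _ _ _ _ _ _ D x hC hB ρ hρ
  have hkc : IsAlgClosed k := R3_isAlgClosed D
  have hfin : FiniteDimensional k⟮D.rd x⟯ Fb :=
    stmt_ResFinite K F k Fb D x hC.t_mem hC.trans hC.fin
  obtain ⟨τb, hτbI, hτb0, hρτb, hR1⟩ := h1 k Fb (D.rd x) hC.trans hfin hC.sep ρ hρ
  obtain ⟨τ₀, hτ₀O, hτ₀I, hτ₀rd⟩ := all_Normal K F k Fb D x hC hB τb hτbI
  refine ⟨τ₀, hτ₀O, hτ₀I, by rw [hτ₀rd]; exact hτb0, by rw [hτ₀rd]; exact hρτb, ?_⟩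
  intro P c hOver hPc
  obtain ⟨⟨cP, hcPA, hPx⟩, hOv⟩ := hOver
  -- `c ∈ A`, `ra c = 0`
  have hcA : c ∈ D.A := by
    obtain ⟨c', hc'A, hc'⟩ := R3_val hGC D x hC P hcPA hPx hτ₀O hτ₀I
    rw [← ev_unique hc' hPc]
    exact hc'A
  have hrac : D.ra c = 0 := by rw [hOv τ₀ hτ₀O hτ₀I c hPc, hτ₀rd, hρτb]
  obtain ⟨τ, hτdef⟩ : ∃ τ, τ = τ₀ - algebraMap K F c := ⟨_, rfl⟩
  rw [← hτdef]
  have hτO : τ ∈ D.O := by rw [hτdef]; exact sub_mem hτ₀O (RedData.algebraMap_mem hcA)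
  have hτI : IsInt K x τ := by
    rw [hτdef]; exact IsIntegral.sub hτ₀I (P10_isInt_algebraMap x c)
  have hτrd : D.rd τ = τb := by
    rw [hτdef, RedData.rd_sub hτ₀O (RedData.algebraMap_mem hcA), RedData.rd_algebraMap hcA, hrac,
      map_zero, sub_zero, hτ₀rd]
  have hPτ : Ev P τ 0 := by
    have := ev_sub hPc (ev_const P c)
    rwa [sub_self, ← hτdef] at this
  have hτne : τ ≠ 0 := by
    rintro rfl
    rw [RedData.rd_zero] at hτrd
    exact hτb0 hτrd.symm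
  obtain ⟨h, z, hh0, hzO, hzI, hhz⟩ := ha K F k Fb D x hC τ hτO hτI (by rw [hτrd]; exact hτb0)
  have hunit : ∃ i, IsUnit (h.coeff i) := by
    by_contra hcon
    push Not at hcon
    apply hh0
    ext i
    rw [coeff_map, coeff_zero]
    by_contra h'
    exact hcon i ((R3_isUnit_iff D _).2 h')
  obtain ⟨h₁, h₂, hfac, hmon, hcoef, hu₂⟩ := h2 K D.A h ⟨cP, hcPA⟩ hunit
  -- roots of `h₁`
  have hroot : ∀ (Q : Place K F) (r : D.A), Ev Q x (r : K) → Ev Q τ 0 →
      r - ⟨cP, hcPA⟩ ∈ IsLocalRing.maximalIdeal D.A → h₁.eval r = 0 := by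
    intro Q r hQx hQτ hr
    obtain ⟨cz, -, hcz⟩ := R3_val hGC D x hC Q r.2 hQx hzO hzI
    have e1 := R3_ev_poly D.A r hQx h
    rw [hhz] at e1
    have e2 := ev_unique e1 (ev_mul hQτ hcz)
    rw [zero_mul] at e2
    have e3 : h.eval r = 0 := Subtype.ext e2
    rw [hfac, eval_mul] at e3
    exact (hu₂ r hr).mul_left_eq_zero.mp e3
  have hroot₀ : h₁.eval ⟨cP, hcPA⟩ = 0 :=
    hroot P ⟨cP, hcPA⟩ hPx hPτ (by rw [sub_self]; exact zero_mem _)
  have hm : 0 < h₁.natDegree := by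
    rcases Nat.eq_zero_or_pos h₁.natDegree with h0 | h0
    · have : h₁ = 1 := hmon.natDegree_eq_zero.mp h0
      rw [this, eval_one] at hroot₀
      exact absurd hroot₀ one_ne_zero
    · exact h0
  -- the reduction of `h₁`
  have hracP : D.rA ⟨cP, hcPA⟩ = ρ (D.rd x) := by
    rw [← RedData.ra_of_mem hcPA]
    exact hOv x hC.t_mem (R3_isInt_self x) cP hPx
  have hmap : h₁.map D.rA = (X - C (ρ (D.rd x))) ^ h₁.natDegree := by
    have h0 : (h₁ - (X - C (⟨cP, hcPA⟩ : D.A)) ^ h₁.natDegree).map D.rA = 0 := by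
      ext i
      rw [coeff_map, coeff_zero, ← R3_mem_max_iff]
      exact hcoef i
    rw [Polynomial.map_sub, Polynomial.map_pow, Polynomial.map_sub, map_X, map_C, sub_eq_zero,
      hracP] at h0
    exact h0
  have haev : aeval (D.rd x) (h₁.map D.rA) =
      (D.rd x - algebraMap k Fb (ρ (D.rd x))) ^ h₁.natDegree := by
    rw [hmap, map_pow, map_sub, aeval_X, aeval_C]
  have hstar := hb K F k Fb D x hC hB ρ hρ τ hτO hτI h₁ hmon (by
    intro y hy hρy
    rw [hτrd, haev]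
    exact hR1 _ hm y hy hρy)
  -- values
  have hval : ∀ (Q : Place K F) (r : D.A), Ev Q x (r : K) → Ev Q τ 0 → h₁.eval r = 0 →
      ∀ (a : K) (u v : F), u ∈ D.O → IsInt K x u → v ∈ D.O → IsInt K x v →
        Ev Q (algebraMap K F a + τ * u + polyHom D.A x h₁ * v) a := by
    intro Q r hQx hQτ hr a u v huO huI hvO hvI
    obtain ⟨cu, -, hcu⟩ := R3_val hGC D x hC Q r.2 hQx huO huI
    obtain ⟨cv, -, hcv⟩ := R3_val hGC D x hC Q r.2 hQx hvO hvI
    have e1 := R3_ev_poly D.A r hQx h₁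
    rw [hr] at e1
    have e2 := ev_add (ev_add (ev_const Q a) (ev_mul hQτ hcu)) (ev_mul e1 hcv)
    simpa using e2
  obtain ⟨⟨y, hyO, hyI, hyord⟩, hsep⟩ := hc K F k Fb D x hC P cP hPx
  refine ⟨?_, ?_⟩
  · -- `ord_P τ = 1`
    have hy0 : y ≠ 0 := by
      rintro rfl
      rw [Place.ord_zero] at hyord
      exact zero_ne_one hyord
    obtain ⟨a, u, v, -, huO, huI, hvO, hvI, hy⟩ := hstar y hyO hyI
    have hPy : Ev P y 0 := (ev_zero_iff_ord hy0).2 (by rw [hyord]; exact one_pos)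
    have ha0 : a = 0 := by
      have := hval P ⟨cP, hcPA⟩ hPx hPτ hroot₀ a u v huO huI hvO hvI
      rw [← hy] at this
      exact ev_unique this hPy
    rw [ha0, map_zero, zero_add] at hy
    have e1 : polyHom D.A x h₂ * y = τ * (polyHom D.A x h₂ * u + z * v) := by
      have : polyHom D.A x h₁ * polyHom D.A x h₂ = τ * z := by rw [← map_mul, ← hfac, hhz]
      rw [hy]
      linear_combination v * this
    have hu0 : IsUnit (h₂.eval ⟨cP, hcPA⟩) := hu₂ _ (by rw [sub_self]; exact zero_mem _)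
    have hne : ((h₂.eval ⟨cP, hcPA⟩ : D.A) : K) ≠ 0 := fun h0 => hu0.ne_zero (Subtype.ext h0)
    have hPh₂ := R3_ev_poly D.A ⟨cP, hcPA⟩ hPx h₂
    have hord₂ : P.ord (polyHom D.A x h₂) = 0 := ev_ord_eq_zero hPh₂ hne
    have hh₂ne : polyHom D.A x h₂ ≠ 0 := EV_ne_zero hPh₂ hne
    obtain ⟨cu, -, hcu⟩ := R3_val hGC D x hC P hcPA hPx huO huI
    obtain ⟨cv, -, hcv⟩ := R3_val hGC D x hC P hcPA hPx hvO hvI
    obtain ⟨cz, -, hcz⟩ := R3_val hGC D x hC P hcPA hPx hzO hzI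
    have hg : polyHom D.A x h₂ * u + z * v ∈ P.toValuationSubring :=
      ev_mem (ev_add (ev_mul hPh₂ hcu) (ev_mul hcz hcv))
    have hgne : polyHom D.A x h₂ * u + z * v ≠ 0 := by
      intro h0
      rw [h0, mul_zero] at e1
      exact (mul_ne_zero hh₂ne hy0) e1
    have e2 := congrArg P.ord e1
    rw [P.ord_mul hh₂ne hy0, P.ord_mul hτne hgne, hord₂, hyord] at e2
    have h3 : 0 < P.ord τ := (ev_zero_iff_ord hτne).1 hPτ
    have h4 : 0 ≤ P.ord (polyHom D.A x h₂ * u + z * v) := S24.ord_nonneg_of_mem P hg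
    omega
  · -- uniqueness
    intro P' hOver' hP'τ
    obtain ⟨⟨c', hc'A, hP'x⟩, hOv'⟩ := hOver'
    have hrac' : D.rA ⟨c', hc'A⟩ = ρ (D.rd x) := by
      rw [← RedData.ra_of_mem hc'A]
      exact hOv' x hC.t_mem (R3_isInt_self x) c' hP'x
    have hdiff : (⟨c', hc'A⟩ : D.A) - ⟨cP, hcPA⟩ ∈ IsLocalRing.maximalIdeal D.A := by
      rw [R3_mem_max_iff, map_sub, hrac', hracP, sub_self]
    have hroot' : h₁.eval ⟨c', hc'A⟩ = 0 := hroot P' ⟨c', hc'A⟩ hP'x hP'τ hdiff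
    apply hsep P'
    intro y hyO hyI cy hcy
    obtain ⟨a, u, v, -, huO, huI, hvO, hvI, hy⟩ := hstar y hyO hyI
    have e1 := hval P ⟨cP, hcPA⟩ hPx hPτ hroot₀ a u v huO huI hvO hvI
    have e2 := hval P' ⟨c', hc'A⟩ hP'x hP'τ hroot' a u v huO huI hvO hvI
    rw [← hy] at e1 e2
    rw [ev_unique hcy e1]
    exact e2

end Fermat.Agent.RED

end
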