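import Fermat.Agent.RED.Interface4
import Fermat.Agent.INJ.All

/-!
# RED-R3a : the norm trick in `BB`.
-/

set_option autoImplicit false

noncomputable section

namespace Fermat.Agent.RED

open AlgebraicCurve Polynomial IntermediateField Fermat.Agent.INJ

section

variable {K F k Fb : Type} [Field K] [Field F] [Algebra K F] [Field k] [Field Fb] [Algebra k Fb]

theorem R3a_polyHom_eq (A : ValuationSubring K) (x : F) (Q : (↥A)[X]) :
    polyHom A x Q = aeval x (Q.map A.subtype) := by
  rw [aeval_def, eval₂_map]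
  rfl

/-- evaluation of a polynomial with coefficients in `A[x]` at an element of `BB` lies in `BB`. -/
theorem R3a_eval₂_mem (D : RedData K F k Fb) (x : F) (hx : x ∈ D.O)
    (htr : Transcendental k (D.rd x)) (τ : F) (hτ : τ ∈ D.O) (hτi : IsInt K x τ)
    (p : (↥D.A)[X][X]) :
    p.eval₂ (polyHom D.A x) τ ∈ D.O ∧ IsInt K x (p.eval₂ (polyHom D.A x) τ) := by
  obtain ⟨g1, -, -, -, -⟩ := stmt_Gauss K F k Fb D x hx htr
  rw [eval₂_eq_sum_range]
  constructor
  · refine RedData.sum_mem _ _ fun i _ => mul_mem ?_ (pow_mem hτ i)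
    rw [R3a_polyHom_eq]
    exact (g1 _).1
  · refine P8_isInt_sum _ x _ fun i _ => IsIntegral.mul ?_ (IsIntegral.pow hτi i)
    rw [R3a_polyHom_eq]
    exact P8_isInt_aeval x _

end

theorem R3a_core {K F k Fb : Type} [Field K] [Field F] [Algebra K F] [Field k] [Field Fb]
    [Algebra k Fb] (D : RedData K F k Fb) (x : F) (hch : Chart D x) (τ : F) (hτ : τ ∈ D.O)
    (hτi : IsInt K x τ) (hτ0 : D.rd τ ≠ 0) (n : ℕ) (hnpos : 0 < n) (b : Fin n → F)
    (hb : ∀ i, b i ∈ D.O ∧ IsInt K x (b i))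
    (hspan : ∀ y, IsInt K x y → y ∈ Submodule.span (Algebra.adjoin K {x}) (Set.range b))
    (hli : LinearIndependent k⟮D.rd x⟯ (fun i => D.rd (b i))) :
    ∃ (h : (↥D.A)[X]) (z : F), h.map D.rA ≠ 0 ∧ z ∈ D.O ∧ IsInt K x z ∧
      polyHom D.A x h = τ * z := by
  classical
  have hbO : ∀ i, b i ∈ D.O := fun i => (hb i).1
  -- the matrix of the multiplication by `τ`
  have hP : ∀ i, ∃ P : Fin n → K[X], τ * b i = ∑ j, aeval x (P j) * b j := fun i =>
    (P8_mem_span_iff x b _).1 (hspan _ (IsIntegral.mul hτi (hb i).2))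
  choose P hP using hP
  have hQ : ∀ i, ∃ Q : Fin n → (↥D.A)[X], (∀ j, (Q j).map D.A.subtype = P i j) ∧
      D.rd (∑ j, aeval x (P i j) * b j)
        = ∑ j, aeval (D.rd x) ((Q j).map D.rA) * D.rd (b j) := fun i =>
    P8_coord stmt_Gauss all_Ortho D x hch.t_mem hch.trans b hbO hli (P i)
      (hP i ▸ mul_mem hτ (hbO i))
  choose Q hQ1 hQ2 using hQ
  let M : Matrix (Fin n) (Fin n) (↥D.A)[X] := Matrix.of Q
  let φ := polyHom D.A x
  have hM : ∀ i, τ * b i = ∑ j, φ (M i j) * b j := by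
    intro i
    rw [hP i]
    refine Finset.sum_congr rfl fun j _ => ?_
    show _ = polyHom D.A x (Q i j) * b j
    rw [R3a_polyHom_eq, hQ1]
  have hMbar : ∀ i, D.rd τ * D.rd (b i)
      = ∑ j, aeval (D.rd x) ((M i j).map D.rA) * D.rd (b j) := by
    intro i
    rw [← RedData.rd_mul hτ (hbO i), hP i, hQ2 i]
    rfl
  -- `τ` is a root of the characteristic polynomial
  have hb0 : b ≠ 0 := by
    intro h
    have h1 := hli.ne_zero ⟨0, hnpos⟩
    apply h1
    show D.rd (b ⟨0, hnpos⟩) = 0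
    rw [h]
    exact RedData.rd_zero
  have hroot : M.charpoly.eval₂ φ τ = 0 := by
    rw [← eval_map, ← Matrix.charpoly_map, Matrix.eval_charpoly,
      ← Matrix.exists_mulVec_eq_zero_iff]
    refine ⟨b, hb0, ?_⟩
    funext i
    rw [Matrix.sub_mulVec]
    simp only [Pi.sub_apply, Pi.zero_apply, Matrix.mulVec, dotProduct, Matrix.scalar_apply,
      Matrix.diagonal_apply, ite_mul, zero_mul, Finset.sum_ite_eq, Finset.mem_univ, if_true,
      Matrix.map_apply]
    rw [hM i, sub_self]
  have hsplit := divX_mul_X_add M.charpoly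
  have hroot2 : M.charpoly.divX.eval₂ φ τ * τ + φ (M.charpoly.coeff 0) = 0 := by
    rw [← hsplit, eval₂_add, eval₂_mul, eval₂_X, eval₂_C] at hroot
    exact hroot
  obtain ⟨hzO, hzi⟩ := R3a_eval₂_mem D x hch.t_mem hch.trans τ hτ hτi M.charpoly.divX
  refine ⟨-M.charpoly.coeff 0, M.charpoly.divX.eval₂ φ τ, ?_, hzO, hzi, ?_⟩
  · -- the reduction of the determinant
    intro h0
    have h1 : (M.charpoly.coeff 0).map D.rA = 0 := by
      rw [Polynomial.map_neg, neg_eq_zero] at h0
      exact h0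
    have hdet : ((mapRingHom D.rA).mapMatrix M).det = 0 := by
      rw [← RingHom.map_det, Matrix.det_eq_sign_charpoly_coeff, map_mul, coe_mapRingHom, h1,
        mul_zero]
    obtain ⟨v, hv0, hv⟩ := Matrix.exists_vecMul_eq_zero_iff.2 hdet
    have hv' : ∀ j, ∑ i, v i * (M i j).map D.rA = 0 := fun j => congrFun hv j
    have hsum : D.rd τ * ∑ i, aeval (D.rd x) (v i) * D.rd (b i) = 0 := by
      rw [Finset.mul_sum]
      have h2 : ∀ i, D.rd τ * (aeval (D.rd x) (v i) * D.rd (b i))
          = ∑ j, aeval (D.rd x) (v i * (M i j).map D.rA) * D.rd (b j) := by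
        intro i
        rw [mul_left_comm, hMbar i, Finset.mul_sum]
        refine Finset.sum_congr rfl fun j _ => ?_
        rw [map_mul, mul_assoc]
      rw [Finset.sum_congr rfl fun i _ => h2 i, Finset.sum_comm]
      refine Finset.sum_eq_zero fun j _ => ?_
      rw [← Finset.sum_mul, ← map_sum, hv' j, map_zero, zero_mul]
    have hsum2 : ∑ i, aeval (D.rd x) (v i) * D.rd (b i) = 0 :=
      (mul_eq_zero.1 hsum).resolve_left hτ0
    have h3 := Fintype.linearIndependent_iff.1 hli
      (fun i => ⟨aeval (D.rd x) (v i), P8_aeval_mem_field _ _⟩) hsum2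
    apply hv0
    funext i
    have h4 : aeval (D.rd x) (v i) = 0 := congrArg Subtype.val (h3 i)
    exact (transcendental_iff_injective.1 hch.trans) (by rw [h4, Pi.zero_apply, map_zero])
  · show φ (-M.charpoly.coeff 0) = _
    rw [map_neg, mul_comm]
    linear_combination -hroot2

theorem stmt_R3a : Stmt_R3a := by
  intro K F k Fb _ _ _ _ _ _ _ _ D x hch τ hτ hτi hτ0
  have hfin := hch.fin
  obtain ⟨b, hb, hspan, hli⟩ := all_BBasis K F k Fb D x hch
  exact R3a_core D x hch τ hτ hτi hτ0 _ Module.finrank_pos b hb hspan hli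

end Fermat.Agent.RED

end

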