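import Fermat.Agent.RED.Interface4
import Fermat.Agent.INJ.All

/-!
# RED / R3b : `BB = A + τ BB + h₁(x) BB` (Nakayama)
-/

set_option autoImplicit false

noncomputable section

namespace Fermat.Agent.RED

open AlgebraicCurve Polynomial IntermediateField Fermat.Agent.INJ

section

variable {K F k Fb : Type} [Field K] [Field F] [Algebra K F] [Field k] [Field Fb] [Algebra k Fb]

theorem R3b_polyHom_eq (A : ValuationSubring K) (x : F) (Q : (↥A)[X]) :
    polyHom A x Q = aeval x (Q.map A.subtype) := by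
  rw [polyHom, coe_eval₂RingHom, aeval_def, eval₂_map]

/-- `BB` as an `A`-submodule of `F`. -/
def R3b_BB (D : RedData K F k Fb) (x : F) : Submodule (↥D.A) F where
  carrier := {y | y ∈ D.O ∧ IsInt K x y}
  add_mem' := fun ha hb => ⟨add_mem ha.1 hb.1, IsIntegral.add ha.2 hb.2⟩
  zero_mem' := ⟨zero_mem _, isIntegral_zero⟩
  smul_mem' := fun c y hy => by
    rw [P9_smul_def]
    exact ⟨mul_mem (RedData.algebraMap_mem c.2) hy.1,
      IsIntegral.mul (P9_isInt_algebraMap x (c : K)) hy.2⟩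

theorem R3b_mem_BB {D : RedData K F k Fb} {x y : F} :
    y ∈ R3b_BB D x ↔ y ∈ D.O ∧ IsInt K x y := Iff.rfl

/-- `T = A + τ BB + h BB` as an `A`-submodule of `F`. -/
def R3b_T (D : RedData K F k Fb) (x τ h : F) : Submodule (↥D.A) F where
  carrier := {y | ∃ (a : K) (u v : F), a ∈ D.A ∧ u ∈ R3b_BB D x ∧ v ∈ R3b_BB D x ∧
    y = algebraMap K F a + τ * u + h * v}
  add_mem' := by
    rintro _ _ ⟨a, u, v, ha, hu, hv, rfl⟩ ⟨a', u', v', ha', hu', hv', rfl⟩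
    exact ⟨a + a', u + u', v + v', add_mem ha ha', add_mem hu hu', add_mem hv hv', by
      rw [map_add]; ring⟩
  zero_mem' := ⟨0, 0, 0, zero_mem _, zero_mem _, zero_mem _, by simp⟩
  smul_mem' := by
    rintro c _ ⟨a, u, v, ha, hu, hv, rfl⟩
    refine ⟨c * a, c • u, c • v, mul_mem c.2 ha, Submodule.smul_mem _ c hu,
      Submodule.smul_mem _ c hv, ?_⟩
    simp only [P9_smul_def, map_mul]
    ring

theorem R3b_mem_maximalIdeal (D : RedData K F k Fb) {c : K} (hc : c ∈ D.A) (h0 : D.ra c = 0) :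
    (⟨c, hc⟩ : ↥D.A) ∈ IsLocalRing.maximalIdeal ↥D.A := by
  rw [IsLocalRing.mem_maximalIdeal, mem_nonunits_iff]
  intro hu
  have h1 : IsUnit (D.rA ⟨c, hc⟩) := hu.map D.rA
  rw [RedData.ra_of_mem hc] at h0
  rw [h0] at h1
  exact not_isUnit_zero h1

/-- SCALE. -/
theorem R3b_scale (D : RedData K F k Fb) (x : F) {e : F} (he : e ∈ R3b_BB D x)
    (h0 : D.rd e = 0) :
    ∃ (c : ↥D.A) (e' : F), c ∈ IsLocalRing.maximalIdeal ↥D.A ∧ e' ∈ R3b_BB D x ∧ e = c • e' := by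
  by_cases hz : e = 0
  · exact ⟨0, 0, zero_mem _, zero_mem _, by simp [hz]⟩
  obtain ⟨a, ha0, h1, h2⟩ := D.unram e hz
  have haF : algebraMap K F a ≠ 0 := (_root_.map_ne_zero _).2 ha0
  have he'0 : e * algebraMap K F a ≠ 0 := mul_ne_zero hz haF
  have hrd : D.rd (e * algebraMap K F a) ≠ 0 := RedData.rd_ne_zero_of_inv_mem he'0 h1 h2
  have hc : algebraMap K F a⁻¹ = e / (e * algebraMap K F a) := by
    rw [map_inv₀]; field_simp
  have hcO : algebraMap K F a⁻¹ ∈ D.O := by rw [hc]; exact RedData.div_mem he.1 hrd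
  have hcA : a⁻¹ ∈ D.A := (D.mem_iff _).1 hcO
  have hcrd : D.rd (algebraMap K F a⁻¹) = 0 := by
    rw [hc, RedData.rd_div he.1 hrd, h0, zero_div]
  have hra : D.ra a⁻¹ = 0 := by
    rw [RedData.rd_algebraMap hcA] at hcrd
    exact (_root_.map_eq_zero _).1 hcrd
  refine ⟨⟨a⁻¹, hcA⟩, e * algebraMap K F a, R3b_mem_maximalIdeal D hcA hra,
    ⟨h1, IsIntegral.mul he.2 (P9_isInt_algebraMap x a)⟩, ?_⟩
  rw [P9_smul_def, map_inv₀]
  field_simp

theorem R3b_polyHom_mem (D : RedData K F k Fb) (x : F) (hx : x ∈ D.O)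
    (htr : Transcendental k (D.rd x)) (Q : (↥D.A)[X]) : polyHom D.A x Q ∈ R3b_BB D x := by
  rw [R3b_polyHom_eq]
  exact ⟨((stmt_Gauss K F k Fb D x hx htr).1 Q).1, P9_isInt_aeval x _⟩

theorem R3b_mul_mem {D : RedData K F k Fb} {x y z : F} (hy : y ∈ R3b_BB D x)
    (hz : z ∈ R3b_BB D x) : y * z ∈ R3b_BB D x :=
  ⟨mul_mem hy.1 hz.1, IsIntegral.mul hy.2 hz.2⟩

/-- the generators of `N`. -/
def R3b_gen (x : F) {n : ℕ} (b : Fin n → F) (m : ℕ) : Fin n × Fin m → F :=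
  fun ij => x ^ (ij.2 : ℕ) * b ij.1

theorem R3b_low_mem (D : RedData K F k Fb) (x : F) {n : ℕ} (b : Fin n → F) (m : ℕ) (i : Fin n)
    (R : (↥D.A)[X]) (hR : R.degree < m) :
    polyHom D.A x R * b i ∈ Submodule.span (↥D.A) (Set.range (R3b_gen x b m)) := by
  have hsum : polyHom D.A x R * b i
      = ∑ j ∈ R.support, polyHom D.A x (monomial j (R.coeff j)) * b i := by
    conv_lhs => rw [R.as_sum_support]
    rw [map_sum, Finset.sum_mul]
  rw [hsum]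
  refine Submodule.sum_mem _ fun j hj => ?_
  have hjm : j < m := by
    have h1 : (j : WithBot ℕ) ≤ R.degree := le_degree_of_mem_supp j hj
    exact_mod_cast lt_of_le_of_lt h1 hR
  have e : polyHom D.A x (monomial j (R.coeff j)) * b i
      = (R.coeff j) • R3b_gen x b m (i, ⟨j, hjm⟩) := by
    rw [P9_smul_def, R3b_gen]
    simp [polyHom, mul_assoc]
  rw [e]
  exact Submodule.smul_mem _ _ (Submodule.subset_span ⟨_, rfl⟩)

/-- (i) division by the monic `h₁`. -/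
theorem R3b_decomp [IsAlgClosed K] [CharZero K] (D : RedData K F k Fb) (x : F) (hC : Chart D x)
    (h₁ : (↥D.A)[X]) (hm : h₁.Monic) :
    ∃ (n : ℕ) (b : Fin n → F), (∀ i, b i ∈ R3b_BB D x) ∧
      ∀ y ∈ R3b_BB D x,
        ∃ n' ∈ Submodule.span (↥D.A) (Set.range (R3b_gen x b h₁.natDegree)),
          ∃ v ∈ R3b_BB D x, y = n' + polyHom D.A x h₁ * v := by
  obtain ⟨b, hb, hspan, hlin⟩ := all_BBasis K F k Fb D x hC
  refine ⟨_, b, hb, fun y hy => ?_⟩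
  obtain ⟨P, hP⟩ := (P5_mem_span_iff x b y).1 (hspan y hy.2)
  have hO := (all_Ortho K F k Fb D x hC.t_mem hC.trans _ b (fun i => (hb i).1) hlin).2
    (fun i => (⟨aeval x (P i), P5_aeval_mem x (P i)⟩ : K⟮x⟯)) (by rw [← hP]; exact hy.1)
  have hQ : ∀ i, ∃ Q : (↥D.A)[X], Q.map D.A.subtype = P i :=
    fun i => (stmt_Gauss K F k Fb D x hC.t_mem hC.trans).2.1 (P i) (hO i)
  choose Q hQ using hQ
  refine ⟨∑ i, polyHom D.A x (Q i %ₘ h₁) * b i,
    Submodule.sum_mem _ fun i _ => R3b_low_mem D x b _ i _ ?_,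
    ∑ i, polyHom D.A x (Q i /ₘ h₁) * b i,
    Submodule.sum_mem _ fun i _ => R3b_mul_mem (R3b_polyHom_mem D x hC.t_mem hC.trans _) (hb i),
    ?_⟩
  · have h1 := degree_modByMonic_lt (Q i) hm
    rwa [degree_eq_natDegree hm.ne_zero] at h1
  · rw [hP, Finset.mul_sum, ← Finset.sum_add_distrib]
    refine Finset.sum_congr rfl fun i _ => ?_
    rw [← hQ i, ← R3b_polyHom_eq, ← mul_assoc, ← map_mul, ← add_mul, ← map_add,
      modByMonic_add_div]

/-- (iii) approximation modulo elements with zero reduction. -/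
theorem R3b_approx [IsAlgClosed K] [CharZero K] (D : RedData K F k Fb) (x : F) (hC : Chart D x)
    (hB : Branch D x) (ρ : Fb → k) (hρ : IsPt k (D.rd x) ρ) (τ : F) (hτ : τ ∈ R3b_BB D x)
    (h₁ : (↥D.A)[X])
    (H : ∀ y, IsInt k (D.rd x) y → ρ y = 0 → ∃ a b, IsInt k (D.rd x) a ∧ IsInt k (D.rd x) b ∧
          y = D.rd τ * a + aeval (D.rd x) (h₁.map D.rA) * b)
    (y : F) (hy : y ∈ R3b_BB D x) :
    ∃ t ∈ R3b_T D x τ (polyHom D.A x h₁), ∃ e ∈ R3b_BB D x, D.rd e = 0 ∧ y = t + e := by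
  have hyb : IsInt k (D.rd x) (D.rd y) := all_IntRed K F k Fb D x hC y hy.1 hy.2
  have hcst : ∀ c : k, IsInt k (D.rd x) (algebraMap k Fb c) := P9_isInt_algebraMap _
  have hz : ρ (D.rd y + algebraMap k Fb (-(ρ (D.rd y)))) = 0 := by
    rw [hρ.add _ _ hyb (hcst _), hρ.const]; ring
  obtain ⟨ab, bb, hab, hbb, heq⟩ := H _ (IsIntegral.add hyb (hcst _)) hz
  obtain ⟨u, huO, huI, hu⟩ := all_Normal K F k Fb D x hC hB ab hab
  obtain ⟨v, hvO, hvI, hv⟩ := all_Normal K F k Fb D x hC hB bb hbb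
  obtain ⟨a₀, ha₀, hra⟩ := RedData.exists_ra_eq (D := D) (ρ (D.rd y))
  have hh := R3b_polyHom_mem D x hC.t_mem hC.trans h₁
  have hhrd : D.rd (polyHom D.A x h₁) = aeval (D.rd x) (h₁.map D.rA) := by
    rw [R3b_polyHom_eq]
    exact ((stmt_Gauss K F k Fb D x hC.t_mem hC.trans).1 h₁).2
  have ht : algebraMap K F a₀ + τ * u + polyHom D.A x h₁ * v ∈ R3b_T D x τ (polyHom D.A x h₁) :=
    ⟨a₀, u, v, ha₀, ⟨huO, huI⟩, ⟨hvO, hvI⟩, rfl⟩
  have htBB : algebraMap K F a₀ + τ * u + polyHom D.A x h₁ * v ∈ R3b_BB D x :=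
    add_mem (add_mem ⟨RedData.algebraMap_mem ha₀, P9_isInt_algebraMap x a₀⟩
      (R3b_mul_mem hτ ⟨huO, huI⟩)) (R3b_mul_mem hh ⟨hvO, hvI⟩)
  refine ⟨_, ht, y - (algebraMap K F a₀ + τ * u + polyHom D.A x h₁ * v), sub_mem hy htBB, ?_,
    by ring⟩
  rw [RedData.rd_sub hy.1 htBB.1,
    RedData.rd_add (add_mem (RedData.algebraMap_mem ha₀) (mul_mem hτ.1 huO)) (mul_mem hh.1 hvO),
    RedData.rd_add (RedData.algebraMap_mem ha₀) (mul_mem hτ.1 huO),
    RedData.rd_mul hτ.1 huO, RedData.rd_mul hh.1 hvO, RedData.rd_algebraMap ha₀, hra, hu, hv, hhrd]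
  rw [map_neg] at heq
  linear_combination heq

end

theorem stmt_R3b : Stmt_R3b := by
  intro K F k Fb _ _ _ _ _ _ _ _ D x hC hB ρ hρ τ hτO hτI h₁ hm H y hyO hyI
  obtain ⟨n, b, hb, hdec⟩ := R3b_decomp D x hC h₁ hm
  have hτ : τ ∈ R3b_BB D x := ⟨hτO, hτI⟩
  have hh := R3b_polyHom_mem D x hC.t_mem hC.trans h₁
  -- `h BB ≤ T`
  have hhT : ∀ v ∈ R3b_BB D x, polyHom D.A x h₁ * v ∈ R3b_T D x τ (polyHom D.A x h₁) :=
    fun v hv => ⟨0, 0, v, zero_mem _, zero_mem _, hv, by simp⟩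
  -- `N ≤ BB`
  have hNBB : Submodule.span (↥D.A) (Set.range (R3b_gen x b h₁.natDegree)) ≤ R3b_BB D x := by
    rw [Submodule.span_le]
    rintro _ ⟨ij, rfl⟩
    exact R3b_mul_mem ⟨pow_mem hC.t_mem _, P9_isInt_pow_self x _⟩ (hb _)
  have hNak : Submodule.span (↥D.A) (Set.range (R3b_gen x b h₁.natDegree))
      ≤ R3b_T D x τ (polyHom D.A x h₁) := by
    apply Submodule.le_of_le_smul_of_le_jacobson_bot (I := IsLocalRing.maximalIdeal ↥D.A)
      (Submodule.fg_span (Set.finite_range _))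
      (le_of_eq (IsLocalRing.jacobson_eq_maximalIdeal ⊥ bot_ne_top).symm)
    intro z hz
    obtain ⟨t, ht, e, he, he0, rfl⟩ := R3b_approx D x hC hB ρ hρ τ hτ h₁ H z (hNBB hz)
    obtain ⟨c, e', hc, he', rfl⟩ := R3b_scale D x he he0
    obtain ⟨n', hn', v, hv, rfl⟩ := hdec e' he'
    rw [smul_add, ← add_assoc, add_right_comm]
    refine Submodule.add_mem_sup (add_mem ht ?_) (Submodule.smul_mem_smul hc hn')
    exact Submodule.smul_mem _ c (hhT v hv)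
  obtain ⟨n', hn', v, hv, rfl⟩ := hdec y ⟨hyO, hyI⟩
  obtain ⟨a, u, v', ha, hu, hv', he⟩ := add_mem (hNak hn') (hhT v hv)
  exact ⟨a, u, v', ha, hu.1, hu.2, hv'.1, hv'.2, he⟩

end Fermat.Agent.RED

end
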