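import Fermat.Agent.RED.Interface4
import Fermat.Agent.RED.Ev
import Fermat.Agent.INJ.P1
import Fermat.Agent.S24.FundId
import Fermat.Agent.S24.PlacePrime

/-!
# RED-R3c : uniformisers in `BB`; `BB` separates the places of the chart.   helper83
-/

set_option autoImplicit false

noncomputable section

namespace Fermat.Agent.RED

open AlgebraicCurve Polynomial IntermediateField Fermat.Agent.INJ IsDedekindDomain

section

variable {K F k Fb : Type} [Field K] [Field F] [Algebra K F] [Field k] [Field Fb] [Algebra k Fb]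

theorem R3c_isInt_const (x : F) (a : K) : IsInt K x (algebraMap K F a) :=
  isIntegral_algebraMap (R := Algebra.adjoin K {x}) (A := F)
    (x := algebraMap K (Algebra.adjoin K {x}) a)

theorem R3c_isInt_self (x : F) : IsInt K x x :=
  isIntegral_algebraMap (R := Algebra.adjoin K {x}) (A := F)
    (x := ⟨x, Algebra.self_mem_adjoin_singleton K x⟩)

/-- scaling an integral element into `BB`. -/
theorem R3c_scale (D : RedData K F k Fb) (x : F) {y : F} (hy0 : y ≠ 0) (hy : IsInt K x y) :
    ∃ a : K, a ≠ 0 ∧ y * algebraMap K F a ∈ D.O ∧ IsInt K x (y * algebraMap K F a) := by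
  obtain ⟨a, ha, h1, -⟩ := D.unram y hy0
  exact ⟨a, ha, h1, IsIntegral.mul hy (R3c_isInt_const x a)⟩

end

theorem stmt_R3c : Stmt_R3c := by
  intro K F k Fb _ _ _ _ _ _ _ _ D x hC P c₀ hEv
  have hxK : Transcendental K x := (stmt_Gauss K F k Fb D x hC.t_mem hC.trans).2.2.2.1
  have := hC.fin
  have := S24.intRing_isDedekindDomain hxK
  have := S24.intRing_isFractionRing (K := K) x
  obtain ⟨𝔭, rfl⟩ := S24.exists_heightOneSpectrum_of_le (R := S24.intRing K x) P
    (fun r => S24.intRing_le_valuationSubring P (ev_mem hEv) r)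
  constructor
  · obtain ⟨π, hπ⟩ := 𝔭.intValuation_exists_uniformizer
    have hπ0 : π ≠ 0 := by
      rintro rfl
      rw [map_zero] at hπ
      exact WithZero.exp_ne_zero hπ.symm
    have hπF : algebraMap (S24.intRing K x) F π ≠ 0 := by
      simpa using (IsFractionRing.injective (S24.intRing K x) F).ne hπ0
    have hord : (Place.ofHeightOneSpectrum (K := K) 𝔭).ord (algebraMap (S24.intRing K x) F π) = 1 := by
      rw [S24.ord_ofHeightOneSpectrum 𝔭 _ hπF, HeightOneSpectrum.valuation_of_algebraMap, hπ,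
        WithZero.log_exp, neg_neg]
    obtain ⟨a, ha, h1, h2⟩ := R3c_scale D x hπF π.2
    refine ⟨_, h1, h2, ?_⟩
    rw [Place.ord_mul _ hπF ((_root_.map_ne_zero _).2 ha), hord, S24.ord_algebraMap, add_zero]
  · intro P' hP'
    have hEv' : Ev P' x c₀ := hP' x hC.t_mem (R3c_isInt_self x) c₀ hEv
    obtain ⟨𝔭', rfl⟩ := S24.exists_heightOneSpectrum_of_le (R := S24.intRing K x) P'
      (fun r => S24.intRing_le_valuationSubring P' (ev_mem hEv') r)
    have hle : 𝔭.asIdeal ≤ 𝔭'.asIdeal := by
      intro r hr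
      rcases eq_or_ne r 0 with rfl | hr0
      · exact zero_mem _
      have hrF : algebraMap (S24.intRing K x) F r ≠ 0 := by
        simpa using (IsFractionRing.injective (S24.intRing K x) F).ne hr0
      have h0 : Ev (Place.ofHeightOneSpectrum (K := K) 𝔭) (algebraMap (S24.intRing K x) F r) 0 :=
        (ev_zero_iff_ord hrF).2 ((S24.ord_algebraMap_pos_iff 𝔭 r hr0).2 hr)
      obtain ⟨a, ha, h1, h2⟩ := R3c_scale D x hrF r.2
      have h3 := hP' _ h1 h2 _ (ev_mul h0 (ev_const _ a))
      rw [zero_mul] at h3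
      have haF : algebraMap K F a ≠ 0 := (_root_.map_ne_zero _).2 ha
      have h4 := (ev_zero_iff_ord (mul_ne_zero hrF haF)).1 h3
      rw [Place.ord_mul _ hrF haF, S24.ord_algebraMap, add_zero] at h4
      exact (S24.ord_algebraMap_pos_iff 𝔭' r hr0).1 h4
    have heq : 𝔭.asIdeal = 𝔭'.asIdeal := 𝔭.isMaximal.eq_of_le 𝔭'.isPrime.ne_top hle
    rw [HeightOneSpectrum.ext heq]

end Fermat.Agent.RED
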