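import Fermat.Agent.RED.Interface4
import Fermat.Agent.RED.Ev
import Fermat.Agent.INJ.All
import Fermat.Agent.S18.Abstract
import Fermat.Agent.S24.PlacePrime

/-!
# RED-R4 : denominators away from `ρ` (`Stmt_R4`)
-/

set_option autoImplicit false

noncomputable section

namespace Fermat.Agent.RED

open AlgebraicCurve Polynomial IntermediateField Fermat.Agent.INJ IsDedekindDomain
open scoped IntermediateField.algebraAdjoinAdjoin

section General

variable {K F : Type*} [Field K] [Field F] [Algebra K F]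

theorem R4_isInt_const (x : F) (c : K) : IsInt K x (algebraMap K F c) :=
  isIntegral_algebraMap (R := Algebra.adjoin K {x}) (A := F)
    (x := algebraMap K (Algebra.adjoin K {x}) c)

theorem R4_isInt_self (x : F) : IsInt K x x :=
  isIntegral_algebraMap (R := Algebra.adjoin K {x}) (A := F)
    (x := ⟨x, Algebra.self_mem_adjoin_singleton K x⟩)

/-- integral over `K[x]` and `x` regular at `Q` ⟹ regular at `Q`. -/
theorem R4_mem_of_isInt {x z : F} (Q : Place K F) (hx : x ∈ Q.toValuationSubring)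
    (hz : IsInt K x z) : z ∈ Q.toValuationSubring :=
  S24.intRing_le_valuationSubring Q hx ⟨z, hz⟩

/-- nonnegative order at all places where `x` is regular ⟹ integral over `K[x]`. -/
theorem R4_isInt_of_ord [CharZero K] {x : F} (hx : Transcendental K x) [FiniteDimensional K⟮x⟯ F]
    (z : F) (h : ∀ Q : Place K F, x ∈ Q.toValuationSubring → 0 ≤ Q.ord z) : IsInt K x z := by
  rcases eq_or_ne z 0 with rfl | hz
  · exact isIntegral_zero
  have := S24.intRing_isDedekindDomain hx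
  have := S24.intRing_isFractionRing (K := K) x
  have hx0 : x ≠ 0 := fun h0 => hx (h0 ▸ isAlgebraic_zero)
  have h1 : ∀ P : HeightOneSpectrum (S24.intRing K x), P.valuation F z ≤ 1 := by
    intro P
    rw [← S24.ord_ofHeightOneSpectrum_nonneg_iff (K := K) P _ hz]
    apply h
    exact S24.mem_of_ord_nonneg _ hx0
      (S24.ord_algebraMap_nonneg (K := K) (F := F) P (⟨x, R4_isInt_self x⟩ : S24.intRing K x))
  obtain ⟨b, hb⟩ := HeightOneSpectrum.mem_integers_of_valuation_le_one F _ h1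
  rw [← hb]
  exact b.2

end General

section Main

variable {K F k Fb : Type} [Field K] [Field F] [Algebra K F] [Field k] [Field Fb] [Algebra k Fb]

/-- elements of `BB` which do not vanish at `ρ`. -/
def R4_Good (D : RedData K F k Fb) (x : F) (ρ : Fb → k) (b : F) : Prop :=
  b ∈ D.O ∧ IsInt K x b ∧ ρ (D.rd b) ≠ 0

variable {D : RedData K F k Fb} {x : F} {ρ : Fb → k}

theorem R4_rho_one (hρ : IsPt k (D.rd x) ρ) : ρ 1 = 1 := by
  have := hρ.const 1
  rwa [map_one] at this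

theorem R4_rho_zero (hρ : IsPt k (D.rd x) ρ) : ρ 0 = 0 := by
  have := hρ.const 0
  rwa [map_zero] at this

theorem R4_Good.one (hρ : IsPt k (D.rd x) ρ) : R4_Good D x ρ 1 :=
  ⟨one_mem _, isIntegral_one, by rw [RedData.rd_one, R4_rho_one hρ]; exact one_ne_zero⟩

theorem R4_Good.mul (hC : Chart D x) (hρ : IsPt k (D.rd x) ρ) {a b : F} (ha : R4_Good D x ρ a)
    (hb : R4_Good D x ρ b) : R4_Good D x ρ (a * b) := by
  refine ⟨mul_mem ha.1 hb.1, IsIntegral.mul ha.2.1 hb.2.1, ?_⟩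
  rw [RedData.rd_mul ha.1 hb.1, hρ.mul _ _ (all_IntRed K F k Fb D x hC a ha.1 ha.2.1)
    (all_IntRed K F k Fb D x hC b hb.1 hb.2.1)]
  exact mul_ne_zero ha.2.2 hb.2.2

theorem R4_Good.pow (hC : Chart D x) (hρ : IsPt k (D.rd x) ρ) {a : F} (ha : R4_Good D x ρ a)
    (n : ℕ) : R4_Good D x ρ (a ^ n) := by
  induction n with
  | zero => rw [pow_zero]; exact R4_Good.one hρ
  | succ n ih => rw [pow_succ]; exact ih.mul hC hρ ha

theorem R4_Good.prod (hC : Chart D x) (hρ : IsPt k (D.rd x) ρ) {ι : Type*} (s : Finset ι)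
    (f : ι → F) (h : ∀ i ∈ s, R4_Good D x ρ (f i)) : R4_Good D x ρ (∏ i ∈ s, f i) := by
  classical
  induction s using Finset.induction_on with
  | empty => rw [Finset.prod_empty]; exact R4_Good.one hρ
  | insert a s ha ih =>
    rw [Finset.prod_insert ha]
    exact (h a (Finset.mem_insert_self a s)).mul hC hρ
      (ih fun i hi => h i (Finset.mem_insert_of_mem hi))

theorem R4_Good.ne_zero (hρ : IsPt k (D.rd x) ρ) {a : F} (ha : R4_Good D x ρ a) : a ≠ 0 := by
  rintro rfl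
  apply ha.2.2
  rw [RedData.rd_zero, R4_rho_zero hρ]

variable [IsAlgClosed K] [CharZero K]

/-- the local factor: a function of `BB` vanishing at `Q` but not at `ρ`. -/
theorem R4_factor (hGC : Stmt_GC) (hC : Chart D x) (hρ : IsPt k (D.rd x) ρ) (Q : Place K F)
    (hxQ : x ∈ Q.toValuationSubring) (hQ : ¬ Over D x Q ρ) :
    ∃ b, R4_Good D x ρ b ∧ Ev Q b 0 := by
  have hx : Transcendental K x := P1_trans hC.t_mem hC.trans
  have hfd := hC.fin
  obtain ⟨r, hr⟩ := ev_exists x hx hxQ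
  by_cases hrA : r ∈ D.A
  · have hn : ¬ ∀ y ∈ D.O, IsInt K x y → ∀ c, Ev Q y c → D.ra c = ρ (D.rd y) :=
      fun h => hQ ⟨⟨r, hrA, hr⟩, h⟩
    push Not at hn
    obtain ⟨y, hyO, hyI, c, hc, hne⟩ := hn
    have hG := hGC K F k Fb D x hC
    have hyA : IntOver D.A x y := hG.int_of_mem y hyO hyI
    obtain ⟨c', hc'A, hc'⟩ := (stmt_EVINT K F D.A x hx hC.fin Q r hr).1 hrA y hyA
    have hcc : c = c' := ev_unique hc hc'
    subst hcc
    refine ⟨y - algebraMap K F c, ⟨sub_mem hyO (RedData.algebraMap_mem hc'A),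
      IsIntegral.sub hyI (R4_isInt_const x c), ?_⟩, ?_⟩
    · rw [RedData.rd_sub hyO (RedData.algebraMap_mem hc'A), RedData.rd_algebraMap hc'A,
        sub_eq_add_neg, ← map_neg, hρ.add _ _ (all_IntRed K F k Fb D x hC y hyO hyI)
          (R4_isInt_const _ _), hρ.const]
      intro h0
      apply hne
      rw [← sub_eq_add_neg, sub_eq_zero] at h0
      exact h0.symm
    · have := ev_sub hc (ev_const Q c)
      rwa [sub_self] at this
  · have hr0 : r ≠ 0 := by
      rintro rfl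
      exact hrA (zero_mem _)
    have h1 := RedData.inv_mem_of_not_mem (D := D) (x := algebraMap K F r)
      (fun h => hrA ((D.mem_iff r).1 h))
    refine ⟨1 - (algebraMap K F r)⁻¹ * x, ⟨sub_mem (one_mem _) (mul_mem h1.1 hC.t_mem), ?_, ?_⟩, ?_⟩
    · rw [← map_inv₀]
      exact IsIntegral.sub isIntegral_one (IsIntegral.mul (R4_isInt_const x _) (R4_isInt_self x))
    · rw [RedData.rd_sub (one_mem _) (mul_mem h1.1 hC.t_mem), RedData.rd_mul h1.1 hC.t_mem, h1.2,
        zero_mul, sub_zero, RedData.rd_one, R4_rho_one hρ]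
      exact one_ne_zero
    · have := ev_sub (ev_one Q) (ev_mul (ev_const Q r⁻¹) hr)
      rwa [inv_mul_cancel₀ hr0, sub_self, map_inv₀] at this

end Main

theorem stmt_R4 (hGC : Stmt_GC) : Stmt_R4 := by
  intro K F k Fb _ _ _ _ _ _ _ _ D x hC ρ hρ g hgO hg0 H
  classical
  have hx : Transcendental K x := P1_trans hC.t_mem hC.trans
  have hfd := hC.fin
  obtain ⟨E, hE⟩ := S18.exists_divisor x hx g
  let Z : Finset (Place K F) :=
    E.support.filter (fun Q => Q.ord g < 0 ∧ x ∈ Q.toValuationSubring)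
  have hZ : ∀ Q, Q ∈ Z ↔ Q.ord g < 0 ∧ x ∈ Q.toValuationSubring := by
    intro Q
    simp only [Z, Finset.mem_filter, Finsupp.mem_support_iff, hE]
    exact ⟨fun h => h.2, fun h => ⟨h.1.ne, h⟩⟩
  have hfac : ∀ Q : Place K F, ∃ b, Q ∈ Z → (R4_Good D x ρ b ∧ Ev Q b 0) := by
    intro Q
    by_cases hQ : Q ∈ Z
    · obtain ⟨b, hb⟩ := R4_factor hGC hC hρ Q ((hZ Q).1 hQ).2
        (fun hO => absurd (H Q hO) (not_le.2 ((hZ Q).1 hQ).1))
      exact ⟨b, fun _ => hb⟩
    · exact ⟨0, fun h => absurd h hQ⟩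
  choose β hβ using hfac
  let n : Place K F → ℕ := fun Q => (-(Q.ord g)).toNat
  have hsub : ∀ s : Finset (Place K F), s ⊆ Z → R4_Good D x ρ (∏ Q ∈ s, β Q ^ n Q) := fun s hs =>
    R4_Good.prod hC hρ s _ fun Q hQ => (hβ Q (hs hQ)).1.pow hC hρ _
  have hb := hsub Z subset_rfl
  refine ⟨∏ Q ∈ Z, β Q ^ n Q, hb.1, hb.2.1, hb.2.2, ?_⟩
  apply R4_isInt_of_ord hx
  intro Q hxQ
  have hb0 := hb.ne_zero hρ
  by_cases hQ : Q ∈ Z
  · have hrest := hsub (Z.erase Q) (Finset.erase_subset _ _)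
    have hβQ := hβ Q hQ
    have hβ0 : β Q ≠ 0 := hβQ.1.ne_zero hρ
    rw [← Finset.mul_prod_erase Z _ hQ,
      Place.ord_mul _ (mul_ne_zero (pow_ne_zero _ hβ0) (hrest.ne_zero hρ)) hg0,
      Place.ord_mul _ (pow_ne_zero _ hβ0) (hrest.ne_zero hρ), ← zpow_natCast, Place.ord_zpow]
    have h1 : 0 < Q.ord (β Q) := (ev_zero_iff_ord hβ0).1 hβQ.2
    have h2 : 0 ≤ Q.ord (∏ Q' ∈ Z.erase Q, β Q' ^ n Q') :=
      S24.ord_nonneg_of_mem Q (R4_mem_of_isInt Q hxQ hrest.2.1)
    have h3 : ((n Q : ℕ) : ℤ) = -(Q.ord g) :=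
      Int.toNat_of_nonneg (by have := ((hZ Q).1 hQ).1; omega)
    have h4 : (0 : ℤ) ≤ (n Q : ℤ) := Int.natCast_nonneg _
    nlinarith
  · have h1 : 0 ≤ Q.ord g := by
      by_contra h
      exact hQ ((hZ Q).2 ⟨not_le.1 h, hxQ⟩)
    rw [Place.ord_mul _ hb0 hg0]
    exact add_nonneg (S24.ord_nonneg_of_mem Q (R4_mem_of_isInt Q hxQ hb.2.1)) h1

end Fermat.Agent.RED
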