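import Fermat.Agent.RED.Interface4
import Fermat.Agent.RED.Ev
import Fermat.Agent.INJ.P1

/-!
# RED-R5 (helper17): divisors with trivial reduction are balanced over every point
-/

set_option autoImplicit false

noncomputable section

namespace Fermat.Agent.RED

open AlgebraicCurve Polynomial IntermediateField Fermat.Agent.INJ

section

variable {K F k Fb : Type} [Field K] [Field F] [Algebra K F] [Field k] [Field Fb] [Algebra k Fb]

theorem R5_rA_eq_zero (D : RedData K F k Fb) (a : D.A) (h : (a : K) ∈ D.A.nonunits) :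
    D.rA a = 0 := by
  have hker : (RingHom.ker D.rA).IsMaximal := RingHom.ker_isMaximal_of_surjective D.rA D.rA_surj
  have hmem : a ∈ RingHom.ker D.rA := by
    rw [IsLocalRing.eq_maximalIdeal hker]
    obtain ⟨_, h2⟩ := ValuationSubring.mem_nonunits_iff_exists_mem_maximalIdeal.1 h
    exact h2
  exact hmem

theorem R5_ra_eq (D : RedData K F k Fb) {c c' : K} (hc : c ∈ D.A) (hc' : c' ∈ D.A)
    (h : c - c' ∈ D.A.nonunits) : D.ra c = D.ra c' := by
  rw [RedData.ra_of_mem hc, RedData.ra_of_mem hc', ← sub_eq_zero, ← map_sub]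
  exact R5_rA_eq_zero D _ h

theorem R5_ra_mul (D : RedData K F k Fb) {c c' : K} (hc : c ∈ D.A) (hc' : c' ∈ D.A) :
    D.ra (c * c') = D.ra c * D.ra c' := by
  rw [RedData.ra_of_mem hc, RedData.ra_of_mem hc', RedData.ra_of_mem (mul_mem hc hc'), ← map_mul]
  rfl

theorem R5_ra_one (D : RedData K F k Fb) : D.ra 1 = 1 := by
  rw [RedData.ra_of_mem D.A.one_mem]
  exact map_one D.rA

theorem R5_isInt_self (x : F) : IsInt K x x :=
  isIntegral_algebraMap (R := Algebra.adjoin K {x}) (A := F)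
    (x := ⟨x, Algebra.subset_adjoin (Set.mem_singleton x)⟩)

theorem R5_mul_eq_one {P : Place K F} {t : F} (ht : t ≠ 0) {c c' : K} (h : Ev P t c)
    (h' : Ev P t⁻¹ c') : c * c' = 1 := by
  have h1 := ev_mul h h'
  rw [mul_inv_cancel₀ ht] at h1
  exact ev_unique h1 (ev_one P)

theorem R5_cnt_single (D : RedData K F k Fb) (x : F) (ρ : Fb → k) (P : Place K F) (n : ℤ) :
    cnt D x ρ (Finsupp.single P n) = by classical exact if Over D x P ρ then n else 0 := by
  classical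
  unfold cnt
  rw [Finsupp.liftAddHom_apply_single]
  split_ifs <;> rfl

theorem R5_cnt_gen (D : RedData K F k Fb) (x : F) (ρ : Fb → k) (P P' : Place K F)
    (h : Over D x P ρ ↔ Over D x P' ρ) :
    cnt D x ρ (Finsupp.single P (1 : ℤ) - Finsupp.single P' (1 : ℤ)) = 0 := by
  classical
  rw [map_sub, R5_cnt_single, R5_cnt_single]
  by_cases h1 : Over D x P ρ
  · rw [if_pos h1, if_pos (h.1 h1), sub_self]
  · rw [if_neg h1, if_neg (fun h2 => h1 (h.2 h2)), sub_self]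

theorem R5_sameRedFin_symm {A : ValuationSubring K} {x : F} {P P' : Place K F}
    (h : SameRedFin A x P P') : SameRedFin A x P' P :=
  ⟨h.2.1, h.1, fun y hy c c' hc hc' => by
    have := EV_nonunits_neg A (h.2.2 y hy c' c hc' hc)
    rwa [neg_sub] at this⟩

theorem R5_sameRedLoc_symm {A : ValuationSubring K} {x : F} {P P' : Place K F}
    (h : SameRedLoc A x P P') : SameRedLoc A x P' P :=
  ⟨h.2.1, h.1, fun y hy c c' hc hc' => by
    have := EV_nonunits_neg A (h.2.2 y hy c' c hc' hc)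
    rwa [neg_sub] at this⟩

variable [IsAlgClosed K] [CharZero K]

/-- transport of `Over` along `SameRedFin`. -/
theorem R5_over_fin (D : RedData K F k Fb) (x : F) (hx : Chart D x) (hG : GaussChart D.A D.O x)
    {P P' : Place K F} (h : SameRedFin D.A x P P') (ρ : Fb → k) (ho : Over D x P ρ) :
    Over D x P' ρ := by
  have htr : Transcendental K x := P1_trans hx.t_mem hx.trans
  have hfin := hx.fin
  refine ⟨h.2.1, fun y hyO hy c' hc' => ?_⟩
  have hyI : IntOver D.A x y := hG.int_of_mem y hyO hy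
  obtain ⟨c₀, hc₀, hE₀⟩ := h.1
  obtain ⟨c₁, hc₁, hE₁⟩ := h.2.1
  obtain ⟨c, hc, hE⟩ := (stmt_EVINT K F D.A x htr hfin P c₀ hE₀).1 hc₀ y hyI
  obtain ⟨c'', hc'', hE''⟩ := (stmt_EVINT K F D.A x htr hfin P' c₁ hE₁).1 hc₁ y hyI
  obtain rfl := ev_unique hE'' hc'
  rw [← ho.2 y hyO hy c hE]
  exact (R5_ra_eq D hc hc'' (h.2.2 y hyI c c'' hE hE'')).symm

/-- transport of `Over` along `SameRedLoc`. -/
theorem R5_over_loc (D : RedData K F k Fb) (x : F) (hx : Chart D x) (hG : GaussChart D.A D.O x)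
    {P P' : Place K F} (h : SameRedLoc D.A x P P') (ρ : Fb → k) (ho : Over D x P ρ) :
    Over D x P' ρ := by
  have htr : Transcendental K x := P1_trans hx.t_mem hx.trans
  have hfin := hx.fin
  obtain ⟨c₀, hc₀, hE₀⟩ := h.1
  obtain ⟨c₁, hc₁, hE₁⟩ := h.2.1
  refine ⟨⟨c₁, EV_nonunits_mem _ hc₁, hE₁⟩, fun y hyO hy c' hc' => ?_⟩
  have hyI : LocInt D.A x y := (hG.int_of_mem y hyO hy).locInt
  obtain ⟨c, hc, hE⟩ := (stmt_EVINT K F D.A x htr hfin P c₀ hE₀).2 hc₀ y hyI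
  obtain ⟨c'', hc'', hE''⟩ := (stmt_EVINT K F D.A x htr hfin P' c₁ hE₁).2 hc₁ y hyI
  obtain rfl := ev_unique hE'' hc'
  rw [← ho.2 y hyO hy c hE]
  exact (R5_ra_eq D hc hc'' (h.2.2 y hyI c c'' hE hE'')).symm

omit [IsAlgClosed K] [CharZero K] in
/-- a place of the chart `t ∈ A` is not over a point of the chart `t⁻¹` with `t⁻¹ = 0`. -/
theorem R5_not_over_inv (D : RedData K F k Fb) (t : F) (ht0 : t ≠ 0) (htO : t⁻¹ ∈ D.O)
    {P : Place K F} (h : ∃ c ∈ D.A, Ev P t c) (ρ : Fb → k) (hρ : ρ (D.rd t⁻¹) = 0) :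
    ¬ Over D t⁻¹ P ρ := by
  rintro ⟨⟨c, hc, hE⟩, h2⟩
  obtain ⟨c₁, hc₁, hE₁⟩ := h
  have h3 : D.ra c = 0 := by rw [h2 t⁻¹ htO (R5_isInt_self _) c hE, hρ]
  have h4 := R5_mul_eq_one ht0 hE₁ hE
  have h5 := R5_ra_mul D hc₁ hc
  rw [h4, R5_ra_one, h3, mul_zero] at h5
  exact one_ne_zero h5

omit [IsAlgClosed K] [CharZero K] in
/-- a place of the tube `t⁻¹ ∈ 𝔪` is not in the chart `t ∈ A`. -/
theorem R5_not_over (D : RedData K F k Fb) (t : F) (ht0 : t ≠ 0)
    {P : Place K F} (h : ∃ c ∈ D.A.nonunits, Ev P t⁻¹ c) (ρ : Fb → k) :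
    ¬ Over D t P ρ := by
  rintro ⟨⟨c, hc, hE⟩, -⟩
  obtain ⟨c₁, hc₁, hE₁⟩ := h
  have h4 := R5_mul_eq_one ht0 hE hE₁
  have h5 := EV_mem_mul_nonunits D.A hc hc₁
  rw [h4, ValuationSubring.mem_nonunits_iff, map_one] at h5
  exact lt_irrefl _ h5

end

theorem stmt_R5 (hGC : Stmt_GC) : Stmt_R5 := by
  intro K F k Fb _ _ _ _ _ _ _ _ D t ht ht' E hE
  have htr : Transcendental K t := P1_trans ht.t_mem ht.trans
  have ht0 : t ≠ 0 := by
    rintro rfl
    exact htr (isAlgebraic_zero)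
  have hG := hGC K F k Fb D t ht
  have hG' := hGC K F k Fb D t⁻¹ ht'
  constructor
  · intro ρ _
    have hle : ZRedX D.A t ≤ (cnt D t ρ).ker := by
      unfold ZRedX
      rw [AddSubgroup.closure_le]
      rintro _ ⟨P, P', h, rfl⟩
      rw [SetLike.mem_coe, AddMonoidHom.mem_ker]
      apply R5_cnt_gen
      rcases h with h | h
      · exact ⟨R5_over_fin D t ht hG h ρ, R5_over_fin D t ht hG (R5_sameRedFin_symm h) ρ⟩
      · exact ⟨fun h1 => absurd h1 (R5_not_over D t ht0 h.1 ρ),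
          fun h1 => absurd h1 (R5_not_over D t ht0 h.2.1 ρ)⟩
    exact hle hE
  · intro ρ _ hρ
    have hle : ZRedX D.A t ≤ (cnt D t⁻¹ ρ).ker := by
      unfold ZRedX
      rw [AddSubgroup.closure_le]
      rintro _ ⟨P, P', h, rfl⟩
      rw [SetLike.mem_coe, AddMonoidHom.mem_ker]
      apply R5_cnt_gen
      rcases h with h | h
      · exact ⟨fun h1 => absurd h1 (R5_not_over_inv D t ht0 ht'.t_mem h.1 ρ hρ),
          fun h1 => absurd h1 (R5_not_over_inv D t ht0 ht'.t_mem h.2.1 ρ hρ)⟩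
      · exact ⟨R5_over_loc D t⁻¹ ht' hG' h ρ, R5_over_loc D t⁻¹ ht' hG' (R5_sameRedLoc_symm h) ρ⟩
    exact hle hE

end Fermat.Agent.RED
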