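import Fermat.Agent.RED.Interface4
import Fermat.Agent.RED.Ev
import Fermat.Agent.INJ.P1
import Fermat.Agent.INJ.P2
import Fermat.Agent.INJ.P4

/-!
# RED-R6 : local conclusion: the reduction of `f` is regular at `ρ`
-/

set_option autoImplicit false

noncomputable section

namespace Fermat.Agent.RED

open AlgebraicCurve Polynomial IntermediateField Fermat.Agent.INJ

section Helpers

variable {K F k Fb : Type} [Field K] [Field F] [Algebra K F] [Field k] [Field Fb] [Algebra k Fb]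

theorem R6_rd_zpow {D : RedData K F k Fb} {y : F} (h : D.rd y ≠ 0) (n : ℤ) :
    D.rd (y ^ n) = D.rd y ^ n := by
  have hy := RedData.mem_of_rd_ne_zero h
  cases n with
  | ofNat m =>
    rw [Int.ofNat_eq_natCast, zpow_natCast, zpow_natCast, RedData.rd_pow hy]
  | negSucc m =>
    rw [zpow_negSucc, zpow_negSucc]
    have h1 : D.rd (y ^ (m + 1)) ≠ 0 := by
      rw [RedData.rd_pow hy]; exact pow_ne_zero _ h
    rw [RedData.rd_inv h1, RedData.rd_pow hy]

theorem R6_prod_zpow {M ι : Type*} [Field M] (s : Finset ι) (a : M) (ha : a ≠ 0) (e : ι → ℤ) :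
    ∏ i ∈ s, a ^ e i = a ^ ∑ i ∈ s, e i := by
  classical
  induction s using Finset.induction_on with
  | empty => simp
  | insert i s hi ih => rw [Finset.prod_insert hi, Finset.sum_insert hi, ih, zpow_add₀ ha]

theorem R6_ord_prod {ι : Type*} (P : Place K F) (s : Finset ι) (h : ι → F)
    (h0 : ∀ i ∈ s, h i ≠ 0) : P.ord (∏ i ∈ s, h i) = ∑ i ∈ s, P.ord (h i) := by
  classical
  induction s using Finset.induction_on with
  | empty => simp
  | insert i s hi ih =>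
    rw [Finset.prod_insert hi, Finset.sum_insert hi,
      P.ord_mul (h0 i (Finset.mem_insert_self i s))
        (Finset.prod_ne_zero_iff.2 fun j hj => h0 j (Finset.mem_insert_of_mem hj)),
      ih fun j hj => h0 j (Finset.mem_insert_of_mem hj)]

theorem R6_ne_zero {D : RedData K F k Fb} {y : F} (h : D.rd y ≠ 0) : y ≠ 0 := by
  rintro rfl
  exact h RedData.rd_zero

open Classical in
theorem R6_cnt_eq (D : RedData K F k Fb) (x : F) (ρ : Fb → k) (E : Divisor K F) :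
    cnt D x ρ E = ∑ P ∈ E.support.filter (fun P => Over D x P ρ), E P := by
  rw [Finset.sum_filter]
  show (E.sum fun P n => (if Over D x P ρ then AddMonoidHom.id ℤ else 0) n) = _
  unfold Finsupp.sum
  refine Finset.sum_congr rfl fun P _ => ?_
  by_cases h : Over D x P ρ
  · simp only [if_pos h]; rfl
  · simp only [if_neg h]; rfl

end Helpers

theorem stmt_R6 (hGC : Stmt_GC) (h3 : Stmt_R3) (h4 : Stmt_R4) : Stmt_R6 := by
  classical
  intro K F k Fb _ _ _ _ _ _ _ _ D x hC hBr f hf E hE ρ hρ hcnt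
  have hG := INJ.stmt_Gauss K F k Fb D x hC.t_mem hC.trans
  have hx : Transcendental K x := hG.2.2.2.1
  have hfd : FiniteDimensional K⟮x⟯ F := hC.fin
  have hgc := hGC K F k Fb D x hC
  have hIR := INJ.stmt_IntRed INJ.stmt_Gauss (INJ.stmt_Ortho INJ.stmt_Gauss) K F k Fb D x hC
  obtain ⟨τ₀, hτO, hτI, hτ0, hρτ, hτ⟩ := h3 K F k Fb D x hC hBr ρ hρ
  have hτInt : IntOver D.A x τ₀ := hgc.int_of_mem τ₀ hτO hτI
  -- values of `τ₀`
  have hval : ∀ P : Place K F, ∃ c, Over D x P ρ → (c ∈ D.A ∧ Ev P τ₀ c ∧ D.ra c = 0) := by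
    intro P
    by_cases hP : Over D x P ρ
    · obtain ⟨c₀, hc₀A, hc₀⟩ := hP.1
      obtain ⟨c, hcA, hc⟩ := (stmt_EVINT K F D.A x hx hfd P c₀ hc₀).1 hc₀A τ₀ hτInt
      exact ⟨c, fun _ => ⟨hcA, hc, by rw [hP.2 τ₀ hτO hτI c hc, hρτ]⟩⟩
    · exact ⟨0, fun h => absurd h hP⟩
  choose cv hcv using hval
  set τP : Place K F → F := fun P => τ₀ - algebraMap K F (cv P) with hτP
  have hτPrd : ∀ P, Over D x P ρ → D.rd (τP P) = D.rd τ₀ := by
    intro P hP
    obtain ⟨hcA, _, hra⟩ := hcv P hP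
    show D.rd (τ₀ - algebraMap K F (cv P)) = D.rd τ₀
    rw [RedData.rd_sub hτO (RedData.algebraMap_mem hcA), RedData.rd_algebraMap hcA, hra, map_zero,
      sub_zero]
  set S : Finset (Place K F) := E.support.filter (fun P => Over D x P ρ) with hS
  have hSover : ∀ P ∈ S, Over D x P ρ := fun P hP => (Finset.mem_filter.1 hP).2
  have hfac : ∀ P ∈ S, D.rd (τP P ^ (-(E P))) = D.rd τ₀ ^ (-(E P)) := by
    intro P hP
    have h1 : D.rd (τP P) ≠ 0 := by rw [hτPrd P (hSover P hP)]; exact hτ0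
    rw [R6_rd_zpow h1, hτPrd P (hSover P hP)]
  have hfac0 : ∀ P ∈ S, D.rd (τP P ^ (-(E P))) ≠ 0 := by
    intro P hP
    rw [hfac P hP]
    exact zpow_ne_zero _ hτ0
  have hprodO : ∏ P ∈ S, τP P ^ (-(E P)) ∈ D.O :=
    RedData.prod_mem S _ fun P hP => RedData.mem_of_rd_ne_zero (hfac0 P hP)
  have hsum : ∑ P ∈ S, (-(E P)) = 0 := by
    rw [Finset.sum_neg_distrib, ← R6_cnt_eq, hcnt, neg_zero]
  have hprodrd : D.rd (∏ P ∈ S, τP P ^ (-(E P))) = 1 := by
    rw [RedData.rd_prod S _ fun P hP => RedData.mem_of_rd_ne_zero (hfac0 P hP),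
      Finset.prod_congr rfl hfac, R6_prod_zpow S _ hτ0, hsum, zpow_zero]
  set g : F := f * ∏ P ∈ S, τP P ^ (-(E P)) with hg
  have hfO : f ∈ D.O := RedData.mem_of_rd_ne_zero hf
  have hgO : g ∈ D.O := mul_mem hfO hprodO
  have hgrd : D.rd g = D.rd f := by
    rw [hg, RedData.rd_mul hfO hprodO, hprodrd, mul_one]
  have hf0 : f ≠ 0 := R6_ne_zero hf
  have hfacne : ∀ P ∈ S, τP P ^ (-(E P)) ≠ 0 := fun P hP => R6_ne_zero (hfac0 P hP)
  have hg0 : g ≠ 0 := mul_ne_zero hf0 (Finset.prod_ne_zero_iff.2 hfacne)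
  -- orders
  have hordτ : ∀ P₀, Over D x P₀ ρ → ∀ P ∈ S, P₀.ord (τP P) = if P = P₀ then 1 else 0 := by
    intro P₀ hP₀ P hP
    obtain ⟨_, hEv, _⟩ := hcv P (hSover P hP)
    obtain ⟨h1, h2⟩ := hτ P (cv P) (hSover P hP) hEv
    split_ifs with hPP
    · rw [← hPP]; exact h1
    · obtain ⟨_, hEv₀, _⟩ := hcv P₀ hP₀
      have hEv' : Ev P₀ (τP P) (cv P₀ - cv P) := ev_sub hEv₀ (ev_const P₀ _)
      by_cases hz : cv P₀ - cv P = 0
      · rw [hz] at hEv'
        exact absurd (h2 P₀ hP₀ hEv').symm hPP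
      · exact ev_ord_eq_zero hEv' hz
  have hord : ∀ P₀, Over D x P₀ ρ → 0 ≤ P₀.ord g := by
    intro P₀ hP₀
    have e1 : P₀.ord g = 0 := by
      rw [hg, P₀.ord_mul hf0 (Finset.prod_ne_zero_iff.2 hfacne), R6_ord_prod P₀ S _ hfacne, ← hE]
      have e2 : ∑ P ∈ S, P₀.ord (τP P ^ (-(E P))) = ∑ P ∈ S, if P = P₀ then -(E P₀) else 0 := by
        refine Finset.sum_congr rfl fun P hP => ?_
        rw [P₀.ord_zpow, hordτ P₀ hP₀ P hP]
        split_ifs with hPP
        · rw [hPP, mul_one]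
        · rw [mul_zero]
      rw [e2, Finset.sum_ite_eq']
      split_ifs with hmem
      · ring
      · have : P₀ ∉ E.support := fun h => hmem (Finset.mem_filter.2 ⟨h, hP₀⟩)
        rw [Finsupp.notMem_support_iff.1 this, add_zero]
    exact e1.ge
  obtain ⟨b, hbO, hbI, hρb, hbg⟩ := h4 K F k Fb D x hC ρ hρ g hgO hg0 hord
  exact ⟨D.rd (b * g), D.rd b, hIR _ (mul_mem hbO hgO) hbg, hIR _ hbO hbI, hρb, by
    rw [RedData.rd_mul hbO hgO, hgrd]⟩

end Fermat.Agent.RED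

end

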