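import Fermat.Agent.RED.Interface4
import Fermat.Agent.INJ.P9b
import Fermat.Agent.INJ.P11
import Fermat.Agent.INJ.P17

/-!
# RED-R9 : assembly of REDA ("trivial reduction of `div f` ⟹ constant reduction of `f`")
from R5 (BAL), R6 (local conclusion), R7 (regular at all points ⟹ integral) and INJ P9b, P11, P17.
(helper86)
-/

set_option autoImplicit false

noncomputable section

namespace Fermat.Agent.RED

open AlgebraicCurve Polynomial IntermediateField Fermat.Agent.INJ

/-- the residue field of a valuation ring of an algebraically closed field is algebraically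
closed. -/
theorem REDA_isAlgClosed {K F k Fb : Type} [Field K] [Field F] [Algebra K F] [Field k] [Field Fb]
    [Algebra k Fb] [IsAlgClosed K] (D : RedData K F k Fb) : IsAlgClosed k := by
  refine IsAlgClosed.of_exists_root _ fun p hp hirr => ?_
  have hl : p ∈ lifts D.rA := by
    obtain ⟨q, hq⟩ := Polynomial.map_surjective _ D.rA_surj p
    exact ⟨q, hq⟩
  obtain ⟨q, hq, hdeg, hqm⟩ := lifts_and_natDegree_eq_and_monic hl hp
  have hdeg0 : (q.map D.A.subtype).degree ≠ 0 := by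
    rw [degree_map_eq_of_injective D.A.subtype_injective, degree_eq_natDegree hqm.ne_zero, hdeg]
    have := hirr.natDegree_pos
    exact_mod_cast this.ne'
  obtain ⟨r, hr⟩ := IsAlgClosed.exists_root (q.map D.A.subtype) hdeg0
  have hint : IsIntegral D.A r := ⟨q, hqm, by rw [← eval_map]; exact hr⟩
  obtain ⟨y, hy⟩ := IsIntegrallyClosed.algebraMap_eq_of_integral hint
  refine ⟨D.rA y, ?_⟩
  have h0 : q.eval y = 0 := by
    apply D.A.subtype_injective
    rw [map_zero, ← Polynomial.eval₂_at_apply, ← eval_map]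
    have : D.A.subtype y = r := hy
    rw [this]
    exact hr
  rw [← hq, eval_map, Polynomial.eval₂_at_apply, h0, map_zero]

theorem REDA_isInt_self (k : Type) {Fb : Type} [Field k] [Field Fb] [Algebra k Fb] (tb : Fb) :
    IsInt k tb tb :=
  isIntegral_algebraMap (R := Algebra.adjoin k {tb}) (A := Fb)
    (x := ⟨tb, Algebra.subset_adjoin (Set.mem_singleton tb)⟩)

theorem REDA_pt_pow {k Fb : Type} [Field k] [Field Fb] [Algebra k Fb] {tb : Fb} {ρ : Fb → k}
    (hρ : IsPt k tb ρ) {y : Fb} (hy : IsInt k tb y) (m : ℕ) : ρ (y ^ m) = ρ y ^ m := by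
  induction m with
  | zero =>
    have h := hρ.const 1
    rw [map_one] at h
    rw [pow_zero, pow_zero, h]
  | succ m ih => rw [pow_succ, hρ.mul _ _ (IsIntegral.pow hy m) hy, ih, pow_succ]

/-- **RED-R9.** -/
theorem stmt_REDA (h5 : Stmt_R5) (h6 : Stmt_R6) (h7 : Stmt_R7) : Stmt_REDA := by
  intro K F k Fb _ _ _ _ _ _ _ _ D t hC hC' hB hB' f hf E hE hEf
  have hk : IsAlgClosed k := REDA_isAlgClosed D
  -- scaling
  obtain ⟨a, ha, hfa, hfa'⟩ := D.unram f hf
  have ha' : algebraMap K F a ≠ 0 := by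
    rw [Ne, map_eq_zero_iff _ (algebraMap K F).injective]
    exact ha
  have hf₁0 : f * algebraMap K F a ≠ 0 := mul_ne_zero hf ha'
  have hφ : D.rd (f * algebraMap K F a) ≠ 0 := RedData.rd_ne_zero_of_inv_mem hf₁0 hfa hfa'
  have hE₁ : ∀ P : Place K F, E P = P.ord (f * algebraMap K F a) := fun P => by
    rw [hEf, P.ord_mul hf ha', Fermat.Agent.S24.ord_algebraMap, add_zero]
  have htb : D.rd t ≠ 0 := by
    intro h0
    apply hC.trans
    rw [h0]
    exact ⟨X, X_ne_zero, by simp⟩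
  have hub : D.rd t⁻¹ = (D.rd t)⁻¹ := RedData.rd_inv htb
  obtain ⟨h5a, h5b⟩ := h5 K F k Fb D t hC hC' E hE
  -- the chart `t`
  have hint : IsInt k (D.rd t) (D.rd (f * algebraMap K F a)) :=
    h7 k Fb (D.rd t) hC.trans _ fun ρ hρ =>
      h6 K F k Fb D t hC hB _ hφ E hE₁ ρ hρ (h5a ρ hρ)
  -- the chart `t⁻¹`
  have hint' : IsInt k (D.rd t)⁻¹ (D.rd (f * algebraMap K F a)) := by
    rw [← hub]
    refine h7 k Fb (D.rd t⁻¹) hC'.trans _ fun ρ hρ => ?_
    by_cases h0 : ρ (D.rd t⁻¹) = 0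
    · exact h6 K F k Fb D t⁻¹ hC' hB' _ hφ E hE₁ ρ hρ (h5b ρ hρ h0)
    · obtain ⟨m, hm⟩ := stmt_Clear k Fb (D.rd t⁻¹) (D.rd (f * algebraMap K F a))
        (by rw [hub]; exact inv_ne_zero htb) (by rw [hub, inv_inv]; exact hint)
      refine ⟨_, D.rd t⁻¹ ^ m, hm m le_rfl, IsIntegral.pow (REDA_isInt_self k _) m, ?_, rfl⟩
      rw [REDA_pt_pow hρ (REDA_isInt_self k _)]
      exact pow_ne_zero m h0
  -- constants
  have hfin : FiniteDimensional k⟮D.rd t⟯ Fb := stmt_ResFinite K F k Fb D t hC.t_mem hC.trans hC.fin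
  obtain ⟨cb, hcb⟩ := stmt_Const k Fb (D.rd t) _ hC.trans hfin hint hint'
  have hcb0 : cb ≠ 0 := by
    rintro rfl
    rw [map_zero] at hcb
    exact hφ hcb
  obtain ⟨c₀, hc₀, hc₀'⟩ := RedData.exists_ra_eq (D := D) cb⁻¹
  have hone : D.rd (algebraMap K F c₀ * (f * algebraMap K F a)) = 1 := by
    rw [RedData.rd_mul (RedData.algebraMap_mem hc₀) hfa, RedData.rd_algebraMap hc₀, hc₀', hcb,
      ← map_mul, inv_mul_cancel₀ hcb0, map_one]
  have hc₀0 : c₀ ≠ 0 := by
    rintro rfl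
    rw [map_zero, zero_mul, RedData.rd_zero] at hone
    exact zero_ne_one hone
  refine ⟨c₀ * a, mul_ne_zero hc₀0 ha, ?_⟩
  rw [← hone, map_mul]
  congr 1
  ring

end Fermat.Agent.RED
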