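import Fermat.Agent.RED.Interface3
import Fermat.Agent.INJ.Inst.Fricke

/-!
# RED : REL, the `(ℓ+1)`-th embedding of `FF (N ℓ)` over `β (FF N)`
-/

set_option autoImplicit false

noncomputable section

namespace Fermat.Agent.RED

open AlgebraicCurve ModularCurve UpperHalfPlane
open Fermat.Agent
open Fermat.Agent.S24 (funAlg jFun jFunD jAlg jBar)
open Fermat.Agent.S24.QX (qExpHom)
open scoped MatrixGroups

attribute [local instance] Fermat.Agent.S24.algQbarComplex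

/-! ### scalings of the upper half plane -/

/-- `τ ↦ c τ`. -/
def REL_sc (c : ℝ) (τ : ℍ) : ℍ := ofComplex ((c : ℂ) * (τ : ℂ))

theorem REL_coe_sc {c : ℝ} (hc : 0 < c) (τ : ℍ) : ((REL_sc c τ : ℍ) : ℂ) = (c : ℂ) * (τ : ℂ) := by
  have h : 0 < ((c : ℂ) * (τ : ℂ)).im := by
    rw [Complex.im_ofReal_mul]
    exact mul_pos hc τ.im_pos
  rw [REL_sc, ofComplex_apply_of_im_pos h]

theorem REL_sc_sc {c c' : ℝ} (hc : 0 < c) (hc' : 0 < c') (h : c * c' = 1) (τ : ℍ) :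
    REL_sc c (REL_sc c' τ) = τ := by
  apply UpperHalfPlane.ext
  rw [REL_coe_sc hc, REL_coe_sc hc', ← mul_assoc, ← Complex.ofReal_mul, h, Complex.ofReal_one,
    one_mul]

/-! ### the `j`-function and integral matrices of determinant one -/

theorem REL_lin_ne_zero (C D : ℤ) (h : C ≠ 0 ∨ D ≠ 0) (z : ℍ) :
    (C : ℂ) * (z : ℂ) + (D : ℂ) ≠ 0 := by
  have := UpperHalfPlane.linear_ne_zero (cd := ![(C : ℝ), (D : ℝ)]) z (by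
    intro h0
    have h1 : (C : ℝ) = 0 := by simpa using congrFun h0 0
    have h2 : (D : ℝ) = 0 := by simpa using congrFun h0 1
    rcases h with h | h
    · exact h (by exact_mod_cast h1)
    · exact h (by exact_mod_cast h2))
  simpa using this

theorem REL_jFun_eq (A B C D : ℤ) (hdet : A * D - B * C = 1) (z w : ℍ)
    (h : (w : ℂ) * ((C : ℂ) * (z : ℂ) + (D : ℂ)) = (A : ℂ) * (z : ℂ) + (B : ℂ)) :
    jFun w = jFun z := by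
  let g : SL(2, ℤ) := ⟨!![A, B; C, D], by rw [Matrix.det_fin_two_of]; exact hdet⟩
  have hne : (C : ℂ) * (z : ℂ) + (D : ℂ) ≠ 0 := by
    refine REL_lin_ne_zero C D ?_ z
    by_contra hcon
    push Not at hcon
    rw [hcon.1, hcon.2] at hdet
    simp at hdet
  have hw : w = g • z := by
    apply UpperHalfPlane.ext
    rw [coe_specialLinearGroup_apply]
    simp only [g, Matrix.of_apply, Matrix.cons_val', Matrix.cons_val_zero,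
      Matrix.cons_val_one, Matrix.cons_val_fin_one, algebraMap_int_eq, Int.coe_castRingHom,
      Complex.ofReal_intCast]
    rw [eq_div_iff hne]
    exact h
  rw [hw, S24.jFun_smul]

/-! ### the substitution `γ` -/

/-- The matrix `[[ℓ, b], [N, e]]`. -/
def REL_g (N ℓ : ℕ) (b e : ℤ) (h : (ℓ : ℤ) * e - b * N = 1) : SL(2, ℤ) :=
  ⟨!![(ℓ : ℤ), b; (N : ℤ), e], by rw [Matrix.det_fin_two_of]; exact h⟩

/-- `γ τ = ℓ⁻¹ · g (ℓ τ)`. -/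
def REL_gam (N ℓ : ℕ) (b e : ℤ) (h : (ℓ : ℤ) * e - b * N = 1) (τ : ℍ) : ℍ :=
  REL_sc (ℓ : ℝ)⁻¹ (REL_g N ℓ b e h • REL_sc (ℓ : ℝ) τ)

theorem REL_gam_surjective (N ℓ : ℕ) (hℓ : 0 < ℓ) (b e : ℤ) (h : (ℓ : ℤ) * e - b * N = 1) :
    Function.Surjective (REL_gam N ℓ b e h) := by
  intro w
  have h0 : (0 : ℝ) < (ℓ : ℝ) := by exact_mod_cast hℓ
  have h1 : (0 : ℝ) < (ℓ : ℝ)⁻¹ := inv_pos.2 h0
  refine ⟨REL_sc (ℓ : ℝ)⁻¹ ((REL_g N ℓ b e h)⁻¹ • REL_sc (ℓ : ℝ) w), ?_⟩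
  rw [REL_gam, REL_sc_sc h0 h1 (mul_inv_cancel₀ h0.ne'), smul_inv_smul,
    REL_sc_sc h1 h0 (inv_mul_cancel₀ h0.ne')]

theorem REL_coe_gam (N ℓ : ℕ) (hℓ : 0 < ℓ) (b e : ℤ) (h : (ℓ : ℤ) * e - b * N = 1) (τ : ℍ) :
    (N : ℂ) * ((ℓ : ℂ) * (τ : ℂ)) + (e : ℂ) ≠ 0 ∧
    ((REL_gam N ℓ b e h τ : ℍ) : ℂ) = (ℓ : ℂ)⁻¹ *
      (((ℓ : ℂ) * ((ℓ : ℂ) * (τ : ℂ)) + (b : ℂ)) / ((N : ℂ) * ((ℓ : ℂ) * (τ : ℂ)) + (e : ℂ))) := by
  have h0 : (0 : ℝ) < (ℓ : ℝ) := by exact_mod_cast hℓ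
  have h1 : (0 : ℝ) < (ℓ : ℝ)⁻¹ := inv_pos.2 h0
  constructor
  · have := REL_lin_ne_zero (N : ℤ) e (by
      by_contra hcon
      push Not at hcon
      rw [hcon.1, hcon.2] at h
      simp at h) (REL_sc (ℓ : ℝ) τ)
    rw [REL_coe_sc h0] at this
    simpa using this
  · rw [REL_gam, REL_coe_sc h1, coe_specialLinearGroup_apply, REL_coe_sc h0]
    simp [REL_g]

theorem REL_jFunD_mul (N ℓ : ℕ) (hN : 0 < N) (hℓ : 0 < ℓ) (b e : ℤ)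
    (h : (ℓ : ℤ) * e - b * N = 1) {d : ℕ} (hd : d ∣ N) (τ : ℍ) :
    jFunD (ℓ * d) (REL_gam N ℓ b e h τ) = jFunD (ℓ * d) τ := by
  obtain ⟨c, rfl⟩ := hd
  have hd0 : 0 < d := Nat.pos_of_mul_pos_right hN
  obtain ⟨hne, hco⟩ := REL_coe_gam (d * c) ℓ hℓ b e h τ
  have hℓ0 : (ℓ : ℂ) ≠ 0 := by exact_mod_cast hℓ.ne'
  unfold jFunD
  refine REL_jFun_eq (ℓ : ℤ) (b * d) (c : ℤ) e (by push_cast at h ⊢; linear_combination h) _ _ ?_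
  rw [S24.QX.coe_ofComplex_natCast_mul (Nat.mul_pos hℓ hd0),
    S24.QX.coe_ofComplex_natCast_mul (Nat.mul_pos hℓ hd0), hco]
  have e1 : ((c : ℤ) : ℂ) * (((ℓ * d : ℕ) : ℂ) * (τ : ℂ)) + (e : ℂ) =
      ((d * c : ℕ) : ℂ) * ((ℓ : ℂ) * (τ : ℂ)) + (e : ℂ) := by push_cast; ring
  rw [e1]
  generalize ((d * c : ℕ) : ℂ) * ((ℓ : ℂ) * (τ : ℂ)) + (e : ℂ) = Dn at hne ⊢
  push_cast
  field_simp

theorem REL_jFunD (N ℓ : ℕ) (hN : 0 < N) (hℓ : 0 < ℓ) (b e : ℤ)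
    (h : (ℓ : ℤ) * e - b * N = 1) {d : ℕ} (hd : d ∣ N) (τ : ℍ) :
    jFunD d (REL_gam N ℓ b e h τ) = jFunD (ℓ ^ 2 * d) τ := by
  obtain ⟨c, rfl⟩ := hd
  have hd0 : 0 < d := Nat.pos_of_mul_pos_right hN
  obtain ⟨hne, hco⟩ := REL_coe_gam (d * c) ℓ hℓ b e h τ
  have hℓ0 : (ℓ : ℂ) ≠ 0 := by exact_mod_cast hℓ.ne'
  unfold jFunD
  refine REL_jFun_eq 1 (b * d) (c : ℤ) (ℓ * e) (by push_cast at h ⊢; linear_combination h) _ _ ?_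
  rw [S24.QX.coe_ofComplex_natCast_mul hd0,
    S24.QX.coe_ofComplex_natCast_mul (Nat.mul_pos (pow_pos hℓ 2) hd0), hco]
  have e1 : ((c : ℤ) : ℂ) * (((ℓ ^ 2 * d : ℕ) : ℂ) * (τ : ℂ)) + (((ℓ : ℤ) * e : ℤ) : ℂ) =
      (ℓ : ℂ) * (((d * c : ℕ) : ℂ) * ((ℓ : ℂ) * (τ : ℂ)) + (e : ℂ)) := by push_cast; ring
  rw [e1]
  generalize ((d * c : ℕ) : ℂ) * ((ℓ : ℂ) * (τ : ℂ)) + (e : ℂ) = Dn at hne ⊢
  push_cast
  field_simp

/-! ### the homomorphism of function algebras -/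

/-- precomposition with `γ`. -/
def REL_pre (N ℓ : ℕ) (b e : ℤ) (h : (ℓ : ℤ) * e - b * N = 1) : (ℍ → ℂ) →ₐ[Qb] (ℍ → ℂ) where
  toFun θ := fun τ => θ (REL_gam N ℓ b e h τ)
  map_one' := rfl
  map_mul' _ _ := rfl
  map_zero' := rfl
  map_add' _ _ := rfl
  commutes' _ := rfl

theorem REL_dvd_cases {N ℓ d' : ℕ} (hℓ : ℓ.Prime) (hd : d' ∣ N * ℓ) :
    d' ∣ N ∨ ∃ d, d ∣ N ∧ d' = ℓ * d := by
  by_cases h : ℓ ∣ d'
  · obtain ⟨d, rfl⟩ := h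
    refine Or.inr ⟨d, ?_, rfl⟩
    rw [mul_comm N ℓ] at hd
    exact Nat.dvd_of_mul_dvd_mul_left hℓ.pos hd
  · exact Or.inl (((Nat.Prime.coprime_iff_not_dvd hℓ).2 h).symm.dvd_of_dvd_mul_right hd)

theorem REL_dvd1 {N ℓ d : ℕ} (hd : d ∣ N) : ℓ * d ∣ N * ℓ := by
  rw [mul_comm N ℓ]; exact Nat.mul_dvd_mul_left ℓ hd

theorem REL_dvd2 {N ℓ d : ℕ} (hd : d ∣ N) : ℓ * d ∣ N * ℓ ^ 2 :=
  (REL_dvd1 hd).trans ⟨ℓ, by ring⟩

theorem REL_dvd3 {N ℓ d : ℕ} (hd : d ∣ N) : ℓ ^ 2 * d ∣ N * ℓ ^ 2 := by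
  rw [mul_comm N (ℓ ^ 2)]; exact Nat.mul_dvd_mul_left _ hd

theorem REL_dvd4 {N ℓ d : ℕ} (hd : d ∣ N) : d ∣ N * ℓ := hd.trans (Nat.dvd_mul_right N ℓ)

theorem REL_pre_jFunD_mul (N ℓ : ℕ) (hN : 0 < N) (hℓ : 0 < ℓ) (b e : ℤ)
    (h : (ℓ : ℤ) * e - b * N = 1) {d : ℕ} (hd : d ∣ N) :
    REL_pre N ℓ b e h (jFunD (ℓ * d)) = jFunD (ℓ * d) :=
  funext fun τ => REL_jFunD_mul N ℓ hN hℓ b e h hd τ

theorem REL_pre_jFunD (N ℓ : ℕ) (hN : 0 < N) (hℓ : 0 < ℓ) (b e : ℤ)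
    (h : (ℓ : ℤ) * e - b * N = 1) {d : ℕ} (hd : d ∣ N) :
    REL_pre N ℓ b e h (jFunD d) = jFunD (ℓ ^ 2 * d) :=
  funext fun τ => REL_jFunD N ℓ hN hℓ b e h hd τ

theorem REL_pre_mem (N ℓ : ℕ) (hN : 0 < N) (hℓ : ℓ.Prime) (b e : ℤ)
    (h : (ℓ : ℤ) * e - b * N = 1) {θ : ℍ → ℂ} (hθ : θ ∈ funAlg (N * ℓ)) :
    REL_pre N ℓ b e h θ ∈ funAlg (N * ℓ ^ 2) := by
  have : funAlg (N * ℓ) ≤ (funAlg (N * ℓ ^ 2)).comap (REL_pre N ℓ b e h) := by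
    refine Algebra.adjoin_le ?_
    rintro _ ⟨d', hd', rfl⟩
    show REL_pre N ℓ b e h (jFunD d') ∈ funAlg (N * ℓ ^ 2)
    rcases REL_dvd_cases hℓ hd' with hd | ⟨d, hd, rfl⟩
    · rw [REL_pre_jFunD N ℓ hN hℓ.pos b e h hd]
      exact S24.jFunD_mem_funAlg (REL_dvd3 hd)
    · rw [REL_pre_jFunD_mul N ℓ hN hℓ.pos b e h hd]
      exact S24.jFunD_mem_funAlg (REL_dvd2 hd)
  exact this hθ

/-- `θ ↦ θ ∘ γ` as a homomorphism `funAlg (N ℓ) → funAlg (N ℓ²)`. -/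
def REL_alg (N ℓ : ℕ) (hN : 0 < N) (hℓ : ℓ.Prime) (b e : ℤ) (h : (ℓ : ℤ) * e - b * N = 1) :
    funAlg (N * ℓ) →ₐ[Qb] funAlg (N * ℓ ^ 2) :=
  ((REL_pre N ℓ b e h).comp (funAlg (N * ℓ)).val).codRestrict (funAlg (N * ℓ ^ 2))
    (fun θ => REL_pre_mem N ℓ hN hℓ b e h θ.2)

theorem REL_alg_injective (N ℓ : ℕ) (hN : 0 < N) (hℓ : ℓ.Prime) (b e : ℤ)
    (h : (ℓ : ℤ) * e - b * N = 1) : Function.Injective (REL_alg N ℓ hN hℓ b e h) := by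
  intro θ θ' hθ
  apply Subtype.ext
  funext w
  obtain ⟨τ, rfl⟩ := REL_gam_surjective N ℓ hℓ.pos b e h w
  exact congrFun (congrArg Subtype.val hθ) τ

theorem REL_alg_jAlg_mul (N ℓ : ℕ) (hN : 0 < N) (hℓ : ℓ.Prime) (b e : ℤ)
    (h : (ℓ : ℤ) * e - b * N = 1) {d : ℕ} (hd : d ∣ N) :
    REL_alg N ℓ hN hℓ b e h (jAlg (N * ℓ) (ℓ * d) (REL_dvd1 hd)) =
      jAlg (N * ℓ ^ 2) (ℓ * d) (REL_dvd2 hd) :=
  Subtype.ext (REL_pre_jFunD_mul N ℓ hN hℓ.pos b e h hd)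

theorem REL_alg_jAlg (N ℓ : ℕ) (hN : 0 < N) (hℓ : ℓ.Prime) (b e : ℤ)
    (h : (ℓ : ℤ) * e - b * N = 1) {d : ℕ} (hd : d ∣ N) :
    REL_alg N ℓ hN hℓ b e h (jAlg (N * ℓ) d (REL_dvd4 hd)) =
      jAlg (N * ℓ ^ 2) (ℓ ^ 2 * d) (REL_dvd3 hd) :=
  Subtype.ext (REL_pre_jFunD N ℓ hN hℓ.pos b e h hd)

/-! ### the homomorphism of function fields -/

theorem REL_comp_injective (N ℓ : ℕ) [NeZero N] [NeZero ℓ] (hℓ : ℓ.Prime) (b e : ℤ)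
    (h : (ℓ : ℤ) * e - b * N = 1) :
    Function.Injective ((qExpHom (N * ℓ ^ 2)).comp (REL_alg N ℓ (NeZero.pos N) hℓ b e h)) := by
  intro x y hxy
  rw [AlgHom.comp_apply, AlgHom.comp_apply] at hxy
  exact REL_alg_injective N ℓ (NeZero.pos N) hℓ b e h (S24.QX.qExpHom_injective (N * ℓ ^ 2) hxy)

/-- The embedding `FF (N ℓ) → FF (N ℓ²)`. -/
def REL_hom (N ℓ : ℕ) [NeZero N] [NeZero ℓ] (hℓ : ℓ.Prime) (b e : ℤ)
    (h : (ℓ : ℤ) * e - b * N = 1) : FF (N * ℓ) →ₐ[Qb] FF (N * ℓ ^ 2) :=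
  S24.liftHom (qExpHom (N * ℓ)) (S24.QX.qExpHom_injective (N * ℓ)) (INJ.Inst.fricke_frac (N * ℓ))
    ((qExpHom (N * ℓ ^ 2)).comp (REL_alg N ℓ (NeZero.pos N) hℓ b e h))
    (REL_comp_injective N ℓ hℓ b e h)

theorem REL_hom_qExpHom (N ℓ : ℕ) [NeZero N] [NeZero ℓ] (hℓ : ℓ.Prime) (b e : ℤ)
    (h : (ℓ : ℤ) * e - b * N = 1) (θ : funAlg (N * ℓ)) :
    REL_hom N ℓ hℓ b e h (qExpHom (N * ℓ) θ) =
      qExpHom (N * ℓ ^ 2) (REL_alg N ℓ (NeZero.pos N) hℓ b e h θ) :=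
  S24.liftHom_apply _ _ _ _ _ θ

/-- `q ↦ q ^ d` as an algebra homomorphism. -/
def REL_V (d : ℕ) : LaurentSeries Qb →ₐ[Qb] LaurentSeries Qb :=
  { S28.Vq Qb d with
    commutes' := fun a => by
      show S28.Vq Qb d (algebraMap Qb (LaurentSeries Qb) a) = algebraMap Qb (LaurentSeries Qb) a
      by_cases hd : d = 0
      · rw [S28.Vq, dif_pos hd]; rfl
      · have : NeZero d := ⟨hd⟩
        rw [S28.Vq_eq, algebraMap_laurentSeries_eq_single, qExpand_single, mul_zero] }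

theorem REL_V_apply (d : ℕ) (x : LaurentSeries Qb) : REL_V d x = S28.Vq Qb d x := rfl

theorem REL_Vq_jd (m d : ℕ) [NeZero m] [NeZero d] :
    S28.Vq Qb m (S28.jd Qb d) = S28.jd Qb (m * d) := by
  rw [S28.jd, S28.jd, S28.Vq_eq, S28.Vq_eq, S28.Vq_eq, qExpand_qExpand]

/-- Two homomorphisms out of `FF N` which agree on the `j(q^d)`, `d ∣ N`, are equal. -/
theorem REL_ext (N : ℕ) [NeZero N] (φ ψ : FF N →ₐ[Qb] LaurentSeries Qb)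
    (H : ∀ (d : ℕ) [NeZero d] (hd : d ∣ N), φ (jBar N d hd) = ψ (jBar N d hd)) : φ = ψ := by
  refine S24.algHom_ext_of_frac (qExpHom N) (S24.QX.qExpHom_injective N) (INJ.Inst.fricke_frac N)
    _ _ ?_
  have : φ.comp (qExpHom N) = ψ.comp (qExpHom N) := by
    refine AlgHom.adjoin_ext ?_
    rintro _ ⟨d, hd, rfl⟩
    have : NeZero d :=
      ⟨fun h0 => NeZero.ne N (by rw [h0] at hd; exact Nat.eq_zero_of_zero_dvd hd)⟩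
    have := H d hd
    rw [← S24.QX.qExpHom_jAlg] at this
    exact this
  exact fun a => DFunLike.congr_fun this a

theorem stmt_REL : Stmt_REL := by
  intro N ℓ _ _ hℓ hℓN
  have hcop : IsCoprime (ℓ : ℤ) (N : ℤ) :=
    Nat.isCoprime_iff_coprime.2 ((Nat.Prime.coprime_iff_not_dvd hℓ).2 hℓN)
  obtain ⟨e, b', hb⟩ := hcop
  have h : (ℓ : ℤ) * e - (-b') * N = 1 := by linear_combination hb
  refine ⟨(IntermediateField.val _).comp (REL_hom N ℓ hℓ (-b') e h), ?_, ?_⟩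
  · have key : ((IntermediateField.val _).comp (REL_hom N ℓ hℓ (-b') e h)).comp
        (heckeBetaBar Qb N ℓ) = (REL_V ℓ).comp (IntermediateField.val _) := by
      refine REL_ext N _ _ ?_
      intro d _ hd
      have h1 : heckeBetaBar Qb N ℓ (jBar N d hd) = jBar (N * ℓ) (ℓ * d) (REL_dvd1 hd) := by
        apply Subtype.ext
        rw [coe_heckeBetaBar, INJ.Inst.fricke_coe_jBar, INJ.Inst.fricke_coe_jBar, ← S28.Vq_eq,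
          REL_Vq_jd]
      show ((REL_hom N ℓ hℓ (-b') e h (heckeBetaBar Qb N ℓ (jBar N d hd)) : FF (N * ℓ ^ 2)) :
        LaurentSeries Qb) = S28.Vq Qb ℓ ((jBar N d hd : FF N) : LaurentSeries Qb)
      rw [h1, ← S24.QX.qExpHom_jAlg, REL_hom_qExpHom, REL_alg_jAlg_mul N ℓ _ hℓ _ _ h hd, S24.QX.qExpHom_jAlg,
        INJ.Inst.fricke_coe_jBar, INJ.Inst.fricke_coe_jBar, REL_Vq_jd]
    exact fun u => DFunLike.congr_fun key u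
  · have key : ((IntermediateField.val _).comp (REL_hom N ℓ hℓ (-b') e h)).comp
        (heckeAlphaBar Qb N ℓ) = (REL_V (ℓ ^ 2)).comp (IntermediateField.val _) := by
      refine REL_ext N _ _ ?_
      intro d _ hd
      have h1 : heckeAlphaBar Qb N ℓ (jBar N d hd) = jBar (N * ℓ) d (REL_dvd4 hd) := by
        apply Subtype.ext
        rw [coe_heckeAlphaBar, INJ.Inst.fricke_coe_jBar, INJ.Inst.fricke_coe_jBar]
      show ((REL_hom N ℓ hℓ (-b') e h (heckeAlphaBar Qb N ℓ (jBar N d hd)) : FF (N * ℓ ^ 2)) :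
        LaurentSeries Qb) = S28.Vq Qb (ℓ ^ 2) ((jBar N d hd : FF N) : LaurentSeries Qb)
      rw [h1, ← S24.QX.qExpHom_jAlg, REL_hom_qExpHom, REL_alg_jAlg N ℓ _ hℓ _ _ h hd, S24.QX.qExpHom_jAlg,
        INJ.Inst.fricke_coe_jBar, INJ.Inst.fricke_coe_jBar, REL_Vq_jd]
    exact fun u => DFunLike.congr_fun key u

end Fermat.Agent.RED

end
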