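import Fermat.Agent.RED.Interface2

/-!
# RED (S37), task T2 : inertia does not move the reduction of a place
`stmt_T2_all (hGW : Stmt_GW_all) (hK : Stmt_KEY) (hE : Stmt_EVINT) : Stmt_T2_all`.
-/

set_option autoImplicit false

noncomputable section

namespace Fermat.Agent.RED

open AlgebraicCurve ModularCurve Polynomial IntermediateField
open scoped Pointwise

/-! ### small private API for `Ev` -/

section EvAPI

variable {K F : Type*} [Field K] [Field F] [Algebra K F]

theorem T2_ev_unique {P : Place K F} {y : F} {c c' : K} (h : Ev P y c) (h' : Ev P y c') :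
    c = c' := by
  by_contra hne
  have h1 : algebraMap K F (c - c') ∈ P.toValuationSubring.nonunits := by
    have h2 : algebraMap K F (c - c') = (y - algebraMap K F c') - (y - algebraMap K F c) := by
      rw [map_sub]; ring
    rw [h2]
    exact sub_mem h' h
  rw [ValuationSubring.mem_nonunits_iff_or] at h1
  rcases h1 with h1 | h1
  · exact hne (sub_eq_zero.mp ((map_eq_zero _).mp h1))
  · apply h1
    rw [← map_inv₀]
    exact P.algebraMap_mem' _

theorem T2_ev_sub {P : Place K F} {y y' : F} {c c' : K} (h : Ev P y c) (h' : Ev P y' c') :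
    Ev P (y - y') (c - c') := by
  have h2 : y - y' - algebraMap K F (c - c') = (y - algebraMap K F c) - (y' - algebraMap K F c') := by
    rw [map_sub]; ring
  unfold Ev
  rw [h2]
  exact sub_mem h h'

theorem T2_ev_smul (g : SemilinearAut K F) {P : Place K F} {y : F} {c : K} (h : Ev P y c) :
    Ev (g • P) (g • y) (SemilinearAut.baseAut g c) := by
  unfold Ev at h ⊢
  rw [← SemilinearAut.smul_algebraMap, ← smul_sub, SemilinearAut.smul_toValuationSubring]
  rw [ValuationSubring.mem_nonunits_iff_or] at h ⊢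
  rcases h with h | h
  · left
    rw [h, smul_zero]
  · right
    intro h2
    apply h
    rw [ValuationSubring.mem_pointwise_smul_iff_inv_smul_mem, smul_inv₀', inv_smul_smul] at h2
    exact h2

theorem T2_ev_inv {P : Place K F} {y : F} {c : K} (h : Ev P y c) (hc : c ≠ 0) :
    Ev P y⁻¹ c⁻¹ := by
  have hcF : algebraMap K F c ≠ 0 := (_root_.map_ne_zero _).mpr hc
  have hcmem : algebraMap K F c ∈ P.toValuationSubring := P.algebraMap_mem' c
  have hcinv : (algebraMap K F c)⁻¹ ∈ P.toValuationSubring := by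
    rw [← map_inv₀]; exact P.algebraMap_mem' _
  have hy : y ∈ P.toValuationSubring := by
    have := add_mem (P.toValuationSubring.nonunits_subset h) hcmem
    rwa [sub_add_cancel] at this
  -- `y` is a unit
  have hyn : y ∉ P.toValuationSubring.nonunits := by
    intro hyn
    have h3 : algebraMap K F c ∈ P.toValuationSubring.nonunits := by
      have := sub_mem hyn h
      rwa [sub_sub_cancel] at this
    rw [ValuationSubring.mem_nonunits_iff_or] at h3
    rcases h3 with h3 | h3
    · exact hcF h3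
    · exact h3 hcinv
  rw [ValuationSubring.mem_nonunits_iff_or, not_or, not_not] at hyn
  obtain ⟨hy0, hyinv⟩ := hyn
  unfold Ev at h ⊢
  have h4 : y⁻¹ - algebraMap K F c⁻¹ = -((y - algebraMap K F c) * (y⁻¹ * (algebraMap K F c)⁻¹)) := by
    rw [map_inv₀]
    field_simp
    ring
  rw [h4]
  apply neg_mem
  rw [ValuationSubring.mem_nonunits_iff] at h ⊢
  rw [map_mul]
  have h5 : P.toValuationSubring.valuation (y⁻¹ * (algebraMap K F c)⁻¹) ≤ 1 :=
    (P.toValuationSubring.valuation_le_one_iff _).mpr (mul_mem hyinv hcinv)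
  exact mul_lt_one_of_lt_of_le h h5

end EvAPI

/-! ### semilinear automorphisms and the rings `A[x]`, `A[x]_(𝔪, x)` -/

section Stable

variable {K F : Type*} [Field K] [Field F] [Algebra K F]
variable {A : ValuationSubring K} (g : SemilinearAut K F) (r : A →+* A)
  (hr : ∀ a : A, ((r a : A) : K) = SemilinearAut.baseAut g (a : K))

include hr in
theorem T2_smul_polyHom {x : F} (hx : g • x = x) (p : (↥A)[X]) :
    g • polyHom A x p = polyHom A x (p.map r) := by
  show (SemilinearAut.toRingAut g : F →+* F) (p.eval₂ ((algebraMap K F).comp A.subtype) x)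
    = (p.map r).eval₂ ((algebraMap K F).comp A.subtype) x
  rw [Polynomial.hom_eval₂, Polynomial.eval₂_map]
  have h1 : (SemilinearAut.toRingAut g : F →+* F) x = x := hx
  rw [h1]
  congr 1
  ext a
  show SemilinearAut.toRingAut g (algebraMap K F (a : K)) = algebraMap K F ((r a : A) : K)
  rw [SemilinearAut.commutes, hr]

include hr in
theorem T2_polyRing_stable {x : F} (hx : g • x = x) {z : F} (hz : z ∈ polyRing A x) :
    g • z ∈ polyRing A x := by
  obtain ⟨p, rfl⟩ := hz
  exact ⟨p.map r, (T2_smul_polyHom g r hr hx p).symm⟩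

include hr in
theorem T2_locRing_stable {x : F} (hx : g • x = x) {z : F} (hz : z ∈ locRing A x) :
    g • z ∈ locRing A x := by
  have hle : locRing A x ≤ (locRing A x).comap (SemilinearAut.toRingAut g : F →+* F) := by
    refine Subring.closure_le.mpr ?_
    rintro w (hw | ⟨s, hs, rfl⟩)
    · exact Subring.subset_closure (Or.inl (T2_polyRing_stable g r hr hx hw))
    · refine Subring.subset_closure (Or.inr ⟨s.map r, ?_, ?_⟩)
      · rw [Polynomial.coeff_map]
        exact hs.map r
      · show g • (polyHom A x s)⁻¹ = _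
        rw [smul_inv₀', T2_smul_polyHom g r hr hx]
  exact hle hz

theorem T2_isIntegral_smul (R : Subring F) (hR : ∀ z ∈ R, g • z ∈ R) {y : F}
    (hy : IsIntegral R y) : IsIntegral R (g • y) := by
  let φ : R →+* R :=
    { toFun := fun z => ⟨g • (z : F), hR z z.2⟩
      map_one' := Subtype.ext (smul_one g)
      map_mul' := fun a b => Subtype.ext (smul_mul' g (a : F) (b : F))
      map_zero' := Subtype.ext (smul_zero g)
      map_add' := fun a b => Subtype.ext (smul_add g (a : F) (b : F)) }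
  exact IsIntegral.map_of_comp_eq φ (SemilinearAut.toRingAut g : F →+* F) (RingHom.ext fun _ => rfl) hy

theorem T2_polyRing_le {W : ValuationSubring F} {x : F} (h : GaussChart A W x) :
    polyRing A x ≤ W.toSubring := by
  rintro z ⟨p, rfl⟩
  show p.eval₂ ((algebraMap K F).comp A.subtype) x ∈ W.toSubring
  rw [Polynomial.eval₂_eq_sum_range]
  refine Subring.sum_mem _ fun i _ => ?_
  exact Subring.mul_mem _ ((h.const_mem _).mpr (p.coeff i).2) (Subring.pow_mem _ h.x_mem _)

theorem T2_locRing_le {W : ValuationSubring F} {x : F} (h : GaussChart A W x) :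
    locRing A x ≤ W.toSubring := by
  refine Subring.closure_le.mpr ?_
  rintro w (hw | ⟨s, hs, rfl⟩)
  · exact T2_polyRing_le h hw
  · exact h.gauss s ⟨0, hs⟩

theorem T2_mem_of_isIntegral {W : ValuationSubring F} {R : Subring F} (hR : R ≤ W.toSubring)
    {y : F} (hy : IsIntegral R y) : y ∈ W := by
  have h1 : IsIntegral W y :=
    IsIntegral.map_of_comp_eq (Subring.inclusion hR : R →+* W.toSubring) (RingHom.id F)
      (RingHom.ext fun _ => rfl) hy
  obtain ⟨w, hw⟩ := (IsIntegrallyClosed.isIntegral_iff (R := W) (K := F)).mp h1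
  rw [← hw]
  exact w.2

end Stable

/-! ### inertia -/

section Inertia

variable {A : ValuationSubring Qb} {σ : GQ}

theorem T2_sub_mem_nonunits (hσ : σ ∈ A.inertiaSubgroupIn ℚ) :
    ∀ a ∈ A, σ a - a ∈ A.nonunits := by
  obtain ⟨g, hg, rfl⟩ := hσ
  intro a ha
  have h1 : g • (IsLocalRing.residue A ⟨a, ha⟩) = IsLocalRing.residue A ⟨a, ha⟩ :=
    RingEquiv.congr_fun (MonoidHom.mem_ker.1 hg) (IsLocalRing.residue A ⟨a, ha⟩)
  rw [← IsLocalRing.ResidueField.residue_smul, ← sub_eq_zero, ← map_sub,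
    IsLocalRing.residue_eq_zero_iff, ← ValuationSubring.coe_mem_nonunits_iff] at h1
  exact h1

theorem T2_apply_mem (hσ : σ ∈ A.inertiaSubgroupIn ℚ) (a : Qb) (ha : a ∈ A) : σ a ∈ A := by
  have h1 : σ a - a ∈ A := A.nonunits_subset (T2_sub_mem_nonunits hσ a ha)
  have := A.add_mem _ _ h1 ha
  rwa [sub_add_cancel] at this

theorem T2_apply_mem_nonunits (hσ : σ ∈ A.inertiaSubgroupIn ℚ) (a : Qb) (ha : a ∈ A.nonunits) :
    σ a ∈ A.nonunits := by
  have h1 := T2_sub_mem_nonunits hσ a (A.nonunits_subset ha)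
  have := add_mem h1 ha
  rwa [sub_add_cancel] at this

/-- the restriction of an element of the inertia group to the valuation ring -/
def T2_resHom (hσ : σ ∈ A.inertiaSubgroupIn ℚ) : A →+* A where
  toFun a := ⟨σ a, T2_apply_mem hσ a a.2⟩
  map_one' := Subtype.ext (map_one σ)
  map_mul' a b := Subtype.ext (map_mul σ (a : Qb) (b : Qb))
  map_zero' := Subtype.ext (map_zero σ)
  map_add' a b := Subtype.ext (map_add σ (a : Qb) (b : Qb))

theorem T2_subtype_comp_resHom (hσ : σ ∈ A.inertiaSubgroupIn ℚ) :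
    A.subtype.comp (T2_resHom hσ) = (σ : Qb →+* Qb).comp A.subtype :=
  RingHom.ext fun _ => rfl

theorem T2_residue_comp_resHom (hσ : σ ∈ A.inertiaSubgroupIn ℚ) :
    (IsLocalRing.residue A).comp (T2_resHom hσ) = IsLocalRing.residue A := by
  ext a
  rw [RingHom.comp_apply, ← sub_eq_zero, ← map_sub, IsLocalRing.residue_eq_zero_iff,
    ← ValuationSubring.coe_mem_nonunits_iff]
  exact T2_sub_mem_nonunits hσ a a.2

theorem T2_gaussSmall {N : ℕ} (hσ : σ ∈ A.inertiaSubgroupIn ℚ) (y : FF N) (hy : GaussInt A y) :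
    GaussSmall A (gal N σ • y - y) := by
  obtain ⟨a, b, hb, hab⟩ := hy
  set a' : LaurentSeries ↥A := coeffMap (T2_resHom hσ) a with ha'
  set b' : LaurentSeries ↥A := coeffMap (T2_resHom hσ) b with hb'
  have hinc : ∀ z : LaurentSeries ↥A, incl A (coeffMap (T2_resHom hσ) z)
      = coeffMap (σ : Qb →+* Qb) (incl A z) := by
    intro z
    rw [coeffMap_coeffMap, coeffMap_coeffMap, T2_subtype_comp_resHom]
  have hred : ∀ z : LaurentSeries ↥A, red A (coeffMap (T2_resHom hσ) z) = red A z := by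
    intro z
    rw [coeffMap_coeffMap, T2_residue_comp_resHom]
  have hab' : incl A a' = incl A b' * ((gal N σ • y : FF N) : LaurentSeries Qb) := by
    rw [ha', hb', hinc, hinc, hab, map_mul]
    rfl
  refine ⟨a' * b - a * b', b * b', ?_, ?_, ?_⟩
  · rw [map_sub, map_mul, map_mul, ha', hb', hred, hred, sub_self]
  · rw [map_mul, hb', hred]
    exact mul_ne_zero hb hb
  · rw [map_sub, map_mul, map_mul, map_mul, hab, hab']
    show _ = _ * (((gal N σ • y : FF N) : LaurentSeries Qb) - (y : LaurentSeries Qb))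
    ring

theorem T2_smul_sF (N : ℕ) [NeZero N] (σ : GQ) : gal N σ • sF N = sF N := by
  apply Subtype.ext
  rw [coe_arithmeticGalois_smul, coe_sF]
  exact coeffMap_coeffEmb σ _

theorem T2_transcendental_sF (N : ℕ) [NeZero N] : Transcendental Qb (sF N) := by
  intro halg
  have hint : IsIntegral Qb (sF N) := halg.isIntegral
  have hmem : sF N ∈ (algebraMap Qb (FF N)).range :=
    hint.mem_range_algebraMap_of_minpoly_splits (IsAlgClosed.splits _)
  obtain ⟨c, hc⟩ := hmem
  have h1 : Fermat.Agent.S24.jBarSeries N = algebraMap Qb (LaurentSeries Qb) c := by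
    have := congrArg (fun x : FF N => (x : LaurentSeries Qb)) hc
    rw [← coe_sF]
    exact this.symm
  have h2 : (Fermat.Agent.S24.jBarSeries N).coeff ((N : ℤ) * (-1)) = 1 := by
    have h3 := Fermat.Agent.S24.DegBd.jBarSeries_one_coeff
    rw [Fermat.Agent.S24.jBarSeries, coeffEmb_coeff, qExpand_one_apply] at h3
    rw [Fermat.Agent.S24.jBarSeries, coeffEmb_coeff, qExpand_coeff_mul, h3]
  have hN : ((N : ℤ) * (-1)) ≠ 0 := by
    have := NeZero.ne N
    simpa using this
  rw [h1, algebraMap_laurentSeries_eq_single, HahnSeries.coeff_single_of_ne hN] at h2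
  exact zero_ne_one h2

theorem T2_finiteDimensional_sF (N : ℕ) [NeZero N] : FiniteDimensional Qb⟮sF N⟯ (FF N) := by
  have : FiniteDimensional Qb⟮Fermat.Agent.S24.jF N⟯ (FF N) := (Fermat.Agent.S24.finrank_FF_le N).1
  exact Fermat.Agent.S24.finiteDimensional_adjoin_simple_of_transcendental (Fermat.Agent.S24.jF N)
    (Fermat.Agent.S24.DegBd.transcendental_jF N) (sF N) (T2_transcendental_sF N)

end Inertia

/-! ### the main argument -/

/-- common core of the two charts -/
theorem T2_core {K F : Type*} [Field K] [Field F] [Algebra K F] {A : ValuationSubring K}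
    (g : SemilinearAut K F)
    (hin : ∀ a ∈ A, SemilinearAut.baseAut g a - a ∈ A.nonunits)
    {W : ValuationSubring F} (R : Subring F) (hRs : ∀ z ∈ R, g⁻¹ • z ∈ R)
    (hsmall : ∀ y, IsIntegral R y → g⁻¹ • y - y ∈ W.nonunits)
    (P : Place K F)
    (hval : ∀ y, IsIntegral R y → ∃ c ∈ A, Ev P y c)
    (hkey : ∀ d ∈ W.nonunits, IsIntegral R d → ∀ c, Ev P d c → c ∈ A.nonunits)
    (y : F) (hy : IsIntegral R y) (c c' : K) (hc : Ev (g • P) y c) (hc' : Ev P y c') :
    c - c' ∈ A.nonunits := by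
  have h1 : Ev P (g⁻¹ • y) (SemilinearAut.baseAut g⁻¹ c) := by
    have h2 := T2_ev_smul g⁻¹ hc
    rw [inv_smul_smul] at h2
    exact h2
  have hτy : IsIntegral R (g⁻¹ • y) := T2_isIntegral_smul _ R hRs hy
  obtain ⟨c'', hc''A, hc''⟩ := hval _ hτy
  have hc1 : SemilinearAut.baseAut g⁻¹ c ∈ A := by
    rw [T2_ev_unique h1 hc'']
    exact hc''A
  have h3 : SemilinearAut.baseAut g⁻¹ c - c' ∈ A.nonunits :=
    hkey _ (hsmall y hy) (hτy.sub hy) _ (T2_ev_sub h1 hc')
  have h4 := hin _ hc1
  have h5 : SemilinearAut.baseAut g (SemilinearAut.baseAut g⁻¹ c) = c := by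
    rw [SemilinearAut.baseAut_inv, RingEquiv.apply_symm_apply]
  rw [h5] at h4
  have := add_mem h4 h3
  rwa [sub_add_sub_cancel] at this

theorem T2_ev_cases {N : ℕ} [NeZero N] (A : ValuationSubring Qb) (P : Pl N) :
    (∃ c ∈ A, Ev P (sF N) c) ∨ (∃ c ∈ A.nonunits, Ev P (sF N)⁻¹ c) := by
  have htr : Transcendental Qb (sF N) := T2_transcendental_sF N
  have : FiniteDimensional Qb⟮sF N⟯ (FF N) := T2_finiteDimensional_sF N
  by_cases hmem : sF N ∈ P.toValuationSubring
  · obtain ⟨c, hc⟩ := Fermat.Agent.S24.exists_residue_eq_algebraMap (sF N) htr P hmem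
    have hev : Ev P (sF N) c := by
      have hm : (⟨sF N, hmem⟩ : P.toValuationSubring) - algebraMap Qb P.toValuationSubring c ∈
          IsLocalRing.maximalIdeal P.toValuationSubring := by
        rw [← IsLocalRing.residue_eq_zero_iff, map_sub, hc, sub_eq_zero]
        rfl
      exact ValuationSubring.coe_mem_nonunits_iff.mpr hm
    by_cases hcA : c ∈ A
    · exact Or.inl ⟨c, hcA, hev⟩
    · have hc0 : c ≠ 0 := by
        rintro rfl
        exact hcA A.zero_mem
      exact Or.inr ⟨c⁻¹, (A.inv_mem_nonunits_iff).mpr (Or.inr hcA), T2_ev_inv hev hc0⟩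
  · refine Or.inr ⟨0, A.nonunits.zero_mem, ?_⟩
    unfold Ev
    rw [map_zero, sub_zero]
    exact (ValuationSubring.inv_mem_nonunits_iff _).mpr (Or.inr hmem)

theorem stmt_T2_all (hGW : Stmt_GW_all) (hK : Stmt_KEY.{0}) (hE : Stmt_EVINT.{0}) :
    Stmt_T2_all := by
  intro N ℓ _ hℓ hℓN A hA σ hσ P
  obtain ⟨W, hW1, hW2, hG, hG'⟩ := hGW N ℓ hℓ hℓN A hA
  have htr : Transcendental Qb (sF N) := T2_transcendental_sF N
  have hfd : FiniteDimensional Qb⟮sF N⟯ (FF N) := T2_finiteDimensional_sF N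
  have htr' : Transcendental Qb (sF N)⁻¹ := Fermat.Agent.S24.placeCases_transcendental_inv htr
  have hfd' : FiniteDimensional Qb⟮(sF N)⁻¹⟯ (FF N) :=
    Fermat.Agent.S24.placeCases_finiteDimensional_adjoin_inv (K := Qb) (sF N)
  have hσ' : σ⁻¹ ∈ A.inertiaSubgroupIn ℚ := inv_mem hσ
  have hr : ∀ a : A, ((T2_resHom hσ' a : A) : Qb) = SemilinearAut.baseAut (gal N σ⁻¹) (a : Qb) :=
    fun _ => rfl
  have hj' : ∀ τ : GQ, gal N τ • (sF N)⁻¹ = (sF N)⁻¹ := by
    intro τ
    rw [smul_inv₀', T2_smul_sF]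
  rcases T2_ev_cases A P with ⟨c₀, hc₀A, hc₀⟩ | ⟨c₀, hc₀A, hc₀⟩
  · left
    refine ⟨⟨σ c₀, T2_apply_mem hσ c₀ hc₀A, ?_⟩, ⟨c₀, hc₀A, hc₀⟩, ?_⟩
    · have h := T2_ev_smul (gal N σ) hc₀
      rw [T2_smul_sF] at h
      exact h
    · intro y hy c c' hc hc'
      refine T2_core (gal N σ) (T2_sub_mem_nonunits hσ) (W := W) (polyRing A (sF N))
        (fun z hz => ?_) (fun y hy => ?_) P
        (fun y hy => (hE Qb (FF N) A (sF N) htr hfd P c₀ hc₀).1 hc₀A y hy)
        (fun d hd hdi c hc => (hK Qb (FF N) A W (sF N) htr hfd hG P c₀ hc₀ d hd c hc).1 hc₀A hdi)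
        y hy c c' hc hc'
      · rw [← map_inv]
        exact T2_polyRing_stable _ _ hr (T2_smul_sF N _) hz
      · rw [← map_inv]
        exact (hW2 _).mpr (T2_gaussSmall hσ' y
          ((hW1 y).mp (T2_mem_of_isIntegral (T2_polyRing_le hG) hy)))
  · right
    refine ⟨⟨σ c₀, T2_apply_mem_nonunits hσ c₀ hc₀A, ?_⟩, ⟨c₀, hc₀A, hc₀⟩, ?_⟩
    · have h := T2_ev_smul (gal N σ) hc₀
      rw [hj'] at h
      exact h
    · intro y hy c c' hc hc'
      refine T2_core (gal N σ) (T2_sub_mem_nonunits hσ) (W := W) (locRing A (sF N)⁻¹)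
        (fun z hz => ?_) (fun y hy => ?_) P
        (fun y hy => (hE Qb (FF N) A (sF N)⁻¹ htr' hfd' P c₀ hc₀).2 hc₀A y hy)
        (fun d hd hdi c hc =>
          (hK Qb (FF N) A W (sF N)⁻¹ htr' hfd' hG' P c₀ hc₀ d hd c hc).2 hc₀A hdi)
        y hy c c' hc hc'
      · rw [← map_inv]
        exact T2_locRing_stable _ _ hr (hj' _) hz
      · rw [← map_inv]
        exact (hW2 _).mpr (T2_gaussSmall hσ' y
          ((hW1 y).mp (T2_mem_of_isIntegral (T2_locRing_le hG') hy)))

end Fermat.Agent.RED
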