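import Fermat.Agent.RED.Interface2

/-!
# RED-LOCTRANS (helper60)

`Stmt_LOCTRANS` of `Interface2.lean` is false for degenerate `y₀` (e.g. `y₀ = 1`, `x₀` transcendental).
We prove the corrected statement `Stmt_LOCTRANS2` (`y₀` transcendental over `K`).
-/

set_option autoImplicit false

noncomputable section

namespace Fermat.Agent.RED

open Polynomial

universe u

/-- LOCTRANS (corrected): if `y₀` is transcendental and integral over `A[x₀]` then the local ring of
`A[1/x₀]` at `(𝔪, 1/x₀)` is integral over the local ring of `A[1/y₀]` at `(𝔪, 1/y₀)`. -/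
def Stmt_LOCTRANS2 : Prop :=
  ∀ (K Ω : Type u) [Field K] [Field Ω] [Algebra K Ω] (A : ValuationSubring K) (x₀ y₀ : Ω),
    x₀ ≠ 0 → Transcendental K y₀ → IntOver A x₀ y₀ → ∀ z, LocInt A x₀⁻¹ z → LocInt A y₀⁻¹ z

variable {K Ω : Type u} [Field K] [Field Ω] [Algebra K Ω] {A : ValuationSubring K}

/-- an element lying in all valuation subrings containing `R` is integral over `R`. -/
theorem LT_isIntegral_of_forall_mem (R : Subring Ω) (x : Ω)
    (h : ∀ V : ValuationSubring Ω, R ≤ V.toSubring → x ∈ V) : IsIntegral R x := by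
  by_contra hx
  have hx' : x ∉ (integralClosure R Ω).toSubring := hx
  obtain ⟨V, hV, hxV⟩ := Subring.exists_le_valuationSubring_of_isIntegrallyClosedIn hx'
  apply hxV
  apply h V
  intro r hr
  exact hV (show r ∈ integralClosure R Ω from isIntegral_algebraMap (R := R) (x := ⟨r, hr⟩))

/-- valuation subrings are integrally closed. -/
theorem LT_mem_of_isIntegral (R : Subring Ω) (V : ValuationSubring Ω) (hR : R ≤ V.toSubring)
    {x : Ω} (hx : IsIntegral R x) : x ∈ V := by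
  have : IsIntegrallyClosedIn V.toSubring Ω := inferInstanceAs (IsIntegrallyClosedIn V Ω)
  exact (Subring.integralClosure_subring_le_iff (S := R) (T := V.toSubring)).mpr hR hx

theorem LT_const_mem_polyRing (x : Ω) (a : A) : algebraMap K Ω a ∈ polyRing A x :=
  ⟨C a, by simp [polyHom]⟩

theorem LT_polyRing_le_locRing (x : Ω) : polyRing A x ≤ locRing A x := fun _ hz =>
  Subring.subset_closure (Or.inl hz)

theorem LT_self_mem_polyRing (x : Ω) : x ∈ polyRing A x := ⟨X, by simp [polyHom]⟩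

theorem LT_inv_mem_locRing (x : Ω) (s : (↥A)[X]) (hs : IsUnit (s.coeff 0)) :
    (polyHom A x s)⁻¹ ∈ locRing A x :=
  Subring.subset_closure (Or.inr ⟨s, hs, rfl⟩)

/-- the constants, as a ring hom to a valuation subring containing them. -/
def LT_iota (V : ValuationSubring Ω) (hA : ∀ a : A, algebraMap K Ω a ∈ V) : A →+* V :=
  ((algebraMap K Ω).comp A.subtype).codRestrict V hA

theorem LT_coe_eval₂ (V : ValuationSubring Ω) (hA : ∀ a : A, algebraMap K Ω a ∈ V) (x : V)
    (p : (↥A)[X]) : ((p.eval₂ (LT_iota V hA) x : V) : Ω) = polyHom A (x : Ω) p :=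
  Polynomial.hom_eval₂ p (LT_iota V hA) V.subtype x

theorem LT_polyRing_le (V : ValuationSubring Ω) (hA : ∀ a : A, algebraMap K Ω a ∈ V) {x : Ω}
    (hx : x ∈ V) : polyRing A x ≤ V.toSubring := by
  rintro _ ⟨p, rfl⟩
  rw [← LT_coe_eval₂ V hA ⟨x, hx⟩ p]
  exact (p.eval₂ (LT_iota V hA) ⟨x, hx⟩ : V).2

theorem LT_residue_eq_zero_iff (V : ValuationSubring Ω) (v : V) :
    IsLocalRing.residue V v = 0 ↔ (v : Ω) ∈ V.nonunits := by
  rw [IsLocalRing.residue_eq_zero_iff, ValuationSubring.coe_mem_nonunits_iff]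

/-- if `x₀` is integral over `A` modulo `𝔪_V`, so is every `y₀` integral over `A[x₀]`. -/
theorem LT_key (V : ValuationSubring Ω) (hA : ∀ a : A, algebraMap K Ω a ∈ V) {x₀ y₀ : Ω}
    (hx : x₀ ∈ V) (hy : IntOver A x₀ y₀) (h : (↥A)[X]) (hh : h.Monic)
    (hhx : polyHom A x₀ h ∈ V.nonunits) :
    ∃ g : (↥A)[X], g.Monic ∧ polyHom A y₀ g ∈ V.nonunits := by
  let κ := IsLocalRing.ResidueField V
  let φ : A →+* κ := (IsLocalRing.residue V).comp (LT_iota V hA)
  let _ : Algebra A κ := φ.toAlgebra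
  have hT : polyRing A x₀ ≤ V.toSubring := LT_polyRing_le V hA hx
  have hyV : y₀ ∈ V := LT_mem_of_isIntegral _ V hT hy
  let X₀ : V := ⟨x₀, hx⟩
  let Y₀ : V := ⟨y₀, hyV⟩
  have hres : ∀ (v : V) (p : (↥A)[X]),
      IsLocalRing.residue V (p.eval₂ (LT_iota V hA) v) = aeval (IsLocalRing.residue V v) p := by
    intro v p
    rw [Polynomial.hom_eval₂]
    rfl
  have hxint : IsIntegral A (IsLocalRing.residue V X₀) := by
    refine ⟨h, hh, ?_⟩
    have h1 := hres X₀ h
    rw [(LT_residue_eq_zero_iff V _).mpr (by rw [LT_coe_eval₂]; exact hhx)] at h1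
    exact h1.symm
  let f : polyRing A x₀ →+* κ := (IsLocalRing.residue V).comp (Subring.inclusion hT)
  have hf : ∀ t, f t ∈ integralClosure A κ := by
    rintro ⟨_, p, rfl⟩
    have h1 : f ⟨polyHom A x₀ p, ⟨p, rfl⟩⟩ = aeval (IsLocalRing.residue V X₀) p := by
      rw [← hres]
      show IsLocalRing.residue V _ = IsLocalRing.residue V _
      congr 1
      exact Subtype.ext (LT_coe_eval₂ V hA X₀ p).symm
    rw [h1]
    exact adjoin_le_integralClosure hxint (aeval_mem_adjoin_singleton _ _)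
  let g₀ : polyRing A x₀ →+* integralClosure A κ := f.codRestrict (integralClosure A κ) hf
  obtain ⟨P, hP, hP0⟩ := hy
  have hyC : IsIntegral (integralClosure A κ) (IsLocalRing.residue V Y₀) := by
    refine ⟨P.map g₀, hP.map g₀, ?_⟩
    rw [eval₂_map]
    have h2 : (algebraMap (integralClosure A κ) κ).comp g₀ = f := rfl
    rw [h2]
    show eval₂ ((IsLocalRing.residue V).comp (Subring.inclusion hT)) (IsLocalRing.residue V Y₀) P = 0
    rw [← Polynomial.hom_eval₂]
    have h3 : eval₂ (Subring.inclusion hT) Y₀ P = 0 := by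
      apply Subtype.ext
      have h4 := Polynomial.hom_eval₂ P (Subring.inclusion hT) V.subtype Y₀
      exact h4.trans hP0
    rw [h3, map_zero]
  obtain ⟨g, hg, hg0⟩ := isIntegral_trans (R := A) _ hyC
  refine ⟨g, hg, ?_⟩
  rw [← LT_coe_eval₂ V hA Y₀ g, ← LT_residue_eq_zero_iff, hres]
  exact hg0

/-- a nonzero nonunit of `V` has its inverse outside `V`. -/
theorem LT_inv_notMem (V : ValuationSubring Ω) {u : Ω} (hu : u ∈ V.nonunits) (hu0 : u ≠ 0) :
    u⁻¹ ∉ V := by
  have h1 : (u⁻¹)⁻¹ ∈ V.nonunits := by rwa [inv_inv]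
  rcases V.inv_mem_nonunits_iff.mp h1 with h | h
  · exact absurd (inv_eq_zero.mp h) hu0
  · exact h

theorem LT_mem_nonunits_of_inv_notMem (V : ValuationSubring Ω) {u : Ω} (hu : u⁻¹ ∉ V) :
    u ∈ V.nonunits := by
  have := V.inv_mem_nonunits_iff.mpr (Or.inr hu)
  rwa [inv_inv] at this

theorem LT_nonunits_mul (V : ValuationSubring Ω) {u v : Ω} (hu : u ∈ V.nonunits) (hv : v ∈ V) :
    u * v ∈ V.nonunits := by
  rw [ValuationSubring.mem_nonunits_iff, map_mul]
  exact mul_lt_one_of_lt_of_le (V.mem_nonunits_iff.mp hu)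
    ((V.valuation_le_one_iff v).mpr hv)

theorem LT_nonunits_le (V : ValuationSubring Ω) {u : Ω} (hu : u ∈ V.nonunits) : u ∈ V :=
  (V.valuation_le_one_iff u).mp (V.mem_nonunits_iff.mp hu).le

/-- (*) -/
theorem LT_star {x₀ y₀ : Ω} (hy0 : y₀ ≠ 0)
    (H : ∀ s : (↥A)[X], IsUnit (s.coeff 0) → polyHom A y₀⁻¹ s ≠ 0) (hy : IntOver A x₀ y₀)
    (V : ValuationSubring Ω) (hV : locRing A y₀⁻¹ ≤ V.toSubring) (hx : x₀ ∈ V) (h : (↥A)[X])
    (hh : IsUnit h.leadingCoeff) : polyHom A x₀ h ∉ V.nonunits := by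
  intro hhx
  have hA : ∀ a : A, algebraMap K Ω a ∈ V := fun a =>
    hV (LT_polyRing_le_locRing _ (LT_const_mem_polyRing _ a))
  have hyi : y₀⁻¹ ∈ V := hV (LT_polyRing_le_locRing _ (LT_self_mem_polyRing _))
  -- make `h` monic
  have hmon : (hh.unit⁻¹ • h).Monic := monic_of_isUnit_leadingCoeff_inv_smul hh
  have hval : polyHom A x₀ (hh.unit⁻¹ • h) ∈ V.nonunits := by
    have h1 : hh.unit⁻¹ • h = C ((hh.unit⁻¹ : (↥A)ˣ) : ↥A) * h := by
      rw [← smul_eq_C_mul]
      rfl
    rw [h1, map_mul, mul_comm]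
    refine LT_nonunits_mul V hhx ?_
    have : polyHom A x₀ (C ((hh.unit⁻¹ : (↥A)ˣ) : ↥A)) = algebraMap K Ω ((hh.unit⁻¹ : (↥A)ˣ) : ↥A) :=
      eval₂_C _ _
    rw [this]
    exact hA _
  obtain ⟨g, hg, hgy⟩ := LT_key V hA hx hy _ hmon hval
  have hs0 : IsUnit (g.reverse.coeff 0) := by
    rw [coeff_zero_reverse, hg.leadingCoeff]
    exact isUnit_one
  have hrev : polyHom A y₀⁻¹ g.reverse = polyHom A y₀ g * (y₀⁻¹) ^ g.natDegree := by
    let _ := invertibleOfNonzero hy0
    have h1 := eval₂_reverse_mul_pow ((algebraMap K Ω).comp A.subtype) y₀ g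
    rw [invOf_eq_inv] at h1
    show eval₂ _ y₀⁻¹ g.reverse = eval₂ _ y₀ g * _
    rw [← h1, mul_assoc, ← mul_pow, mul_inv_cancel₀ hy0, one_pow, mul_one]
  have hsm : polyHom A y₀⁻¹ g.reverse ∈ V.nonunits := by
    rw [hrev]
    exact LT_nonunits_mul V hgy (pow_mem hyi _)
  exact LT_inv_notMem V hsm (H _ hs0) (hV (LT_inv_mem_locRing _ _ hs0))

/-- every valuation subring containing the local ring at `1/y₀` contains the one at `1/x₀`. -/
theorem LT_main {x₀ y₀ : Ω} (hx0 : x₀ ≠ 0) (hy0 : y₀ ≠ 0)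
    (H : ∀ s : (↥A)[X], IsUnit (s.coeff 0) → polyHom A y₀⁻¹ s ≠ 0) (hy : IntOver A x₀ y₀)
    (V : ValuationSubring Ω) (hV : locRing A y₀⁻¹ ≤ V.toSubring) :
    locRing A x₀⁻¹ ≤ V.toSubring := by
  have hA : ∀ a : A, algebraMap K Ω a ∈ V := fun a =>
    hV (LT_polyRing_le_locRing _ (LT_const_mem_polyRing _ a))
  have h1 : x₀⁻¹ ∈ V := by
    by_contra hcon
    have hxn := LT_mem_nonunits_of_inv_notMem V hcon
    refine LT_star hy0 H hy V hV (LT_nonunits_le V hxn) X (by simp) ?_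
    have : polyHom A x₀ X = x₀ := by simp [polyHom]
    rwa [this]
  have hpoly := LT_polyRing_le V hA h1
  refine Subring.closure_le.mpr ?_
  rintro z (hz | ⟨s, hs, rfl⟩)
  · exact hpoly hz
  · show (polyHom A x₀⁻¹ s)⁻¹ ∈ V
    by_contra hcon
    have hun := LT_mem_nonunits_of_inv_notMem V hcon
    by_cases hxi : x₀⁻¹ ∈ V.nonunits
    · -- then `s(1/x₀) ≡ s(0)`
      have hdec : polyHom A x₀⁻¹ s = polyHom A x₀⁻¹ s.divX * x₀⁻¹
          + algebraMap K Ω (s.coeff 0 : ↥A) := by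
        conv_lhs => rw [← divX_mul_X_add s]
        simp [polyHom]
      have hc : algebraMap K Ω (s.coeff 0 : ↥A) ∈ V.nonunits := by
        have h2 : algebraMap K Ω (s.coeff 0 : ↥A)
            = polyHom A x₀⁻¹ s - x₀⁻¹ * polyHom A x₀⁻¹ s.divX := by
          rw [hdec]
          ring
        rw [h2, ValuationSubring.mem_nonunits_iff]
        refine lt_of_le_of_lt (Valuation.map_sub _ _ _) (max_lt ?_ ?_)
        · exact V.mem_nonunits_iff.mp hun
        · exact V.mem_nonunits_iff.mp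
            (LT_nonunits_mul V hxi (hpoly ⟨_, rfl⟩))
      obtain ⟨e, he⟩ := hs.exists_right_inv
      have he' : algebraMap K Ω (s.coeff 0 : ↥A) * algebraMap K Ω (e : ↥A) = 1 := by
        rw [← map_mul]
        have : ((s.coeff 0 : ↥A) : K) * (e : K) = 1 := congrArg Subtype.val he
        rw [this, map_one]
      have h3 := LT_nonunits_mul V hc (hA e)
      rw [he', ValuationSubring.mem_nonunits_iff, map_one] at h3
      exact lt_irrefl _ h3
    · -- then `x₀ ∈ V`
      have hxV : x₀ ∈ V := by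
        by_contra hx
        apply hxi
        have := LT_mem_nonunits_of_inv_notMem V (u := x₀⁻¹) (by rwa [inv_inv])
        exact this
      have hs0 : s.coeff 0 ≠ 0 := hs.ne_zero
      have hlead : IsUnit s.reverse.leadingCoeff := by
        rw [reverse_leadingCoeff, trailingCoeff_eq_coeff_zero hs0]
        exact hs
      refine LT_star hy0 H hy V hV hxV s.reverse hlead ?_
      have hrev : polyHom A x₀ s.reverse = polyHom A x₀⁻¹ s * x₀ ^ s.natDegree := by
        let _ := invertibleOfNonzero (inv_ne_zero hx0)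
        have h1 := eval₂_reverse_mul_pow ((algebraMap K Ω).comp A.subtype) x₀⁻¹ s
        rw [invOf_eq_inv, inv_inv] at h1
        show eval₂ _ x₀ s.reverse = eval₂ _ x₀⁻¹ s * _
        rw [← h1, mul_assoc, ← mul_pow, inv_mul_cancel₀ hx0, one_pow, mul_one]
      rw [hrev]
      exact LT_nonunits_mul V hun (pow_mem hxV _)

/-- LOCTRANS with the minimal non-degeneracy hypothesis. -/
theorem LT_locTrans {x₀ y₀ : Ω} (hx0 : x₀ ≠ 0) (hy0 : y₀ ≠ 0)
    (H : ∀ s : (↥A)[X], IsUnit (s.coeff 0) → polyHom A y₀⁻¹ s ≠ 0) (hy : IntOver A x₀ y₀)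
    (z : Ω) (hz : LocInt A x₀⁻¹ z) : LocInt A y₀⁻¹ z :=
  LT_isIntegral_of_forall_mem _ z fun V hV =>
    LT_mem_of_isIntegral _ V (LT_main hx0 hy0 H hy V hV) hz

theorem LT_polyHom_ne_zero {y : Ω} (hy : Transcendental K y) (s : (↥A)[X]) (hs : s ≠ 0) :
    polyHom A y s ≠ 0 := by
  intro h0
  apply hy
  refine ⟨s.map A.subtype, ?_, ?_⟩
  · rwa [Ne, Polynomial.map_eq_zero_iff Subtype.val_injective]
  · rw [aeval_def, eval₂_map]
    exact h0

theorem stmt_LOCTRANS2 : Stmt_LOCTRANS2.{u} := by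
  intro K Ω _ _ _ A x₀ y₀ hx0 hy hint z hz
  have hy0 : y₀ ≠ 0 := by
    rintro rfl
    exact hy isAlgebraic_zero
  have hyi : Transcendental K y₀⁻¹ := fun h => hy (IsAlgebraic.inv_iff.mp h)
  refine LT_locTrans hx0 hy0 (fun s hs => LT_polyHom_ne_zero hyi s ?_) hint z hz
  rintro rfl
  rw [coeff_zero] at hs
  exact not_isUnit_zero hs

end Fermat.Agent.RED

end
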