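import Fermat.Agent.RED.Interface3
import Fermat.Agent.RED.Ev
import Fermat.Agent.RED.LocTrans
import Fermat.Agent.RED.T2

/-!
# RED-T4INT : norms along `β` of test functions are test functions

`stmt_T4INT (hM : Stmt_MODINT) : Stmt_T4INT` (uses the landed, corrected `stmt_LOCTRANS2`).
-/

set_option autoImplicit false

noncomputable section

namespace Fermat.Agent.RED

open AlgebraicCurve ModularCurve Polynomial IntermediateField

section General

/-- change of the base ring: only the image of the base ring matters. -/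
theorem T4INT_isIntegralElem_of_range {R R' S : Type*} [CommRing R] [CommRing R'] [CommRing S]
    (f : R →+* S) (g : R' →+* S) (h : ∀ r', ∃ r, f r = g r') {y : S}
    (hy : g.IsIntegralElem y) : f.IsIntegralElem y := by
  obtain ⟨p, hp, hpy⟩ := hy
  have hl : p.map g ∈ Polynomial.lifts f := by
    rw [Polynomial.lifts_iff_coeff_lifts]
    intro n
    rw [coeff_map]
    obtain ⟨r, hr⟩ := h (p.coeff n)
    exact ⟨r, hr⟩
  obtain ⟨q, hq, -, hqm⟩ := Polynomial.lifts_and_natDegree_eq_and_monic hl (hp.map g)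
  refine ⟨q, hqm, ?_⟩
  rw [← eval_map, hq, eval_map]
  exact hpy

variable {K F F' : Type*} [Field K] [Field F] [Field F'] [Algebra K F] [Algebra K F']

theorem T4INT_polyHom_map (A : ValuationSubring K) (φ : F →ₐ[K] F') (x : F) (p : (↥A)[X]) :
    polyHom A (φ x) p = φ (polyHom A x p) := by
  simp only [polyHom, coe_eval₂RingHom]
  rw [← AlgHom.coe_toRingHom φ, Polynomial.hom_eval₂]
  congr 1
  ext a
  simp

theorem T4INT_map_mem_polyRing (A : ValuationSubring K) (φ : F →ₐ[K] F') (x : F) {z : F}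
    (hz : z ∈ polyRing A x) : φ z ∈ polyRing A (φ x) := by
  obtain ⟨p, rfl⟩ := hz
  exact ⟨p, T4INT_polyHom_map A φ x p⟩

theorem T4INT_mem_polyRing_map (A : ValuationSubring K) (φ : F →ₐ[K] F') (x : F) {z : F'}
    (hz : z ∈ polyRing A (φ x)) : ∃ z₀ ∈ polyRing A x, φ z₀ = z := by
  obtain ⟨p, rfl⟩ := hz
  exact ⟨polyHom A x p, ⟨p, rfl⟩, (T4INT_polyHom_map A φ x p).symm⟩

theorem T4INT_map_mem_locRing (A : ValuationSubring K) (φ : F →ₐ[K] F') (x : F) {z : F}
    (hz : z ∈ locRing A x) : φ z ∈ locRing A (φ x) := by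
  have : locRing A x ≤ (locRing A (φ x)).comap (φ : F →+* F') := by
    rw [locRing, Subring.closure_le]
    rintro z (hz | ⟨s, hs, rfl⟩)
    · exact polyRing_le_locRing (T4INT_map_mem_polyRing A φ x hz)
    · show φ (polyHom A x s)⁻¹ ∈ locRing A (φ x)
      rw [map_inv₀, ← T4INT_polyHom_map]
      exact inv_mem_locRing hs
  exact this hz

theorem T4INT_mem_locRing_map (A : ValuationSubring K) (φ : F →ₐ[K] F') (x : F) {z : F'}
    (hz : z ∈ locRing A (φ x)) : ∃ z₀ ∈ locRing A x, φ z₀ = z := by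
  have : locRing A (φ x) ≤ (locRing A x).map (φ : F →+* F') := by
    rw [locRing, Subring.closure_le]
    rintro z (hz | ⟨s, hs, rfl⟩)
    · obtain ⟨z₀, hz₀, rfl⟩ := T4INT_mem_polyRing_map A φ x hz
      exact ⟨z₀, polyRing_le_locRing hz₀, rfl⟩
    · refine ⟨(polyHom A x s)⁻¹, inv_mem_locRing hs, ?_⟩
      show φ _ = _
      rw [map_inv₀, ← T4INT_polyHom_map]
  obtain ⟨z₀, hz₀, h⟩ := this hz
  exact ⟨z₀, hz₀, h⟩

/-- images of integral elements: general form for subrings. -/
theorem T4INT_isIntegral_map (φ : F →ₐ[K] F') (R : Subring F) (R' : Subring F')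
    (h : ∀ z ∈ R, φ z ∈ R') {u : F} (hu : IsIntegral R u) : IsIntegral R' (φ u) := by
  obtain ⟨p, hp, hpu⟩ := hu
  have h1 : ((φ : F →+* F').comp R.subtype).IsIntegralElem (φ u) := by
    refine ⟨p, hp, ?_⟩
    have := Polynomial.hom_eval₂ p R.subtype (φ : F →+* F') u
    rw [show (φ u) = (φ : F →+* F') u from rfl, ← this]
    have h0 : eval₂ R.subtype u p = 0 := hpu
    rw [h0, map_zero]
  exact T4INT_isIntegralElem_of_range R'.subtype ((φ : F →+* F').comp R.subtype)
    (fun r => ⟨⟨φ r, h _ r.2⟩, rfl⟩) h1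

theorem T4INT_intOver_map (A : ValuationSubring K) (φ : F →ₐ[K] F') {x u : F}
    (hu : IntOver A x u) : IntOver A (φ x) (φ u) :=
  T4INT_isIntegral_map φ _ _ (fun _ hz => T4INT_map_mem_polyRing A φ x hz) hu

theorem T4INT_locInt_map (A : ValuationSubring K) (φ : F →ₐ[K] F') {x u : F}
    (hu : LocInt A x u) : LocInt A (φ x) (φ u) :=
  T4INT_isIntegral_map φ _ _ (fun _ hz => T4INT_map_mem_locRing A φ x hz) hu

/-- transitivity of integrality for subrings of a field. -/
theorem T4INT_isIntegral_trans (R S : Subring F) (h : ∀ z ∈ S, IsIntegral R z) {y : F}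
    (hy : IsIntegral S y) : IsIntegral R y := by
  have h1 : IsIntegral (integralClosure R F) y :=
    T4INT_isIntegralElem_of_range (algebraMap (integralClosure R F) F) S.subtype
      (fun r => ⟨⟨r, h _ r.2⟩, rfl⟩) hy
  exact isIntegral_trans y h1

theorem T4INT_intOver_trans {A : ValuationSubring K} {x y z : F} (hx : IntOver A y x)
    (hz : IntOver A x z) : IntOver A y z := by
  refine T4INT_isIntegral_trans _ _ ?_ hz
  rintro _ ⟨p, rfl⟩
  induction p using Polynomial.induction_on' with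
  | add p q hp hq => rw [map_add]; exact IsIntegral.add hp hq
  | monomial n a =>
    rw [← C_mul_X_pow_eq_monomial, map_mul, map_pow, polyHom_C, polyHom_X]
    exact IntOver.mul (intOver_const a.2) (IntOver.pow hx n)

/-- the norm along `φ` of an element integral over `φ(R)` is integral over `R`. -/
theorem T4INT_norm (φ : F →ₐ[K] F') (R : Subring F) (R' : Subring F')
    (h : ∀ z ∈ R', ∃ z₀ ∈ R, φ z₀ = z) {y : F'} (hy : IsIntegral R' y) :
    IsIntegral R (letI := algebraAlong φ; Algebra.norm F y) := by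
  letI := algebraAlong φ
  letI : Algebra R F' := ((algebraMap F F').comp R.subtype).toAlgebra
  haveI : IsScalarTower R F F' := IsScalarTower.of_algebraMap_eq fun _ => rfl
  have h1 : IsIntegral R y := by
    refine T4INT_isIntegralElem_of_range (algebraMap R F') R'.subtype (fun r => ?_) hy
    obtain ⟨z₀, hz₀, hz⟩ := h _ r.2
    exact ⟨⟨z₀, hz₀⟩, hz⟩
  exact Algebra.isIntegral_norm F h1

end General

theorem stmt_T4INT (hM : Stmt_MODINT) : Stmt_T4INT := by
  intro N ℓ _ _ hℓ A u
  obtain ⟨hM1, hM2⟩ := hM N ℓ hℓ A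
  constructor
  · intro hu
    have h1 : IntOver A (heckeAlphaBar Qb N ℓ (sF N)) (heckeAlphaBar Qb N ℓ u) :=
      T4INT_intOver_map A _ hu
    have h2 : IntOver A (heckeBetaBar Qb N ℓ (sF N)) (heckeAlphaBar Qb N ℓ u) :=
      T4INT_intOver_trans hM1 h1
    exact T4INT_norm (heckeBetaBar Qb N ℓ) _ _
      (fun z hz => T4INT_mem_polyRing_map A _ _ hz) h2
  · intro hu
    have hs : Transcendental Qb (sF N) := T2_transcendental_sF N
    have hs0 : sF N ≠ 0 := by
      rintro h
      rw [h] at hs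
      exact hs isAlgebraic_zero
    have h1 : LocInt A (heckeAlphaBar Qb N ℓ (sF N))⁻¹ (heckeAlphaBar Qb N ℓ u) := by
      rw [← map_inv₀]
      exact T4INT_locInt_map A _ hu
    have hβ : Transcendental Qb (heckeBetaBar Qb N ℓ (sF N)) := by
      intro h
      exact hs ((isAlgebraic_algHom_iff _ (heckeBetaBar Qb N ℓ).toRingHom.injective).1 h)
    have hα0 : heckeAlphaBar Qb N ℓ (sF N) ≠ 0 := by
      rw [Ne, map_eq_zero]; exact hs0
    have h2 : LocInt A (heckeBetaBar Qb N ℓ (sF N))⁻¹ (heckeAlphaBar Qb N ℓ u) :=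
      stmt_LOCTRANS2 Qb _ A _ _ hα0 hβ hM2 _ h1
    rw [← map_inv₀] at h2
    exact T4INT_norm (heckeBetaBar Qb N ℓ) _ _
      (fun z hz => T4INT_mem_locRing_map A _ _ hz) h2

end Fermat.Agent.RED

end

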