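import Fermat.Agent.RED.Interface2

/-!
# RED-T5of : (T5) from (ConstRed) and Claim K
-/

set_option autoImplicit false

noncomputable section

namespace Fermat.Agent.RED

open AlgebraicCurve ModularCurve Polynomial

theorem stmt_T5_of : Stmt_T5_of := by
  intro hK N ℓ _ hℓ hℓN A hA hC D hD m hm hprin
  have : Fact ℓ.Prime := ⟨hℓ⟩
  have hm0 : m ≠ 0 := by
    rintro rfl
    exact hm (dvd_zero ℓ)
  obtain ⟨f, hf0, hf⟩ := hprin
  obtain ⟨c, y₁, y₂, h₁, h₂, hc, hred, hne, hfy⟩ :=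
    hC f hf0 (m • D) ((ZRed N A).nsmul_mem hD m) hf
  set y : FF N := (⟨_, h₁⟩ : FF N) / ⟨_, h₂⟩ with hy
  have hc' : algebraMap Qb (FF N) c ≠ 0 := by
    rw [Ne, map_eq_zero_iff _ (algebraMap Qb (FF N)).injective]
    exact hc
  have hy0 : y ≠ 0 := by
    rintro h
    rw [h, mul_zero] at hfy
    exact hf0 hfy
  have hord : ∀ P : Pl N, P.ord y = m * D P := by
    intro P
    have h1 := hf P
    rw [hfy, P.ord_mul hc' hy0, Fermat.Agent.S24.ord_algebraMap, zero_add] at h1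
    rw [← h1]
    simp
  obtain ⟨g, hg⟩ := hK N ℓ hℓN A hA m hm y₁ y₂ h₁ h₂ hred hne (fun P => by
    rw [← hy, hord P]; exact dvd_mul_right _ _)
  rw [← hy] at hg
  have hg0 : g ≠ 0 := by
    rintro rfl
    rw [zero_pow hm0] at hg
    exact hy0 hg.symm
  refine ⟨g, hg0, fun P => ?_⟩
  have h2 := hord P
  rw [← hg, ← zpow_natCast, P.ord_zpow] at h2
  have hm' : (m : ℤ) ≠ 0 := by exact_mod_cast hm0
  exact (mul_left_cancel₀ hm' h2).symm

end Fermat.Agent.RED
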