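import Fermat.Agent.RED.Top
import Fermat.Agent.RED.T2
import Fermat.Agent.RED.T5of
import Fermat.Agent.RED.THof
import Fermat.Agent.RED.ClaimK
import Fermat.Agent.RED.Key
import Fermat.Agent.RED.GW
import Fermat.Agent.RED.G4
import Fermat.Agent.RED.G4N
import Fermat.Agent.RED.G2G3
import Fermat.Agent.RED.G1G5
import Fermat.Agent.RED.MatchN
import Fermat.Agent.RED.Coord
import Fermat.Agent.RED.LDA
import Fermat.Agent.RED.LD
import Fermat.Agent.RED.Norm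
import Fermat.Agent.RED.AuxLevel
import Fermat.Agent.RED.ConstRed
import Fermat.Agent.RED.R1
import Fermat.Agent.RED.R2
import Fermat.Agent.RED.R3a
import Fermat.Agent.RED.R3b
import Fermat.Agent.RED.R3c
import Fermat.Agent.RED.R3
import Fermat.Agent.RED.R4
import Fermat.Agent.RED.R5
import Fermat.Agent.RED.R6
import Fermat.Agent.RED.REDA
import Fermat.Agent.RED.Rel
import Fermat.Agent.RED.DegLe
import Fermat.Agent.RED.Cong
import Fermat.Agent.RED.T4C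
import Fermat.Agent.RED.T4Int

/-!
# RED : assembly of everything except GC, R7, MODINT, NORMQ, T4GLUE
-/

set_option autoImplicit false

namespace Fermat.Agent.RED

open AlgebraicCurve ModularCurve

theorem all_KEY : Stmt_KEY.{0} := stmt_KEY stmt_EVINT

theorem all_G4N : Stmt_G4N.{0} := stmt_G4N stmt_G4

theorem all_G2 : Stmt_G2.{0} := stmt_G2 stmt_G4 stmt_G5

theorem all_G3 : Stmt_G3.{0} := stmt_G3 stmt_G1 stmt_G4 stmt_G5

theorem all_TH (N ℓ : ℕ) [NeZero N] [NeZero ℓ] : Stmt_TH N ℓ :=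
  stmt_TH_of stmt_G1 all_G2 all_G3 N ℓ

theorem all_LDA : Stmt_LDA.{0} := stmt_LDA all_G4N stmt_MATCHN_fin stmt_MATCHN_loc

theorem all_LD : Stmt_LD := stmt_LD all_LDA stmt_COORD

theorem all_AUX : Stmt_AUX_all := stmt_AUX_all INJ.Inst.all_ChartT INJ.Inst.all_BranchT

theorem all_T2_of (hGC : Stmt_GC) : Stmt_T2_all := stmt_T2_all (stmt_GW_all' hGC) all_KEY stmt_EVINT

theorem all_R3_of (hGC : Stmt_GC) : Stmt_R3 :=
  stmt_R3 hGC stmt_R1 stmt_R2 stmt_R3a stmt_R3b stmt_R3c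

theorem all_R6_of (hGC : Stmt_GC) : Stmt_R6 := stmt_R6 hGC (all_R3_of hGC) (stmt_R4 hGC)

theorem all_REDA_of (hGC : Stmt_GC) (h7 : Stmt_R7) : Stmt_REDA :=
  stmt_REDA (stmt_R5 hGC) (all_R6_of hGC) h7

theorem all_ConstRed_of (hGC : Stmt_GC) (h7 : Stmt_R7) : Stmt_ConstRed_all :=
  stmt_ConstRed_all all_AUX all_LD (all_REDA_of hGC h7) stmt_NORM (fun N r _ _ => all_TH N r)

theorem all_T5_of (hGC : Stmt_GC) (h7 : Stmt_R7) (N ℓ : ℕ) [NeZero N] (hℓ : ℓ.Prime)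
    (hℓN : ¬ ℓ ∣ N) (A : ValuationSubring Qb) (hA : A.LiesOverPrime ℓ) : Stmt_T5 N ℓ A :=
  stmt_T5_of stmt_ClaimK N ℓ hℓ hℓN A hA (all_ConstRed_of hGC h7 N ℓ hℓ hℓN A hA)

theorem all_T4C_of (hGC : Stmt_GC) (hQ : Stmt_NORMQ) : Stmt_T4C :=
  stmt_T4C hQ stmt_CONG (stmt_GW_all' hGC)

end Fermat.Agent.RED
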