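import Fermat.Agent.RED.Interface1
import Fermat.Agent.ES.Mid.IntRep

/-!
# RED-NORM : the normal form `d = μ · a / b` of the nonzero elements of `FF N`

This is a direct consequence of `ES.Mid.INT.intRep'` (integral representatives), which does not even
need `ℓ ∤ N`.
-/

set_option autoImplicit false

noncomputable section

namespace Fermat.Agent.RED

open AlgebraicCurve ModularCurve

/-- NORM, without any hypothesis on `A`. -/
theorem NORM_strong (N : ℕ) [NeZero N] (A : ValuationSubring Qb) (d : FF N) (hd : d ≠ 0) :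
    ∃ (μ : Qb) (a b : LaurentSeries ↥A), μ ≠ 0 ∧
      incl A a ∈ modularFunctionFieldBar N ∧ incl A b ∈ modularFunctionFieldBar N ∧
      red A a ≠ 0 ∧ red A b ≠ 0 ∧
      HahnSeries.C μ * incl A a = incl A b * (d : LaurentSeries Qb) := by
  obtain ⟨c, y₁, y₂, θ₁, θ₂, hc, h1, h2, he, hy1, hy2⟩ := ES.Mid.INT.intRep' N A d hd
  refine ⟨c, y₁, y₂, hc, ?_, ?_, hy1, hy2, ?_⟩
  · show coeffMap A.subtype y₁ ∈ modularFunctionFieldBar N
    rw [h1]; exact (S24.QX.qExpHom N θ₁).2
  · show coeffMap A.subtype y₂ ∈ modularFunctionFieldBar N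
    rw [h2]; exact (S24.QX.qExpHom N θ₂).2
  · have := congrArg Subtype.val he
    show HahnSeries.C c * coeffMap A.subtype y₁ = coeffMap A.subtype y₂ * (d : LaurentSeries Qb)
    rw [h1, h2, mul_comm _ (d : LaurentSeries Qb)]
    have hC : HahnSeries.C c = ((algebraMap Qb (FF N) c : FF N) : LaurentSeries Qb) := by
      have h1 : ((algebraMap Qb (FF N) c : FF N) : LaurentSeries Qb)
          = algebraMap Qb (LaurentSeries Qb) c := rfl
      rw [h1, ModularCurve.algebraMap_laurentSeries_eq_single, HahnSeries.C_apply]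
    rw [hC]
    exact this.symm

theorem stmt_NORM : Stmt_NORM := by
  intro N ℓ _ _ _ A _ d hd
  exact NORM_strong N A d hd

end Fermat.Agent.RED
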