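import Fermat.Agent.RED.Interface3
import Fermat.Agent.RED.Ev
import Fermat.Agent.RED.GW
import Fermat.Agent.S28.FN7f
import Fermat.Agent.S28.Tower

/-!
# RED-MODINT : `j(q^N)` and `j(q^(N ℓ))` are integral over each other's polynomial rings
-/

set_option autoImplicit false

noncomputable section

namespace Fermat.Agent.RED

open AlgebraicCurve ModularCurve Polynomial

theorem MODINT_core (M : ℕ) (A : ValuationSubring Qb) (Φ : ℤ[X][X]) (hΦ : Φ.Monic)
    (x y : LaurentSeries ℤ) (h : S28.ev2 Φ x y = 0)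
    (ψ : LaurentSeries ℤ →+* LaurentSeries Qb) (X' Y' : FF M)
    (hX : (X' : LaurentSeries Qb) = ψ x) (hY : (Y' : LaurentSeries Qb) = ψ y) :
    IntOver A Y' X' := by
  let g : ℤ[X] →+* FF M := Polynomial.eval₂RingHom (Int.castRingHom (FF M)) Y'
  rw [IntOver, EV_isIntegral_iff]
  refine ⟨Φ.map g, hΦ.map g, fun i => ?_, ?_⟩
  · rw [coeff_map]
    refine ⟨(Φ.coeff i).map (Int.castRingHom ↥A), ?_⟩
    show Polynomial.eval₂ ((algebraMap Qb (FF M)).comp A.subtype) Y'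
      ((Φ.coeff i).map (Int.castRingHom ↥A)) = Polynomial.eval₂ (Int.castRingHom (FF M)) Y' (Φ.coeff i)
    rw [Polynomial.eval₂_map]
    congr 1
    exact RingHom.ext_int _ _
  · rw [eval_map]
    apply Subtype.ext
    have hc : ((modularFunctionFieldBar M).val : FF M →+* LaurentSeries Qb).comp g
        = ψ.comp (S28.evY y) := by
      apply Polynomial.ringHom_ext
      · intro a
        simp [g, S28.evY]
      · simp only [g, S28.evY, RingHom.comp_apply, Polynomial.coe_eval₂RingHom, eval₂_X]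
        exact hY
    have h1 : ((modularFunctionFieldBar M).val : FF M →+* LaurentSeries Qb) (Φ.eval₂ g X')
        = Φ.eval₂ (ψ.comp (S28.evY y)) (ψ x) := by
      rw [Polynomial.hom_eval₂, hc]
      congr 1
    have h2 : ψ (S28.ev2 Φ x y) = Φ.eval₂ (ψ.comp (S28.evY y)) (ψ x) := by
      rw [S28.ev2, Polynomial.hom_eval₂]
    rw [h, map_zero] at h2
    rw [← h2] at h1
    exact h1

theorem stmt_MODINT : Stmt_MODINT := by
  intro N ℓ _ _ hℓ A
  obtain ⟨Φ, hΦ, -, h1, h2⟩ := S28.FN7.hasModPoly_int hℓ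
  let ψ : LaurentSeries ℤ →+* LaurentSeries Qb := (S28.Vq Qb N).comp (S28.cZ Qb)
  have hα : ((heckeAlphaBar Qb N ℓ (sF N) : FF (N * ℓ)) : LaurentSeries Qb) = ψ (jqModC ℤ) := by
    rw [coe_heckeAlphaBar, GW_sF_coe]
    show S28.jd Qb N = S28.Vq Qb N (coeffMap (Int.castRingHom Qb) (jqModC ℤ))
    rw [coeffMap_jqModC, S28.jd]
  have hβ : ((heckeBetaBar Qb N ℓ (sF N) : FF (N * ℓ)) : LaurentSeries Qb) = ψ (S28.jd ℤ ℓ) := by
    rw [coe_heckeBetaBar, GW_sF_coe]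
    show qExpand Qb ℓ (S28.jd Qb N) = S28.Vq Qb N (coeffMap (Int.castRingHom Qb) (S28.jd ℤ ℓ))
    rw [S28.tower_coeffMap_jd, S28.jd, S28.jd, ← S28.Vq_eq,
      S28.tower_Vq_Vq Qb (NeZero.ne ℓ) (NeZero.ne N), S28.tower_Vq_Vq Qb (NeZero.ne N) (NeZero.ne ℓ),
      mul_comm]
  exact ⟨MODINT_core (N * ℓ) A Φ hΦ _ _ h2 ψ _ _ hα hβ, MODINT_core (N * ℓ) A Φ hΦ _ _ h1 ψ _ _ hβ hα⟩

end Fermat.Agent.RED
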