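import Fermat.Agent.RED.Interface3

/-!
# RED-NORMQ : the `q`-expansion of the norm along `β : f(q) ↦ f(q^ℓ)`
-/

set_option autoImplicit false
set_option linter.style.haveILetI false

noncomputable section

namespace Fermat.Agent.RED

open AlgebraicCurve ModularCurve Polynomial

/-- Abstract form: enough pairwise distinct embeddings into a field compute the norm. -/
theorem NORMQ_abs {K₀ L Ω : Type*} [Field K₀] [Field L] [Field Ω] [Algebra K₀ L]
    [FiniteDimensional K₀ L] [Algebra.IsSeparable K₀ L] {I : Type*} [Fintype I]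
    (ι : K₀ →+* Ω) (φ : I → L →+* Ω) (hι : ∀ i x, φ i (algebraMap K₀ L x) = ι x)
    (hφ : Function.Injective φ) (hcard : Module.finrank K₀ L ≤ Fintype.card I) :
    (∀ x : L, ι (Algebra.norm K₀ x) = ∏ i, φ i x) ∧ Module.finrank K₀ L = Fintype.card I := by
  classical
  letI : Algebra K₀ Ω := ι.toAlgebra
  let E := AlgebraicClosure Ω
  let φ' : I → (L →ₐ[K₀] Ω) := fun i => { φ i with commutes' := fun x => hι i x }
  let ψ : I → (L →ₐ[K₀] E) := fun i => (IsScalarTower.toAlgHom K₀ Ω E).comp (φ' i)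
  have hψ : Function.Injective ψ := by
    intro i j hij
    apply hφ
    ext y
    have := DFunLike.congr_fun hij y
    exact (algebraMap Ω E).injective this
  have hc : Fintype.card (L →ₐ[K₀] E) = Module.finrank K₀ L := AlgHom.card K₀ L E
  have hcard' : Fintype.card I = Fintype.card (L →ₐ[K₀] E) :=
    le_antisymm (Fintype.card_le_of_injective ψ hψ) (hc ▸ hcard)
  have hbij : Function.Bijective ψ := by
    rw [Fintype.bijective_iff_injective_and_card]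
    exact ⟨hψ, hcard'⟩
  refine ⟨fun x => ?_, by rw [hcard', hc]⟩
  have h1 := Algebra.norm_eq_prod_embeddings K₀ E x
  apply (algebraMap Ω E).injective
  have h2 : algebraMap Ω E (ι (Algebra.norm K₀ x)) = algebraMap K₀ E (Algebra.norm K₀ x) :=
    (IsScalarTower.algebraMap_apply K₀ Ω E _).symm
  rw [h2, h1, map_prod]
  exact (Fintype.prod_bijective ψ hbij _ _ (fun i => rfl)).symm

/-- `q ↦ ζ q`, `ζ ^ ℓ = 1`, fixes the series in `q ^ ℓ`. -/
theorem NORMQ_scale_Vq {ℓ : ℕ} [NeZero ℓ] {ζ : Qb} (hζ : ζ ^ ℓ = 1)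
    {f : LaurentSeries Qb →+* LaurentSeries Qb} (hf : S28.IsScale ζ f) (x : LaurentSeries Qb) :
    f (qExpand Qb ℓ x) = qExpand Qb ℓ x := by
  ext n
  rw [hf]
  by_cases hn : (ℓ : ℤ) ∣ n
  · obtain ⟨t, rfl⟩ := hn
    rw [zpow_mul, zpow_natCast, hζ, one_zpow, one_mul]
  · rw [qExpand_coeff_of_not_dvd ℓ _ hn, mul_zero]

theorem NORMQ_coeff_jF (N : ℕ) : ((S24.jF N : FF N) : LaurentSeries Qb).coeff (-1) = 1 := by
  show (S24.jBarSeries 1).coeff (-1) = 1
  simp [S24.jBarSeries, ModularCurve.qExpand_one_apply]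

theorem NORMQ_card (ℓ : ℕ) [NeZero ℓ] : (Polynomial.nthRootsFinset ℓ (1 : Qb)).card = ℓ := by
  haveI : NeZero (ℓ : Qb) := ⟨Nat.cast_ne_zero.2 (NeZero.ne ℓ)⟩
  obtain ⟨ζ, hζ⟩ := HasEnoughRootsOfUnity.exists_primitiveRoot Qb ℓ
  exact hζ.card_nthRootsFinset

/-- NORMQ together with the by-product `[FF (N ℓ) : β (FF N)] = ℓ + 1`. -/
theorem NORMQ_main (hR : Stmt_REL) (hD : Stmt_DEGle) (N ℓ : ℕ) [NeZero N] [NeZero ℓ]
    (hℓ : ℓ.Prime) (hℓN : ¬ ℓ ∣ N)
    (ρ : Qb → LaurentSeries Qb →+* LaurentSeries Qb) (hρ : ∀ c, c ≠ 0 → S28.IsScale c (ρ c)) :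
    (∀ y : FF (N * ℓ),
      S28.Vq Qb ℓ ((normBeta N ℓ y : FF N) : LaurentSeries Qb) =
        (Classical.choose (hR N ℓ hℓ hℓN)) y *
          ∏ ζ ∈ Polynomial.nthRootsFinset ℓ (1 : Qb), ρ ζ (y : LaurentSeries Qb)) ∧
      finrankAlong Qb (heckeBetaBar Qb N ℓ) = ℓ + 1 := by
  classical
  obtain ⟨hτβ, hτα⟩ := Classical.choose_spec (hR N ℓ hℓ hℓN)
  set τ := Classical.choose (hR N ℓ hℓ hℓN) with hτ
  obtain ⟨hfin, hdeg⟩ := hD N ℓ hℓ hℓN
  letI := algebraAlong (heckeBetaBar Qb N ℓ)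
  haveI : Module.Finite (FF N) (FF (N * ℓ)) := hfin
  let S := {ζ : Qb // ζ ∈ Polynomial.nthRootsFinset ℓ (1 : Qb)}
  have hS : ∀ ζ : S, (ζ : Qb) ^ ℓ = 1 := fun ζ =>
    (Polynomial.mem_nthRootsFinset (Nat.pos_of_ne_zero (NeZero.ne ℓ)) _).1 ζ.2
  have hS0 : ∀ ζ : S, (ζ : Qb) ≠ 0 := fun ζ h0 => by
    have := hS ζ
    rw [h0, zero_pow (NeZero.ne ℓ)] at this
    exact zero_ne_one this
  let ι : FF N →+* LaurentSeries Qb :=
    (S28.Vq Qb ℓ).comp (modularFunctionFieldBar N).val.toRingHom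
  let φ : Option S → FF (N * ℓ) →+* LaurentSeries Qb := fun o =>
    match o with
    | none => τ.toRingHom
    | some ζ => (ρ ζ).comp (modularFunctionFieldBar (N * ℓ)).val.toRingHom
  have hι : ∀ i x, φ i (algebraMap (FF N) (FF (N * ℓ)) x) = ι x := by
    intro i x
    cases i with
    | none => exact hτβ x
    | some ζ =>
      show ρ ζ ((heckeBetaBar Qb N ℓ x : FF (N * ℓ)) : LaurentSeries Qb) =
        S28.Vq Qb ℓ (x : LaurentSeries Qb)
      rw [coe_heckeBetaBar, NORMQ_scale_Vq (hS ζ) (hρ _ (hS0 ζ)), S28.Vq_eq]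
  have hev_some : ∀ ζ : S, (φ (some ζ) (heckeAlphaBar Qb N ℓ (S24.jF N))).coeff (-1) =
      (ζ : Qb)⁻¹ := by
    intro ζ
    show (ρ ζ ((heckeAlphaBar Qb N ℓ (S24.jF N) : FF (N * ℓ)) : LaurentSeries Qb)).coeff (-1) = _
    rw [coe_heckeAlphaBar, hρ _ (hS0 ζ), NORMQ_coeff_jF, mul_one, zpow_neg_one]
  have hev_none : (φ none (heckeAlphaBar Qb N ℓ (S24.jF N))).coeff (-1) = 0 := by
    show (τ (heckeAlphaBar Qb N ℓ (S24.jF N))).coeff (-1) = 0
    haveI : NeZero (ℓ ^ 2) := ⟨pow_ne_zero _ (NeZero.ne ℓ)⟩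
    rw [hτα, S28.Vq_eq]
    apply qExpand_coeff_of_not_dvd
    intro h
    have h1 : ((ℓ ^ 2 : ℕ) : ℤ) ∣ 1 := by simpa using h
    have h2 : ℓ ^ 2 ∣ 1 := by exact_mod_cast h1
    have h3 : ℓ ^ 2 = 1 := Nat.dvd_one.1 h2
    have h4 := hℓ.two_le
    nlinarith
  have hφ : Function.Injective φ := by
    intro i j hij
    have hc : (φ i (heckeAlphaBar Qb N ℓ (S24.jF N))).coeff (-1) =
        (φ j (heckeAlphaBar Qb N ℓ (S24.jF N))).coeff (-1) := by rw [hij]
    cases i with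
    | none =>
      cases j with
      | none => rfl
      | some ζ =>
        rw [hev_none, hev_some] at hc
        exact absurd hc.symm (inv_ne_zero (hS0 ζ))
    | some ζ =>
      cases j with
      | none =>
        rw [hev_none, hev_some] at hc
        exact absurd hc (inv_ne_zero (hS0 ζ))
      | some ζ' =>
        rw [hev_some, hev_some] at hc
        exact congrArg some (Subtype.ext (inv_injective hc))
  have hcardI : Fintype.card (Option S) = ℓ + 1 := by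
    rw [Fintype.card_option, Fintype.card_coe, NORMQ_card]
  have hcard : Module.finrank (FF N) (FF (N * ℓ)) ≤ Fintype.card (Option S) := by
    rw [hcardI]; exact hdeg
  obtain ⟨h1, h2⟩ := NORMQ_abs ι φ hι hφ hcard
  refine ⟨fun y => ?_, h2.trans hcardI⟩
  have h3 := h1 y
  rw [Fintype.prod_option] at h3
  refine h3.trans ?_
  congr 1
  exact Finset.prod_coe_sort (Polynomial.nthRootsFinset ℓ (1 : Qb))
    (fun ζ => ρ ζ (y : LaurentSeries Qb))

theorem stmt_NORMQ (hR : Stmt_REL) (hD : Stmt_DEGle) : Stmt_NORMQ := by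
  intro N ℓ _ _ hℓ hℓN ρ hρ u
  rw [(NORMQ_main hR hD N ℓ hℓ hℓN ρ hρ).1, (Classical.choose_spec (hR N ℓ hℓ hℓN)).2,
    coe_heckeAlphaBar]

/-- by-product: the degree of `β`. -/
theorem NORMQ_finrank (hR : Stmt_REL) (hD : Stmt_DEGle) (N ℓ : ℕ) [NeZero N] [NeZero ℓ]
    (hℓ : ℓ.Prime) (hℓN : ¬ ℓ ∣ N)
    (ρ : Qb → LaurentSeries Qb →+* LaurentSeries Qb) (hρ : ∀ c, c ≠ 0 → S28.IsScale c (ρ c)) :
    finrankAlong Qb (heckeBetaBar Qb N ℓ) = ℓ + 1 :=
  (NORMQ_main hR hD N ℓ hℓ hℓN ρ hρ).2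

end Fermat.Agent.RED
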