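import Fermat.Agent.RED.Interface4

/-! # RED / R7 : a function regular at all `k`-points of `Spec Bt` is integral over `k[tb]`. -/

set_option autoImplicit false

noncomputable section

namespace Fermat.Agent.RED

open Polynomial IntermediateField Fermat.Agent.INJ

/-- the residue field of a maximal ideal of a ring integral over a finitely generated algebra over
an algebraically closed field `k` is `k`. -/
theorem R7_bijective (k R B : Type) [Field k] [IsAlgClosed k] [CommRing R] [Algebra k R]
    [Algebra.FiniteType k R] [CommRing B] [Algebra R B] [Algebra k B] [IsScalarTower k R B]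
    [Algebra.IsIntegral R B] (n : Ideal B) [hn : n.IsMaximal] :
    Function.Bijective (algebraMap k (B ⧸ n)) := by
  let p : Ideal R := n.comap (algebraMap R B)
  have hp : p.IsMaximal := Ideal.isMaximal_comap_of_isIntegral_of_isMaximal n
  let _ : Field (R ⧸ p) := Ideal.Quotient.field p
  let _ : Field (B ⧸ n) := Ideal.Quotient.field n
  have hfin : Module.Finite k (R ⧸ p) := finite_of_finite_type_of_isJacobsonRing k (R ⧸ p)
  have h1 : (algebraMap k (R ⧸ p)).IsIntegral := Algebra.IsIntegral.isIntegral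
  have h2 : (Ideal.quotientMap n (algebraMap R B) le_rfl).IsIntegral :=
    RingHom.IsIntegral.quotient (algebraMap R B) Algebra.IsIntegral.isIntegral
  have h3 := RingHom.IsIntegral.trans _ _ h1 h2
  have h4 : (Ideal.quotientMap n (algebraMap R B) le_rfl).comp (algebraMap k (R ⧸ p)) =
      algebraMap k (B ⧸ n) := by
    ext c
    show Ideal.quotientMap n (algebraMap R B) le_rfl (Ideal.Quotient.mk p (algebraMap k R c)) =
      Ideal.Quotient.mk n (algebraMap k B c)
    rw [Ideal.quotientMap_mk, ← IsScalarTower.algebraMap_apply]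
  rw [h4] at h3
  have : Algebra.IsIntegral k (B ⧸ n) := ⟨h3⟩
  exact IsAlgClosed.algebraMap_bijective_of_isIntegral

theorem R7_point (k R B : Type) [Field k] [IsAlgClosed k] [CommRing R] [Algebra k R]
    [Algebra.FiniteType k R] [CommRing B] [Algebra R B] [Algebra k B] [IsScalarTower k R B]
    [Algebra.IsIntegral R B] (n : Ideal B) [hn : n.IsMaximal] :
    ∃ χ : B →+* k, (∀ c, χ (algebraMap k B c) = c) ∧ ∀ b ∈ n, χ b = 0 := by
  let e := RingEquiv.ofBijective (algebraMap k (B ⧸ n)) (R7_bijective k R B n)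
  refine ⟨(e.symm : (B ⧸ n) →+* k).comp (Ideal.Quotient.mk n), fun c => ?_, fun b hb => ?_⟩
  · show e.symm (Ideal.Quotient.mk n (algebraMap k B c)) = c
    rw [RingEquiv.symm_apply_eq]
    rfl
  · show e.symm (Ideal.Quotient.mk n b) = 0
    rw [Ideal.Quotient.eq_zero_iff_mem.2 hb, map_zero]

theorem stmt_R7 : Stmt_R7 := by
  intro k Fb _ _ _ _ tb _htr φ H
  classical
  by_contra hφ
  let R := Algebra.adjoin k {tb}
  let Bt := integralClosure R Fb
  have memBt : ∀ y : Fb, y ∈ Bt ↔ IsInt k tb y := fun y => Iff.rfl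
  let I : Ideal Bt :=
    { carrier := {b | (b : Fb) * φ ∈ Bt}
      add_mem' := fun {a b} ha hb => by
        show ((a + b : Bt) : Fb) * φ ∈ Bt
        rw [Subalgebra.coe_add, add_mul]
        exact add_mem ha hb
      zero_mem' := by
        show ((0 : Bt) : Fb) * φ ∈ Bt
        rw [Subalgebra.coe_zero, zero_mul]
        exact zero_mem _
      smul_mem' := fun c b hb => by
        show ((c * b : Bt) : Fb) * φ ∈ Bt
        rw [Subalgebra.coe_mul, mul_assoc]
        exact mul_mem c.2 hb }
  have hI : I ≠ ⊤ := by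
    intro h
    apply hφ
    have h1 : (1 : Bt) ∈ I := h ▸ Submodule.mem_top
    have h2 : ((1 : Bt) : Fb) * φ ∈ Bt := h1
    rwa [Subalgebra.coe_one, one_mul] at h2
  obtain ⟨n, hn, hIn⟩ := Ideal.exists_le_maximal I hI
  have hfg : (Algebra.adjoin k {tb}).FG := by
    have h := Subalgebra.fg_adjoin_finset (R := k) ({tb} : Finset Fb)
    rwa [Finset.coe_singleton] at h
  have hft : Algebra.FiniteType k R := (Subalgebra.fg_iff_finiteType _).1 hfg
  obtain ⟨χ, hχc, hχn⟩ := R7_point k R Bt n
  let ρ : Fb → k := fun y => if h : IsInt k tb y then χ ⟨y, h⟩ else 0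
  have hρ1 : ∀ y (h : IsInt k tb y), ρ y = χ ⟨y, h⟩ := fun y h => dif_pos h
  have hρ : IsPt k tb ρ := by
    refine ⟨fun y z hy hz => ?_, fun y z hy hz => ?_, fun c => ?_⟩
    · rw [hρ1 y hy, hρ1 z hz, hρ1 (y + z) (IsIntegral.add hy hz), ← map_add]
      rfl
    · rw [hρ1 y hy, hρ1 z hz, hρ1 (y * z) (IsIntegral.mul hy hz), ← map_mul]
      rfl
    · have hc : IsInt k tb (algebraMap k Fb c) := (algebraMap k Bt c).2
      rw [hρ1 _ hc]
      exact hχc c
  obtain ⟨a, b, ha, hb, hρb, hab⟩ := H ρ hρ
  apply hρb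
  have h1 : (⟨b, hb⟩ : Bt) ∈ I := by
    show b * φ ∈ Bt
    rw [hab]
    exact ha
  rw [hρ1 b hb, hχn _ (hIn h1)]

end Fermat.Agent.RED
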