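import Fermat.Agent.RED.Interface3
import Fermat.Agent.S28.Scale

/-!
# RED (S37), task T4C : the Eichler–Shimura congruence for norms of functions
`stmt_T4C (hQ : Stmt_NORMQ) (hC : Stmt_CONG) (hGW : Stmt_GW_all) : Stmt_T4C`.
-/

set_option autoImplicit false

noncomputable section

namespace Fermat.Agent.RED

open AlgebraicCurve ModularCurve Polynomial IntermediateField

theorem T4C_coe_inv_smul (N : ℕ) (σ : GQ) (u : FF N) :
    (((gal N σ)⁻¹ • u : FF N) : LaurentSeries Qb) =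
      coeffMap (σ.symm : Qb →+* Qb) (u : LaurentSeries Qb) := by
  rw [← map_inv, coe_arithmeticGalois_smul]
  rfl

theorem T4C_incl_injective (A : ValuationSubring Qb) : Function.Injective (incl A) :=
  S28.BC.coeffMap_injective A.subtype_injective

theorem stmt_T4C (hQ : Stmt_NORMQ) (hC : Stmt_CONG) (hGW : Stmt_GW_all) : Stmt_T4C := by
  intro N ℓ _ _ hℓ hℓN A hA σ hσ u hu
  obtain ⟨W, hW, hWn, -, -⟩ := hGW N ℓ hℓ hℓN A hA
  rw [← hWn]
  by_contra hdW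
  rw [ValuationSubring.mem_nonunits_iff_or, not_or, not_not] at hdW
  obtain ⟨hd0, hdinv⟩ := hdW
  set d : FF N := normBeta N ℓ (heckeAlphaBar Qb N ℓ u) -
    ((gal N σ)⁻¹ • u) ^ ℓ * (gal N σ • u) with hd
  obtain ⟨a₁, b₁, hb₁, hab₁⟩ := (hW _).mp hdinv
  obtain ⟨a, b, hb, hab⟩ := hu
  have hρ : ∀ c : Qb, c ≠ 0 → S28.IsScale c (S28.scale c) := fun c hc => S28.isScale_scale hc
  obtain ⟨a', b', ha', hb', hab'⟩ := hC ℓ hℓ A hA σ hσ S28.scale hρ (u : LaurentSeries Qb) a b hb hab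
  have hVd : S28.Vq Qb ℓ (d : LaurentSeries Qb) =
      S28.Vq Qb (ℓ ^ 2) (u : LaurentSeries Qb) *
        ∏ ζ ∈ Polynomial.nthRootsFinset ℓ (1 : Qb), S28.scale ζ (u : LaurentSeries Qb) -
      S28.Vq Qb ℓ (coeffMap (σ.symm : Qb →+* Qb) (u : LaurentSeries Qb) ^ ℓ *
        coeffMap (σ : Qb →+* Qb) (u : LaurentSeries Qb)) := by
    rw [← hQ N ℓ hℓ hℓN S28.scale hρ u, ← map_sub, ← T4C_coe_inv_smul,
      ← coe_arithmeticGalois_smul]
    rfl
  rw [← hVd] at hab'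
  -- `incl b₁ = incl a₁ * d`
  have hd0' : (d : LaurentSeries Qb) ≠ 0 := fun h => hd0 (Subtype.ext h)
  have h1 : incl A b₁ = incl A a₁ * (d : LaurentSeries Qb) := by
    rw [hab₁]
    show _ = _ * (d : LaurentSeries Qb)⁻¹ * _
    rw [mul_assoc, inv_mul_cancel₀ hd0', mul_one]
  have h2 : incl A (S28.Vq ↥A ℓ b₁) = incl A (S28.Vq ↥A ℓ a₁) * S28.Vq Qb ℓ (d : LaurentSeries Qb) := by
    rw [S28.BC.coeffMap_Vq, S28.BC.coeffMap_Vq, h1, map_mul]
  have h3 : S28.Vq ↥A ℓ b₁ * b' = S28.Vq ↥A ℓ a₁ * a' := by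
    apply T4C_incl_injective A
    rw [map_mul, map_mul, h2, hab']
    ring
  have h4 := congrArg (red A) h3
  rw [map_mul, map_mul, ha', mul_zero, S28.BC.coeffMap_Vq] at h4
  rcases mul_eq_zero.mp h4 with h5 | h5
  · exact hb₁ ((S28.Vq_eq_zero_iff ℓ _).mp h5)
  · exact hb' h5

end Fermat.Agent.RED
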