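import Fermat.Agent.RED.T4
import Fermat.Agent.RED.T4Int
import Fermat.Agent.RED.T4C
import Fermat.Agent.RED.Cong
import Fermat.Agent.RED.G4
import Fermat.Agent.RED.G4N
import Fermat.Agent.RED.G1G5
import Fermat.Agent.RED.MatchN

/-!
# RED-T4GLUE, bonus : `Stmt_T4_all` with all the landed inputs plugged in
-/

set_option autoImplicit false

namespace Fermat.Agent.RED

theorem T4GLUE_stmt_TUBE : Stmt_TUBE.{0} :=
  fun K F _ _ _ _ _ A x y hx hfd hy0 hy P c hc hEv =>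
    stmt_TUBE' K F A x y hx hfd hy hy0 P c hc hEv

/-- `Stmt_T4_all` from T4C, MODINT and GW only. -/
theorem stmt_T4_all_of (hC : Stmt_T4C) (hM : Stmt_MODINT) (hGW : Stmt_GW_all) : Stmt_T4_all :=
  stmt_T4_all hC (stmt_T4INT hM) hM (stmt_G4N stmt_G4) stmt_G5 stmt_MATCHN_fin stmt_MATCHN_loc
    T4GLUE_stmt_TUBE hGW

/-- `Stmt_T4_all` from NORMQ, MODINT and GW only. -/
theorem stmt_T4_all_of' (hQ : Stmt_NORMQ) (hM : Stmt_MODINT) (hGW : Stmt_GW_all) : Stmt_T4_all :=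
  stmt_T4_all_of (stmt_T4C hQ stmt_CONG hGW) hM hGW

end Fermat.Agent.RED
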