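import Fermat.Agent.RED.AllPre
import Fermat.Agent.RED.GC
import Fermat.Agent.RED.R7
import Fermat.Agent.RED.ModInt
import Fermat.Agent.RED.NormQ
import Fermat.Agent.RED.T4Of

/-!
# RED : final assembly (T2, T4, T5, TH unconditionally)
-/

set_option autoImplicit false

namespace Fermat.Agent.RED

open AlgebraicCurve ModularCurve

theorem all_GW : Stmt_GW_all := stmt_GW_all' stmt_GC

theorem all_T2 : Stmt_T2_all := all_T2_of stmt_GC

theorem all_NORMQ : Stmt_NORMQ := stmt_NORMQ stmt_REL stmt_DEGle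

theorem all_T4 : Stmt_T4_all := stmt_T4_all_of' all_NORMQ stmt_MODINT all_GW

theorem all_T5 (N ℓ : ℕ) [NeZero N] (hℓ : ℓ.Prime) (hℓN : ¬ ℓ ∣ N) (A : ValuationSubring Qb)
    (hA : A.LiesOverPrime ℓ) : Stmt_T5 N ℓ A :=
  all_T5_of stmt_GC stmt_R7 N ℓ hℓ hℓN A hA

end Fermat.Agent.RED
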