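import Fermat.Agent.RED.G4Interface

/-!
# RED-G4 : assembly of `Stmt_G4` from the packages of `G4Interface`
-/

set_option autoImplicit false

noncomputable section

namespace Fermat.Agent.RED

open AlgebraicCurve Polynomial IntermediateField

universe u

section Basic

variable {K F : Type u} [Field K] [Field F] [Algebra K F]

theorem G4_ev_iff (P : Place K F) (y : F) (c : K) :
    Ev P y c ↔ S27.VanishesAt P (y - algebraMap K F c) := by
  unfold Ev
  rw [S27.vanishesAt_iff_valuation_lt_one, ValuationSubring.mem_nonunits_iff]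

theorem G4_regular_of_ev {P : Place K F} {y : F} {c : K} (h : Ev P y c) : S27.RegularAt P y :=
  S27.HasValueAt.regularAt ⟨c, (G4_ev_iff P y c).1 h⟩

/-- evaluation at `v` as a ring homomorphism `O_v → K`. -/
def G4_evHom [IsAlgClosed K] (hFF : S27.IsFF K F) (v : Place K F) : v.toValuationSubring →+* K where
  toFun a := S27.evalAt v (a : F)
  map_one' := S27.evalAt_one v
  map_mul' a b := S27.evalAt_mul hFF (S27.regularAt_iff_mem.2 a.2) (S27.regularAt_iff_mem.2 b.2)
  map_zero' := S27.evalAt_zero v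
  map_add' a b := S27.evalAt_add hFF (S27.regularAt_iff_mem.2 a.2) (S27.regularAt_iff_mem.2 b.2)

theorem G4_ev_evHom [IsAlgClosed K] (hFF : S27.IsFF K F) (v : Place K F)
    (a : v.toValuationSubring) : Ev v (a : F) (G4_evHom hFF v a) :=
  (G4_ev_iff v _ _).2 (S27.evalAt_spec hFF (S27.regularAt_iff_mem.2 a.2))

/-- pure algebra: charpoly of a matrix with entries in a subring, evaluated. -/
theorem G4_charpoly_coeff [IsAlgClosed K] (hFF : S27.IsFF K F) (v : Place K F) {n : Type u}
    [Fintype n] [DecidableEq n] (M : Matrix n n F) (hM : ∀ α β, S27.RegularAt v (M α β)) (i : ℕ) :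
    Ev v (M.charpoly.coeff i)
      ((Matrix.of fun α β => S27.evalAt v (M α β)).charpoly.coeff i) := by
  set MR : Matrix n n v.toValuationSubring :=
    Matrix.of fun α β => ⟨M α β, S27.regularAt_iff_mem.1 (hM α β)⟩ with hMR
  have h1 : M = MR.map v.toValuationSubring.subtype := by
    ext α β
    rfl
  have h2 : (Matrix.of fun α β => S27.evalAt v (M α β)) = MR.map (G4_evHom hFF v) := by
    ext α β
    rfl
  rw [h2, Matrix.charpoly_map, coeff_map]
  conv_lhs => rw [h1]
  rw [Matrix.charpoly_map, coeff_map]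
  exact G4_ev_evHom hFF v _

end Basic

section Ext

variable {K F F' : Type u} [Field K] [Field F] [Field F'] [Algebra K F] [Algebra K F']
  [Algebra F F'] [IsScalarTower K F F'] [Algebra.IsIntegral F F'] [HasPrincipalDivisors K F']

theorem G4_card_idx (v : Place K F) :
    Fintype.card (G4Idx F' v) = ∑ w ∈ v.fiber F', w.ramificationIndex F := by
  rw [Fintype.card_sigma]
  simp only [Fintype.card_fin]
  exact Finset.sum_coe_sort (v.fiber F') (fun w => w.ramificationIndex F)

theorem G4_regular_b {v : Place K F} {b : G4Idx F' v → F'} (hb : G4Adapted v b) (α : G4Idx F' v)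
    (w : ↥(v.fiber F')) : S27.RegularAt (w : Place K F') (b α) := by
  refine S27.regularAt_of_ord_nonneg ?_
  by_cases h : w = α.1
  · rw [h, hb.ord_self]
    exact Int.natCast_nonneg _
  · exact (Int.natCast_nonneg _).trans (hb.ord_other α w h)

/-- the entries of the matrix of `u`, reduced at `v`. -/
theorem G4_entries (hKEY : Stmt_G4_KEY.{u}) (hLIN : Stmt_G4_LIN.{u})
    {v : Place K F} {b : G4Idx F' v → F'}
    (hb : G4Adapted v b) (u : F') (val : Place K F' → K) (hval : ∀ w ∈ v.fiber F', Ev w u (val w))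
    (β : G4Idx F' v) (c : G4Idx F' v → F) (hc : u * b β = ∑ α, c α • b α) :
    (∀ α, S27.RegularAt v (c α)) ∧ S27.evalAt v (c β) = val β.1 ∧
      (∀ α : G4Idx F' v, α.1 ≠ β.1 → S27.evalAt v (c α) = 0) ∧
      (∀ j : Fin ((β.1 : Place K F').ramificationIndex F), j < β.2 →
        S27.evalAt v (c ⟨β.1, j⟩) = 0) := by
  classical
  have hureg : ∀ w : ↥(v.fiber F'), S27.RegularAt (w : Place K F') u :=
    fun w => G4_regular_of_ev (hval w w.2)
  have hcreg : ∀ α, S27.RegularAt v (c α) := by
    refine (hLIN K F F' v b hb).2 c fun w hw => ?_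
    rw [← hc]
    exact S27.regularAt_mul (hureg ⟨w, hw⟩) (G4_regular_b hb β ⟨w, hw⟩)
  set κ : K := val β.1 with hκ
  set g : F' := u - algebraMap K F' κ with hg
  set d : G4Idx F' v → F := fun α => c α - (if α = β then algebraMap K F κ else 0) with hd
  have hdreg : ∀ α, S27.RegularAt v (d α) := by
    intro α
    refine S27.regularAt_sub (hcreg α) ?_
    split_ifs
    · exact S27.regularAt_algebraMap v κ
    · exact S27.regularAt_zero v
  have hsum : ∑ α, d α • b α = g * b β := by
    simp only [hd, sub_smul, Finset.sum_sub_distrib, ite_smul, zero_smul, Finset.sum_ite_eq',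
      Finset.mem_univ, if_true]
    rw [← hc, hg, sub_mul, algebraMap_smul, Algebra.smul_def]
  have hgvan : S27.VanishesAt (β.1 : Place K F') g := (G4_ev_iff _ _ _).1 (hval β.1 β.1.2)
  have hgreg : ∀ w : ↥(v.fiber F'), S27.RegularAt (w : Place K F') g := fun w =>
    S27.regularAt_sub (hureg w) (S27.regularAt_algebraMap _ κ)
  -- the order of `z = g * b β`
  have hz1 : ∑ α, d α • b α = 0 ∨
      (((β.2 : ℕ) + 1 : ℕ) : ℤ) ≤ (β.1 : Place K F').ord (∑ α, d α • b α) := by
    rw [hsum]
    rcases eq_or_ne g 0 with h0 | h0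
    · left; rw [h0, zero_mul]
    · right
      rw [Place.ord_mul _ h0 (hb.ne_zero β), hb.ord_self]
      have := hgvan.ord_pos h0
      push_cast
      omega
  have hz2 : ∀ w : ↥(v.fiber F'), w ≠ β.1 → (∑ α, d α • b α = 0 ∨
      (((w : Place K F').ramificationIndex F : ℕ) : ℤ) ≤
        (w : Place K F').ord (∑ α, d α • b α)) := by
    intro w hw
    rw [hsum]
    rcases eq_or_ne g 0 with h0 | h0
    · left; rw [h0, zero_mul]
    · right
      rw [Place.ord_mul _ h0 (hb.ne_zero β)]
      have h1 := (hgreg w).ord_nonneg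
      have h2 := hb.ord_other β w hw
      omega
  have key1 := hKEY K F F' v b hb d hdreg β.1 ((β.2 : ℕ) + 1) (Nat.succ_le_of_lt β.2.2) hz1
  refine ⟨hcreg, ?_, ?_, ?_⟩
  · have h := key1 β.2 (Nat.lt_succ_self _)
    have h2 : d ⟨β.1, β.2⟩ = c β - algebraMap K F κ := by
      show c β - (if β = β then algebraMap K F κ else 0) = _
      rw [if_pos rfl]
    rw [h2] at h
    exact S27.evalAt_unique v _ _ h
  · intro α hα
    have h := hKEY K F F' v b hb d hdreg α.1 _ le_rfl (hz2 α.1 hα) α.2 α.2.2
    have h2 : d ⟨α.1, α.2⟩ = c α := by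
      show c α - (if α = β then algebraMap K F κ else 0) = _
      rw [if_neg (fun h => hα (congrArg Sigma.fst h)), sub_zero]
    rw [h2] at h
    exact S27.evalAt_eq_zero_of_vanishesAt h
  · intro j hj
    have h := key1 j (Nat.lt_succ_of_lt hj)
    have h2 : d ⟨β.1, j⟩ = c ⟨β.1, j⟩ := by
      show c ⟨β.1, j⟩ - (if (⟨β.1, j⟩ : G4Idx F' v) = β then algebraMap K F κ else 0) = _
      rw [if_neg, sub_zero]
      intro h
      have h3 : (⟨β.1, j⟩ : G4Idx F' v) = ⟨β.1, β.2⟩ := h
      rw [Sigma.mk.inj_iff] at h3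
      exact absurd (eq_of_heq h3.2) (ne_of_lt hj)
    rw [h2] at h
    exact S27.evalAt_eq_zero_of_vanishesAt h

end Ext

/-- `Stmt_G4` from the packages. -/
theorem stmt_G4_of (hFF : Stmt_G4_FF.{u}) (hEX : Stmt_G4_EX.{u}) (hKEY : Stmt_G4_KEY.{u})
    (hLIN : Stmt_G4_LIN.{u}) (hFI : Stmt_G4_FI.{u}) (hMAT : Stmt_G4_MAT.{u}) : Stmt_G4.{u} := by
  classical
  intro K F F' _ _ _ _ _ _ _ _ _ _ _ _ x hx hfd v u val hval i
  have hF : S27.IsFF K F := ⟨x, hx, hfd⟩
  obtain ⟨hx', hfd', -⟩ := hFF K F F' x hx hfd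
  -- the inequality at all places
  have hle : ∀ v : Place K F, ∑ w ∈ v.fiber F', w.ramificationIndex F ≤ Module.finrank F F' := by
    intro v
    obtain ⟨b, hb⟩ := hEX K F F' _ hx' hfd' v
    rw [← G4_card_idx]
    exact (hLIN K F F' v b hb).1.fintype_card_le_finrank
  obtain ⟨b, hb⟩ := hEX K F F' _ hx' hfd' v
  have hli := (hLIN K F F' v b hb).1
  have hcard : Fintype.card (G4Idx F' v) = Module.finrank F F' := by
    rw [G4_card_idx]
    exact hFI K F F' x hx hfd hle v
  have hne : Nonempty (G4Idx F' v) := Fintype.card_pos_iff.mp (by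
    rw [hcard]; exact Module.finrank_pos)
  set B : Module.Basis (G4Idx F' v) F F' := basisOfLinearIndependentOfCardEqFinrank hli hcard
    with hB
  have hBb : ∀ α, B α = b α := fun α => by
    rw [hB, coe_basisOfLinearIndependentOfCardEqFinrank]
  set M : Matrix (G4Idx F' v) (G4Idx F' v) F := LinearMap.toMatrix B B (Algebra.lmul F F' u)
    with hM
  have hcol : ∀ β, u * b β = ∑ α, M α β • b α := by
    intro β
    have h1 := B.sum_repr (u * b β)
    rw [← h1]
    refine Finset.sum_congr rfl fun α _ => ?_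
    rw [hM, LinearMap.toMatrix_apply, hBb, hBb]
    rfl
  have hent := fun β => G4_entries hKEY hLIN hb u val hval β (fun α => M α β) (hcol β)
  have h1 := G4_charpoly_coeff hF v M (fun α β => (hent β).1 α) i
  rw [hM, LinearMap.charpoly_toMatrix] at h1
  have h2 := hMAT K ↥(v.fiber F') (fun w => (w : Place K F').ramificationIndex F)
    (fun w => val w) (Matrix.of fun α β => S27.evalAt v (M α β))
    (fun α => (hent α).2.1) (fun α β hαβ => (hent β).2.2.1 α hαβ)
    (fun w a c hac => (hent ⟨w, c⟩).2.2.2 a hac)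
  rw [← hM, h2] at h1
  rw [← Finset.prod_coe_sort (v.fiber F')
    (fun w => (X - C (val w)) ^ (w.ramificationIndex F))]
  exact h1

end Fermat.Agent.RED
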