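import Fermat.Agent.RED.Interface1
import Fermat.Agent.S27.EvalAt

/-!
# RED-G4 (sub-lead helper34): interface of the split of `Stmt_G4`

ROUTE ("adapted basis", no Dedekind domains).  `v` a place of `F`, `W = v.fiber F'`,
`e w = w.ramificationIndex F`.  Choose `b (w, i) ∈ F'` (`w ∈ W`, `i < e w`) with
`ord_w (b (w,i)) = i` and `ord_w' (b (w,i)) ≥ e w'` for the other `w' ∈ W` (`EX`, from Riemann's
theorem of S27).  `KEY`: the order at `w` of `∑ c α • b α` (`c α ∈ O_v`) is the first `j` such that
`c (w,j)` is a unit at `v`.  Hence the family is linearly independent over `F`, so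
`∑ e w ≤ [F':F]`; equality by `FI` (from the fundamental identity of S24 over `K(t)`); so `b` is a
basis of `F'/F`, in which the matrix of `u` has entries in `O_v` and is triangular mod `𝔪_v` with
diagonal entries `u(w)`.
-/

set_option autoImplicit false

noncomputable section

namespace Fermat.Agent.RED

open AlgebraicCurve Polynomial IntermediateField

universe u

section Defs

variable {K F : Type u} (F' : Type u) [Field K] [Field F] [Field F'] [Algebra K F] [Algebra K F']
  [Algebra F F'] [IsScalarTower K F F'] [Algebra.IsIntegral F F'] [HasPrincipalDivisors K F']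

/-- index set of the adapted family: pairs `(w, i)`, `w ∣ v`, `i < e(w ∣ v)`. -/
abbrev G4Idx (v : Place K F) : Type u :=
  Σ w : ↥(v.fiber F'), Fin ((w : Place K F').ramificationIndex F)

variable {F'}

/-- the family `b` is adapted to the places above `v`. -/
structure G4Adapted (v : Place K F) (b : G4Idx F' v → F') : Prop where
  ne_zero : ∀ α, b α ≠ 0
  ord_self : ∀ α, (α.1 : Place K F').ord (b α) = ((α.2 : ℕ) : ℤ)
  ord_other : ∀ (α : G4Idx F' v) (w' : ↥(v.fiber F')), w' ≠ α.1 →
    (((w' : Place K F').ramificationIndex F : ℕ) : ℤ) ≤ (w' : Place K F').ord (b α)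

end Defs

/-- G4-FF: a finite extension of a function field is a function field, with the degree formula. -/
def Stmt_G4_FF : Prop :=
  ∀ (K F F' : Type u) [Field K] [Field F] [Field F'] [Algebra K F] [Algebra K F'] [Algebra F F']
    [IsScalarTower K F F'] [Module.Finite F F'] (x : F), Transcendental K x →
    FiniteDimensional K⟮x⟯ F →
    Transcendental K (algebraMap F F' x) ∧ FiniteDimensional K⟮algebraMap F F' x⟯ F' ∧
      Module.finrank K⟮algebraMap F F' x⟯ F' = Module.finrank K⟮x⟯ F * Module.finrank F F'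

/-- G4-APPROX: a function with prescribed order at one place and lower bounds for the orders at
finitely many other places. -/
def Stmt_G4_APPROX : Prop :=
  ∀ (K F : Type u) [Field K] [IsAlgClosed K] [CharZero K] [Field F] [Algebra K F] (x : F),
    Transcendental K x → FiniteDimensional K⟮x⟯ F →
    ∀ (T : Finset (Place K F)) (m : Place K F → ℤ) (w : Place K F), w ∈ T →
      ∃ f : F, f ≠ 0 ∧ w.ord f = m w ∧ ∀ w' ∈ T, m w' ≤ w'.ord f

/-- G4-EX: adapted families exist. -/
def Stmt_G4_EX : Prop :=
  ∀ (K F F' : Type u) [Field K] [IsAlgClosed K] [CharZero K] [Field F] [Field F'] [Algebra K F]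
    [Algebra K F'] [Algebra F F'] [IsScalarTower K F F'] [Algebra.IsIntegral F F']
    [HasPrincipalDivisors K F'] (x' : F'), Transcendental K x' → FiniteDimensional K⟮x'⟯ F' →
    ∀ v : Place K F, ∃ b : G4Idx F' v → F', G4Adapted v b

/-- G4-KEY: if `∑ c α • b α` (`c α` regular at `v`) has order `≥ m` at `w` (`m ≤ e w`), then the
`c (w, j)`, `j < m`, vanish at `v`. -/
def Stmt_G4_KEY : Prop :=
  ∀ (K F F' : Type u) [Field K] [Field F] [Field F'] [Algebra K F]
    [Algebra K F'] [Algebra F F'] [IsScalarTower K F F'] [Algebra.IsIntegral F F']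
    [HasPrincipalDivisors K F'] (v : Place K F) (b : G4Idx F' v → F'), G4Adapted v b →
    ∀ c : G4Idx F' v → F, (∀ α, S27.RegularAt v (c α)) →
    ∀ (w : ↥(v.fiber F')) (m : ℕ), m ≤ (w : Place K F').ramificationIndex F →
      (∑ α, c α • b α = 0 ∨ (m : ℤ) ≤ (w : Place K F').ord (∑ α, c α • b α)) →
      ∀ j : Fin ((w : Place K F').ramificationIndex F), (j : ℕ) < m → S27.VanishesAt v (c ⟨w, j⟩)

/-- G4-FI: the fundamental identity `∑ e = n` from the inequality `∑ e ≤ n` at all places. -/
def Stmt_G4_FI : Prop :=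
  ∀ (K F F' : Type u) [Field K] [IsAlgClosed K] [CharZero K] [Field F] [Field F'] [Algebra K F]
    [Algebra K F'] [Algebra F F'] [IsScalarTower K F F'] [Algebra.IsIntegral F F']
    [HasPrincipalDivisors K F'] [Module.Finite F F'] (x : F), Transcendental K x →
    FiniteDimensional K⟮x⟯ F →
    (∀ v : Place K F, ∑ w ∈ v.fiber F', w.ramificationIndex F ≤ Module.finrank F F') →
    ∀ v : Place K F, ∑ w ∈ v.fiber F', w.ramificationIndex F = Module.finrank F F'

/-- G4-LIN: consequences of KEY: linear independence, and integrality of the coordinates. -/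
def Stmt_G4_LIN : Prop :=
  ∀ (K F F' : Type u) [Field K] [Field F] [Field F'] [Algebra K F]
    [Algebra K F'] [Algebra F F'] [IsScalarTower K F F'] [Algebra.IsIntegral F F']
    [HasPrincipalDivisors K F'] (v : Place K F) (b : G4Idx F' v → F'), G4Adapted v b →
    LinearIndependent F b ∧
    ∀ c : G4Idx F' v → F, (∀ w ∈ v.fiber F', S27.RegularAt w (∑ α, c α • b α)) →
      ∀ α, S27.RegularAt v (c α)

/-- G4-MAT: pure matrix statement.  A matrix which is "triangular inside the blocks and zero outside
the blocks" has the expected characteristic polynomial. -/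
def Stmt_G4_MAT : Prop :=
  ∀ (k : Type u) [Field k] (ι : Type u) [Fintype ι] [DecidableEq ι] (e : ι → ℕ) (d : ι → k)
    (M : Matrix (Σ i : ι, Fin (e i)) (Σ i : ι, Fin (e i)) k),
    (∀ α, M α α = d α.1) →
    (∀ α β : Σ i : ι, Fin (e i), α.1 ≠ β.1 → M α β = 0) →
    (∀ (i : ι) (a b : Fin (e i)), a < b → M ⟨i, a⟩ ⟨i, b⟩ = 0) →
    M.charpoly = ∏ i, (X - C (d i)) ^ e i

end Fermat.Agent.RED
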