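import Fermat.Agent.RED.G4Interface

/-!
# RED-G4, package KEY: the order of a combination of the adapted family
-/

set_option autoImplicit false

noncomputable section

namespace Fermat.Agent.RED

open AlgebraicCurve Polynomial IntermediateField

universe u

section

variable {K F : Type*} [Field K] [Field F] [Algebra K F]

theorem G4KEY_ge_add (w : Place K F) (N : ℤ) {f g : F} (hf : f = 0 ∨ N ≤ w.ord f)
    (hg : g = 0 ∨ N ≤ w.ord g) : f + g = 0 ∨ N ≤ w.ord (f + g) := by
  rcases eq_or_ne f 0 with rfl | hf0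
  · rwa [zero_add]
  rcases eq_or_ne g 0 with rfl | hg0
  · rwa [add_zero]
  rcases eq_or_ne (f + g) 0 with h | h
  · exact Or.inl h
  · right
    have h1 := S24.ord_add_ge w hf0 hg0 h
    have h2 := hf.resolve_left hf0
    have h3 := hg.resolve_left hg0
    exact (le_min h2 h3).trans h1

theorem G4KEY_ge_sum (w : Place K F) (N : ℤ) {ι : Type*} (s : Finset ι) (f : ι → F)
    (h : ∀ i ∈ s, f i = 0 ∨ N ≤ w.ord (f i)) : ∑ i ∈ s, f i = 0 ∨ N ≤ w.ord (∑ i ∈ s, f i) := by
  classical
  induction s using Finset.induction_on with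
  | empty => exact Or.inl Finset.sum_empty
  | insert a s ha ih =>
    rw [Finset.sum_insert ha]
    exact G4KEY_ge_add w N (h a (Finset.mem_insert_self a s))
      (ih fun i hi => h i (Finset.mem_insert_of_mem hi))

/-- a dominant term decides the order of a sum. -/
theorem G4KEY_dominant (w : Place K F) {f g : F} (hf : f ≠ 0)
    (hg : g = 0 ∨ w.ord f + 1 ≤ w.ord g) : f + g ≠ 0 ∧ w.ord (f + g) = w.ord f := by
  rcases eq_or_ne g 0 with rfl | hg0
  · rw [add_zero]
    exact ⟨hf, rfl⟩
  have h1 : w.ord f < w.ord g := by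
    have := hg.resolve_left hg0
    omega
  refine ⟨?_, S24.ord_add_eq_of_lt w hf hg0 h1⟩
  have h2 := (S24.ord_lt_ord_iff w hf hg0).1 h1
  have h3 := Valuation.map_add_eq_of_lt_left _ h2
  intro h0
  rw [h0, map_zero] at h3
  exact w.adicValuation_ne_zero hf h3.symm

end

theorem stmt_G4_KEY : Stmt_G4_KEY.{u} := by
  classical
  intro K F F' _ _ _ _ _ _ _ _ _ v b hb c hc w m hm hy
  have hres : (w : Place K F').restrict F = v := Place.mem_fiber.mp w.2
  have hordc : ∀ f : F, (w : Place K F').ord (algebraMap F F' f) =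
      ((w : Place K F').ramificationIndex F : ℤ) * v.ord f := by
    intro f
    rw [Place.ord_restrict, hres]
  have hterm : ∀ α, c α ≠ 0 → c α • b α ≠ 0 ∧ (w : Place K F').ord (c α • b α) =
      ((w : Place K F').ramificationIndex F : ℤ) * v.ord (c α) + (w : Place K F').ord (b α) := by
    intro α hα
    have h1 : algebraMap F F' (c α) ≠ 0 := by
      rwa [Ne, map_eq_zero]
    rw [Algebra.smul_def]
    exact ⟨mul_ne_zero h1 (hb.ne_zero α), by rw [Place.ord_mul _ h1 (hb.ne_zero α), hordc]⟩
  have main : ∀ n : ℕ, ∀ j : Fin ((w : Place K F').ramificationIndex F), (j : ℕ) = n → n < m →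
      S27.VanishesAt v (c ⟨w, j⟩) := by
    intro n
    induction n using Nat.strong_induction_on with
    | _ n ih =>
    intro j hj hnm
    by_contra hnv
    have hc0 : c ⟨w, j⟩ ≠ 0 := fun h => hnv (Or.inl h)
    have hord0 : v.ord (c ⟨w, j⟩) = 0 := by
      have h1 := (hc ⟨w, j⟩).ord_nonneg
      have h2 : ¬ 0 < v.ord (c ⟨w, j⟩) := fun h => hnv (Or.inr h)
      omega
    obtain ⟨ht0, htord⟩ := hterm ⟨w, j⟩ hc0
    rw [hord0, mul_zero, zero_add, hb.ord_self ⟨w, j⟩] at htord
    replace htord : (w : Place K F').ord (c ⟨w, j⟩ • b ⟨w, j⟩) = ((j : ℕ) : ℤ) := htord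
    have hrest : ∑ α ∈ Finset.univ.erase (⟨w, j⟩ : G4Idx F' v), c α • b α = 0 ∨
        (w : Place K F').ord (c ⟨w, j⟩ • b ⟨w, j⟩) + 1 ≤
          (w : Place K F').ord (∑ α ∈ Finset.univ.erase (⟨w, j⟩ : G4Idx F' v), c α • b α) := by
      apply G4KEY_ge_sum
      intro α hα
      have hne : α ≠ ⟨w, j⟩ := Finset.ne_of_mem_erase hα
      rcases eq_or_ne (c α) 0 with h0 | h0
      · left
        rw [h0, zero_smul]
      right
      rw [htord, (hterm α h0).2]
      have hcα := (hc α).ord_nonneg
      have he0 : (0 : ℤ) ≤ ((w : Place K F').ramificationIndex F : ℤ) := Int.natCast_nonneg _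
      obtain ⟨w', i⟩ := α
      by_cases hw : w' = w
      · subst hw
        have hij : i ≠ j := fun h => hne (by rw [h])
        have hs := hb.ord_self ⟨w', i⟩
        simp only at hs
        rw [hs]
        rcases lt_or_gt_of_ne (fun h => hij (Fin.ext h) : (i : ℕ) ≠ (j : ℕ)) with hlt | hgt
        · have hv := ih (i : ℕ) (by omega) i rfl (by omega)
          have hpos := hv.ord_pos h0
          have : ((w' : Place K F').ramificationIndex F : ℤ) * 1 ≤
              ((w' : Place K F').ramificationIndex F : ℤ) * v.ord (c ⟨w', i⟩) :=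
            mul_le_mul_of_nonneg_left (by omega) he0
          have hj2 := j.2
          omega
        · have := mul_nonneg he0 hcα
          omega
      · have ho := hb.ord_other ⟨w', i⟩ w (fun h => hw h.symm)
        have := mul_nonneg he0 hcα
        have hj2 := j.2
        omega
    obtain ⟨hy0, hyord⟩ := G4KEY_dominant (w : Place K F') ht0 hrest
    rw [Finset.add_sum_erase Finset.univ (fun α => c α • b α) (Finset.mem_univ _)] at hy0 hyord
    rcases hy with h | h
    · exact hy0 h
    · rw [hyord, htord] at h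
      omega
  intro j hj
  exact main j j rfl hj

end Fermat.Agent.RED
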