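import Fermat.Agent.RED.Defs
import Fermat.Agent.S18.Glue
import Fermat.Agent.S28.Interface

/-!
# RED (S37): statements of the first wave of work packages
Each `Stmt_*` is a `Prop`; a file `Fermat/Agent/RED/<Name>.lean` proves `theorem stmt_* : Stmt_*`
(possibly from other `Stmt_*` as explicit hypotheses).
-/

set_option autoImplicit false

noncomputable section

namespace Fermat.Agent.RED

open AlgebraicCurve ModularCurve Polynomial IntermediateField

universe u

/-! ### Top level -/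

/-- TOP: the frozen statement S37 from (T2), (T4), (T5), (TH). -/
def Stmt_TOP : Prop :=
  (∀ (N ℓ : ℕ) [NeZero N], ℓ.Prime → ¬ ℓ ∣ N → ∀ A : ValuationSubring Qb, A.LiesOverPrime ℓ →
    Stmt_T2 N A) →
  (∀ (N ℓ : ℕ) [NeZero N] [NeZero ℓ], ℓ.Prime → ¬ ℓ ∣ N → ∀ A : ValuationSubring Qb,
    A.LiesOverPrime ℓ → Stmt_T4 N ℓ A) →
  (∀ (N ℓ : ℕ) [NeZero N], ℓ.Prime → ¬ ℓ ∣ N → ∀ A : ValuationSubring Qb, A.LiesOverPrime ℓ →
    Stmt_T5 N ℓ A) →
  (∀ (N ℓ : ℕ) [NeZero N] [NeZero ℓ], ℓ.Prime → ¬ ℓ ∣ N → Stmt_TH N ℓ) →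
  ∀ (N p : ℕ) [NeZero N] (_ : HeckeOperatorsCommuteBar N),
    letI := heckeModuleBar N
    ∀ (_ : SMulCommClass GQ HeckeAlg (JZero N)),
      SpecializationExists (K := ℚ) (L := Qb) N p (JZero N)

/-- T5 from ConstRed and Claim K. -/
def Stmt_T5_of : Prop :=
  Fermat.Agent.S18.Stmt_ClaimK →
  ∀ (N ℓ : ℕ) [NeZero N], ℓ.Prime → ¬ ℓ ∣ N → ∀ A : ValuationSubring Qb, A.LiesOverPrime ℓ →
    Stmt_ConstRed N A → Stmt_T5 N ℓ A

/-! ### G: places of function fields over an algebraically closed field of characteristic 0 -/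

/-- G1. -/
def Stmt_G1 : Prop :=
  ∀ (K F : Type u) [Field K] [IsAlgClosed K] [CharZero K] [Field F] [Algebra K F]
    (x : F), Transcendental K x → FiniteDimensional K⟮x⟯ F → HasPrincipalDivisors K F

/-- G2. -/
def Stmt_G2 : Prop :=
  ∀ (K F F' : Type u) [Field K] [IsAlgClosed K] [CharZero K] [Field F] [Field F'] [Algebra K F]
    [Algebra K F'] [Algebra F F'] [IsScalarTower K F F'] [Algebra.IsIntegral F F']
    [HasPrincipalDivisors K F'] (x : F), Transcendental K x → FiniteDimensional K⟮x⟯ F →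
    Module.Finite F F' → FundamentalIdentity K F F'

/-- G3. -/
def Stmt_G3 : Prop :=
  ∀ (K F F' : Type u) [Field K] [IsAlgClosed K] [CharZero K] [Field F] [Field F'] [Algebra K F]
    [Algebra K F'] [Algebra F F'] [IsScalarTower K F F'] [Algebra.IsIntegral F F']
    [Module.Finite F F'] (x : F), Transcendental K x → FiniteDimensional K⟮x⟯ F →
    Divisor.PushforwardNormFormula K F F'

/-- G4: the characteristic polynomial of `u ∈ F'` over `F`, evaluated at a place `v` of `F` above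
which `u` is regular, is `∏_{w ∣ v} (T - u(w)) ^ e(w ∣ v)`. -/
def Stmt_G4 : Prop :=
  ∀ (K F F' : Type u) [Field K] [IsAlgClosed K] [CharZero K] [Field F] [Field F'] [Algebra K F]
    [Algebra K F'] [Algebra F F'] [IsScalarTower K F F'] [Algebra.IsIntegral F F']
    [HasPrincipalDivisors K F'] [Module.Finite F F'] (x : F), Transcendental K x →
    FiniteDimensional K⟮x⟯ F →
    ∀ (v : Place K F) (u : F') (val : Place K F' → K), (∀ w ∈ v.fiber F', Ev w u (val w)) →
      ∀ i : ℕ, Ev v ((LinearMap.charpoly (Algebra.lmul F F' u)).coeff i)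
        ((∏ w ∈ v.fiber F', (X - C (val w)) ^ (w.ramificationIndex F)).coeff i)

/-- G5: all places have degree one, inertia degrees are one. -/
def Stmt_G5 : Prop :=
  ∀ (K F F' : Type u) [Field K] [IsAlgClosed K] [CharZero K] [Field F] [Field F'] [Algebra K F]
    [Algebra K F'] [Algebra F F'] [IsScalarTower K F F'] [Algebra.IsIntegral F F']
    (x : F), Transcendental K x → FiniteDimensional K⟮x⟯ F → Module.Finite F F' →
    (∀ v : Place K F, v.deg = 1) ∧ (∀ w : Place K F', w.deg = 1) ∧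
      ∀ w : Place K F', w.inertiaDeg F = 1

/-! ### MATCH -/

/-- MATCH (chart version): two finite families of places in the chart `x ∈ A` such that for every
test function `u` the polynomials `∏ (T - u(P i))` and `∏ (T - u(P' i))` are congruent mod `𝔪`
differ by a divisor with trivial reduction. -/
def Stmt_MATCH_fin : Prop :=
  ∀ (K F : Type u) [Field K] [IsAlgClosed K] [CharZero K] [Field F] [Algebra K F]
    (A : ValuationSubring K) (x : F), Transcendental K x → FiniteDimensional K⟮x⟯ F →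
    ∀ (n : ℕ) (P P' : Fin n → Place K F),
      (∀ i, ∃ c ∈ A, Ev (P i) x c) → (∀ i, ∃ c ∈ A, Ev (P' i) x c) →
      (∀ u, IntOver A x u → ∀ val val' : Fin n → K, (∀ i, Ev (P i) u (val i)) →
        (∀ i, Ev (P' i) u (val' i)) → ∀ m : ℕ,
          (∏ i, (X - C (val i))).coeff m - (∏ i, (X - C (val' i))).coeff m ∈ A.nonunits) →
      ∃ π : Equiv.Perm (Fin n), ∀ i, SameRedFin A x (P i) (P' (π i))

/-- MATCH (tube version). -/
def Stmt_MATCH_loc : Prop :=
  ∀ (K F : Type u) [Field K] [IsAlgClosed K] [CharZero K] [Field F] [Algebra K F]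
    (A : ValuationSubring K) (x : F), Transcendental K x → FiniteDimensional K⟮x⟯ F →
    ∀ (n : ℕ) (P P' : Fin n → Place K F),
      (∀ i, ∃ c ∈ A.nonunits, Ev (P i) x c) → (∀ i, ∃ c ∈ A.nonunits, Ev (P' i) x c) →
      (∀ u, LocInt A x u → ∀ val val' : Fin n → K, (∀ i, Ev (P i) u (val i)) →
        (∀ i, Ev (P' i) u (val' i)) → ∀ m : ℕ,
          (∏ i, (X - C (val i))).coeff m - (∏ i, (X - C (val' i))).coeff m ∈ A.nonunits) →
      ∃ π : Equiv.Perm (Fin n), ∀ i, SameRedLoc A x (P i) (P' (π i))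

/-! ### Modular inputs -/

/-- TH from G1, G2, G3. -/
def Stmt_TH_of : Prop :=
  Stmt_G1.{0} → Stmt_G2.{0} → Stmt_G3.{0} →
    ∀ (N ℓ : ℕ) [NeZero N] [NeZero ℓ], Stmt_TH N ℓ

/-- NORM: every nonzero element of the function field is (constant) × (quotient of two integral
`q`-series of the function field with nonzero reduction). -/
def Stmt_NORM : Prop :=
  ∀ (N ℓ : ℕ) [NeZero N], ℓ.Prime → ¬ ℓ ∣ N → ∀ A : ValuationSubring Qb, A.LiesOverPrime ℓ →
    ∀ d : FF N, d ≠ 0 → ∃ (μ : Qb) (a b : LaurentSeries ↥A), μ ≠ 0 ∧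
      incl A a ∈ modularFunctionFieldBar N ∧ incl A b ∈ modularFunctionFieldBar N ∧
      red A a ≠ 0 ∧ red A b ≠ 0 ∧
      HahnSeries.C μ * incl A a = incl A b * (d : LaurentSeries Qb)

end Fermat.Agent.RED
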