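import Fermat.Agent.RED.Interface2
import Fermat.Agent.INJ.Inst.Interface

/-!
# RED (S37): statements of the third group of work packages
(norm forms G4N / MATCHN, level raising LDA / COORD / LD, bridges from INJ (GC, NORM, GW, AUX),
REDA, ConstRed, and the pieces of T4).
-/

set_option autoImplicit false

noncomputable section

namespace Fermat.Agent.RED

open AlgebraicCurve ModularCurve Polynomial IntermediateField

universe u

/-! ### Norm forms of G4 and MATCH -/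

/-- G4N: the norm of `u ∈ F'` at a place `v` of `F` is `∏_{w ∣ v} u(w) ^ e(w ∣ v)`. -/
def Stmt_G4N : Prop :=
  ∀ (K F F' : Type u) [Field K] [IsAlgClosed K] [CharZero K] [Field F] [Field F'] [Algebra K F]
    [Algebra K F'] [Algebra F F'] [IsScalarTower K F F'] [Algebra.IsIntegral F F']
    [HasPrincipalDivisors K F'] [Module.Finite F F'] (x : F), Transcendental K x →
    FiniteDimensional K⟮x⟯ F →
    ∀ (v : Place K F) (u : F') (val : Place K F' → K), (∀ w ∈ v.fiber F', Ev w u (val w)) →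
      Ev v (Algebra.norm F u) (∏ w ∈ v.fiber F', val w ^ (w.ramificationIndex F))

/-- MATCHN (chart version): two finite families of places in the chart `x ∈ A` such that
`∏ u(P i) ≡ ∏ u(P' i')` for every test function `u` differ by a divisor with trivial reduction. -/
def Stmt_MATCHN_fin : Prop :=
  ∀ (K F : Type u) [Field K] [IsAlgClosed K] [CharZero K] [Field F] [Algebra K F]
    (A : ValuationSubring K) (x : F), Transcendental K x → FiniteDimensional K⟮x⟯ F →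
    ∀ (ι ι' : Type) [Fintype ι] [Fintype ι'] (P : ι → Place K F) (P' : ι' → Place K F),
      (∀ i, ∃ c ∈ A, Ev (P i) x c) → (∀ i, ∃ c ∈ A, Ev (P' i) x c) →
      (∀ u, IntOver A x u → ∀ (val : ι → K) (val' : ι' → K), (∀ i, Ev (P i) u (val i)) →
        (∀ i, Ev (P' i) u (val' i)) → ∏ i, val i - ∏ i, val' i ∈ A.nonunits) →
      ∑ i, Finsupp.single (P i) (1 : ℤ) - ∑ i, Finsupp.single (P' i) (1 : ℤ) ∈ ZRedX A x

/-- MATCHN (tube version). -/
def Stmt_MATCHN_loc : Prop :=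
  ∀ (K F : Type u) [Field K] [IsAlgClosed K] [CharZero K] [Field F] [Algebra K F]
    (A : ValuationSubring K) (x : F), Transcendental K x → FiniteDimensional K⟮x⟯ F →
    ∀ (ι ι' : Type) [Fintype ι] [Fintype ι'] (P : ι → Place K F) (P' : ι' → Place K F),
      (∀ i, ∃ c ∈ A.nonunits, Ev (P i) x⁻¹ c) → (∀ i, ∃ c ∈ A.nonunits, Ev (P' i) x⁻¹ c) →
      (∀ u, LocInt A x⁻¹ u → ∀ (val : ι → K) (val' : ι' → K), (∀ i, Ev (P i) u (val i)) →
        (∀ i, Ev (P' i) u (val' i)) → ∏ i, val i - ∏ i, val' i ∈ A.nonunits) →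
      ∑ i, Finsupp.single (P i) (1 : ℤ) - ∑ i, Finsupp.single (P' i) (1 : ℤ) ∈ ZRedX A x

/-! ### Level raising -/

/-- TUBE: if `y` is integral over `A[x]` and `y(P)` is "large" then `x(P)` is "large". -/
def Stmt_TUBE : Prop :=
  ∀ (K F : Type u) [Field K] [IsAlgClosed K] [CharZero K] [Field F] [Algebra K F]
    (A : ValuationSubring K) (x y : F), Transcendental K x → FiniteDimensional K⟮x⟯ F →
    y ≠ 0 → IntOver A x y → ∀ (P : Place K F) (c : K), c ∈ A.nonunits → Ev P y⁻¹ c →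
      ∃ c' ∈ A.nonunits, Ev P x⁻¹ c'

/-- COORD: change of coordinate for "same reduction". -/
def Stmt_COORD : Prop :=
  ∀ (K F : Type u) [Field K] [IsAlgClosed K] [CharZero K] [Field F] [Algebra K F]
    (A : ValuationSubring K) (x t : F), Transcendental K x → FiniteDimensional K⟮x⟯ F →
    IntOver A x t → LocInt A x⁻¹ t⁻¹ →
    ∀ P P' : Place K F, SameRedX A x P P' → SameRedX A t P P'

/-- LDA: pull-back along a finite extension preserves "trivial reduction". -/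
def Stmt_LDA : Prop :=
  ∀ (K F F' : Type u) [Field K] [IsAlgClosed K] [CharZero K] [Field F] [Field F'] [Algebra K F]
    [Algebra K F'] [Algebra F F'] [IsScalarTower K F F'] [Algebra.IsIntegral F F']
    [HasPrincipalDivisors K F'] [Module.Finite F F'] (A : ValuationSubring K) (x : F),
    Transcendental K x → FiniteDimensional K⟮x⟯ F →
    ∀ D ∈ ZRedX A x, Divisor.pullback F' D ∈ ZRedX A (algebraMap F F' x)

/-- LD: pull-back to the auxiliary level preserves "trivial reduction". -/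
def Stmt_LD : Prop :=
  ∀ (N r : ℕ) [NeZero N] [NeZero r] (A : ValuationSubring Qb) (t : FF (N * r)),
    IntOver A (heckeAlphaBar Qb N r (sF N)) t → LocInt A (heckeAlphaBar Qb N r (sF N))⁻¹ t⁻¹ →
    ∀ (hι : (heckeAlphaBar Qb N r).toRingHom.IsIntegral)
      (_ : HasPrincipalDivisors Qb (FF (N * r))),
      ∀ D ∈ ZRed N A, Divisor.pullbackAlong (heckeAlphaBar Qb N r) hι D ∈ ZRedX A t

/-! ### Bridges from INJ -/

/-- GC: a good coordinate in the sense of INJ gives a Gauss chart. -/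
def Stmt_GC : Prop :=
  ∀ (K F k Fb : Type) [Field K] [Field F] [Algebra K F] [Field k] [Field Fb] [Algebra k Fb]
    [IsAlgClosed K] [CharZero K] (D : INJ.RedData K F k Fb) (x : F), INJ.Chart D x →
    GaussChart D.A D.O x

/-- REDA: the abstract theorem "trivial reduction of `div f` ⟹ constant reduction of `f`". -/
def Stmt_REDA : Prop :=
  ∀ (K F k Fb : Type) [Field K] [Field F] [Algebra K F] [Field k] [Field Fb] [Algebra k Fb]
    [IsAlgClosed K] [CharZero K] (D : INJ.RedData K F k Fb) (t : F),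
    INJ.Chart D t → INJ.Chart D t⁻¹ → INJ.Branch D t → INJ.Branch D t⁻¹ →
    ∀ f : F, f ≠ 0 → ∀ E ∈ ZRedX D.A t, (∀ P : Place K F, E P = P.ord f) →
      ∃ c : K, c ≠ 0 ∧ D.rd (algebraMap K F c * f) = 1

/-- AUX: an auxiliary level `N * r` with a coordinate `t` for which both charts are good. -/
def Stmt_AUX (N : ℕ) [NeZero N] (A : ValuationSubring Qb) : Prop :=
  ∃ (r : ℕ) (_ : NeZero r) (t : FF (N * r))
    (L : IntermediateField (INJ.Inst.kA A) (LaurentSeries (INJ.Inst.kA A)))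
    (D : INJ.RedData Qb (FF (N * r)) (INJ.Inst.kA A) L),
    INJ.Inst.IsGauss (N * r) A L D ∧ INJ.Chart D t ∧ INJ.Chart D t⁻¹ ∧ INJ.Branch D t ∧
      INJ.Branch D t⁻¹ ∧ IntOver A (heckeAlphaBar Qb N r (sF N)) t ∧
      LocInt A (heckeAlphaBar Qb N r (sF N))⁻¹ t⁻¹

def Stmt_AUX_all : Prop :=
  ∀ (N ℓ : ℕ) [NeZero N], ℓ.Prime → ¬ ℓ ∣ N → ∀ A : ValuationSubring Qb, A.LiesOverPrime ℓ →
    Stmt_AUX N A

def Stmt_ConstRed_all : Prop :=
  ∀ (N ℓ : ℕ) [NeZero N], ℓ.Prime → ¬ ℓ ∣ N → ∀ A : ValuationSubring Qb, A.LiesOverPrime ℓ →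
    Stmt_ConstRed N A

/-! ### The pieces of T4 -/

/-- the norm `FF (N * ℓ) → FF N` along `β : f(q) ↦ f(q^ℓ)`. -/
def normBeta (N ℓ : ℕ) [NeZero N] [NeZero ℓ] (y : FF (N * ℓ)) : FF N :=
  letI := algebraAlong (heckeBetaBar Qb N ℓ)
  Algebra.norm (FF N) y

/-- REL: the "other" embedding of `FF (N ℓ)` over `β (FF N)`: `β u ↦ β u`, `α u ↦ u(q^(ℓ²))`. -/
def Stmt_REL : Prop :=
  ∀ (N ℓ : ℕ) [NeZero N] [NeZero ℓ], ℓ.Prime → ¬ ℓ ∣ N →
    ∃ τ : FF (N * ℓ) →ₐ[Qb] LaurentSeries Qb,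
      (∀ u : FF N, τ (heckeBetaBar Qb N ℓ u) = S28.Vq Qb ℓ (u : LaurentSeries Qb)) ∧
      (∀ u : FF N, τ (heckeAlphaBar Qb N ℓ u) = S28.Vq Qb (ℓ ^ 2) (u : LaurentSeries Qb))

/-- DEGle: `[FF (N ℓ) : β (FF N)] ≤ ℓ + 1`. -/
def Stmt_DEGle : Prop :=
  ∀ (N ℓ : ℕ) [NeZero N] [NeZero ℓ], ℓ.Prime → ¬ ℓ ∣ N →
    FiniteAlong Qb (heckeBetaBar Qb N ℓ) ∧ finrankAlong Qb (heckeBetaBar Qb N ℓ) ≤ ℓ + 1

/-- NORMQ: the `q`-expansion of the norm along `β`. -/
def Stmt_NORMQ : Prop :=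
  ∀ (N ℓ : ℕ) [NeZero N] [NeZero ℓ], ℓ.Prime → ¬ ℓ ∣ N →
    ∀ (ρ : Qb → LaurentSeries Qb →+* LaurentSeries Qb), (∀ c, c ≠ 0 → S28.IsScale c (ρ c)) →
    ∀ u : FF N,
      S28.Vq Qb ℓ ((normBeta N ℓ (heckeAlphaBar Qb N ℓ u) : FF N) : LaurentSeries Qb) =
        S28.Vq Qb (ℓ ^ 2) (u : LaurentSeries Qb) *
          ∏ ζ ∈ Polynomial.nthRootsFinset ℓ (1 : Qb), ρ ζ (u : LaurentSeries Qb)

/-- CONG: the formal congruence `u(q^(ℓ²)) ∏_ζ u(ζ q) ≡ ((σ⁻¹u)^ℓ · σu)(q^ℓ)`, in ratio form. -/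
def Stmt_CONG : Prop :=
  ∀ (ℓ : ℕ), ℓ.Prime → ∀ A : ValuationSubring Qb, A.LiesOverPrime ℓ →
    ∀ σ : GQ, A.IsFrobeniusAt σ ℓ →
    ∀ (ρ : Qb → LaurentSeries Qb →+* LaurentSeries Qb), (∀ c, c ≠ 0 → S28.IsScale c (ρ c)) →
    ∀ (u : LaurentSeries Qb) (a b : LaurentSeries ↥A), red A b ≠ 0 → incl A a = incl A b * u →
      ∃ a' b' : LaurentSeries ↥A, red A a' = 0 ∧ red A b' ≠ 0 ∧
        incl A a' = incl A b' *
          (S28.Vq Qb (ℓ ^ 2) u * ∏ ζ ∈ Polynomial.nthRootsFinset ℓ (1 : Qb), ρ ζ u -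
            S28.Vq Qb ℓ (coeffMap (σ.symm : Qb →+* Qb) u ^ ℓ * coeffMap (σ : Qb →+* Qb) u))

/-- T4C: the Eichler–Shimura congruence for norms of functions. -/
def Stmt_T4C : Prop :=
  ∀ (N ℓ : ℕ) [NeZero N] [NeZero ℓ], ℓ.Prime → ¬ ℓ ∣ N → ∀ A : ValuationSubring Qb,
    A.LiesOverPrime ℓ → ∀ σ : GQ, A.IsFrobeniusAt σ ℓ → ∀ u : FF N, GaussInt A u →
      GaussSmall A (normBeta N ℓ (heckeAlphaBar Qb N ℓ u) -
        ((gal N σ)⁻¹ • u) ^ ℓ * (gal N σ • u))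

/-- MODINT: `j(q^N)` and `j(q^(N ℓ))` are integral over each other's polynomial rings. -/
def Stmt_MODINT : Prop :=
  ∀ (N ℓ : ℕ) [NeZero N] [NeZero ℓ], ℓ.Prime → ∀ A : ValuationSubring Qb,
    IntOver A (heckeBetaBar Qb N ℓ (sF N)) (heckeAlphaBar Qb N ℓ (sF N)) ∧
    IntOver A (heckeAlphaBar Qb N ℓ (sF N)) (heckeBetaBar Qb N ℓ (sF N))

/-- T4INT: norms along `β` of test functions are test functions. -/
def Stmt_T4INT : Prop :=
  ∀ (N ℓ : ℕ) [NeZero N] [NeZero ℓ], ℓ.Prime → ∀ (A : ValuationSubring Qb) (u : FF N),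
    (IntOver A (sF N) u → IntOver A (sF N) (normBeta N ℓ (heckeAlphaBar Qb N ℓ u))) ∧
    (LocInt A (sF N)⁻¹ u → LocInt A (sF N)⁻¹ (normBeta N ℓ (heckeAlphaBar Qb N ℓ u)))

end Fermat.Agent.RED
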