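import Fermat.Agent.RED.Interface3
import Fermat.Agent.RED.Ev
import Fermat.Agent.RED.Key
import Fermat.Agent.RED.T2
import Fermat.Agent.RED.Coord
import Fermat.Agent.RED.THof

/-!
# RED-T4GLUE : the Eichler–Shimura congruence on places (`Stmt_T4_all`)

`stmt_T4_all` : `Stmt_T4_all` from T4C, T4INT, MODINT, G4N, G5, MATCHN, TUBE, GW
(KEY, EVINT are imported).
-/

set_option autoImplicit false
set_option linter.style.haveILetI false

noncomputable section

namespace Fermat.Agent.RED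

open AlgebraicCurve ModularCurve Polynomial IntermediateField
open scoped Pointwise

/-! ### "Along" versions of the abstract inputs -/

section Along

variable {K F F' : Type} [Field K] [Field F] [Field F'] [Algebra K F] [Algebra K F']

/-- the norm along `φ`. -/
def T4_normAlong (φ : F →ₐ[K] F') (y : F') : F :=
  letI := algebraAlong φ
  Algebra.norm F y

theorem T4_ev_restrictAlong (φ : F →ₐ[K] F') (hφ : φ.toRingHom.IsIntegral) (w : Place K F')
    {y : F} {c : K} : Ev (w.restrictAlong φ hφ) y c ↔ Ev w (φ y) c := by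
  letI := algebraAlong φ
  haveI := isScalarTower_along φ
  haveI := isIntegral_along φ hφ
  exact ev_restrict w

theorem T4_transcendental_map (φ : F →ₐ[K] F') {x : F} (hx : Transcendental K x) :
    Transcendental K (φ x) := fun h => hx ((isAlgebraic_algHom_iff φ φ.injective).mp h)

variable [IsAlgClosed K] [CharZero K]

theorem T4_G4N_along (h4 : Stmt_G4N.{0}) [HasPrincipalDivisors K F'] (φ : F →ₐ[K] F')
    (hφ : φ.toRingHom.IsIntegral) (hfin : FiniteAlong K φ) (x : F) (hx : Transcendental K x)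
    (hfd : FiniteDimensional K⟮x⟯ F) (v : Place K F) (u : F') (val : Place K F' → K)
    (hval : ∀ w ∈ Place.fiberAlong φ hφ v, Ev w u (val w)) :
    Ev v (T4_normAlong φ u)
      (∏ w ∈ Place.fiberAlong φ hφ v, val w ^ (w.ramificationIndexAlong φ)) := by
  letI := algebraAlong φ
  haveI := isScalarTower_along φ
  haveI := isIntegral_along φ hφ
  haveI : Module.Finite F F' := hfin
  exact h4 K F F' x hx hfd v u val hval

theorem T4_inertiaDegAlong (h5 : Stmt_G5.{0}) (φ : F →ₐ[K] F')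
    (hφ : φ.toRingHom.IsIntegral) (hfin : FiniteAlong K φ) (x : F) (hx : Transcendental K x)
    (hfd : FiniteDimensional K⟮x⟯ F) (w : Place K F') : w.inertiaDegAlong φ hφ = 1 := by
  letI := algebraAlong φ
  haveI := isScalarTower_along φ
  haveI := isIntegral_along φ hφ
  exact (h5 K F F' x hx hfd hfin).2.2 w

end Along

/-! ### the divisor `T_ℓ P` as a sum over an index type -/

section Div

variable {K F F' : Type} [Field K] [Field F] [Field F'] [Algebra K F] [Algebra K F']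
  [HasPrincipalDivisors K F']

/-- the points of the correspondence above `P`, with multiplicity. -/
abbrev T4_Idx (β : F →ₐ[K] F') (hβ : β.toRingHom.IsIntegral) (P : Place K F) : Type :=
  Σ W : {W // W ∈ Place.fiberAlong β hβ P}, Fin (W.1.ramificationIndexAlong β)

theorem T4_correspondence_single (α β : F →ₐ[K] F') (hα : α.toRingHom.IsIntegral)
    (hβ : β.toRingHom.IsIntegral) (hin : ∀ w : Place K F', w.inertiaDegAlong α hα = 1)
    (P : Place K F) :
    Divisor.correspondence β α hβ hα (Finsupp.single P (1 : ℤ)) =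
      ∑ i : T4_Idx β hβ P, Finsupp.single (i.1.1.restrictAlong α hα) (1 : ℤ) := by
  rw [Divisor.correspondence_apply, Divisor.pullbackAlong_single, map_sum, Fintype.sum_sigma,
    ← Finset.sum_coe_sort]
  refine Finset.sum_congr rfl fun W _ => ?_
  rw [Divisor.pushforwardAlong_single, hin]
  change _ = ∑ _y : Fin (W.1.ramificationIndexAlong β),
    Finsupp.single (W.1.restrictAlong α hα) (1 : ℤ)
  rw [Finset.sum_const, Finset.card_univ, Fintype.card_fin, Finsupp.smul_single, nsmul_eq_mul]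
  simp

theorem T4_sum_option (ℓ : ℕ) (Q Q' : Place K F) :
    ∑ i : Option (Fin ℓ), Finsupp.single (i.elim Q fun _ => Q') (1 : ℤ) =
      Finsupp.single Q (1 : ℤ) + Finsupp.single Q' (ℓ : ℤ) := by
  rw [Fintype.sum_option]
  simp only [Option.elim]
  rw [Finset.sum_const, Finset.card_univ, Fintype.card_fin, Finsupp.smul_single, nsmul_eq_mul,
    mul_one]

theorem T4_prod_idx (β : F →ₐ[K] F') (hβ : β.toRingHom.IsIntegral) (P : Place K F)
    (v : Place K F' → K) :
    ∏ i : T4_Idx β hβ P, v i.1.1 =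
      ∏ W ∈ Place.fiberAlong β hβ P, v W ^ (W.ramificationIndexAlong β) := by
  rw [Fintype.prod_sigma, ← Finset.prod_coe_sort (Place.fiberAlong β hβ P)
    (fun W => v W ^ (W.ramificationIndexAlong β))]
  refine Fintype.prod_congr _ _ fun W => ?_
  change ∏ _y : Fin (W.1.ramificationIndexAlong β), v W.1 = _
  rw [Finset.prod_const, Finset.card_univ, Fintype.card_fin]

omit [HasPrincipalDivisors K F'] in
theorem T4_ramificationIndexAlong_pos (φ : F →ₐ[K] F') (hφ : φ.toRingHom.IsIntegral)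
    (w : Place K F') : 0 < w.ramificationIndexAlong φ := by
  letI := algebraAlong φ
  haveI := isIntegral_along φ hφ
  exact w.ramificationIndex_pos

/-- the congruence of products for one test function `u`. -/
theorem T4_core (α β : F →ₐ[K] F') (hα : α.toRingHom.IsIntegral) (hβ : β.toRingHom.IsIntegral)
    (A : ValuationSubring K) (g : SemilinearAut K F) (ℓ : ℕ)
    (hfrob : ∀ c ∈ A, SemilinearAut.baseAut g c - c ^ ℓ ∈ A.nonunits)
    (hinv : ∀ c ∈ A, SemilinearAut.baseAut g⁻¹ c ∈ A)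
    (P : Place K F) (u : F)
    (hnorm : ∀ val : Place K F' → K, (∀ W ∈ Place.fiberAlong β hβ P, Ev W (α u) (val W)) →
      Ev P (T4_normAlong β (α u))
        (∏ W ∈ Place.fiberAlong β hβ P, val W ^ (W.ramificationIndexAlong β)))
    (hsmall : ∀ c, Ev P (T4_normAlong β (α u) - (g⁻¹ • u) ^ ℓ * (g • u)) c → c ∈ A.nonunits)
    (hA : ∃ c ∈ A, Ev (g • P) u c) (hA' : ∃ c ∈ A, Ev (g⁻¹ • P) u c)
    (val : T4_Idx β hβ P → K) (val' : Option (Fin ℓ) → K)
    (hval : ∀ i, Ev (i.1.1.restrictAlong α hα) u (val i))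
    (hval' : ∀ i : Option (Fin ℓ), Ev (i.elim (g • P) fun _ => g⁻¹ • P) u (val' i)) :
    ∏ i, val i - ∏ i, val' i ∈ A.nonunits := by
  classical
  -- the values of `α u` on the fibre
  let v : Place K F' → K := fun W =>
    if h : W ∈ Place.fiberAlong β hβ P then
      val ⟨⟨W, h⟩, ⟨0, T4_ramificationIndexAlong_pos β hβ W⟩⟩ else 0
  have hv : ∀ i, val i = v i.1.1 := by
    intro i
    have e : v i.1.1 = val ⟨i.1, ⟨0, T4_ramificationIndexAlong_pos β hβ i.1.1⟩⟩ := dif_pos i.1.2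
    rw [e]
    exact ev_unique (hval i) (hval ⟨i.1, ⟨0, T4_ramificationIndexAlong_pos β hβ i.1.1⟩⟩)
  have hvE : ∀ W ∈ Place.fiberAlong β hβ P, Ev W (α u) (v W) := by
    intro W hW
    have e : v W = val ⟨⟨W, hW⟩, ⟨0, T4_ramificationIndexAlong_pos β hβ W⟩⟩ := dif_pos hW
    rw [e]
    exact (T4_ev_restrictAlong α hα W).1
      (hval ⟨⟨W, hW⟩, ⟨0, T4_ramificationIndexAlong_pos β hβ W⟩⟩)
  have h1 := hnorm v hvE
  have hX : ∏ i, val i = ∏ W ∈ Place.fiberAlong β hβ P, v W ^ (W.ramificationIndexAlong β) := by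
    rw [← T4_prod_idx]
    exact Fintype.prod_congr _ _ hv
  obtain ⟨a, haA, ha⟩ := hA
  obtain ⟨b, hbA, hb⟩ := hA'
  have hY : ∏ i, val' i = a * b ^ ℓ := by
    rw [Fintype.prod_option, ev_unique (hval' none) ha]
    congr 1
    rw [Fintype.prod_congr _ (fun _ => b) fun k => ev_unique (hval' (some k)) hb,
      Finset.prod_const, Finset.card_univ, Fintype.card_fin]
  have ha' : Ev P (g⁻¹ • u) (SemilinearAut.baseAut g⁻¹ a) := by
    have := ev_smul g⁻¹ ha
    rwa [inv_smul_smul] at this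
  have hb' : Ev P (g • u) (SemilinearAut.baseAut g b) := by
    have := ev_smul g hb
    rwa [smul_inv_smul] at this
  have h3 := hsmall _ (ev_sub h1 (ev_mul (ev_pow ha' ℓ) hb'))
  have hcA := hinv a haA
  have hf1 := hfrob _ hcA
  have e1 : SemilinearAut.baseAut g (SemilinearAut.baseAut g⁻¹ a) = a := by
    rw [SemilinearAut.baseAut_inv, RingEquiv.apply_symm_apply]
  rw [e1] at hf1
  have hf2 := hfrob b hbA
  rw [hX, hY]
  set c := SemilinearAut.baseAut g⁻¹ a
  set X := ∏ W ∈ Place.fiberAlong β hβ P, v W ^ (W.ramificationIndexAlong β)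
  have e2 : X - a * b ^ ℓ = (X - c ^ ℓ * SemilinearAut.baseAut g b)
      + c ^ ℓ * (SemilinearAut.baseAut g b - b ^ ℓ) - (a - c ^ ℓ) * b ^ ℓ := by ring
  rw [e2]
  exact EV_nonunits_sub A (EV_nonunits_add A h3 (EV_mem_mul_nonunits A (pow_mem hcA ℓ) hf2))
    (EV_nonunits_mul_mem A hf1 (pow_mem hbA ℓ))

end Div

/-! ### Frobenius elements -/

section Frob

variable {A : ValuationSubring Qb} {σ : GQ}

theorem T4_apply_mem (hσ : σ ∈ A.decompositionSubgroup ℚ) (a : Qb) (ha : a ∈ A) : σ a ∈ A := by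
  have h1 : σ • A = A := MulAction.mem_stabilizer_iff.1 hσ
  have h2 : σ • a ∈ σ • A := ValuationSubring.smul_mem_pointwise_smul σ a A ha
  rw [h1] at h2
  exact h2

theorem T4_apply_mem_nonunits (hσ : σ ∈ A.decompositionSubgroup ℚ) (a : Qb)
    (ha : a ∈ A.nonunits) : σ a ∈ A.nonunits := by
  rw [EV_mem_nonunits_iff] at ha ⊢
  rcases ha with rfl | ha
  · exact Or.inl (map_zero σ)
  · refine Or.inr fun h => ha ?_
    have h1 := T4_apply_mem (inv_mem hσ) _ h
    rw [← map_inv₀] at h1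
    have h2 : σ⁻¹ (σ a⁻¹) = a⁻¹ := σ.symm_apply_apply _
    rwa [h2] at h1

/-- the restriction of an element of the decomposition group to the valuation ring -/
def T4_resHom (hσ : σ ∈ A.decompositionSubgroup ℚ) : A →+* A where
  toFun a := ⟨σ a, T4_apply_mem hσ a a.2⟩
  map_one' := Subtype.ext (map_one σ)
  map_mul' a b := Subtype.ext (map_mul σ (a : Qb) (b : Qb))
  map_zero' := Subtype.ext (map_zero σ)
  map_add' a b := Subtype.ext (map_add σ (a : Qb) (b : Qb))

theorem T4_frob {ℓ : ℕ} (h : A.IsFrobeniusAt σ ℓ) (a : Qb) (ha : a ∈ A) :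
    σ a - a ^ ℓ ∈ A.nonunits := by
  obtain ⟨hσ, h⟩ := h
  have h1 := h (IsLocalRing.residue A ⟨a, ha⟩)
  rw [← IsLocalRing.ResidueField.residue_smul, ← map_pow, ← sub_eq_zero, ← map_sub,
    IsLocalRing.residue_eq_zero_iff, ← ValuationSubring.coe_mem_nonunits_iff] at h1
  exact h1

end Frob

/-! ### the main theorem -/

theorem stmt_T4_all (hC : Stmt_T4C) (hI : Stmt_T4INT) (hM : Stmt_MODINT) (h4 : Stmt_G4N.{0})
    (h5 : Stmt_G5.{0}) (hf : Stmt_MATCHN_fin.{0}) (hl : Stmt_MATCHN_loc.{0}) (hT : Stmt_TUBE.{0})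
    (hGW : Stmt_GW_all) : Stmt_T4_all := by
  intro N ℓ _ _ hℓ hℓN A hA hα hβ hP σ hσ P
  obtain ⟨W, hW1, hW2, hG, hG'⟩ := hGW N ℓ hℓ hℓN A hA
  have hE : Stmt_EVINT.{0} := stmt_EVINT
  have hK : Stmt_KEY.{0} := stmt_KEY hE
  have htr : Transcendental Qb (sF N) := T2_transcendental_sF N
  have hfd : FiniteDimensional Qb⟮sF N⟯ (FF N) := T2_finiteDimensional_sF N
  have htr' : Transcendental Qb (sF N)⁻¹ := Fermat.Agent.S24.placeCases_transcendental_inv htr
  have hfd' : FiniteDimensional Qb⟮(sF N)⁻¹⟯ (FF N) :=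
    Fermat.Agent.S24.placeCases_finiteDimensional_adjoin_inv (K := Qb) (sF N)
  have htrN : Transcendental Qb (sF (N * ℓ)) := T2_transcendental_sF (N * ℓ)
  have hfdN : FiniteDimensional Qb⟮sF (N * ℓ)⟯ (FF (N * ℓ)) := T2_finiteDimensional_sF (N * ℓ)
  have hfinα : FiniteAlong Qb (heckeAlphaBar Qb N ℓ) :=
    THof_finiteAlong _ (sF N) htr (sF (N * ℓ)) htrN hfdN
  have hfinβ : FiniteAlong Qb (heckeBetaBar Qb N ℓ) :=
    THof_finiteAlong _ (sF N) htr (sF (N * ℓ)) htrN hfdN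
  have hin : ∀ w : Pl (N * ℓ), w.inertiaDegAlong (heckeAlphaBar Qb N ℓ) hα = 1 :=
    T4_inertiaDegAlong h5 _ hα hfinα (sF N) htr hfd
  have hdec : σ ∈ A.decompositionSubgroup ℚ := hσ.mem_decompositionSubgroup
  have hdec' : σ⁻¹ ∈ A.decompositionSubgroup ℚ := inv_mem hdec
  have hfrob : ∀ c ∈ A, SemilinearAut.baseAut (gal N σ) c - c ^ ℓ ∈ A.nonunits := T4_frob hσ
  have hinv : ∀ c ∈ A, SemilinearAut.baseAut (gal N σ)⁻¹ c ∈ A := T4_apply_mem hdec'
  have hdiv : heckeDivBar hα hβ (Finsupp.single P (1 : ℤ)) - Finsupp.single (gal N σ • P) (1 : ℤ)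
        - Finsupp.single ((gal N σ)⁻¹ • P) (ℓ : ℤ) =
      ∑ i : T4_Idx (heckeBetaBar Qb N ℓ) hβ P,
          Finsupp.single (i.1.1.restrictAlong (heckeAlphaBar Qb N ℓ) hα) (1 : ℤ) -
        ∑ i : Option (Fin ℓ),
          Finsupp.single (i.elim (gal N σ • P) fun _ => (gal N σ)⁻¹ • P) (1 : ℤ) := by
    rw [T4_sum_option, ← T4_correspondence_single _ _ hα hβ hin P, sub_sub]
    rfl
  rw [hdiv]
  have hr : ∀ a : A, ((T4_resHom hdec a : A) : Qb) = SemilinearAut.baseAut (gal N σ) (a : Qb) :=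
    fun _ => rfl
  have hr' : ∀ a : A, ((T4_resHom hdec' a : A) : Qb) =
      SemilinearAut.baseAut (gal N σ)⁻¹ (a : Qb) := fun _ => rfl
  have hs : gal N σ • sF N = sF N := T2_smul_sF N σ
  have hs' : (gal N σ)⁻¹ • sF N = sF N := by
    rw [inv_smul_eq_iff, hs]
  have hsi : gal N σ • (sF N)⁻¹ = (sF N)⁻¹ := by rw [smul_inv₀', hs]
  have hsi' : (gal N σ)⁻¹ • (sF N)⁻¹ = (sF N)⁻¹ := by rw [smul_inv₀', hs']
  have hs0 : sF N ≠ 0 := by
    intro h
    rw [h] at htr
    exact htr isAlgebraic_zero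
  obtain ⟨hM1, hM2⟩ := hM N ℓ hℓ A
  have hnorm : ∀ (u : FF N) (val : Pl (N * ℓ) → Qb),
      (∀ w ∈ Place.fiberAlong (heckeBetaBar Qb N ℓ) hβ P,
        Ev w (heckeAlphaBar Qb N ℓ u) (val w)) →
      Ev P (T4_normAlong (heckeBetaBar Qb N ℓ) (heckeAlphaBar Qb N ℓ u))
        (∏ w ∈ Place.fiberAlong (heckeBetaBar Qb N ℓ) hβ P,
          val w ^ (w.ramificationIndexAlong (heckeBetaBar Qb N ℓ))) := fun u val hval =>
    T4_G4N_along h4 _ hβ hfinβ (sF N) htr hfd P _ val hval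
  rcases T2_ev_cases A P with ⟨c₀, hc₀A, hc₀⟩ | ⟨c₀, hc₀A, hc₀⟩
  · -- the affine chart
    have hgP : Ev (gal N σ • P) (sF N) (σ c₀) := by
      have h := ev_smul (gal N σ) hc₀
      rwa [hs] at h
    have hgP' : Ev ((gal N σ)⁻¹ • P) (sF N) (σ⁻¹ c₀) := by
      have h := ev_smul (gal N σ)⁻¹ hc₀
      rwa [hs'] at h
    refine hf Qb (FF N) A (sF N) htr hfd _ _ _ _ ?_ ?_ ?_
    · intro i
      have hi : i.1.1.restrictAlong (heckeBetaBar Qb N ℓ) hβ = P := Place.mem_fiberAlong.1 i.1.2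
      have h1 : Ev i.1.1 (heckeBetaBar Qb N ℓ (sF N)) c₀ :=
        (T4_ev_restrictAlong _ hβ _).1 (by rw [hi]; exact hc₀)
      obtain ⟨c', hc'A, hc'⟩ := COORD_intOver_value (sF (N * ℓ)) htrN h1 hc₀A hM1
      exact ⟨c', hc'A, (T4_ev_restrictAlong _ hα _).2 hc'⟩
    · rintro (_ | k)
      · exact ⟨σ c₀, T4_apply_mem hdec c₀ hc₀A, hgP⟩
      · exact ⟨σ⁻¹ c₀, T4_apply_mem hdec' c₀ hc₀A, hgP'⟩
    · intro u hu val val' hval hval'
      refine T4_core _ _ hα hβ A (gal N σ) ℓ hfrob hinv P u (hnorm u) ?_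
        ((hE Qb (FF N) A (sF N) htr hfd _ _ hgP).1 (T4_apply_mem hdec c₀ hc₀A) u hu)
        ((hE Qb (FF N) A (sF N) htr hfd _ _ hgP').1 (T4_apply_mem hdec' c₀ hc₀A) u hu)
        val val' hval hval'
      intro c hc
      refine (hK Qb (FF N) A W (sF N) htr hfd hG P c₀ hc₀ _ ?_ c hc).1 hc₀A ?_
      · exact (hW2 _).2 (hC N ℓ hℓ hℓN A hA σ hσ u
          ((hW1 u).1 (T2_mem_of_isIntegral (T2_polyRing_le hG) hu)))
      · refine IntOver.sub ((hI N ℓ hℓ A u).1 hu) (IntOver.mul (IntOver.pow ?_ ℓ) ?_)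
        · exact T2_isIntegral_smul _ _
            (fun z hz => T2_polyRing_stable _ _ hr' hs' hz) hu
        · exact T2_isIntegral_smul _ _
            (fun z hz => T2_polyRing_stable _ _ hr hs hz) hu
  · -- the tube around `s = ∞`
    have hgP : Ev (gal N σ • P) (sF N)⁻¹ (σ c₀) := by
      have h := ev_smul (gal N σ) hc₀
      rwa [hsi] at h
    have hgP' : Ev ((gal N σ)⁻¹ • P) (sF N)⁻¹ (σ⁻¹ c₀) := by
      have h := ev_smul (gal N σ)⁻¹ hc₀
      rwa [hsi'] at h
    refine hl Qb (FF N) A (sF N) htr hfd _ _ _ _ ?_ ?_ ?_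
    · intro i
      have hi : i.1.1.restrictAlong (heckeBetaBar Qb N ℓ) hβ = P := Place.mem_fiberAlong.1 i.1.2
      have h1 : Ev i.1.1 (heckeBetaBar Qb N ℓ (sF N))⁻¹ c₀ := by
        rw [← map_inv₀]
        exact (T4_ev_restrictAlong _ hβ _).1 (by rw [hi]; exact hc₀)
      have htrα : Transcendental Qb (heckeAlphaBar Qb N ℓ (sF N)) := T4_transcendental_map _ htr
      have hfdα : FiniteDimensional Qb⟮heckeAlphaBar Qb N ℓ (sF N)⟯ (FF (N * ℓ)) :=
        Fermat.Agent.S24.finiteDimensional_adjoin_simple_of_transcendental (sF (N * ℓ)) htrN _ htrα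
      obtain ⟨c', hc'A, hc'⟩ := hT Qb (FF (N * ℓ)) A _ _ htrα hfdα
        (by rw [Ne, map_eq_zero]; exact hs0) hM2 i.1.1 c₀ hc₀A h1
      refine ⟨c', hc'A, (T4_ev_restrictAlong _ hα _).2 ?_⟩
      rw [map_inv₀]
      exact hc'
    · rintro (_ | k)
      · exact ⟨σ c₀, T4_apply_mem_nonunits hdec c₀ hc₀A, hgP⟩
      · exact ⟨σ⁻¹ c₀, T4_apply_mem_nonunits hdec' c₀ hc₀A, hgP'⟩
    · intro u hu val val' hval hval'
      refine T4_core _ _ hα hβ A (gal N σ) ℓ hfrob hinv P u (hnorm u) ?_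
        ((hE Qb (FF N) A (sF N)⁻¹ htr' hfd' _ _ hgP).2 (T4_apply_mem_nonunits hdec c₀ hc₀A) u hu)
        ((hE Qb (FF N) A (sF N)⁻¹ htr' hfd' _ _ hgP').2
          (T4_apply_mem_nonunits hdec' c₀ hc₀A) u hu)
        val val' hval hval'
      intro c hc
      refine (hK Qb (FF N) A W (sF N)⁻¹ htr' hfd' hG' P c₀ hc₀ _ ?_ c hc).2 hc₀A ?_
      · exact (hW2 _).2 (hC N ℓ hℓ hℓN A hA σ hσ u
          ((hW1 u).1 (T2_mem_of_isIntegral (T2_locRing_le hG') hu)))
      · refine LocInt.sub ((hI N ℓ hℓ A u).2 hu) (LocInt.mul (LocInt.pow ?_ ℓ) ?_)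
        · exact T2_isIntegral_smul _ _
            (fun z hz => T2_locRing_stable _ _ hr' hsi' hz) hu
        · exact T2_isIntegral_smul _ _
            (fun z hz => T2_locRing_stable _ _ hr hsi hz) hu

end Fermat.Agent.RED
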