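/-
RED-TOP (helper57): the frozen statement S37 from (T2), (T4), (T5), (TH): quotient construction.
-/
import Fermat.Agent.RED.Interface2
import Fermat.Agent.FD.D

set_option autoImplicit false
set_option linter.style.haveILetI false

noncomputable section

namespace Fermat.Agent.RED

open AlgebraicCurve ModularCurve Polynomial

section Abstract

variable {G R J : Type} [Group G] [CommRing R] [AddCommGroup J] [Module R J]
  [DistribMulAction G J] [SMulCommClass G R J]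

/-- the generators of the relation module. -/
def TOP_gens (I : Subgroup G) (φ₀ : G) (t : R) (ℓ : ℕ) : Set J :=
  {y | ∃ σ ∈ I, ∃ x : J, y = σ • x - x} ∪ {y | ∃ x : J, y = φ₀ • φ₀ • x - t • φ₀ • x + ℓ • x}

theorem TOP_smul_nsmul (g : G) (n : ℕ) (x : J) : g • (n • x) = n • (g • x) :=
  map_nsmul (DistribSMul.toAddMonoidHom J g) n x

theorem TOP_gens_smul (I : Subgroup G) (φ₀ : G) (t : R) (ℓ : ℕ) (r : R) {y : J}
    (hy : y ∈ TOP_gens I φ₀ t ℓ) : r • y ∈ TOP_gens I φ₀ t ℓ := by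
  rcases hy with ⟨σ, hσ, x, rfl⟩ | ⟨x, rfl⟩
  · exact Or.inl ⟨σ, hσ, r • x, by rw [smul_sub, smul_comm σ r x]⟩
  · refine Or.inr ⟨r • x, ?_⟩
    rw [smul_add, smul_sub, smul_comm φ₀ r x, smul_comm φ₀ r (φ₀ • x), smul_comm r t,
      smul_comm r ℓ x]

theorem TOP_gens_phi (I : Subgroup G) (φ₀ : G) (hnorm : ∀ σ ∈ I, φ₀ * σ * φ₀⁻¹ ∈ I) (t : R) (ℓ : ℕ)
    {y : J} (hy : y ∈ TOP_gens I φ₀ t ℓ) : φ₀ • y ∈ TOP_gens I φ₀ t ℓ := by
  rcases hy with ⟨σ, hσ, x, rfl⟩ | ⟨x, rfl⟩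
  · refine Or.inl ⟨φ₀ * σ * φ₀⁻¹, hnorm σ hσ, φ₀ • x, ?_⟩
    rw [smul_sub, mul_smul, mul_smul, inv_smul_smul]
  · refine Or.inr ⟨φ₀ • x, ?_⟩
    rw [smul_add, smul_sub, smul_comm φ₀ t, TOP_smul_nsmul]

theorem TOP_abstract (I : Subgroup G) (φ₀ : G) (hnorm : ∀ σ ∈ I, φ₀ * σ * φ₀⁻¹ ∈ I) (t : R) (ℓ : ℕ)
    (Z₀ : AddSubgroup J) (hZ1 : ∀ σ ∈ I, ∀ x : J, σ • x - x ∈ Z₀)
    (hZ2 : ∀ x : J, φ₀ • φ₀ • x - t • φ₀ • x + ℓ • x ∈ Z₀) :
    ∃ (J' : Type) (_ : AddCommGroup J') (_ : Module R J') (sp : J →+ J') (F : J' →+ J'),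
      (∀ (T : R) (x : J), sp (T • x) = T • sp x) ∧ (∀ σ ∈ I, ∀ x : J, sp (σ • x) = sp x) ∧
      (∀ x : J, sp (φ₀ • x) = F (sp x)) ∧ (∀ x : J, sp x = 0 → x ∈ Z₀) ∧
      (∀ y : J', F (F y) - t • F y + ℓ • y = 0) := by
  let H : Submodule R J := Submodule.span R (TOP_gens I φ₀ t ℓ)
  let f : J →ₗ[R] J := DistribSMul.toLinearMap R J φ₀
  have hf : H ≤ H.comap f := by
    apply Submodule.span_le.2
    intro y hy
    exact Submodule.subset_span (TOP_gens_phi I φ₀ hnorm t ℓ hy)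
  have hHZ : ∀ x ∈ H, x ∈ Z₀ := by
    intro x hx
    induction hx using Submodule.closure_induction with
    | zero => exact Z₀.zero_mem
    | add x y _ _ hx hy => exact Z₀.add_mem hx hy
    | smul_mem r x hx =>
      rcases TOP_gens_smul I φ₀ t ℓ r hx with ⟨σ, hσ, x', h⟩ | ⟨x', h⟩
      · rw [h]; exact hZ1 σ hσ x'
      · rw [h]; exact hZ2 x'
  refine ⟨J ⧸ H, inferInstance, inferInstance, H.mkQ.toAddMonoidHom,
    (Submodule.mapQ H H f hf).toAddMonoidHom, fun T x => map_smul H.mkQ T x, ?_, fun x => rfl, ?_, ?_⟩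
  · intro σ hσ x
    exact (Submodule.Quotient.eq H).2 (Submodule.subset_span (Or.inl ⟨σ, hσ, x, rfl⟩))
  · intro x hx
    exact hHZ x ((Submodule.Quotient.mk_eq_zero H).1 hx)
  · intro y
    obtain ⟨x, rfl⟩ := H.mkQ_surjective y
    have : H.mkQ (φ₀ • φ₀ • x - t • φ₀ • x + ℓ • x) = 0 :=
      (Submodule.Quotient.mk_eq_zero H).2 (Submodule.subset_span (Or.inr ⟨x, rfl⟩))
    rw [map_add, map_sub, map_smul H.mkQ t, map_nsmul] at this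
    exact this

end Abstract


section Galois

variable {K L : Type*} [Field K] [Field L] [Algebra K L]

theorem TOP_mem_inertiaIn_iff (A : ValuationSubring L) (σ : L ≃ₐ[K] L) :
    σ ∈ A.inertiaSubgroupIn K ↔ ∃ h : σ ∈ A.decompositionSubgroup K,
      ∀ x : IsLocalRing.ResidueField A, (⟨σ, h⟩ : A.decompositionSubgroup K) • x = x := by
  unfold ValuationSubring.inertiaSubgroupIn
  rw [Subgroup.mem_map]
  constructor
  · rintro ⟨s, hs, rfl⟩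
    refine ⟨s.2, fun x => ?_⟩
    have h1 : MulSemiringAction.toRingAut (A.decompositionSubgroup K)
      (IsLocalRing.ResidueField A) s = 1 := hs
    exact congrArg (fun e : RingAut (IsLocalRing.ResidueField A) => e x) h1
  · rintro ⟨h, hx⟩
    refine ⟨⟨σ, h⟩, ?_, rfl⟩
    show MulSemiringAction.toRingAut (A.decompositionSubgroup K)
      (IsLocalRing.ResidueField A) ⟨σ, h⟩ = 1
    ext x
    exact hx x

theorem TOP_inertia_conj (A : ValuationSubring L) (φ₀ : L ≃ₐ[K] L)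
    (hφ : φ₀ ∈ A.decompositionSubgroup K) (σ : L ≃ₐ[K] L) (hσ : σ ∈ A.inertiaSubgroupIn K) :
    φ₀ * σ * φ₀⁻¹ ∈ A.inertiaSubgroupIn K := by
  rw [TOP_mem_inertiaIn_iff] at hσ ⊢
  obtain ⟨h, hx⟩ := hσ
  refine ⟨mul_mem (mul_mem hφ h) (inv_mem hφ), fun x => ?_⟩
  have e : (⟨φ₀ * σ * φ₀⁻¹, mul_mem (mul_mem hφ h) (inv_mem hφ)⟩ : A.decompositionSubgroup K)
      = ⟨φ₀, hφ⟩ * ⟨σ, h⟩ * (⟨φ₀, hφ⟩ : A.decompositionSubgroup K)⁻¹ := rfl
  rw [e, mul_smul, mul_smul, hx, smul_inv_smul]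

theorem TOP_frob_div (A : ValuationSubring L) (ℓ : ℕ) (φ₀ σ : L ≃ₐ[K] L)
    (hφ : A.IsFrobeniusAt φ₀ ℓ) (hσ : A.IsFrobeniusAt σ ℓ) :
    φ₀⁻¹ * σ ∈ A.inertiaSubgroupIn K := by
  rw [TOP_mem_inertiaIn_iff]
  obtain ⟨h1, hx1⟩ := hφ
  obtain ⟨h2, hx2⟩ := hσ
  refine ⟨mul_mem (inv_mem h1) h2, fun x => ?_⟩
  have e : (⟨φ₀⁻¹ * σ, mul_mem (inv_mem h1) h2⟩ : A.decompositionSubgroup K)
      = (⟨φ₀, h1⟩ : A.decompositionSubgroup K)⁻¹ * ⟨σ, h2⟩ := rfl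
  rw [e, mul_smul, hx2, ← hx1, inv_smul_smul]

end Galois


section Div

theorem TOP_addHom_mem {X : Type*} (Z : AddSubgroup (X →₀ ℤ)) (Ψ : (X →₀ ℤ) →+ (X →₀ ℤ))
    (h : ∀ P, Ψ (Finsupp.single P 1) ∈ Z) (D : X →₀ ℤ) : Ψ D ∈ Z := by
  induction D using Finsupp.induction_linear with
  | zero => rw [map_zero]; exact Z.zero_mem
  | add f g hf hg => rw [map_add]; exact Z.add_mem hf hg
  | single P n =>
    rw [← Finsupp.smul_single_one, map_zsmul]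
    exact Z.zsmul_mem (h P) n

variable (N : ℕ) (A : ValuationSubring Qb)

/-- classes of degree zero divisors with trivial reduction -/
def TOP_Z0 : AddSubgroup (JZero N) :=
  ((ZRed N A).addSubgroupOf (Divisor.degZero (K := Qb) (F := FF N))).map (QuotientAddGroup.mk' _)

theorem TOP_mem_Z0 {x : JZero N} : x ∈ TOP_Z0 N A ↔
    ∃ D : Divisor.degZero (K := Qb) (F := FF N), (D : Divisor Qb (FF N)) ∈ ZRed N A ∧
      Pic0.mk D = x := by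
  unfold TOP_Z0
  rw [AddSubgroup.mem_map]
  constructor
  · rintro ⟨D, hD, rfl⟩
    exact ⟨D, AddSubgroup.mem_addSubgroupOf.1 hD, rfl⟩
  · rintro ⟨D, hD, rfl⟩
    exact ⟨D, AddSubgroup.mem_addSubgroupOf.2 hD, rfl⟩

variable {N A}

theorem TOP_smul_sub_mem (hT2 : Stmt_T2 N A) (σ : GQ) (hσ : σ ∈ A.inertiaSubgroupIn ℚ)
    (D : Divisor Qb (FF N)) : gal N σ • D - D ∈ ZRed N A := by
  have := TOP_addHom_mem (ZRed N A)
    (DistribSMul.toAddMonoidHom (Divisor Qb (FF N)) (gal N σ) - AddMonoidHom.id _) (fun P => ?_) D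
  · exact this
  · show gal N σ • Finsupp.single P (1 : ℤ) - Finsupp.single P (1 : ℤ) ∈ ZRed N A
    rw [SemilinearAut.smul_single]
    exact AddSubgroup.subset_closure ⟨_, _, hT2 σ hσ P, rfl⟩

theorem TOP_ES_mem {ℓ : ℕ} [NeZero N] [NeZero ℓ] (hT4 : Stmt_T4 N ℓ A)
    (hα : HeckeAlphaBarIntegral Qb N ℓ) (hβ : HeckeBetaBarIntegral Qb N ℓ)
    [hP : HasPrincipalDivisors Qb (FF (N * ℓ))] (σ : GQ) (hσ : A.IsFrobeniusAt σ ℓ)
    (D : Divisor Qb (FF N)) :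
    heckeDivBar hα hβ D - gal N σ • D - ℓ • ((gal N σ)⁻¹ • D) ∈ ZRed N A := by
  have := TOP_addHom_mem (ZRed N A)
    (heckeDivBar hα hβ - DistribSMul.toAddMonoidHom (Divisor Qb (FF N)) (gal N σ)
      - ℓ • DistribSMul.toAddMonoidHom (Divisor Qb (FF N)) (gal N σ)⁻¹) (fun P => ?_) D
  · exact this
  · show heckeDivBar hα hβ (Finsupp.single P (1 : ℤ)) - gal N σ • Finsupp.single P (1 : ℤ)
      - ℓ • ((gal N σ)⁻¹ • Finsupp.single P (1 : ℤ)) ∈ ZRed N A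
    rw [SemilinearAut.smul_single, SemilinearAut.smul_single, Finsupp.smul_single, nsmul_one]
    exact hT4 hα hβ hP σ hσ P

end Div


theorem stmt_TOP : Stmt_TOP := by
  intro hT2 hT4 hT5 hTH N p _ hcomm
  letI := heckeModuleBar N
  intro hSCC ℓ hℓ hℓNp A hA
  have hℓN : ¬ ℓ ∣ N := fun h => hℓNp (h.mul_right p)
  have hℓp : ¬ ℓ ∣ p := fun h => hℓNp (h.mul_left N)
  haveI : NeZero ℓ := ⟨hℓ.ne_zero⟩
  obtain ⟨φ₀, hφ₀, -⟩ := Fermat.Agent.FD.D_exists_frobenius_at A hℓ hA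
  obtain ⟨hα, hβ, hP, hfin, hFI, hNF⟩ := hTH N ℓ hℓ hℓN
  have hTl : ∀ x : JZero N, heckeGen ⟨ℓ, hℓ⟩ • x = heckePic0Bar hα hβ hFI hfin hNF x := by
    intro x
    refine (heckeModuleBar_heckeGen_smul hcomm ⟨ℓ, hℓ⟩ x).trans ?_
    refine (heckeOperatorBar_apply N ⟨ℓ, hℓ⟩ x).trans ?_
    exact congrArg (fun f : JZero N →+ JZero N => f x) (heckeOperatorAlong_eq hα hβ hFI hfin hNF)
  obtain ⟨J', i1, i2, sp, F, h1, h2, h3, h4, h5⟩ := TOP_abstract (A.inertiaSubgroupIn ℚ) φ₀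
    (TOP_inertia_conj A φ₀ hφ₀.mem_decompositionSubgroup) (heckeGen ⟨ℓ, hℓ⟩) ℓ (TOP_Z0 N A)
    (by
      intro σ hσ x
      obtain ⟨D, rfl⟩ := Pic0.mk_surjective x
      exact (TOP_mem_Z0 N A).2 ⟨SemilinearAut.degZeroSMulHom (gal N σ) D - D,
        TOP_smul_sub_mem (hT2 N ℓ hℓ hℓN A hA) σ hσ D, rfl⟩)
    (by
      intro x
      obtain ⟨D, rfl⟩ := Pic0.mk_surjective x
      rw [hTl]
      refine (TOP_mem_Z0 N A).2 ⟨SemilinearAut.degZeroSMulHom (gal N φ₀)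
          (SemilinearAut.degZeroSMulHom (gal N φ₀) D)
        - Pic0.degZeroCorrespondence (heckeBetaBar Qb N ℓ) (heckeAlphaBar Qb N ℓ) hβ hα hFI
          (SemilinearAut.degZeroSMulHom (gal N φ₀) D) + ℓ • D, ?_, rfl⟩
      have := TOP_ES_mem (hT4 N ℓ hℓ hℓN A hA) hα hβ φ₀ hφ₀
        (gal N φ₀ • (D : Divisor Qb (FF N)))
      rw [inv_smul_smul] at this
      have h' := (ZRed N A).neg_mem this
      have e : -(heckeDivBar hα hβ (gal N φ₀ • (D : Divisor Qb (FF N)))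
            - gal N φ₀ • gal N φ₀ • (D : Divisor Qb (FF N)) - ℓ • (D : Divisor Qb (FF N)))
          = gal N φ₀ • gal N φ₀ • (D : Divisor Qb (FF N))
            - heckeDivBar hα hβ (gal N φ₀ • (D : Divisor Qb (FF N)))
            + ℓ • (D : Divisor Qb (FF N)) := by abel
      rw [e] at h'
      exact h')
  refine ⟨J', i1, i2, sp, F, ⟨h1, h2, ?_, ?_⟩, h5⟩
  · intro σ hσ x
    have e : σ • x = φ₀ • ((φ₀⁻¹ * σ) • x) := by rw [← mul_smul, mul_inv_cancel_left]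
    rw [e, h3, h2 _ (TOP_frob_div A ℓ φ₀ σ hφ₀ hσ)]
  · rintro x ⟨n, hn⟩ hx
    obtain ⟨D, hD, rfl⟩ := (TOP_mem_Z0 N A).1 (h4 x hx)
    have hpn : ¬ ℓ ∣ p ^ n := fun h => hℓp (hℓ.dvd_of_dvd_pow h)
    have h6 : Pic0.mk (p ^ n • D) = 0 := hn
    have h7 := (QuotientAddGroup.eq_zero_iff _).mp h6
    rw [AddSubgroup.mem_addSubgroupOf] at h7
    have h8 : (p ^ n • (D : Divisor Qb (FF N))).IsPrincipal := h7
    have h9 := hT5 N ℓ hℓ hℓN A hA D hD (p ^ n) hpn h8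
    apply (QuotientAddGroup.eq_zero_iff _).mpr
    rw [AddSubgroup.mem_addSubgroupOf]
    exact h9

/-- the frozen statement S37, verbatim, from (T2), (T4), (T5), (TH). -/
theorem TOP_S37_of
    (hT2 : ∀ (N ℓ : ℕ) [NeZero N], ℓ.Prime → ¬ ℓ ∣ N → ∀ A : ValuationSubring Qb,
      A.LiesOverPrime ℓ → Stmt_T2 N A)
    (hT4 : ∀ (N ℓ : ℕ) [NeZero N] [NeZero ℓ], ℓ.Prime → ¬ ℓ ∣ N → ∀ A : ValuationSubring Qb,
      A.LiesOverPrime ℓ → Stmt_T4 N ℓ A)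
    (hT5 : ∀ (N ℓ : ℕ) [NeZero N], ℓ.Prime → ¬ ℓ ∣ N → ∀ A : ValuationSubring Qb,
      A.LiesOverPrime ℓ → Stmt_T5 N ℓ A)
    (hTH : ∀ (N ℓ : ℕ) [NeZero N] [NeZero ℓ], ℓ.Prime → ¬ ℓ ∣ N → Stmt_TH N ℓ)
    (N p : ℕ) [NeZero N] (hcomm : ModularCurve.HeckeOperatorsCommuteBar N) :
    letI := ModularCurve.heckeModuleBar N
    ∀ (_ : SMulCommClass (AlgebraicClosure ℚ ≃ₐ[ℚ] AlgebraicClosure ℚ) ModularCurve.HeckeAlg
      (ModularCurve.JZero N)),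
      ModularCurve.SpecializationExists (K := ℚ) (L := AlgebraicClosure ℚ) N p
        (ModularCurve.JZero N) :=
  stmt_TOP hT2 hT4 hT5 hTH N p hcomm

end Fermat.Agent.RED
end
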